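import Fermat.Agent.RT.Core.Forms
import Fermat.Agent.RT.Glue.Realisation
import Fermat.Agent.RT.Modules.Degen
import Fermat.Agent.CFT.Tangent.BaseChange
import Fermat.Prelude.Def_GaloisRep_CompletionBridge

/-!
# The inputs of the assembly of modularity lifting

`Lower` removes a prime other than `p` at which `W[p]` is unramified from a squarefree level of
residual modularity (with `p` in it only if `p` divides the discriminant). `StrictAtNew` is
strictness at `p` of a residually ordinary and absolutely irreducible newform with `p` exactly in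
its level. `OrdinaryAtOld` compares, on levels prime to `p`, the symmetrised operator at `p` with
the unit root on the unramified quotient, for a `W` multiplicative at `p`. They are proved in
`RT/LowerB/Main`, `RT/AtP/Strict` and `RT/AtP/Good`; the theorem of `RT/Lifting/Main` takes them
as hypotheses.
-/

set_option autoImplicit false

noncomputable section

namespace Fermat.Agent.RT.Lifting

open IsLocalRing WeierstrassCurve CongruenceSubgroup
open Fermat.Agent.RT.Glue Fermat.Agent.RT.Modules
open Fermat.Agent.GaloisReps (HeckeGaloisModel)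
open Fermat.Agent.LevelRaising (RaiseData)
open Fermat.Agent.Deform (M2 Gal)

variable (W : WeierstrassCurve ℤ) (p : ℕ) [Fact p.Prime] (hΔ : W.Δ ≠ 0)

/-- Every prime other than `p` at which `W[p]` is unramified can be removed from a squarefree level,
provided `W` is bad at `p` if `p` is in the level. -/
def Lower : Prop :=
  ∀ M q : ℕ, Squarefree M → (p ∣ M → (p : ℤ) ∣ W.Δ) → q.Prime → q ∣ M → q ≠ p →
    (GaloisRepAdic.ofResidualGaloisRep (EC.Rep.residualRep W p hΔ)).IsUnramifiedAt q →
      W.IsResiduallyModularOfLevel p M → W.IsResiduallyModularOfLevel p (M / q)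

variable (O : Type) [CommRing O] [IsDomain O] [IsDiscreteValuationRing O]
  [IsAdicComplete (maximalIdeal O) O] [Finite (ResidueField O)] [CharZero O]

/-- The representation of a newform with `p` exactly in its level, residually absolutely
irreducible and ordinary, is strictly ordinary at `p`. -/
def StrictAtNew : Prop :=
  ∀ (M : ℕ) [NeZero M] (g : CuspForm (Gamma0 M) 2) (hg : g.IsNewform), p ∣ M → ¬ p ^ 2 ∣ M →
    ∀ (e : KBar O ≃+* ℂ) (r : Realisation O p hg e) (D : HeckeGaloisModel M p),
      (D.rep r.ι r.θ' r.p_mem).residual.IsAbsolutelyIrreducible →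
        (GaloisRepAdic.ofResidualGaloisRep (D.rep r.ι r.θ' r.p_mem).residual).IsOrdinaryAt p →
          (D.rep r.ι r.θ' r.p_mem).IsStrictOrdinaryAt p

variable [CharP (ResidueField O) p]

/-- Ordinarity at a multiplicative `p` of `W` on a level prime to `p`. For `τ₀` in inertia with
`det ρ(τ₀) - 1` a unit and a Frobenius `F`, a unit `α` of the Hecke algebra satisfies
`(ρ τ₀ - det ρ τ₀) (ρ τ - 1) = 0` for `τ` in inertia and `(ρ τ₀ - det ρ τ₀) (ρ F - α) = 0` (so it
is the eigenvalue of `F` on the unramified quotient), and `α² + p` acts as `α` times the symmetrised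
operator at `p`. -/
def OrdinaryAtOld : Prop :=
  (p : ℤ) ∣ W.Δ → ¬ (p : ℤ) ∣ W.c₄ → ∀ (M : ℕ) [NeZero M] (Δ : Type) [CommGroup Δ] [Finite Δ]
    (ψ : (ZMod M)ˣ →* Δ) (S : Finset ℕ),
    p ∈ S → ∀ (h : Hyp p ψ S (Core.abar W (ResidueField O))) (hq : RaiseData p M)
      (D : ∀ (N : ℕ) [NeZero N], HeckeGaloisModel N p) [IsLocalRing (heckeModule h).algebra]
      (pt : ∀ θ : (heckeModule h).algebra →ₐ[O] KBar O,
        Point (p := p) (heckeModule h) h.mem_of_dvd θ.toRingHom) (G : Glued D pt) (τ₀ F : Gal),
      τ₀ ∈ (padicPlace p).inertiaSubgroupIn ℚ → IsUnit ((G.R τ₀).det - 1) →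
      (padicPlace p).IsFrobeniusAt F p →
      ∃ α : (heckeModule h).algebra, IsUnit α ∧
        (∀ τ ∈ (padicPlace p).inertiaSubgroupIn ℚ,
          (G.R τ₀ - (G.R τ₀).det • 1) * (G.R τ - 1) = 0) ∧
        (G.R τ₀ - (G.R τ₀).det • 1) * (G.R F - α • 1) = 0 ∧
        ((α * α + (p : (heckeModule h).algebra) : (heckeModule h).algebra) :
            Module.End O (heckeModule h).M) =
          (α : Module.End O (heckeModule h).M) * symEnd ψ S _ hq

end Fermat.Agent.RT.Lifting
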