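import Fermat.Agent.EC.Rep.Local.Line
import Fermat.Agent.Deform.Matrix
import Fermat.Agent.Arith.Frobenius
import Fermat.Agent.CFT.Local.Global

/-!
# Strict ordinarity by matrix equations

With `τ₀` in inertia and `det (ru τ₀) - 1` a unit, the kernel of `ru τ₀ - det (ru τ₀)` is a free
line. The representation, of cyclotomic determinant, is strictly ordinary if every `ru σ - ε σ` of
the decomposition group maps into this line, for a sign `ε` trivial on inertia.
-/

set_option autoImplicit false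

noncomputable section

namespace Fermat.Agent.RT.Lifting

open IsLocalRing Fermat.Agent.Deform
open scoped Pointwise

variable {R : Type} [CommRing R] (ru : Gal →* M2 R) (τ₀ : Gal) (ε : Gal → R) (p : ℕ) [Fact p.Prime]

/-- The equations of strictness at `p` with sign `ε`. -/
def StrictEq : Prop :=
  ∀ σ ∈ (padicPlace p).decompositionSubgroup ℚ,
    (ru τ₀ - (ru τ₀).det • 1) * (ru σ - ε σ • 1) = 0

variable {ru τ₀ ε p}

omit [Fact p.Prime] in
theorem cross_eq_of_det_eq_zero {e : M2 R} (h : e.det = 0) (v : Fin 2 → R) (i j k : Fin 2) :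
    e i j * e.mulVec v k = e k j * e.mulVec v i := by
  rw [Matrix.det_fin_two] at h
  fin_cases i <;> fin_cases j <;> fin_cases k <;>
    simp [Matrix.mulVec, dotProduct, Fin.sum_univ_two] <;> grind

omit [Fact p.Prime] in
theorem det_one_add_eq {N : M2 R} : (1 + N).det = 1 + N.trace + N.det := by
  simp [Matrix.det_fin_two, Matrix.trace_fin_two]
  ring

omit [Fact p.Prime] in
/-- The kernel of `ru τ₀ - det` is a line with a complement. -/
theorem exists_line_basis [IsLocalRing R] {T : M2 R} {d : R} (hd : T.det = d) (hu : IsUnit (d - 1))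
    (hd' : d ≠ 0) (h : (T - d • 1) * (T - 1) = 0) :
    ∃ b : Module.Basis (Fin 2) R (Fin 2 → R),
      ∀ v, (T - d • 1).mulVec v = 0 ↔ v ∈ R ∙ b 0 := by
  obtain ⟨c, hc⟩ := isUnit_iff_exists_inv'.mp hu
  -- `e = (T - 1) / (d - 1)` is idempotent, of determinant `0` and trace `1`.
  set e : M2 R := c • (T - 1) with he
  have hT : T = 1 + (d - 1) • e := by
    rw [he, smul_smul, mul_comm, hc, one_smul, add_sub_cancel]
  have hQ : T - d • 1 = (d - 1) • (e - 1) := by
    rw [hT, smul_sub, sub_smul d 1 (1 : M2 R), one_smul]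
    abel
  have hQe : (T - d • 1) * e = 0 := by rw [he, mul_smul_comm, h, smul_zero]
  have hee : e * e = e := by
    rw [hQ, smul_mul_assoc, sub_mul, one_mul] at hQe
    have := congrArg (c • ·) hQe
    simp only [smul_smul, hc, one_smul, smul_zero] at this
    exact sub_eq_zero.mp this
  have hdet : e.det = 0 := by
    have h2 : e.det * (e.det - 1) = 0 := by
      rw [mul_sub, mul_one, ← Matrix.det_mul, hee, sub_self]
    rcases isUnit_or_isUnit_one_sub_self e.det with h1 | h1
    · obtain ⟨i, hi⟩ := (Matrix.isUnit_iff_isUnit_det _).mpr h1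
      have he1 : e = 1 := by
        have := congrArg ((↑i⁻¹ : M2 R) * ·) hee
        simp only [← mul_assoc, ← hi, Units.inv_mul, one_mul] at this
        rw [← hi]; exact this
      have hT1 : T = d • 1 := sub_eq_zero.mp (by rw [hQ, he1, sub_self, smul_zero])
      rw [hT1, Matrix.det_smul, Matrix.det_one, mul_one, Fintype.card_fin] at hd
      have hd0 : d = 0 := hu.mul_left_eq_zero.mp (by linear_combination hd)
      exact absurd hd0 hd'
    · exact (h1.mul_left_eq_zero).mp (by linear_combination (-1 : R) * h2)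
  have htr : e.trace = 1 := by
    have h1 : T.det = 1 + (d - 1) * e.trace := by
      rw [hT, det_one_add_eq, Matrix.trace_smul, Matrix.det_smul, hdet, mul_zero, add_zero,
        smul_eq_mul]
    rw [hd] at h1
    have h3 : (d - 1) * (e.trace - 1) = 0 := by linear_combination -h1
    exact sub_eq_zero.mp (hu.mul_right_eq_zero.mp h3)
  -- So a diagonal entry is a unit, and its column spans the fixed vectors of `e`.
  obtain ⟨i, hi⟩ : ∃ i, IsUnit (e i i) := by
    rw [Matrix.trace_fin_two] at htr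
    rcases isUnit_or_isUnit_one_sub_self (e 0 0) with h1 | h1
    · exact ⟨0, h1⟩
    · exact ⟨1, (show e 1 1 = 1 - e 0 0 by linear_combination htr) ▸ h1⟩
  let w : Fin 2 → R := fun k => e k i
  have hw : IsUnit (w 0) ∨ IsUnit (w 1) := by
    fin_cases i
    · exact Or.inl hi
    · exact Or.inr hi
  obtain ⟨b, hb⟩ := EC.Rep.exists_basis_zero_eq (w 0, w 1) hw
  let f : (R × R) ≃ₗ[R] (Fin 2 → R) := (LinearEquiv.finTwoArrow R R).symm
  refine ⟨b.map f, fun v => ?_⟩
  have hbw : (b.map f) 0 = w := by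
    rw [Module.Basis.map_apply, hb]
    funext k
    fin_cases k <;> simp [f, w]
  rw [hbw, hQ, Matrix.smul_mulVec, hu.smul_eq_zero, Matrix.sub_mulVec, Matrix.one_mulVec,
    sub_eq_zero, Submodule.mem_span_singleton]
  constructor
  · intro hv
    obtain ⟨a, ha⟩ := isUnit_iff_exists_inv'.mp hi
    refine ⟨a * v i, funext fun k => ?_⟩
    have hx := cross_eq_of_det_eq_zero hdet v i i k
    rw [hv] at hx
    simp only [w, Pi.smul_apply, smul_eq_mul]
    linear_combination (-a) * hx + v k * ha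
  · rintro ⟨a, rfl⟩
    rw [Matrix.mulVec_smul]
    congr 1
    funext k
    have := congrFun (congrFun hee k) i
    rwa [Matrix.mul_apply] at this

variable [IsLocalRing R]

/-- The equations give strict ordinarity. -/
theorem isStrictOrdinaryAt_of_strictEq (hc : IsCont ru)
    (hdet : (toRep ru hc).DetIsCyclotomic p) (hτ₀ : τ₀ ∈ (padicPlace p).inertiaSubgroupIn ℚ)
    (hu : IsUnit ((ru τ₀).det - 1))
    (hε : ∀ σ ∈ (padicPlace p).decompositionSubgroup ℚ, ε σ * ε σ = 1)
    (hεI : ∀ τ ∈ (padicPlace p).inertiaSubgroupIn ℚ, ε τ = 1)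
    (h : StrictEq ru τ₀ ε p) : (toRep ru hc).IsStrictOrdinaryAt p := by
  have hdec : ∀ τ ∈ (padicPlace p).inertiaSubgroupIn ℚ,
      τ ∈ (padicPlace p).decompositionSubgroup ℚ := by
    rintro τ ⟨⟨τ', hτ'⟩, -, rfl⟩
    exact hτ'
  -- the equation at `τ₀` gives the line
  have h0 : (ru τ₀ - (ru τ₀).det • 1) * (ru τ₀ - 1) = 0 := by
    have := h τ₀ (hdec _ hτ₀)
    rwa [hεI _ hτ₀, one_smul] at this
  obtain ⟨b, hb⟩ := exists_line_basis rfl hu (by
    intro h0'
    have := congrArg Matrix.det (map_mul ru τ₀ τ₀⁻¹)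
    rw [mul_inv_cancel, map_one, Matrix.det_mul, Matrix.det_one, h0', zero_mul] at this
    exact one_ne_zero this) h0
  -- decomposition elements act as `ε` modulo the line
  have hline : ∀ σ ∈ (padicPlace p).decompositionSubgroup ℚ, ∀ v : Fin 2 → R,
      (ru σ).mulVec v - ε σ • v ∈ R ∙ b 0 := fun σ hσ v => by
    rw [← hb, show (ru σ).mulVec v - ε σ • v = (ru σ - ε σ • 1).mulVec v by
      rw [Matrix.sub_mulVec, Matrix.smul_mulVec, Matrix.one_mulVec], Matrix.mulVec_mulVec,
      h σ hσ, Matrix.zero_mulVec]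
  refine EC.Rep.isStrictOrdinaryAt_of_lines (toRep ru hc) hdet fun P hP => ?_
  obtain ⟨g, rfl⟩ := Arith.exists_smul_eq (CFT.Local.padicPlace_liesOverPrime p) hP Fact.out
  -- at the place moved by `g` translate the line by `ru g`
  let G : (Fin 2 → R) ≃ₗ[R] (Fin 2 → R) :=
    LinearEquiv.ofLinearMap (Matrix.toLin' (ru g)) (Matrix.toLin' (ru g⁻¹))
      (by rw [← Matrix.toLin'_mul, ← map_mul, mul_inv_cancel, map_one, Matrix.toLin'_one])
      (by rw [← Matrix.toLin'_mul, ← map_mul, inv_mul_cancel, map_one, Matrix.toLin'_one])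
  refine ⟨b.map G, ?_⟩
  have hG0 : (b.map G) 0 = (ru g).mulVec (b 0) := by simp [G, Matrix.toLin'_apply]
  have key : ∀ σ, g⁻¹ * σ * g ∈ (padicPlace p).decompositionSubgroup ℚ → ∀ v : Fin 2 → R,
      (ru σ).mulVec v - ε (g⁻¹ * σ * g) • v ∈ R ∙ (b.map G) 0 := fun σ hσ v => by
    obtain ⟨a, ha⟩ := Submodule.mem_span_singleton.mp (hline _ hσ ((ru g⁻¹).mulVec v))
    refine Submodule.mem_span_singleton.mpr ⟨a, ?_⟩
    rw [hG0, ← Matrix.mulVec_smul, ha, Matrix.mulVec_sub, Matrix.mulVec_smul]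
    simp only [Matrix.mulVec_mulVec, ← map_mul]
    rw [mul_inv_cancel, map_one, Matrix.one_mulVec]
    congr 2
    group
  have hdd : ∀ σ ∈ (g • padicPlace p).decompositionSubgroup ℚ,
      g⁻¹ * σ * g ∈ (padicPlace p).decompositionSubgroup ℚ := fun σ hσ => by
    rw [Arith.mem_decomposition_iff] at hσ ⊢
    rw [mul_smul, mul_smul, hσ, inv_smul_smul]
  have hii : ∀ σ ∈ (g • padicPlace p).inertiaSubgroupIn ℚ,
      g⁻¹ * σ * g ∈ (padicPlace p).inertiaSubgroupIn ℚ := fun σ hσ => by
    rw [← Arith.mem_inertia_smul_iff (g := g)]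
    simpa [mul_assoc] using hσ
  refine ⟨fun σ hσ v => ?_, fun σ hσ => ⟨?_, ε (g⁻¹ * σ * g), hε _ (hdd σ hσ), key σ (hdd σ hσ)⟩⟩
  · have := key σ (hdec _ (hii σ hσ)) v
    rw [hεI _ (hii σ hσ), one_smul] at this
    exact this
  · show (ru σ).mulVec ((b.map G) 0) ∈ R ∙ (b.map G) 0
    have := add_mem (key σ (hdd σ hσ) ((b.map G) 0))
      (Submodule.smul_mem _ (ε (g⁻¹ * σ * g)) (Submodule.mem_span_singleton_self ((b.map G) 0)))
    rwa [sub_add_cancel] at this

end Fermat.Agent.RT.Lifting
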