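import Fermat.Agent.S35
import Fermat.Agent.ConductorLevel.Assembly
import Fermat.Prelude.Def_WeierstrassCurve_Mlc1RowStatement

/-!
# From one matching newform to the exact level, and witnesses against all newforms

`isModular_of_newform`: a newform of squarefree level, supported at bad primes, with the traces of
the curve at almost all primes makes it modular of exactly its conductor level.
`exists_witness`: if it is not, then for squarefree `N` supported at bad primes there are finitely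
many good primes with integral polynomials, one of which vanishes on the eigenvalue of any given
newform of level dividing `N`, while none does on the trace of the curve. The witnesses are
refuted in `RT/Lifting/Main`.
-/

set_option autoImplicit false

noncomputable section

open WeierstrassCurve CongruenceSubgroup ModularFormClass
open Fermat.Agent.ConductorLevel (eigenChar eigenChar_T)

namespace Fermat.Agent.RT.Lifting

variable {W : WeierstrassCurve ℤ}

/-- **The exact level** from one newform with the coefficients of the curve. -/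
theorem isModular_of_newform (hΔ : W.Δ ≠ 0) {L : ℕ} [NeZero L]
    {g : CuspForm (Gamma0 L) 2} (hg : g.IsNewform) (hsq : Squarefree L)
    (hbad : ∀ v : ℕ, v.Prime → v ∣ L → (v : ℤ) ∣ W.Δ) (S : Finset ℕ)
    (hgW : ∀ ℓ : ℕ, ℓ.Prime → ℓ ∉ S → qCoeff g ℓ = (W.apOfModel ℓ : ℂ)) :
    Mlc1IsModularModelOfExactConductorLevel W := by
  classical
  set N := W.conductorLevel
  have hLN : L ∣ N := by
    show L ∣ W.conductorLevel
    rw [← Nat.prod_primeFactors_of_squarefree hsq,
      ← Nat.prod_primeFactors_of_squarefree W.squarefree_conductorLevel]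
    refine Finset.prod_dvd_prod_of_subset _ _ _ fun q hq => ?_
    have hq' := Nat.prime_of_mem_primeFactors hq
    exact Nat.mem_primeFactors.2 ⟨hq', (W.prime_dvd_conductorLevel_iff hΔ hq').2
      (hbad q hq' (Nat.dvd_of_mem_primeFactors hq)), W.conductorLevel_pos.ne'⟩
  obtain ⟨f, hf, hfg⟩ := ConductorLevel.exists_raise W.squarefree_conductorLevel hLN hg.1
  refine ⟨N, W.conductorLevel_pos, W.squarefree_conductorLevel,
    fun q hq => W.prime_dvd_conductorLevel_iff hΔ hq, f, hf, fun q hq hgood hqN => ?_⟩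
  rw [hfg q hq hqN]
  refine ConductorLevel.qCoeff_eq_of_good (fun {M} _ {g} hg => Fermat.Agent.S35.result hg) hΔ hg
    (S := S ∪ L.primeFactors ∪ W.Δ.natAbs.primeFactors) (fun r hr hrL => ?_) (fun ℓ hℓ hℓS hd => ?_)
    (fun ℓ hℓ hℓS => hgW ℓ hℓ fun h => hℓS ?_) hq hgood fun hd => hqN (hd.trans hLN)
  · exact Finset.mem_union_left _
      (Finset.mem_union_right _ (Nat.mem_primeFactors.2 ⟨hr, hrL, NeZero.ne L⟩))
  · exact hℓS (Finset.mem_union_right _
      (Nat.mem_primeFactors.2 ⟨hℓ, Int.natCast_dvd.1 hd, Int.natAbs_ne_zero.2 hΔ⟩))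
  · exact Finset.mem_union_left _ (Finset.mem_union_left _ h)

/-- A ring finite over `ℤ` has finitely many complex characters. -/
theorem finite_ringHom_complex (A : Type*) [CommRing A] [Module.Finite ℤ A] :
    Finite (A →+* ℂ) := by
  classical
  obtain ⟨s, hs⟩ := Module.Finite.fg_top (R := ℤ) (M := A)
  have hroot : ∀ x : A, ∃ F : Finset ℂ, ∀ θ : A →+* ℂ, θ x ∈ F := fun x => by
    obtain ⟨P, hP, hx⟩ := Algebra.IsIntegral.isIntegral (R := ℤ) x
    refine ⟨(P.map (Int.castRingHom ℂ)).roots.toFinset, fun θ => ?_⟩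
    rw [Multiset.mem_toFinset, Polynomial.mem_roots (hP.map _).ne_zero, Polynomial.IsRoot,
      Polynomial.eval_map]
    have h := congrArg θ hx
    rw [map_zero, Polynomial.hom_eval₂] at h
    rwa [RingHom.ext_int (θ.comp (algebraMap ℤ A)) (Int.castRingHom ℂ)] at h
  choose F hF using hroot
  refine Finite.of_injective (fun θ : A →+* ℂ => fun x : s => (⟨θ x, hF x θ⟩ : F x))
    fun θ θ' h => ?_
  have key : ∀ x ∈ Submodule.span ℤ (s : Set A), θ x = θ' x := fun x hx => by
    induction hx using Submodule.span_induction with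
    | mem x hx => exact congrArg Subtype.val (congrFun h ⟨x, hx⟩)
    | zero => rw [map_zero, map_zero]
    | add x y _ _ hx hy => rw [map_add, map_add, hx, hy]
    | smul c x _ hx => rw [map_zsmul, map_zsmul, hx]
  exact RingHom.ext fun x => key x (hs ▸ Submodule.mem_top)

/-- An algebraic integer whose minimal polynomial kills an integer is that integer. -/
theorem eq_of_minpoly_eval_eq_zero {c : ℂ} (hc : IsIntegral ℤ c) {a : ℤ}
    (h : (minpoly ℤ c).eval a = 0) : c = a := by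
  have hd : Polynomial.X - Polynomial.C a ∣ minpoly ℤ c := Polynomial.dvd_iff_isRoot.2 h
  have he := Polynomial.eq_of_monic_of_associated (Polynomial.monic_X_sub_C a) (minpoly.monic hc)
    ((Polynomial.irreducible_X_sub_C a).associated_of_dvd (minpoly.irreducible hc) hd)
  have h1 := minpoly.aeval ℤ c
  rw [← he, map_sub, Polynomial.aeval_X, Polynomial.aeval_C, sub_eq_zero] at h1
  exact h1

/-- **Witnesses**: if the curve has not the exact level, finitely many primes and polynomials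
vanish on every newform of level dividing `N` and not on the curve. -/
theorem exists_witness (hΔ : W.Δ ≠ 0) {N : ℕ} (hN : Squarefree N)
    (hbad : ∀ v : ℕ, v.Prime → v ∣ N → (v : ℤ) ∣ W.Δ) (S₀ : Finset ℕ)
    (hno : ¬ Mlc1IsModularModelOfExactConductorLevel W) :
    ∃ (ls : Finset ℕ) (P : ℕ → Polynomial ℤ),
      (∀ ℓ ∈ ls, ℓ.Prime ∧ ℓ ∉ S₀ ∧ W.IsGoodPrimeFor ℓ ∧ (P ℓ).eval (W.apOfModel ℓ) ≠ 0) ∧
      ∀ (L : ℕ) [NeZero L] (g : CuspForm (Gamma0 L) 2), g.IsNewform → L ∣ N →
        ∃ ℓ ∈ ls, Polynomial.aeval (qCoeff g ℓ) (P ℓ) = 0 := by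
  classical
  have hne : ∀ L : N.divisors, NeZero (L : ℕ) := fun L => ⟨(Nat.pos_of_mem_divisors L.2).ne'⟩
  -- there are finitely many eigensystems of level dividing `N`
  let Idx := Σ L : N.divisors, CuspForm.heckeAlgebra (L : ℕ) 2 (∅ : Set ℕ) →+* ℂ
  have hfin : ∀ L : N.divisors,
      Finite (CuspForm.heckeAlgebra (L : ℕ) 2 (∅ : Set ℕ) →+* ℂ) := fun L => by
    have : Module.Finite ℤ (CuspForm.heckeAlgebra (L : ℕ) 2 (∅ : Set ℕ)) :=
      IntegralStructure.heckeAlgebra_finite (L : ℕ) 2 ∅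
    exact finite_ringHom_complex _
  have := hfin
  have : Finite Idx :=
    inferInstanceAs (Finite (Σ L : N.divisors,
      CuspForm.heckeAlgebra (L : ℕ) 2 (∅ : Set ℕ) →+* ℂ))
  let := Fintype.ofFinite Idx
  let Good : Idx → ℕ × ℂ → Prop := fun i lc =>
    lc.1.Prime ∧ lc.1 ∉ S₀ ∧ W.IsGoodPrimeFor lc.1 ∧ IsIntegral ℤ lc.2 ∧
      lc.2 ≠ (W.apOfModel lc.1 : ℂ) ∧ ∀ g : CuspForm (Gamma0 (i.1 : ℕ)) 2, ∀ hg : g.IsNewform,
        eigenChar hg.1 (∅ : Set ℕ) = i.2 → qCoeff g lc.1 = lc.2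
  -- each differs from the curve at a good prime outside `S₀`
  have hex : ∀ (L : ℕ) [NeZero L] (hL : L ∈ N.divisors) (g : CuspForm (Gamma0 L) 2)
      (hg : g.IsNewform), ∃ lc, Good ⟨⟨L, hL⟩, eigenChar hg.1 (∅ : Set ℕ)⟩ lc := by
    intro L _ hL g hg
    have hLN := Nat.dvd_of_mem_divisors hL
    obtain ⟨ℓ, hℓ, hℓS, hne'⟩ : ∃ ℓ, ℓ.Prime ∧
        ℓ ∉ S₀ ∪ (L.primeFactors ∪ W.Δ.natAbs.primeFactors) ∧
          qCoeff g ℓ ≠ (W.apOfModel ℓ : ℂ) := by
      by_contra! h
      exact hno (isModular_of_newform hΔ hg (hN.squarefree_of_dvd hLN)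
        (fun v hv hvL => hbad v hv (hvL.trans hLN)) _ h)
    simp only [Finset.mem_union, not_or] at hℓS
    have hℓL : ¬ ℓ ∣ L := fun hd => hℓS.2.1 (Nat.mem_primeFactors.2 ⟨hℓ, hd, NeZero.ne L⟩)
    refine ⟨(ℓ, qCoeff g ℓ), hℓ, hℓS.1, fun hd => hℓS.2.2 (Nat.mem_primeFactors.2
      ⟨hℓ, Int.natCast_dvd.1 hd, Int.natAbs_ne_zero.2 hΔ⟩),
      ConductorLevel.isIntegral_qCoeff hg.1 hℓ, hne', fun g' hg' he => ?_⟩
    show qCoeff g' ℓ = qCoeff g ℓ
    have he' : eigenChar (N := L) hg'.1 (∅ : Set ℕ) = eigenChar (N := L) hg.1 (∅ : Set ℕ) := he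
    have h1 := eigenChar_T (N := L) (S := (∅ : Set ℕ)) hg'.1 hℓ hℓL (Set.notMem_empty ℓ)
    have h2 := eigenChar_T (N := L) (S := (∅ : Set ℕ)) hg.1 hℓ hℓL (Set.notMem_empty ℓ)
    rw [he'] at h1
    exact h1.symm.trans h2
  let sel : Idx → ℕ × ℂ := fun i => if h : ∃ lc, Good i lc then h.choose else (0, 0)
  let ok : Finset Idx := Finset.univ.filter fun i => ∃ lc, Good i lc
  have hsel : ∀ i ∈ ok, Good i (sel i) := fun i hi => by
    have h := (Finset.mem_filter.1 hi).2
    simp only [sel, dif_pos h]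
    exact h.choose_spec
  -- `P ℓ` is the product of the minimal polynomials of the eigenvalues chosen at `ℓ`
  let P : ℕ → Polynomial ℤ := fun ℓ =>
    ∏ i ∈ ok.filter fun i => (sel i).1 = ℓ, minpoly ℤ (sel i).2
  refine ⟨ok.image fun i => (sel i).1, P, fun ℓ hℓ => ?_, fun L _ g hg hLN => ?_⟩
  · obtain ⟨i, hi, rfl⟩ := Finset.mem_image.1 hℓ
    refine ⟨(hsel i hi).1, (hsel i hi).2.1, (hsel i hi).2.2.1, ?_⟩
    rw [Polynomial.eval_prod, Finset.prod_ne_zero_iff]
    intro j hj h0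
    obtain ⟨hj, hje⟩ := Finset.mem_filter.1 hj
    obtain ⟨-, -, -, hint, hne', -⟩ := hsel j hj
    exact hne' (eq_of_minpoly_eval_eq_zero hint (by rwa [hje]))
  · have hL : L ∈ N.divisors := Nat.mem_divisors.2 ⟨hLN, hN.ne_zero⟩
    set i : Idx := ⟨⟨L, hL⟩, eigenChar hg.1 (∅ : Set ℕ)⟩
    have hi : i ∈ ok := Finset.mem_filter.2 ⟨Finset.mem_univ _, hex L hL g hg⟩
    refine ⟨(sel i).1, Finset.mem_image.2 ⟨i, hi, rfl⟩, ?_⟩
    rw [map_prod]
    refine Finset.prod_eq_zero (i := i) (Finset.mem_filter.2 ⟨hi, rfl⟩) ?_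
    rw [(hsel i hi).2.2.2.2.2 g hg rfl]
    exact minpoly.aeval ℤ _

end Fermat.Agent.RT.Lifting
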