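import Fermat.Agent.RT.Lifting.Stage

/-!
# The levels and the families of stages over them

For every auxiliary level one ring, with a local map from one ring of variables (not asked to be
onto); a family is a stage of one set of places at every level, with the map of the ring to it.
-/

set_option autoImplicit false
set_option genSizeOf false
set_option genInjectivity false

noncomputable section

namespace Fermat.Agent.RT.Lifting

open IsLocalRing Fermat.Agent.Deform
open Fermat.Agent.RT.LowerB (auxSet Data models)

variable {O : Type} [CommRing O] [IsDomain O] [IsDiscreteValuationRing O]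
  [IsAdicComplete (maximalIdeal O) O] [Finite (ResidueField O)] [CharZero O]
  {p : ℕ} [Fact p.Prime] [CharP (ResidueField O) p] [Algebra (ZMod p) (ResidueField O)]
  {W : WeierstrassCurve ℤ}

attribute [local instance] Stage.finite_alg

variable (St : Setup O p W) (ls : Finset ℕ) (r : ℕ)

/-- The levels, their rings and their maps from the variables. -/
structure Tower (Λ : Type) [CommRing Λ] [IsLocalRing Λ] [Algebra O Λ] where
  A : ∀ n, AuxData St ls r n
  P : ∀ n, Stage (A n) St.top
  φ : ∀ n, Λ →ₐ[O] (P n).Ring
  φ_mem : ∀ n, ∀ a ∈ maximalIdeal Λ, φ n a ∈ maximalIdeal (P n).Ring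
  Z : Fin r → Λ
  φ_Z : ∀ n i, φ n (Z i) = ((P n).rho ((A n).aX i)).trace - 2

variable {St ls r} {Λ : Type} [CommRing Λ] [IsLocalRing Λ] [Algebra O Λ]

/-- A stage of one set of places at every level. -/
structure Family (Y : Tower St ls r Λ) (T : Finset ℕ) where
  S : ∀ n, Stage (Y.A n) T
  g : ∀ n, (Y.P n).Ring →ₐ[O] (S n).alg
  loc : ∀ n, IsLocalHom (g n : (Y.P n).Ring →+* (S n).alg)
  g_rho : ∀ n, mapM (g n : (Y.P n).Ring →+* (S n).alg) (Y.P n).rho = (S n).ru

/-- The map of the variables to the Hecke algebra of a family. -/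
def Family.hom {Y : Tower St ls r Λ} {T : Finset ℕ} (F : Family Y T) (n : ℕ) :
    Λ →ₐ[O] (F.S n).alg :=
  (F.g n).comp (Y.φ n)

/-- **Families exist.** -/
theorem exists_family (Y : Tower St ls r Λ) {T : Finset ℕ} (hT : T ⊆ St.top)
    (hmod : W.IsResiduallyModularOfLevel p (∏ x ∈ T, x)) : Nonempty (Family Y T) := by
  let S := fun n => (exists_stage (Y.A n) hT hmod).some
  choose g hg hg' using fun n => (Y.P n).exists_toStage (S n) hT
  exact ⟨⟨S, g, hg, hg'⟩⟩

end Fermat.Agent.RT.Lifting
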