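import Fermat.Agent.RT.Lifting.Vars
import Fermat.Agent.RT.Lifting.Family
import Fermat.Agent.RT.Algebra.ChainStep

/-!
# The end of the argument

In the limit the points of the curve give a point of the shape special at every residually
unramified place, of weight zero at `p`. Its kernel contains any given prime of full dimension over
the limit ideal of that shape; it kills the variables of the auxiliary primes and takes at the named
variables the values of the curve.
-/

set_option autoImplicit false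

noncomputable section

namespace Fermat.Agent.RT.Lifting

open IsLocalRing MvPowerSeries Fermat.Agent.Deform
open Fermat.Agent.RT.Germ Fermat.Agent.RT.Algebra

variable {O : Type} [CommRing O] [IsDomain O] [IsDiscreteValuationRing O]
  [IsAdicComplete (maximalIdeal O) O] [Finite (ResidueField O)] [CharZero O]
  {p : ℕ} [Fact p.Prime] [CharP (ResidueField O) p]

section Point

variable {Wd : Rigid O} (pd : PlaceData p Wd) {ι G : Type} [Finite ι] [Finite G] {r : ℕ}
  (κ : ι → Shape) (i₀ : ι)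
  (hκ : ∀ v ∈ pd.B, v ∉ pd.ram → (κ i₀).kind v = .special) (hκp : (κ i₀).atP.weight = 0)
  {c : O} (hc : 2 * c = 1) (U : Ultrafilter ℕ) (I : ℕ → Ideal (Lam pd ι r G))
  (hsurj : ∀ n x, ∃ a, x - incl pd κ i₀ a ∈ I n)
  (hrel : ∀ n, mixedRel (pd.eta c) (fun v : pd.Pl => (κ i₀).kind v.1) ≤
    (I n).comap (incl pd κ i₀))
  (hw : ∀ n, I n ≠ ⊤ → ((κ i₀).pat pd).weight ≤ r)
  (x : ℕ → Lam pd ι r G →ₐ[O] O)
  (hx : ∀ n, ∀ a ∈ maximalIdeal (Lam pd ι r G), x n a ∈ maximalIdeal O)
  (hI : ∀ n, ∀ a ∈ I n, x n a = 0)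
  {K : Type} [NontriviallyNormedField K] [IsUltrametricDist K] [CompleteSpace K] [IsAlgClosed K]
  (φK : O →+* ball1 K) (hφinj : Function.Injective φK)
  (hφ : ∀ a ∈ maximalIdeal O, ‖(φK a : K)‖ < 1)

omit [CharP (ResidueField O) p] [Fact (Nat.Prime p)] in
include hκ hκp hc hsurj hrel hw hx hI hφinj hφ in
/-- **The point of the end**: a point constant on what all points agree on, whose prime contains
every prime of full dimension over the limit of the special shape. -/
theorem exists_endPoint {q : Ideal (Lam pd ι r G)} [q.IsPrime]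
    (hq : haveI := isAdicComplete_mvPowerSeries (σ := Coord pd.Pl ((ι × Fin r) ⊕ G)) (O := O)
      haveI := finite_residueField_mvPowerSeries (σ := Coord pd.Pl ((ι × Fin r) ⊕ G)) (O := O)
      limitIdeal U I ≤ q)
    (hdim : ((r + 1 : ℕ) : WithBot ℕ∞) ≤ ringKrullDim (Lam pd ι r G ⧸ q)) :
    ∃ x' : Lam pd ι r G →+* O, q ≤ RingHom.ker x' ∧
      ∀ a b, (∀ n, x n a = b) → x' a = b := by
  have := isAdicComplete_mvPowerSeries (σ := Coord pd.Pl ((ι × Fin r) ⊕ G)) (O := O)
  have := finite_residueField_mvPowerSeries (σ := Coord pd.Pl ((ι × Fin r) ⊕ G)) (O := O)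
  -- a limit of the points `x n`
  obtain ⟨x', hm, hconv, hker⟩ := exists_limit_point U (fun n => (x n).toRingHom)
    (fun n => hx n) I (fun n => hI n)
  have hconst : ∀ a b, (∀ n, x n a = b) → x' a = b := fun a b h => by
    have h1 := hconv _ a (conv_const a)
    rw [show (fun n => (x n).toRingHom a) = fun _ => b from funext h] at h1
    exact h1.unique (conv_const b)
  refine ⟨x', ?_, hconst⟩
  -- the limit has the special shape
  obtain ⟨hs, hR⟩ := limit_shape_props pd κ U i₀ I hsurj hrel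
  have hI0 : I 0 ≠ ⊤ := fun h => one_ne_zero (α := O)
    ((map_one (x 0)).symm.trans (hI 0 1 (h ▸ Submodule.mem_top)))
  obtain ⟨hcard, hsp⟩ := card_free_of_special pd κ (c := c) i₀ hκ hκp (hw 0 hI0)
  have hC : ∀ o, incl pd κ i₀ (G := G) (r := r) (C o) = algebraMap O (Lam pd ι r G) o := fun o =>
    (incl pd κ i₀ (G := G) (r := r)).commutes o
  have hnorm : ‖(2 : K)‖ = 1 := by
    have h : ((φK 2 : ball1 K) : K) * ((φK c : ball1 K) : K) = 1 := by
      rw [← Subring.coe_mul, ← map_mul, hc, map_one, Subring.coe_one]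
    rw [map_ofNat, coe_two] at h
    have h1 : ‖(2 : K)‖ ≤ 1 := by
      have := (φK 2).2
      rwa [map_ofNat, coe_two] at this
    have h2 : ‖((φK c : ball1 K) : K)‖ ≤ 1 := (φK c).2
    have h3 := congrArg norm h
    rw [norm_mul, norm_one] at h3
    refine le_antisymm h1 ?_
    calc (1 : ℝ) = ‖(2 : K)‖ * ‖((φK c : ball1 K) : K)‖ := h3.symm
      _ ≤ ‖(2 : K)‖ := mul_le_of_le_one_right (norm_nonneg _) h2
  -- so the primes of full dimension over it lie in the kernel of the point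
  have key := le_ker_of_fullDimPrime (η := pd.eta c) φK hφinj hφ hnorm
    (pd.eta_ne_zero hc) (pd.eta_mem c) (incl pd κ i₀ (G := G) (r := r)).toRingHom
    (R := limitIdeal U I) (q := q) hs hq (fun a ha => hq (hR (hsp ha)))
    (by rw [hcard]; exact hdim) (φK.comp x')
    (fun o => by
      show φK (x' (incl pd κ i₀ (C o))) = φK o
      rw [hC, hconst _ o fun n => (x n).commutes o])
    (fun d => hφ _ (hm _ ?_))
    (fun a ha => by
      rw [RingHom.mem_ker, RingHom.comp_apply, RingHom.mem_ker.mp (hker ha), map_zero])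
    (fun a ha => by
      show φK (x' (incl pd κ i₀ a)) = 0
      rw [RingHom.mem_ker.mp (hker (hR (hsp ha))), map_zero])
  · exact fun a ha => (RingHom.mem_ker).mpr (hφinj ((RingHom.mem_ker.mp (key ha)).trans
      (map_zero φK).symm))
  · show incl pd κ i₀ (MvPowerSeries.X d) ∈ maximalIdeal _
    rw [show incl pd κ i₀ (G := G) (r := r) (MvPowerSeries.X d) =
      MvPowerSeries.X (varEmb (Nat.sub_le _ _) i₀ d) from rename_X _ _]
    exact span_X_le_maximalIdeal (Ideal.subset_span ⟨_, rfl⟩)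

end Point

variable [Algebra (ZMod p) (ResidueField O)] {W : WeierstrassCurve ℤ}

/-- **The end prime.** Over a prime of full dimension of the special shape lies a prime containing
the variables of the auxiliary primes and not the values of the witnesses. -/
theorem exists_endPrime {St : Setup O p W} {ls : Finset ℕ} {r : ℕ} {ι G : Type} [Finite ι]
    [Finite G] (Y : Tower St ls r (Lam St.pd ι r G)) (U : Ultrafilter ℕ) (κ : ι → Shape) (i₀ : ι)
    (hκ : ∀ v ∈ St.pd.B, v ∉ St.pd.ram → (κ i₀).kind v = .special)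
    (hκp : (κ i₀).atP.weight = 0) (J : ∀ n, Ideal (Y.P n).Ring)
    (hsurj : ∀ n x, ∃ a, x - incl St.pd κ i₀ a ∈
      (shapeIdeal St.pd (κ i₀) (Y.P n).rho (J n)).comap (Y.φ n))
    (hrel : ∀ n, mixedRel (St.pd.eta St.c) (fun v : St.pd.Pl => (κ i₀).kind v.1) ≤
      ((shapeIdeal St.pd (κ i₀) (Y.P n).rho (J n)).comap (Y.φ n)).comap (incl St.pd κ i₀))
    (hw : ∀ n, (shapeIdeal St.pd (κ i₀) (Y.P n).rho (J n)).comap (Y.φ n) ≠ ⊤ →
      ((κ i₀).pat St.pd).weight ≤ r)
    (hkill : ∀ n, ∀ a ∈ shapeIdeal St.pd (κ i₀) (Y.P n).rho (J n), (Y.P n).toPoint a = 0)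
    (z : {ℓ // ℓ ∈ ls} → Lam St.pd ι r G) (hz : ∀ n ℓ, (Y.P n).toPoint (Y.φ n (z ℓ)) = 0)
    (hZ : ∀ n i, (Y.P n).toPoint (Y.φ n (Y.Z i)) = 0)
    {K : Type} [NontriviallyNormedField K] [IsUltrametricDist K] [CompleteSpace K] [IsAlgClosed K]
    (φK : O →+* ball1 K) (hφinj : Function.Injective φK)
    (hφ : ∀ a ∈ maximalIdeal O, ‖(φK a : K)‖ < 1)
    {q : Ideal (Lam St.pd ι r G)} [q.IsPrime]
    (hq : haveI := isAdicComplete_mvPowerSeries (σ := Coord St.pd.Pl ((ι × Fin r) ⊕ G)) (O := O)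
      haveI := finite_residueField_mvPowerSeries (σ := Coord St.pd.Pl ((ι × Fin r) ⊕ G)) (O := O)
      limitIdeal U (fun n => (shapeIdeal St.pd (κ i₀) (Y.P n).rho (J n)).comap (Y.φ n)) ≤ q)
    (hdim : ((r + 1 : ℕ) : WithBot ℕ∞) ≤ ringKrullDim (Lam St.pd ι r G ⧸ q))
    (P : ℕ → Polynomial ℤ) (hP : ∀ ℓ ∈ ls, (P ℓ).eval (W.apOfModel ℓ) ≠ 0) :
    ∃ Q : Ideal (Lam St.pd ι r G), Q.IsPrime ∧ q ≤ Q ∧ (∀ i, Y.Z i ∈ Q) ∧
      ∏ ℓ ∈ ls.attach, Polynomial.aeval (z ℓ + (W.apOfModel ℓ.1 : Lam St.pd ι r G))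
          (P ℓ.1) ∉ Q := by
  obtain ⟨x', hqx, hconst⟩ := exists_endPoint St.pd κ i₀ hκ hκp St.two_mul_c U
    (fun n => (shapeIdeal St.pd (κ i₀) (Y.P n).rho (J n)).comap (Y.φ n)) hsurj hrel hw
    (fun n => (Y.P n).toPoint.comp (Y.φ n))
    (fun n a ha => by
      have := (Y.P n).isLocalHom_toPoint
      exact map_nonunit ((Y.P n).toPoint : (Y.P n).Ring →+* O) _ (Y.φ_mem n a ha))
    (fun n a ha => hkill n _ ha) φK hφinj hφ hq hdim
  refine ⟨RingHom.ker x', RingHom.ker_isPrime x', hqx, fun i => hconst _ _ fun n => hZ n i, ?_⟩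
  have hev : ∀ ℓ : {ℓ // ℓ ∈ ls}, x' (Polynomial.aeval
      (z ℓ + (W.apOfModel ℓ.1 : Lam St.pd ι r G)) (P ℓ.1)) =
      (((P ℓ.1).eval (W.apOfModel ℓ.1) : ℤ) : O) := fun ℓ => by
    rw [Polynomial.aeval_def, Polynomial.hom_eval₂, map_add, map_intCast,
      hconst _ 0 fun n => hz n ℓ, zero_add, RingHom.ext_int (x'.comp (algebraMap ℤ _))
        (Int.castRingHom O), ← eq_intCast (Int.castRingHom O) (W.apOfModel ℓ.1),
      Polynomial.eval₂_at_apply, eq_intCast]
  rw [RingHom.mem_ker, map_prod, Finset.prod_eq_zero_iff]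
  rintro ⟨ℓ, -, h0⟩
  rw [hev, Int.cast_eq_zero] at h0
  exact hP ℓ.1 ℓ.2 h0

end Fermat.Agent.RT.Lifting
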