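import Fermat.Agent.CFT.Tangent.BaseChange

/-!
# Local conditions under equivalence

Equivalent adic Galois representations have the same determinants and characteristic
polynomials, and the same properties: cyclotomic determinant, unramified, strictly ordinary.
-/

set_option autoImplicit false

noncomputable section

namespace Fermat.Agent.RT.Lifting

variable {A : Type} [CommRing A] [IsLocalRing A] {ρ ρ' : GaloisRepAdic A} {p : ℕ}

theorem conj_eq_of_equiv (f : GaloisRepAdic.Equiv ρ ρ') (σ : Deform.Gal) :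
    f.toLinearEquiv.conj (ρ.ρ σ) = ρ'.ρ σ :=
  LinearMap.ext fun x => by
    rw [LinearEquiv.conj_apply_apply, f.map_apply, LinearEquiv.apply_symm_apply]

theorem det_eq_of_isEquiv (he : ρ.IsEquiv ρ') (σ : Deform.Gal) :
    LinearMap.det (ρ'.ρ σ) = LinearMap.det (ρ.ρ σ) := by
  obtain ⟨f⟩ := he
  rw [← conj_eq_of_equiv f σ, LinearEquiv.conj_apply, LinearMap.comp_assoc, LinearMap.det_conj]

/-- Having cyclotomic determinant is invariant under equivalence. -/
theorem detIsCyclotomic_congr (he : ρ.IsEquiv ρ') (h : ρ.DetIsCyclotomic p) :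
    ρ'.DetIsCyclotomic p :=
  ⟨h.1, fun n σ a ha => by rw [det_eq_of_isEquiv he]; exact h.2 n σ a ha⟩

theorem charpoly_eq_of_isEquiv (he : ρ.IsEquiv ρ') (σ : Deform.Gal) :
    LinearMap.charpoly (ρ'.ρ σ) = LinearMap.charpoly (ρ.ρ σ) := by
  obtain ⟨f⟩ := he
  rw [← conj_eq_of_equiv f σ, LinearEquiv.charpoly_conj]

theorem isUnramifiedAt_congr (he : ρ.IsEquiv ρ') {q : ℕ} (h : ρ.IsUnramifiedAt q) :
    ρ'.IsUnramifiedAt q := fun P hP σ hσ => by
  obtain ⟨f⟩ := he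
  rw [← conj_eq_of_equiv f σ, h P hP σ hσ]
  exact LinearMap.ext fun x => by simp [LinearEquiv.conj_apply_apply]

/-- Being strictly ordinary at `p` is invariant under equivalence. -/
theorem isStrictOrdinaryAt_congr (he : ρ.IsEquiv ρ') (h : ρ.IsStrictOrdinaryAt p) :
    ρ'.IsStrictOrdinaryAt p := by
  obtain ⟨f⟩ := he
  refine ⟨h.1, fun P hP => ?_⟩
  obtain ⟨L, ⟨b, hb⟩, hD, hI, hxz⟩ := h.2 P hP
  let g : ρ.V ≃ₗ[A] ρ'.V := f.toLinearEquiv
  have hg : ∀ σ x, g (ρ.ρ σ x) = ρ'.ρ σ (g x) := f.map_apply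
  refine ⟨L.map (g : ρ.V →ₗ[A] ρ'.V), ⟨b.map g, ?_⟩, ?_, ?_, ?_⟩
  · rw [hb, Submodule.map_span, Set.image_singleton, Module.Basis.map_apply]
    rfl
  · rintro σ hσ _ ⟨v, hv, rfl⟩
    exact ⟨_, hD σ hσ v hv, hg σ v⟩
  · intro σ hσ v
    obtain ⟨w, rfl⟩ := g.surjective v
    exact ⟨_, hI σ hσ w, by simp only [LinearEquiv.coe_coe, map_sub, hg]⟩
  · intro σ hσ
    obtain ⟨x, z, hx, hz, hcyc⟩ := hxz σ hσ
    refine ⟨x, z, ?_, fun v => ?_, hcyc⟩
    · rintro _ ⟨w, hw, rfl⟩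
      show ρ'.ρ σ (g w) = x • g w
      rw [← hg, hx w hw, map_smul]
    · obtain ⟨w, rfl⟩ := g.surjective v
      exact ⟨_, hz w, by simp only [LinearEquiv.coe_coe, map_sub, map_smul, hg]⟩

end Fermat.Agent.RT.Lifting
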