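import Fermat.Agent.RT.Lifting.Conds
import Fermat.Agent.RT.Lifting.Congr
import Fermat.Agent.RT.Germ.MixedBound
import Fermat.Agent.RT.LowerB.Normal
import Fermat.Agent.RT.Pattern.Defs

/-!
# The mixed patterns and their ideals

Every place carries one sign. A shape says at each residually unramified place unramified, special
of that sign, or both. In its pattern the residually ramified places are unipotent and those with
scalar residual Frobenius scalar; at the latter the coordinates will satisfy the relations of the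
shape (`RT/Lifting/Present`).

Main result: `LiftData.holds_pat`.
-/

set_option autoImplicit false

noncomputable section

namespace Fermat.Agent.RT.Lifting

open IsLocalRing Fermat.Agent.Deform Fermat.Agent.Arith Fermat.Agent.RT.Pattern
open Fermat.Agent.RT.Germ (PlaceKind)

variable {O : Type} [CommRing O] [IsLocalRing O] {p : ℕ}

/-! ## Places and shapes -/

variable (p) in
/-- The places, their signs and the chosen Galois elements. -/
structure PlaceData (Wd : Rigid O) where
  /-- The places other than `p`. -/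
  B : Finset ℕ
  /-- Those of them at which the residual representation is ramified. -/
  ram : Finset ℕ
  ram_sub : ram ⊆ B
  /-- The signs. -/
  s : ℕ → Bool
  /-- Elements of inertia. -/
  σT : ℕ → Gal
  /-- Frobenius elements. -/
  φT : ℕ → Gal
  prime : ∀ v ∈ B, v.Prime ∧ v ≠ p
  frob : ∀ (v : ℕ) [Fact v.Prime], v ∈ B → (padicPlace v).IsFrobeniusAt (φT v) v
  gen : ∀ (v : ℕ) [Fact v.Prime], v ∈ B → σT v ∈ (padicPlace v).inertiaSubgroupIn ℚ ∧
    ∃ (π : QBar) (m : ℤ), π ≠ 0 ∧ Mazur.Eisenstein.ordAt (padicPlace v) v π = m / p ∧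
      EC.Reduction.res (padicPlace v) (σT v π / π) ≠ 1 ∧
      EC.Reduction.res (padicPlace v) (σT v π / π) ^ p = 1
  rb_ram : ∀ (v : ℕ) [Fact v.Prime], v ∈ ram →
    ∃ τ ∈ (padicPlace v).inertiaSubgroupIn ℚ, Wd.rb τ ≠ 1
  rb_unram : ∀ (q : ℕ) [Fact q.Prime], q ∉ ram → q ≠ p →
    ∀ τ ∈ (padicPlace q).inertiaSubgroupIn ℚ, Wd.rb τ = 1
  rb_trace : ∀ v ∈ B, v ∉ ram →
    (Wd.rb (φT v)).trace = (sgn (s v) : ResidueField O) * ((v : ResidueField O) + 1) ∧
      (Wd.rb (φT v)).det = (v : ResidueField O)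

variable {Wd : Rigid O}

namespace PlaceData

variable (pd : PlaceData p Wd)

/-- The residual Frobenius is scalar. -/
def IsScalar (v : ℕ) : Prop := ∃ c : ResidueField O, Wd.rb (pd.φT v) = c • 1

open scoped Classical in
/-- The places whose coordinates are kept. -/
def scalars : Finset ℕ := (pd.B \ pd.ram).filter pd.IsScalar

theorem mem_scalars {v : ℕ} : v ∈ pd.scalars ↔ v ∈ pd.B ∧ v ∉ pd.ram ∧ pd.IsScalar v := by
  simp [scalars, and_assoc]

/-- The index type of the coordinates. -/
abbrev Pl : Type := {v : ℕ // v ∈ pd.scalars}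

end PlaceData

/-- A shape: the alternatives at the places and the condition at `p`. -/
structure Shape where
  /-- The alternatives at the places. -/
  kind : ℕ → PlaceKind
  /-- The condition at `p`. -/
  atP : CondAtP

/-- The condition of a nonscalar place. -/
def kindCond (ε : ℤ) : PlaceKind → Cond
  | .special => .special ε
  | .unramified => .unramified
  | .both => .both ε

namespace Shape

variable (κ : Shape) (pd : PlaceData p Wd)

open scoped Classical in
/-- The condition at a place. -/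
def cond (v : ℕ) : Cond :=
  if v ∈ pd.ram then .unipotent
  else if pd.IsScalar v then .scalar else kindCond (sgn (pd.s v)) (κ.kind v)

/-- The pattern of a shape. -/
def pat : Pat where
  S := pd.B
  cond := κ.cond pd
  atP := κ.atP

/-- The places at which both alternatives hold. -/
def bothSet : Finset ℕ := (pd.B \ pd.ram).filter fun v => κ.kind v = .both

/-- The number of free coordinates, with `r` auxiliary primes. -/
def free (r : ℕ) : ℕ :=
  r - (3 * pd.scalars.card + ((κ.bothSet pd).filter (· ∉ pd.scalars)).card + κ.atP.weight)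

/-- The weight of the pattern: scalar places, the other `both` places and the condition at `p`. -/
theorem weight_pat : (κ.pat pd).weight =
    3 * pd.scalars.card + ((κ.bothSet pd).filter (· ∉ pd.scalars)).card + κ.atP.weight := by
  classical
  rw [Pat.weight]
  congr 1
  show ∑ q ∈ pd.B, (κ.cond pd q).weight = _
  have hterm : ∀ q ∈ pd.B, (κ.cond pd q).weight = (if q ∈ pd.scalars then 3 else 0) +
      if q ∈ (κ.bothSet pd).filter (· ∉ pd.scalars) then 1 else 0 := by
    intro q hq
    by_cases hr : q ∈ pd.ram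
    · have h1 : q ∉ pd.scalars := fun h => (pd.mem_scalars.1 h).2.1 hr
      have h2 : q ∉ κ.bothSet pd := fun h => (Finset.mem_sdiff.1 (Finset.mem_filter.1 h).1).2 hr
      rw [cond, if_pos hr, if_neg h1, if_neg fun h => h2 (Finset.mem_filter.1 h).1]
      rfl
    · by_cases hs : pd.IsScalar q
      · have h1 : q ∈ pd.scalars := pd.mem_scalars.2 ⟨hq, hr, hs⟩
        have h2 : q ∉ (κ.bothSet pd).filter (· ∉ pd.scalars) := by simp [h1]
        rw [cond, if_neg hr, if_pos hs, if_pos h1, if_neg h2]
        rfl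
      · have h1 : q ∉ pd.scalars := fun h => hs (pd.mem_scalars.1 h).2.2
        rw [cond, if_neg hr, if_neg hs, if_neg h1, zero_add]
        have h2 : q ∈ (κ.bothSet pd).filter (· ∉ pd.scalars) ↔ κ.kind q = .both := by
          simp [bothSet, hq, hr, h1]
        simp only [h2]
        cases κ.kind q <;> simp [kindCond, Cond.weight]
  have hsub : pd.scalars ⊆ pd.B := fun v hv => (pd.mem_scalars.1 hv).1
  have hsub' : (κ.bothSet pd).filter (· ∉ pd.scalars) ⊆ pd.B :=
    (Finset.filter_subset _ _).trans ((Finset.filter_subset _ _).trans Finset.sdiff_subset)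
  rw [Finset.sum_congr rfl hterm, Finset.sum_add_distrib, Finset.sum_ite_mem,
    Finset.sum_ite_mem, Finset.inter_eq_right.2 hsub, Finset.inter_eq_right.2 hsub',
    Finset.sum_const, Finset.sum_const, smul_eq_mul, smul_eq_mul, mul_one, mul_comm]

/-- The pattern of a shape is compatible with the residual representation. -/
theorem compat_pat : (κ.pat pd).Compat p Wd.rb where
  prime := pd.prime
  outside q _ hq hqp := pd.rb_unram q (fun h => hq (pd.ram_sub h)) hqp
  cond v _ hv := by
    classical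
    show (κ.cond pd v).Compat Wd.rb v
    by_cases hr : v ∈ pd.ram
    · rw [cond, if_pos hr]
      exact pd.rb_ram v hr
    have hI := pd.rb_unram v hr (pd.prime v hv).2
    have hF := pd.frob v hv
    by_cases hs : pd.IsScalar v
    · rw [cond, if_neg hr, if_pos hs]
      exact ⟨hI, _, hF, hs⟩
    · rw [cond, if_neg hr, if_neg hs]
      have hns : ∀ c : ResidueField O, Wd.rb (pd.φT v) ≠ c • 1 := fun c hc => hs ⟨c, hc⟩
      cases κ.kind v
      exacts [⟨sgn_mul_self _, hI, _, hF, hns⟩, hI, ⟨sgn_mul_self _, hI, _, hF, hns⟩]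

end Shape

/-! ## The ideals of the shapes -/

section Ideal

variable {A : Type} [CommRing A]

/-- The equations of an alternative. -/
def kindSet (ru : Gal →* M2 A) (v : ℕ) [Fact v.Prime] (b : Bool) : PlaceKind → Set A
  | .special => altSet ru v (some b)
  | .unramified => altSet ru v none
  | .both => altSet ru v none ∪ altSet ru v (some b)

open scoped Classical in
/-- The equations of a kind at a place, none where residually ramified. -/
def placeSet (pd : PlaceData p Wd) (ru : Gal →* M2 A) (v : ℕ) (k : PlaceKind) : Set A :=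
  if hv : v ∈ pd.B ∧ v ∉ pd.ram then
    haveI : Fact v.Prime := ⟨(pd.prime v hv.1).1⟩
    kindSet ru v (pd.s v) k
  else ∅

/-- Outside the residually ramified places the equations are those of the kind. -/
theorem placeSet_eq {pd : PlaceData p Wd} {ru : Gal →* M2 A} {v : ℕ} [Fact v.Prime]
    (h : v ∈ pd.B) (hr : v ∉ pd.ram) (k : PlaceKind) :
    placeSet pd ru v k = kindSet ru v (pd.s v) k :=
  dif_pos ⟨h, hr⟩

/-- The ideal of a shape over an ideal `J` for the condition at `p`. -/
def shapeIdeal (pd : PlaceData p Wd) (κ : Shape) (ru : Gal →* M2 A) (J : Ideal A) : Ideal A :=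
  J ⊔ Ideal.span (⋃ v, placeSet pd ru v (κ.kind v))

theorem le_shapeIdeal (pd : PlaceData p Wd) (κ : Shape) (ru : Gal →* M2 A) (J : Ideal A) :
    J ≤ shapeIdeal pd κ ru J := le_sup_left

theorem mem_shapeIdeal {pd : PlaceData p Wd} {κ : Shape} {ru : Gal →* M2 A} {J : Ideal A} {v : ℕ}
    {x : A} (hx : x ∈ placeSet pd ru v (κ.kind v)) : x ∈ shapeIdeal pd κ ru J :=
  Ideal.mem_sup_right (Ideal.subset_span (Set.mem_iUnion.2 ⟨v, hx⟩))

end Ideal

section Quot

variable {A : Type} [CommRing A] [IsLocalRing A] [Algebra O A]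

theorem isLocalRing_quot {I : Ideal A} (hI : I ≠ ⊤) : IsLocalRing (A ⧸ I) :=
  haveI : Nontrivial (A ⧸ I) := Ideal.Quotient.nontrivial_iff.mpr hI
  IsLocalRing.of_surjective' _ Ideal.Quotient.mk_surjective

theorem isResAlg_quot (h : IsResAlg O A) (I : Ideal A) [IsLocalRing (A ⧸ I)] :
    IsResAlg O (A ⧸ I) := by
  have := h.isLocalHom
  have := IsLocalHom.of_surjective (Ideal.Quotient.mk I) Ideal.Quotient.mk_surjective
  refine ⟨?_, fun z => ?_⟩
  · rw [IsScalarTower.algebraMap_eq O A, Ideal.Quotient.algebraMap_eq]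
    infer_instance
  · obtain ⟨y, rfl⟩ := residue_surjective z
    obtain ⟨a, rfl⟩ := Ideal.Quotient.mk_surjective y
    obtain ⟨o, ho⟩ := exists_sub_mem h a
    refine ⟨o, ?_⟩
    show residue _ (algebraMap O (A ⧸ I) o) = _
    rw [eq_comm, ← sub_eq_zero, ← map_sub, residue_eq_zero_iff,
      IsScalarTower.algebraMap_apply O A, Ideal.Quotient.algebraMap_eq, ← map_sub]
    exact map_nonunit (Ideal.Quotient.mk I) _ ho

omit [IsLocalRing A] [IsLocalRing O] in
theorem adjoin_entries_map {ru : Gal →* M2 A} (hgen : Algebra.adjoin O (entries ru) = ⊤)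
    (I : Ideal A) :
    Algebra.adjoin O (entries (mapM (Ideal.Quotient.mk I) ru)) = ⊤ := by
  have h1 := congrArg (Subalgebra.map (Ideal.Quotient.mkₐ O I)) hgen
  rw [AlgHom.map_adjoin, Algebra.map_top,
    (AlgHom.range_eq_top _).2 (Ideal.Quotient.mkₐ_surjective O I)] at h1
  rw [← h1]
  congr 1
  ext x
  constructor
  · rintro ⟨q, rfl⟩; exact ⟨_, ⟨q, rfl⟩, rfl⟩
  · rintro ⟨_, ⟨q, rfl⟩, rfl⟩; exact ⟨q, rfl⟩

end Quot

/-! ## The pattern of a lift -/

section Det

variable {R : Type} [CommRing R] [IsLocalRing R] [IsNoetherianRing R] {ru : Gal →* M2 R}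
  {hc : IsCont ru}

theorem det_eq_natCast_of_roots (hdet : (toRep ru hc).DetIsCyclotomic p) {σ : Gal} {a : ℕ}
    (ha : ∀ (n : ℕ) (μ : AlgebraicClosure ℚ), μ ^ p ^ n = 1 → σ μ = μ ^ a) :
    (ru σ).det = a := by
  refine sub_eq_zero.1 ((inferInstance : IsHausdorff (maximalIdeal R) R).haus _ fun n => ?_)
  rw [SModEq.zero, smul_eq_mul, Ideal.mul_top]
  have h1 := hdet.2 n σ a (ha n)
  rw [LowerB.det_toRep, Nat.cast_pow] at h1
  exact (Ideal.span_singleton_le_iff_mem _).2 (Ideal.pow_mem_pow hdet.1 n) h1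

theorem det_eq_one_of_inertia [Fact p.Prime] (hdet : (toRep ru hc).DetIsCyclotomic p) {v : ℕ}
    (hv : v.Prime) (hvp : v ≠ p) {A : ValuationSubring (AlgebraicClosure ℚ)}
    (hA : A.LiesOverPrime v) {σ : Gal} (hσ : σ ∈ A.inertiaSubgroupIn ℚ) : (ru σ).det = 1 := by
  rw [det_eq_natCast_of_roots hdet (a := 1) fun n μ hμ => ?_, Nat.cast_one]
  rw [pow_one]
  exact Arith.inertia_root hA hv hσ hμ fun h =>
    hvp ((Nat.prime_dvd_prime_iff_eq hv Fact.out).1 (hv.dvd_of_dvd_pow h))

/-- With cyclotomic determinant, a Frobenius at a prime `v ≠ p` has determinant `v`. -/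
theorem det_eq_of_frobenius [Fact p.Prime] (hdet : (toRep ru hc).DetIsCyclotomic p) {v : ℕ}
    (hv : v.Prime) (hvp : v ≠ p) {A : ValuationSubring (AlgebraicClosure ℚ)}
    (hA : A.LiesOverPrime v) {σ : Gal} (hσ : A.IsFrobeniusAt σ v) : (ru σ).det = v :=
  det_eq_natCast_of_roots hdet fun _ _ hμ => Arith.frobenius_root hA hv hσ hμ fun h =>
    hvp ((Nat.prime_dvd_prime_iff_eq hv Fact.out).1 (hv.dvd_of_dvd_pow h))

end Det

variable (pd : PlaceData p Wd) {A : Type} [CommRing A] [IsLocalRing A] [Algebra O A]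

/-- A lift unipotent at the places and unramified outside them, `p` and `Q`. -/
structure LiftData (Q : Set ℕ) (ru : Gal →* M2 A) : Prop where
  res : IsResAlg O A
  cont : IsCont ru
  lifts : Lifts Wd res ru
  normal : IsNormal Wd ru
  gen : Algebra.adjoin O (entries ru) = ⊤
  det : (toRep ru cont).DetIsCyclotomic p
  unip : ∀ (v : ℕ) [Fact v.Prime], v ∈ pd.B →
    ∀ τ ∈ (padicPlace v).inertiaSubgroupIn ℚ, (ru τ).trace = 2
  unram : ∀ (q : ℕ) [Fact q.Prime], q ∉ pd.B → q ≠ p → q ∉ Q →
    ∀ τ ∈ (padicPlace q).inertiaSubgroupIn ℚ, ru τ = 1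

variable {pd} {Q : Set ℕ} {ru : Gal →* M2 A}

section Holds

variable [IsNoetherianRing A]

omit [IsNoetherianRing A] in
/-- **The pattern of a shape holds modulo its ideal.** -/
theorem LiftData.holds_pat (L : LiftData pd Q ru) (κ : Shape) {J I : Ideal A} [IsLocalRing (A ⧸ I)]
    (hI : shapeIdeal pd κ ru J ≤ I) (hc : IsCont (mapM (Ideal.Quotient.mk I) ru))
    (hatP : κ.atP.Holds (toRep (mapM (Ideal.Quotient.mk I) ru) hc) p) :
    (κ.pat pd).Holds p Q (mapM (Ideal.Quotient.mk I) ru) hc := by
  classical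
  have hloc := IsLocalHom.of_surjective (Ideal.Quotient.mk I) Ideal.Quotient.mk_surjective
  set f := Ideal.Quotient.mk I
  have hf : ∀ σ, mapM f ru σ = f.mapMatrix (ru σ) := fun σ => rfl
  have htr : ∀ σ, (mapM f ru σ).trace = f (ru σ).trace := fun σ => by
    rw [hf]; exact (AddMonoidHom.map_trace f.toAddMonoidHom _).symm
  refine ⟨?_, fun v _ hv => ?_, hatP, fun q _ hq hqp hqQ τ hτ => by
    rw [hf, L.unram q hq hqp hqQ τ hτ, map_one]⟩
  -- the determinant comes from the lift
  · exact detIsCyclotomic_congr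
      (isEquiv_baseChangeAlong_toRep f hloc ru L.cont)
      (CFT.Tangent.DetIsCyclotomic.baseChange f hloc L.det)
  show (κ.cond pd v).Holds _ v
  -- at each place the condition of the shape
  by_cases hr : v ∈ pd.ram
  · rw [Shape.cond, if_pos hr]
    intro τ hτ
    rw [htr, L.unip v hv τ hτ, map_ofNat]
  by_cases hs : pd.IsScalar v
  · rw [Shape.cond, if_neg hr, if_pos hs]
    exact trivial
  rw [Shape.cond, if_neg hr, if_neg hs]
  -- there the equations of the kind lie in `I`
  have hsub : kindSet ru v (pd.s v) (κ.kind v) ⊆ I := fun x hx =>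
    hI (mem_shapeIdeal (v := v) (by rwa [placeSet_eq hv hr]))
  have hmat : ∀ M : M2 A, (∀ i j, M i j ∈ I) → f.mapMatrix M = 0 := fun M hM =>
    Matrix.ext fun i j => Ideal.Quotient.eq_zero_iff_mem.2 (hM i j)
  have hnone : altSet ru v none ⊆ I → ∀ τ ∈ (padicPlace v).inertiaSubgroupIn ℚ,
      mapM f ru τ = 1 := fun h τ hτ => by
    have := hmat (ru τ - 1) fun i j => h ⟨τ, hτ, i, j, rfl⟩
    rwa [map_sub, map_one, sub_eq_zero] at this
  have htrace : altSet ru v (some (pd.s v)) ⊆ I → ∀ F, (padicPlace v).IsFrobeniusAt F v →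
      (mapM f ru F).trace = ((sgn (pd.s v) : ℤ) : A ⧸ I) * ((v : A ⧸ I) + 1) := fun h F hF => by
    have h1 : f _ = 0 := Ideal.Quotient.eq_zero_iff_mem.2 (h ⟨F, hF, Or.inl rfl⟩)
    rw [map_sub, sub_eq_zero, map_mul, map_intCast, map_add, map_natCast, map_one] at h1
    rw [htr, h1]
  -- read off each kind
  cases hk : κ.kind v <;> rw [hk] at hsub <;> simp only [kindSet] at hsub
  · refine fun F hF => ⟨htrace hsub F hF, fun τ hτ => ?_⟩
    have h1 := hmat _ fun i j => hsub (show
        ((ru F - ((sgn (pd.s v) : A) * (v : A)) • 1) * (ru τ - 1)) i j ∈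
          altSet ru v (some (pd.s v)) from ⟨F, hF, Or.inr ⟨τ, hτ, i, j, rfl⟩⟩)
    rw [map_mul, map_sub, map_sub, map_one] at h1
    have e : f.mapMatrix (((sgn (pd.s v) : A) * (v : A)) • (1 : M2 A)) =
        (((sgn (pd.s v) : ℤ) : A ⧸ I) * (v : A ⧸ I)) • (1 : M2 (A ⧸ I)) := by
      refine Matrix.ext fun i j => ?_
      rcases eq_or_ne i j with rfl | hij <;> simp [*]
    rw [e] at h1
    exact h1
  · exact hnone hsub
  · exact ⟨hnone fun x hx => hsub (Or.inl hx), htrace fun x hx => hsub (Or.inr hx)⟩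

end Holds

end Fermat.Agent.RT.Lifting
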