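import Fermat.Agent.RT.Lifting.AtP
import Fermat.Agent.RT.Lifting.Place

/-!
# The unit root at `p` and the kinds at a place

The trace on the unramified quotient is the number `alphaAt`; strictness with a sign is the
equation `alphaAt = ε F` where the equations at inertia hold and some number satisfies that at
Frobenius. The ideal of `both` lies in that of `none` and one trace.
-/

set_option autoImplicit false

noncomputable section

namespace Fermat.Agent.RT.Lifting

open IsLocalRing Fermat.Agent.Deform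
open Fermat.Agent.RT.Germ (PlaceKind)

variable {R : Type} [CommRing R] {S : Type} [CommRing S]

/-- The trace of `F` on the quotient of the line of `τ₀`. -/
def alphaAt (ru : Gal →* M2 R) (τ₀ F : Gal) : R :=
  (ru F * (1 - Ring.inverse ((ru τ₀).det - 1) • (ru τ₀ - 1))).trace

/-- The equations of strictness with the sign `ε`. -/
def strictSet (ru : Gal →* M2 R) (τ₀ : Gal) (ε : Gal → ℤ) (p : ℕ) [Fact p.Prime] : Set R :=
  {x | ∃ σ ∈ (padicPlace p).decompositionSubgroup ℚ, ∃ i j,
    x = ((ru τ₀ - (ru τ₀).det • 1) * (ru σ - (ε σ : R) • 1)) i j}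

theorem mapMatrix_smul' (f : R →+* S) (a : R) (M : M2 R) :
    f.mapMatrix (a • M) = f a • f.mapMatrix M :=
  Matrix.ext fun i j => map_mul f a (M i j)

/-- The line matrix of `τ₀` commutes with change of ring. -/
theorem mapMatrix_sub_det (f : R →+* S) (ru : Gal →* M2 R) (τ₀ : Gal) :
    f.mapMatrix (ru τ₀ - (ru τ₀).det • 1) = mapM f ru τ₀ - (mapM f ru τ₀).det • 1 := by
  rw [map_sub, mapMatrix_smul', map_one, RingHom.map_det]
  rfl

theorem mapMatrix_sub_sign (f : R →+* S) (ru : Gal →* M2 R) (ε : Gal → ℤ) (σ : Gal) :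
    f.mapMatrix (ru σ - (ε σ : R) • 1) = mapM f ru σ - (ε σ : S) • 1 := by
  rw [map_sub, mapMatrix_smul', map_one, map_intCast]
  rfl

/-- `alphaAt` commutes with maps. -/
theorem alphaAt_map (f : R →+* S) (ru : Gal →* M2 R) {τ₀ : Gal} (hu : IsUnit ((ru τ₀).det - 1))
    (F : Gal) : f (alphaAt ru τ₀ F) = alphaAt (mapM f ru) τ₀ F := by
  have hd : (mapM f ru τ₀).det - 1 = f ((ru τ₀).det - 1) := by
    rw [map_sub, map_one, RingHom.map_det]
    rfl
  obtain ⟨u, hu'⟩ := hu
  have hinv : f (Ring.inverse ((ru τ₀).det - 1)) = Ring.inverse ((mapM f ru τ₀).det - 1) := by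
    rw [hd, ← hu', Ring.inverse_unit,
      show f (u : R) = ((Units.map (f : R →* S) u : Sˣ) : S) from rfl, Ring.inverse_unit]
    rfl
  rw [alphaAt, alphaAt, ← hinv, show ∀ g, mapM f ru g = f.mapMatrix (ru g) from fun _ => rfl,
    show ∀ M : M2 R, f M.trace = (f.mapMatrix M).trace from
      fun M => AddMonoidHom.map_trace f.toAddMonoidHom M, map_mul, map_sub, map_one,
    mapMatrix_smul', map_sub, map_one]
  rfl

theorem trace_eq_det_add_one {T : M2 R} (hT : IsUnit T)
    (h : (T - T.det • 1) * (T - 1) = 0) : T.trace = T.det + 1 := by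
  have e : (T - T.det • 1) * (T - 1) = (T.trace - T.det - 1) • T := by
    refine Matrix.ext fun i j => ?_
    fin_cases i <;> fin_cases j <;>
      simp [Matrix.mul_apply, Matrix.trace_fin_two, Matrix.det_fin_two, Fin.sum_univ_two] <;> ring
  rw [e] at h
  obtain ⟨u, rfl⟩ := hT
  have h2 := congrArg (· * (↑u⁻¹ : M2 R)) h
  simp only [smul_mul_assoc, Units.mul_inv, zero_mul] at h2
  have h3 := congrFun (congrFun h2 0) 0
  simp only [Matrix.smul_apply, Matrix.one_apply_eq, smul_eq_mul, mul_one, Matrix.zero_apply] at h3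
  linear_combination h3

/-- `alphaAt` is the number of the equation at Frobenius. -/
theorem alphaAt_eq {ru : Gal →* M2 R} {τ₀ F : Gal} {a : R} (hu : IsUnit ((ru τ₀).det - 1))
    (h0 : (ru τ₀ - (ru τ₀).det • 1) * (ru τ₀ - 1) = 0)
    (h : (ru τ₀ - (ru τ₀).det • 1) * (ru F - a • 1) = 0) : alphaAt ru τ₀ F = a := by
  set T := ru τ₀
  set c := Ring.inverse (T.det - 1)
  have hc : c * (T.det - 1) = 1 := Ring.inverse_mul_cancel _ hu
  have htr := trace_eq_det_add_one ((Group.isUnit τ₀).map ru) h0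
  set Q := T - T.det • 1 with hQ
  have e : (1 : M2 R) - c • (T - 1) = -(c • Q) := by
    have h1 : (1 : M2 R) = c • ((T.det - 1) • 1) := by rw [smul_smul, hc, one_smul]
    rw [hQ]
    conv_lhs => arg 1; rw [h1]
    module
  have hQF : Q * ru F = a • Q := by
    rw [mul_sub, mul_smul_one, sub_eq_zero] at h
    exact h
  rw [alphaAt, e, mul_neg, mul_smul_comm, Matrix.trace_neg, Matrix.trace_smul,
    Matrix.trace_mul_comm, hQF, Matrix.trace_smul, hQ, Matrix.trace_sub, Matrix.trace_smul, htr,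
    Matrix.trace_one, Fintype.card_fin, smul_eq_mul, smul_eq_mul, smul_eq_mul]
  linear_combination a * hc

section Strict

variable {p : ℕ} [Fact p.Prime] {ru : Gal →* M2 R} {τ₀ F : Gal} {ε : Gal → ℤ}

/-- A map killing the equations gives strictness. -/
theorem strictEq_of_forall_eq_zero (f : R →+* S) (hf : ∀ x ∈ strictSet ru τ₀ ε p, f x = 0) :
    StrictEq (mapM f ru) τ₀ (fun σ => (ε σ : S)) p := fun σ hσ => by
  rw [← mapMatrix_sub_det, ← mapMatrix_sub_sign, ← map_mul]
  exact Matrix.ext fun i j => hf _ ⟨σ, hσ, i, j, rfl⟩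

/-- Strictness kills the equations. -/
theorem strictSet_subset (h : StrictEq ru τ₀ (fun σ => (ε σ : R)) p) :
    strictSet ru τ₀ ε p ⊆ {0} := by
  rintro x ⟨σ, hσ, i, j, rfl⟩
  exact congrFun (congrFun (h σ hσ) i) j

theorem frobenius_mem_decomposition (hF : (padicPlace p).IsFrobeniusAt F p) :
    F ∈ (padicPlace p).decompositionSubgroup ℚ :=
  hF.choose

/-- `alphaAt - ε F` lies in the ideal of the equations. -/
theorem alphaAt_sub_mem (hu : IsUnit ((ru τ₀).det - 1))
    (hτ₀ : τ₀ ∈ (padicPlace p).inertiaSubgroupIn ℚ)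
    (hF : (padicPlace p).IsFrobeniusAt F p) (hε : LocalSign ε F p) :
    alphaAt ru τ₀ F - (ε F : R) ∈ Ideal.span (strictSet ru τ₀ ε p) := by
  set f := Ideal.Quotient.mk (Ideal.span (strictSet ru τ₀ ε p))
  have h := strictEq_of_forall_eq_zero (ru := ru) (τ₀ := τ₀) (ε := ε) (p := p) f fun x hx =>
    Ideal.Quotient.eq_zero_iff_mem.mpr (Ideal.subset_span hx)
  have h0 := h τ₀ (mem_decomposition_of_mem_inertia hτ₀)
  simp only [hε.inertia τ₀ hτ₀, Int.cast_one, one_smul] at h0
  have hu' : IsUnit ((mapM f ru τ₀).det - 1) := by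
    have e : (mapM f ru τ₀).det - 1 = f ((ru τ₀).det - 1) := by
      rw [map_sub, map_one, RingHom.map_det]; rfl
    rw [e]
    exact hu.map f
  rw [← Ideal.Quotient.eq_zero_iff_mem, map_sub, map_intCast, alphaAt_map f ru hu,
    alphaAt_eq hu' h0 (h F (frobenius_mem_decomposition hF)), sub_self]

/-- **The strict ideal is one equation** where the equations at inertia hold and some number
satisfies that at Frobenius. -/
theorem span_strictSet_le [IsLocalRing R] [IsNoetherianRing R] (hc : IsCont ru)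
    (hu : IsUnit ((ru τ₀).det - 1)) (hτ₀ : τ₀ ∈ (padicPlace p).inertiaSubgroupIn ℚ)
    (hF : (padicPlace p).IsFrobeniusAt F p) (hε : LocalSign ε F p) {K : Ideal R}
    (hI : ∀ τ ∈ (padicPlace p).inertiaSubgroupIn ℚ, ∀ i j,
      ((ru τ₀ - (ru τ₀).det • 1) * (ru τ - 1)) i j ∈ K)
    (ha : ∃ a : R, ∀ i j, ((ru τ₀ - (ru τ₀).det • 1) * (ru F - a • 1)) i j ∈ K) :
    Ideal.span (strictSet ru τ₀ ε p) ≤ K ⊔ Ideal.span {alphaAt ru τ₀ F - (ε F : R)} := by
  set K' := K ⊔ Ideal.span {alphaAt ru τ₀ F - (ε F : R)}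
  rcases eq_or_ne K' ⊤ with h | h
  · rw [h]; exact le_top
  have : Nontrivial (R ⧸ K') := Ideal.Quotient.nontrivial_iff.mpr h
  have : IsLocalRing (R ⧸ K') := IsLocalRing.of_surjective' _ Ideal.Quotient.mk_surjective
  set f := Ideal.Quotient.mk K'
  have hloc : IsLocalHom f := IsLocalHom.of_surjective _ Ideal.Quotient.mk_surjective
  have hK : ∀ X : M2 R, (∀ i j, X i j ∈ K) → f.mapMatrix X = 0 := fun X hX =>
    Matrix.ext fun i j => Ideal.Quotient.eq_zero_iff_mem.mpr (Ideal.mem_sup_left (hX i j))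
  have hI' : ∀ τ ∈ (padicPlace p).inertiaSubgroupIn ℚ,
      (mapM f ru τ₀ - (mapM f ru τ₀).det • 1) * (mapM f ru τ - 1) = 0 := fun τ hτ => by
    have := hK _ (hI τ hτ)
    rwa [map_mul, mapMatrix_sub_det, map_sub, map_one] at this
  obtain ⟨a, ha⟩ := ha
  have ha' : (mapM f ru τ₀ - (mapM f ru τ₀).det • 1) * (mapM f ru F - f a • 1) = 0 := by
    have := hK _ ha
    rwa [map_mul, mapMatrix_sub_det, map_sub, mapMatrix_smul', map_one] at this
  have hu' : IsUnit ((mapM f ru τ₀).det - 1) := by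
    have e : (mapM f ru τ₀).det - 1 = f ((ru τ₀).det - 1) := by
      rw [map_sub, map_one, RingHom.map_det]; rfl
    rw [e]
    exact hu.map f
  have hα : f a = (ε F : R ⧸ K') := by
    rw [← alphaAt_eq hu' (hI' τ₀ hτ₀) ha', ← alphaAt_map f ru hu, ← map_intCast f,
      Ideal.Quotient.eq]
    exact Ideal.mem_sup_right (Ideal.mem_span_singleton_self _)
  rw [hα] at ha'
  have key := strictEq_of_frobenius (hc.map f hloc) hF hε hI' ha'
  rw [Ideal.span_le]
  rintro x ⟨σ, hσ, i, j, rfl⟩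
  have h1 := key σ hσ
  rw [← mapMatrix_sub_det, ← mapMatrix_sub_sign, ← map_mul] at h1
  exact Ideal.Quotient.eq_zero_iff_mem.mp (congrFun (congrFun h1 i) j)

end Strict

section Both

variable {v : ℕ} [Fact v.Prime]

/-- The ideal of `both` lies in the sum of that of `none` and one trace. -/
theorem span_kindSet_both_le (ru : Gal →* M2 R) (b : Bool) {F₀ : Gal}
    (hF₀ : (padicPlace v).IsFrobeniusAt F₀ v) :
    Ideal.span (kindSet ru v b .both) ≤ Ideal.span (altSet ru v none) ⊔
      Ideal.span {(ru F₀).trace - (sgn b : R) * ((v : R) + 1)} := by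
  set K := Ideal.span (altSet ru v none) ⊔
    Ideal.span {(ru F₀).trace - (sgn b : R) * ((v : R) + 1)}
  refine Ideal.span_le.mpr ?_
  rintro x (hx | hx)
  · exact Ideal.mem_sup_left (Ideal.subset_span hx)
  set f := Ideal.Quotient.mk K
  have h1 : ∀ τ ∈ (padicPlace v).inertiaSubgroupIn ℚ, f.mapMatrix (ru τ - 1) = 0 :=
    fun τ hτ => Matrix.ext fun i j => Ideal.Quotient.eq_zero_iff_mem.mpr
      (Ideal.mem_sup_left (Ideal.subset_span ⟨τ, hτ, i, j, rfl⟩))
  rw [SetLike.mem_coe, ← Ideal.Quotient.eq_zero_iff_mem]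
  obtain ⟨F, hF, rfl | ⟨τ, hτ, i, j, rfl⟩⟩ := hx
  · have e : f.mapMatrix (ru F) = f.mapMatrix (ru F₀) := by
      have h2 := h1 (F₀⁻¹ * F) (Arith.inv_mul_mem_inertia hF hF₀)
      rw [map_sub, map_one, sub_eq_zero] at h2
      rw [show ru F = ru F₀ * ru (F₀⁻¹ * F) by rw [← map_mul, mul_inv_cancel_left], map_mul, h2,
        mul_one]
    have htr : ∀ M : M2 R, f M.trace = (f.mapMatrix M).trace :=
      fun M => AddMonoidHom.map_trace f.toAddMonoidHom M
    rw [map_sub, htr, e, ← htr, ← map_sub, Ideal.Quotient.eq_zero_iff_mem]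
    exact Ideal.mem_sup_right (Ideal.mem_span_singleton_self _)
  · have h2 : f.mapMatrix ((ru F - ((sgn b : R) * (v : R)) • 1) * (ru τ - 1)) = 0 := by
      rw [map_mul, h1 τ hτ, mul_zero]
    exact congrFun (congrFun h2 i) j

end Both

section Shape

variable {O : Type} [CommRing O] [IsLocalRing O] {p : ℕ} [Fact p.Prime] {Wd : Rigid O}

omit [Fact (Nat.Prime p)] in
/-- The ideal of a shape, place by place. -/
theorem shapeIdeal_eq (pd : PlaceData p Wd) (κ : Shape) (ru : Gal →* M2 R) (J : Ideal R) :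
    shapeIdeal pd κ ru J =
      J ⊔ ⨆ v ∈ pd.B \ pd.ram, Ideal.span (placeSet pd ru v (κ.kind v)) := by
  rw [shapeIdeal, Ideal.span_iUnion]
  congr 1
  refine le_antisymm (iSup_le fun v => ?_)
    (iSup₂_le fun v _ => le_iSup (fun v => Ideal.span (placeSet pd ru v (κ.kind v))) v)
  by_cases hv : v ∈ pd.B \ pd.ram
  · exact le_iSup₂_of_le v hv le_rfl
  · rw [placeSet, dif_neg fun h => hv (Finset.mem_sdiff.mpr h), Ideal.span_empty]
    exact bot_le

end Shape

end Fermat.Agent.RT.Lifting
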