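import Fermat.Agent.RT.Lifting.Stage
import Fermat.Agent.RT.Lifting.Kinds

/-!
# The alternatives on a stage and at the point

A stage kills the unramified equations off its set and the product of the alternatives on it; the
point kills the alternatives of its signs and the equations of strictness.
-/

set_option autoImplicit false

noncomputable section

namespace Fermat.Agent.RT.Lifting

open IsLocalRing Fermat.Agent.Deform Fermat.Agent.RT.Glue Fermat.Agent.RT.Modules
open Fermat.Agent.RT.LowerB (auxSet)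

variable {O : Type} [CommRing O] [IsDomain O] [IsDiscreteValuationRing O]
  [IsAdicComplete (maximalIdeal O) O] [Finite (ResidueField O)] [CharZero O]
  {p : ℕ} [Fact p.Prime] [CharP (ResidueField O) p] [Algebra (ZMod p) (ResidueField O)]
  {W : WeierstrassCurve ℤ} {St : Setup O p W} {ls : Finset ℕ} {r n : ℕ}
  {A : AuxData St ls r n}

omit [Fact (Nat.Prime p)] in
theorem p_mem_badSet : p ∈ badSet p W := Finset.mem_insert_self _ _

theorem map_trace' {B C : Type} [CommRing B] [CommRing C] (φ : B →+* C) (r : Gal →* M2 B)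
    (σ : Gal) :
    φ (r σ).trace = (mapM φ r σ).trace :=
  AddMonoidHom.map_trace φ.toAddMonoidHom _

omit [IsAdicComplete (maximalIdeal O) O] [Finite (ResidueField O)] [CharZero O] in
private theorem sep_of_point {L : ℕ} {Δ : Type} [CommGroup Δ] [Finite Δ] {ψ : (ZMod L)ˣ →* Δ}
    {S : Finset ℕ} {abar : ℕ → ResidueField O} (H : HeckeModule L ψ S abar) (x : H.algebra)
    (hx : ∀ θ : H.algebra →ₐ[O] KBar O, (θ : H.algebra →+* KBar O) x = 0) : x = 0 :=
  eq_zero_of_forall_point hx

attribute [local instance] Stage.finite_alg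

namespace Stage

variable {T T' : Finset ℕ}

/-- The determinant of a stage is cyclotomic. -/
theorem detIsCyclotomic (S : Stage A T) : (toRep S.ru S.cont).DetIsCyclotomic p := by
  refine ⟨natCast_mem St.p_small, fun m σ a ha => ?_⟩
  rw [LowerB.det_toRep, (S.spec σ).2.1, Nat.cast_pow]
  exact S.G.det_congr m σ a ha

omit [IsAdicComplete (maximalIdeal O) O] [Finite (ResidueField O)] [CharZero O]
  [CharP (ResidueField O) p] in
theorem notMem_auxSet {v : ℕ} (hv : v ∈ badSet p W) : v ∉ auxSet A.qv :=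
  fun h => (A.isAux.prime_of_mem h).2 hv

variable (P : Stage A St.top)

/-- **The lower stage factors through the upper one.** -/
theorem exists_comp (hsub : T ⊆ T') (S : Stage A T) (S' : Stage A T') {g : P.Ring →ₐ[O] S.alg}
    {g' : P.Ring →ₐ[O] S'.alg} (hg : mapM (g : P.Ring →+* S.alg) P.rho = S.ru)
    (hg' : mapM (g' : P.Ring →+* S'.alg) P.rho = S'.ru) :
    ∃ f : S'.alg →ₐ[O] S.alg, Function.Surjective f ∧
      mapM (f : S'.alg →+* S.alg) S'.ru = S.ru ∧ g = f.comp g' := by
  obtain ⟨f, hs, -, -, hf⟩ := S.map_trace_lifts S' hsub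
  refine ⟨f, hs, hf, P.ring_hom_ext ?_⟩
  rw [hg, show ((f.comp g' : P.Ring →ₐ[O] S.alg) : P.Ring →+* S.alg) =
    (f : S'.alg →+* S.alg).comp (g' : P.Ring →+* S'.alg) from rfl, ← mapM_mapM, hg', hf]

/-- Kernels grow down the stages. -/
theorem ker_le_ker (hsub : T ⊆ T') (S : Stage A T) (S' : Stage A T') {g : P.Ring →ₐ[O] S.alg}
    {g' : P.Ring →ₐ[O] S'.alg} (hg : mapM (g : P.Ring →+* S.alg) P.rho = S.ru)
    (hg' : mapM (g' : P.Ring →+* S'.alg) P.rho = S'.ru) : RingHom.ker g' ≤ RingHom.ker g := by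
  obtain ⟨f, -, -, rfl⟩ := P.exists_comp hsub S S' hg hg'
  intro a ha
  rw [RingHom.mem_ker] at ha ⊢
  rw [AlgHom.comp_apply, ha, map_zero]

variable (S : Stage A T) {g : P.Ring →ₐ[O] S.alg} (hg : mapM (g : P.Ring →+* S.alg) P.rho = S.ru)
  {v : ℕ} [Fact v.Prime] (hvB : v ∈ St.pd.B)

include hg hvB in
/-- Off the set the unramified equations are killed. -/
theorem apply_altSet_none (hvT : v ∉ T) {y : P.Ring} (hy : y ∈ altSet P.rho v none) : g y = 0 := by
  have h := altSet_map (v := v) (g : P.Ring →+* S.alg) none ⟨y, hy, rfl⟩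
  rw [show (g : P.Ring →+* S.alg).mapMatrix.toMonoidHom.comp P.rho = S.ru from hg] at h
  obtain ⟨τ, hτ, i, j, he⟩ := h
  have h1 : S.G.R τ = 1 := S.lev.apply_eq_one S.G Fact.out hvT
    (notMem_auxSet (St.mem_bad_of_mem_top (St.B_subset_top hvB)).2.1) (St.pd.prime v hvB).2
    (CFT.Local.padicPlace_liesOverPrime v) hτ
  refine (show g y = (S.ru τ - 1) i j from he).trans ?_
  rw [(S.spec τ).2.2 h1, sub_self, Matrix.zero_apply]

include hg hvB in
/-- On the set the product of the alternatives is killed. -/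
theorem prod_altIdeal_le_ker (hvT : v ∈ T) :
    ∏ a : Option Bool, altIdeal P.rho v a ≤ RingHom.ker g := by
  have : IsNoetherianRing S.alg := IsNoetherianRing.of_finite O S.alg
  have hv : v.Prime := Fact.out
  have hvp := (St.pd.prime v hvB).2
  have hA := CFT.Local.padicPlace_liesOverPrime v
  have hbot : ∏ a : Option Bool, altIdeal S.ru v a = ⊥ :=
    prod_altIdeal_eq_bot (p := p) S.cont hvp (natCast_mem St.p_small)
      (fun τ hτ => ⟨by rw [(S.spec τ).1]; exact S.lev.trace_inertia S.G hvT hvp hA hτ,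
        det_eq_one_of_inertia S.detIsCyclotomic hv hvp hA hτ⟩)
      (fun F hF => det_eq_of_frobenius S.detIsCyclotomic hv hvp hA hF)
      (fun θ : S.alg →ₐ[O] KBar O => (θ : S.alg →+* KBar O))
      (sep_of_point (heckeModule S.hyp))
  have hmap : ∀ a, (altIdeal P.rho v a).map (g : P.Ring →+* S.alg) ≤ altIdeal S.ru v a :=
    fun a => by
    rw [altIdeal, Ideal.map_span]
    refine Ideal.span_mono ?_
    have h := altSet_map (v := v) (ru := P.rho) (g : P.Ring →+* S.alg) a
    rwa [show (g : P.Ring →+* S.alg).mapMatrix.toMonoidHom.comp P.rho = S.ru from hg] at h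
  refine (Ideal.map_le_iff_le_comap (f := (g : P.Ring →+* S.alg))).mp ?_
  rw [← Ideal.mapHom_apply, map_prod, ← hbot]
  exact Finset.prod_le_prod' fun a _ => hmap a

end Stage

namespace Stage

variable (P : Stage A St.top)

section Point

variable {v : ℕ} [Fact v.Prime]

/-- The point kills the alternative of its sign. -/
theorem toPoint_altSet (hvB : v ∈ St.pd.B) (hvr : v ∉ St.pd.ram) {y : P.Ring}
    (hy : y ∈ altSet P.rho v (some (St.pd.s v))) : P.toPoint y = 0 := by
  have h := altSet_map (v := v) (P.toPoint : P.Ring →+* O) (some (St.pd.s v)) ⟨y, hy, rfl⟩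
  rw [show (P.toPoint : P.Ring →+* O).mapMatrix.toMonoidHom.comp P.rho = St.x.xw from
    P.mapM_toPoint] at h
  exact St.sign v hvB hvr _ h

end Point

/-- The point at an auxiliary inertia element. -/
theorem toPoint_trace_aX (i : Fin r) : P.toPoint (P.rho (A.aX i)).trace = 2 := by
  have : Fact (A.qv i).Prime := ⟨A.isAux.prime i⟩
  have hd : A.qv i ∣ auxProd A.qv :=
    Finset.dvd_prod_of_mem (fun q => q) (Finset.mem_image_of_mem A.qv (Finset.mem_univ i))
  obtain ⟨a, hmem, -⟩ := A.gen i hd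
  have hnB : A.qv i ∉ St.pd.B := fun h =>
    A.isAux.notMem i (St.mem_bad_of_mem_top (St.B_subset_top h)).2.1
  have h1 := St.notMem_B hnB (fun h =>
    A.isAux.notMem i ((congrArg (· ∈ badSet p W) h).mpr p_mem_badSet))
      (A.isAux.prime i)
    (A.aX i) hmem
  refine (map_trace' (P.toPoint : P.Ring →+* O) P.rho (A.aX i)).trans ?_
  rw [P.mapM_toPoint, h1, Matrix.trace_one, Fintype.card_fin]
  norm_num

/-- The point at a good Frobenius. -/
theorem toPoint_trace_frobenius {ℓ : ℕ} (hℓ : ℓ.Prime) (hgood : W.IsGoodPrimeFor ℓ) (hℓp : ℓ ≠ p)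
    {B : ValuationSubring (AlgebraicClosure ℚ)} (hB : B.LiesOverPrime ℓ) {F : Gal}
    (hF : B.IsFrobeniusAt F ℓ) : P.toPoint (P.rho F).trace = (W.apOfModel ℓ : O) := by
  refine (map_trace' (P.toPoint : P.Ring →+* O) P.rho F).trans ?_
  rw [P.mapM_toPoint]
  exact (St.x.frob ℓ hℓ hgood hℓp B hB F hF).1

/-- The point kills strictness with its sign. -/
theorem toPoint_strictSet (hbad : ¬ W.IsGoodPrimeFor p) {y : P.Ring}
    (hy : y ∈ strictSet P.rho St.τ₀ St.ε p) : P.toPoint y = 0 := by
  obtain ⟨σ, hσ, i, j, rfl⟩ := hy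
  have h : (P.toPoint : P.Ring →+* O).mapMatrix
      ((P.rho St.τ₀ - (P.rho St.τ₀).det • 1) * (P.rho σ - (St.ε σ : P.Ring) • 1)) = 0 := by
    rw [map_mul, mapMatrix_sub_det, mapMatrix_sub_sign, P.mapM_toPoint]
    exact (St.ε_spec hbad).2 σ hσ
  exact congrFun (congrFun h i) j

end Stage

end Fermat.Agent.RT.Lifting
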