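import Fermat.Agent.RT.Algebra.FlipStep

/-!
# The chain of primes

Places are added one at a time. A choice gives at every place one alternative: `none`, or a sign.
`Ad` says from which sets a place may be added. The prime of a stage has full dimension and contains
the ideal of the choice with the sign of the point exactly at the places added so far.
-/

set_option autoImplicit false

noncomputable section

namespace Fermat.Agent.RT.Lifting

open IsLocalRing Fermat.Agent.RT.Algebra

variable {Λ : Type*} [CommRing Λ] [IsNoetherianRing Λ] [IsLocalRing Λ] {β : Type*} [Fintype β]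
  [DecidableEq β]

/-- The choice with the sign at the places of `D` and `none` elsewhere. -/
def goodChoice (s : β → Bool) (D : Finset β) : β → Option Bool :=
  fun b => if b ∈ D then some (s b) else none

omit [Fintype β] in
theorem goodChoice_mem (s : β → Bool) {D : Finset β} {b : β} (h : b ∈ D) :
    goodChoice s D b = some (s b) := if_pos h

omit [Fintype β] in
theorem goodChoice_notMem (s : β → Bool) {D : Finset β} {b : β} (h : b ∉ D) :
    goodChoice s D b = none := if_neg h

/-- What the chain uses of the ideals of the choices. -/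
structure ChoiceData (r : ℕ) (s : β → Bool) (π : Λ) (y : β → Λ) (Jn : β → Ideal Λ)
    (alts : β → Finset (Option Bool)) (L : (β → Option Bool) → Ideal Λ) (Ad : Finset β → Prop) :
    Prop where
  y_mem : ∀ b, y b ∈ maximalIdeal Λ
  sign : ∀ c b, (∀ x, c x ∈ insert none (alts x)) → c b = some (!s b) →
    ∃ k, π ^ k ∈ L c ⊔ Ideal.span {y b}
  y_le : ∀ D b, b ∈ D → y b ∈ L (goodChoice s D)
  none_le : ∀ c b, (∀ x, c x ∈ insert none (alts x)) → c b = none → Jn b ≤ L c
  dim : ∀ D b, b ∉ D → ∀ q, L (goodChoice s D) ⊔ Ideal.span {y b} ≤ q →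
    ringKrullDim (Λ ⧸ q) ≤ (r : WithBot ℕ∞)
  dim_pi : ∀ D b, b ∉ D → ringKrullDim
    (Λ ⧸ (L (goodChoice s D) ⊔ Ideal.span {y b} ⊔ Ideal.span {π})) < (r : WithBot ℕ∞)
  dim_none : ∀ D b b', Ad D → b ∈ D → b' ∉ D → ringKrullDim
    (Λ ⧸ (L (goodChoice s D) ⊔ Ideal.span {y b'} ⊔ Jn b)) < (r : WithBot ℕ∞)

variable {r : ℕ} {s : β → Bool} {π : Λ} {y : β → Λ} {Jn : β → Ideal Λ}
  {alts : β → Finset (Option Bool)} {L : (β → Option Bool) → Ideal Λ} {Ad : Finset β → Prop}

omit [IsNoetherianRing Λ] [IsLocalRing Λ] in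
theorem ringKrullDim_sup_lt {I I' J : Ideal Λ} (hI : I ≤ I') {d : WithBot ℕ∞}
    (h : ringKrullDim (Λ ⧸ (I ⊔ J)) < d) : ringKrullDim (Λ ⧸ (I' ⊔ J)) < d :=
  lt_of_le_of_lt (ringKrullDim_quotient_mono (sup_le_sup_right hI J)) h

/-- **One place more.** -/
theorem ChoiceData.exists_next (C : ChoiceData r s π y Jn alts L Ad) {D : Finset β} {w : β}
    (hw : w ∉ D) (hAd : Ad D) {AnnN AnnM : Ideal Λ} {q : Ideal Λ} [q.IsPrime]
    (hq : AnnN ≤ q) (hqL : L (goodChoice s D) ≤ q)
    (hdim : ((r + 1 : ℕ) : WithBot ℕ∞) ≤ ringKrullDim (Λ ⧸ q))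
    (hflip : ∀ P : Ideal Λ, P.IsPrime → AnnN ≤ P → y w ∈ P → π ∉ P →
      ∃ q' : Ideal Λ, q'.IsPrime ∧ q' ≤ P ∧ y w ∈ q' ∧ AnnM ≤ q' ∧
        ((r + 1 : ℕ) : WithBot ℕ∞) ≤ ringKrullDim (Λ ⧸ q'))
    (hprod : ∏ c ∈ Fintype.piFinset (fun b => if b ∈ insert w D then alts b else {none}), L c ≤
      AnnM) :
    ∃ q' : Ideal Λ, q'.IsPrime ∧ AnnM ≤ q' ∧ L (goodChoice s (insert w D)) ≤ q' ∧
      ((r + 1 : ℕ) : WithBot ℕ∞) ≤ ringKrullDim (Λ ⧸ q') := by
  classical
  let J : Option {b // b ∈ D} → Ideal Λ := fun o => o.elim (Ideal.span {π}) fun b => Jn b.1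
  -- a prime over `q` and `y w` avoiding `π` and the ideals of the choice `none` on `D`
  obtain ⟨P, hP, hqP, hyP, hJP, -⟩ := exists_prime_avoid (Ideal.IsPrime.ne_top ‹_›) (C.y_mem w)
    hdim J (by
      rintro (_ | ⟨b, hb⟩)
      · exact ringKrullDim_sup_lt (sup_le_sup_right hqL _) (C.dim_pi D w hw)
      · exact ringKrullDim_sup_lt (sup_le_sup_right hqL _) (C.dim_none D b w hAd hb hw))
  have hπ : π ∉ P := fun h => hJP none ((Ideal.span_singleton_le_iff_mem _).2 h)
  -- flip there; the new prime contains some `L c`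
  obtain ⟨q', hq', hle, hyq', hM, hdim'⟩ := hflip P hP (hq.trans hqP) hyP hπ
  obtain ⟨c, hc, hcq⟩ := hq'.prod_le.1 (hprod.trans hM)
  refine ⟨q', hq', hM, ?_, hdim'⟩
  rw [Fintype.mem_piFinset] at hc
  have hc' : ∀ x, c x ∈ insert none (alts x) := fun x => by
    have := hc x
    split_ifs at this
    exacts [Finset.mem_insert_of_mem this,
      by rw [Finset.mem_singleton.1 this]; exact Finset.mem_insert_self _ _]
  -- as `π ∉ P`, `c` has no wrong sign
  have hsign : ∀ b, y b ∈ P → c b ≠ some (!s b) := fun b hb he => by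
    obtain ⟨k, hk⟩ := C.sign c b hc' he
    exact hπ (hP.mem_of_pow_mem k
      (sup_le (hcq.trans hle) ((Ideal.span_singleton_le_iff_mem _).2 hb) hk))
  have hcases : ∀ b, y b ∈ P → c b = none ∨ c b = some (s b) := fun b hb => by
    rcases hcb : c b with _ | t
    · exact Or.inl rfl
    · refine Or.inr ?_
      rcases Bool.eq_or_eq_not t (s b) with rfl | rfl
      · rfl
      · exact absurd hcb (hsign b hb)
  -- away from `w` it is the good choice
  have hD : ∀ b, b ≠ w → c b = goodChoice s D b := fun b hbw => by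
    by_cases hb : b ∈ D
    · rw [goodChoice_mem s hb]
      refine (hcases b (hqP (hqL (C.y_le D b hb)))).resolve_left fun he => hJP (some ⟨b, hb⟩) ?_
      exact (C.none_le c b hc' he).trans (hcq.trans hle)
    · have := hc b
      rw [if_neg (by simp [hb, hbw])] at this
      rw [goodChoice_notMem s hb, Finset.mem_singleton.1 this]
  have hgood : c = goodChoice s (insert w D) := funext fun b => by
    rcases eq_or_ne b w with rfl | hbw
    · rw [goodChoice_mem s (Finset.mem_insert_self _ _)]
      -- at `w` the choice `none` is excluded by the dimension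
      refine (hcases b hyP).resolve_left fun he => ?_
      have hcD : c = goodChoice s D := funext fun x => by
        rcases eq_or_ne x b with rfl | hx
        · rw [he, goodChoice_notMem s hw]
        · exact hD x hx
      have h1 := C.dim D b hw q' (sup_le (hcD ▸ hcq) ((Ideal.span_singleton_le_iff_mem _).2 hyq'))
      exact absurd (hdim'.trans h1) (by norm_cast; omega)
    · rw [hD b hbw]
      simp [goodChoice, hbw]
  exact hgood ▸ hcq

end Fermat.Agent.RT.Lifting
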