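import Fermat.Agent.RT.Algebra.LimitSystem

/-!
# Ideals for the chain: choices, pullbacks and limits

The product over the choices lies in the sum over the places of the products of their
alternatives. Along a map onto modulo `K`, the pullback of `K` plus generators that are images lies
in the pullback of `K` plus their preimages. Limits respect products.
-/

set_option autoImplicit false

noncomputable section

namespace Fermat.Agent.RT.Lifting

open IsLocalRing Fermat.Agent.RT.Algebra

section Choices

variable {A : Type*} [CommRing A] {β : Type*} [Fintype β] [DecidableEq β] {γ : β → Type*}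
  [∀ b, DecidableEq (γ b)]

/-- Some place has all its alternatives among a family of choices, so the product of the sums over
the choices lies in the sum of the products of the alternatives. -/
theorem prod_choices_le (alts : ∀ b, Finset (γ b)) (K : ∀ b, γ b → Ideal A) (J : Ideal A) :
    ∏ c ∈ Fintype.piFinset alts, (J ⊔ ⨆ b, K b (c b)) ≤ J ⊔ ⨆ b, ∏ x ∈ alts b, K b x := by
  classical
  set T := J ⊔ ⨆ b, ∏ x ∈ alts b, K b x
  -- strengthen: `D b` holds the alternatives at `b` already multiplied in
  have key : ∀ (s : Finset (∀ b, γ b)) (D : ∀ b, Finset (γ b)),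
      (∀ c : ∀ b, γ b, (∀ b, c b ∈ alts b) → (∀ b, c b ∉ D b) → c ∈ s) →
        (∏ b, ∏ x ∈ D b, K b x) * ∏ c ∈ s, (J ⊔ ⨆ b, K b (c b)) ≤ T := by
    intro s
    induction s using Finset.induction_on with
    | empty =>
      intro D hD
      -- with no choice left, some place has all its alternatives in `D`
      obtain ⟨b, hb⟩ : ∃ b, alts b ⊆ D b := by
        by_contra hall
        simp only [not_exists, Finset.not_subset] at hall
        choose c hc hc' using hall
        exact absurd (hD c hc hc') (Finset.notMem_empty _)
      refine (Ideal.mul_le_inf.trans inf_le_left).trans (le_sup_of_le_right (le_iSup_of_le b ?_))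
      have h1 : ∏ b', ∏ x ∈ D b', K b' x ≤ ∏ x ∈ D b, K b x := by
        rw [← Finset.mul_prod_erase _ _ (Finset.mem_univ b)]
        exact Ideal.mul_le_inf.trans inf_le_left
      refine h1.trans ?_
      rw [← Finset.prod_sdiff hb]
      exact Ideal.mul_le_inf.trans inf_le_right
    | insert c s hcs ih =>
      intro D hD
      -- expand the factor of `c`: either `J`, or some `K b (c b)`
      rw [Finset.prod_insert hcs, ← mul_assoc, Ideal.mul_sup, Ideal.sup_mul]
      refine sup_le (((Ideal.mul_le_inf.trans inf_le_left).trans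
        (Ideal.mul_le_inf.trans inf_le_right)).trans
          le_sup_left) ?_
      rw [Ideal.mul_iSup, Ideal.iSup_mul]
      refine iSup_le fun b => ?_
      by_cases hb : c b ∈ D b
      · refine (Ideal.mul_mono_left (Ideal.mul_le_inf.trans inf_le_left)).trans
          (ih D fun d h1 h2 => ?_)
        rcases Finset.mem_insert.mp (hD d h1 h2) with rfl | h
        · exact absurd hb (h2 b)
        · exact h
      -- a new alternative joins `D b`
      · have e : (∏ b', ∏ x ∈ D b', K b' x) * K b (c b) =
            ∏ b', ∏ x ∈ Function.update D b (insert (c b) (D b)) b', K b' x := by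
          rw [← Finset.mul_prod_erase _ _ (Finset.mem_univ b),
            ← Finset.mul_prod_erase _ _ (Finset.mem_univ b), Function.update_self,
            Finset.prod_insert hb, mul_comm, ← mul_assoc]
          congr 1
          refine Finset.prod_congr rfl fun b' hb' => ?_
          rw [Function.update_of_ne (Finset.ne_of_mem_erase hb')]
        rw [e]
        refine ih _ fun d h1 h2 => ?_
        have hdb : d b ∉ insert (c b) (D b) := by simpa using h2 b
        have h3 : ∀ b', d b' ∉ D b' := fun b' h => by
          rcases eq_or_ne b' b with rfl | hne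
          · exact hdb (Finset.mem_insert_of_mem h)
          · exact h2 b' (by rwa [Function.update_of_ne hne])
        rcases Finset.mem_insert.mp (hD d h1 h3) with rfl | h
        · exact absurd (Finset.mem_insert_self _ _) hdb
        · exact h
  simpa [← Ideal.one_eq_top] using
    key (Fintype.piFinset alts) (fun _ => ∅) fun c h _ => Fintype.mem_piFinset.mpr h

end Choices

section Comap

variable {Λ A : Type*} [CommRing Λ] [CommRing A]

/-- Along a map onto the quotient by `K`, the pullback of a sum with generators in the image is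
the sum. -/
theorem comap_sup_span_le (φ : Λ →+* A) {K : Ideal A} (hK : ∀ a, ∃ l, a - φ l ∈ K) (s : Set Λ) :
    (K ⊔ Ideal.span (φ '' s)).comap φ ≤ K.comap φ ⊔ Ideal.span s := by
  intro x hx
  obtain ⟨k, hk, t, ht, hkt⟩ := Submodule.mem_sup.mp hx
  suffices ∀ t ∈ Ideal.span (φ '' s), ∃ l ∈ Ideal.span s, t - φ l ∈ K by
    obtain ⟨l, hl, hlt⟩ := this t ht
    refine Submodule.mem_sup.mpr ⟨x - l, ?_, l, hl, sub_add_cancel x l⟩
    rw [Ideal.mem_comap, map_sub, ← hkt, add_sub_assoc]
    exact add_mem hk hlt
  intro t ht
  induction ht using Submodule.span_induction with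
  | mem t h =>
    obtain ⟨l, hl, rfl⟩ := h
    exact ⟨l, Ideal.subset_span hl, by simp⟩
  | zero => exact ⟨0, zero_mem _, by simp⟩
  | add a b _ _ iha ihb =>
    obtain ⟨l, hl, hla⟩ := iha
    obtain ⟨l', hl', hlb⟩ := ihb
    exact ⟨l + l', add_mem hl hl', by rw [map_add, add_sub_add_comm]; exact add_mem hla hlb⟩
  | smul c a _ iha =>
    obtain ⟨l, hl, hla⟩ := iha
    obtain ⟨u, hu⟩ := hK c
    refine ⟨u * l, Ideal.mul_mem_left _ _ hl, ?_⟩
    rw [smul_eq_mul, map_mul, show c * a - φ u * φ l = (c - φ u) * a + φ u * (a - φ l) by ring]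
    exact add_mem (K.mul_mem_right _ hu) (K.mul_mem_left _ hla)

omit [CommRing A] in
/-- A product of pullbacks lies in the pullback of the product. -/
theorem prod_comap_le {ι A : Type*} [CommRing A] (φ : Λ →+* A) (s : Finset ι) (I : ι → Ideal A) :
    ∏ i ∈ s, (I i).comap φ ≤ (∏ i ∈ s, I i).comap φ := by
  rw [← Ideal.map_le_iff_le_comap, ← Ideal.mapHom_apply, map_prod]
  exact Finset.prod_le_prod' fun i _ => Ideal.map_comap_le

end Comap

section Limit

variable {Λ : Type*} [CommRing Λ] [IsLocalRing Λ] [IsNoetherianRing Λ]
  [IsAdicComplete (maximalIdeal Λ) Λ] [Finite (ResidueField Λ)] {U : Ultrafilter ℕ}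

omit [IsNoetherianRing Λ] [IsAdicComplete (maximalIdeal Λ) Λ] [Finite (ResidueField Λ)] in
theorem prod_limitIdeal_le {ι : Type*} (s : Finset ι) (I : ι → ℕ → Ideal Λ) :
    ∏ i ∈ s, limitIdeal U (I i) ≤ limitIdeal U fun n => ∏ i ∈ s, I i n := by
  classical
  induction s using Finset.induction_on with
  | empty =>
    simpa using le_limitIdeal (U := U) (J := (⊤ : Ideal Λ)) (I := fun _ => ⊤) fun _ => le_rfl
  | insert i s hi ih =>
    rw [Finset.prod_insert hi]
    refine (Ideal.mul_mono_right ih).trans (Ideal.mul_le.mpr ?_)
    rintro x ⟨z, hz, hx⟩ y ⟨w, hw, hy⟩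
    refine ⟨fun n => z n * w n, fun n => ?_, hx.mul hy⟩
    show z n * w n ∈ ∏ j ∈ insert i s, I j n
    rw [Finset.prod_insert hi]
    exact Ideal.mul_mem_mul (hz n) (hw n)

end Limit

end Fermat.Agent.RT.Lifting
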