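import Fermat.Agent.RT.Lifting.Present
import Fermat.Agent.RT.Algebra.LimitPattern
import Fermat.Agent.RT.Algebra.FlipStep

/-!
# One ring of variables for all the shapes

Per level one power series ring maps to the level ring, onto modulo the ideal of every shape from
the coordinates at the scalar places and the free variables of the shape. In the limit a shape has
dimension at most `r + 1` less what it saves.

See `exists_hom` and `ringKrullDim_shape_le`.
-/

set_option autoImplicit false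

noncomputable section

namespace Fermat.Agent.RT.Lifting

open IsLocalRing MvPowerSeries Fermat.Agent.Deform
open Fermat.Agent.RT.Germ Fermat.Agent.RT.Algebra

/-! ## The variables -/

section Vars

variable {O : Type} [CommRing O] {R : Type} [CommRing R] [IsLocalRing R] [IsNoetherianRing R]
  [Algebra O R] {σ : Type} [Finite σ]

/-- An evaluation of power series is determined by the images of the variables. -/
theorem evalHom_ext {f g : MvPowerSeries σ O →ₐ[O] R} (hm : ∀ i, f (X i) ∈ maximalIdeal R)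
    (h : ∀ i, f (X i) = g (X i)) : f = g := by
  have := Fintype.ofFinite σ
  refine AlgHom.ext fun x => sub_eq_zero.mp ?_
  refine (inferInstance : IsHausdorff (maximalIdeal R) R).haus _ fun n => ?_
  rw [SModEq.zero, smul_eq_mul, Ideal.mul_top]
  induction n generalizing x with
  | zero => simp
  | succ n ih =>
    obtain ⟨q, hq⟩ := Ideal.mem_span_range_iff_exists_fun.mp (Patching.sub_C_mem_span_range_X x)
    have hC : ∀ o, f (C o) = g (C o) := fun o => (f.commutes o).trans (g.commutes o).symm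
    rw [show x = ∑ i, q i * X i + C (constantCoeff x) by rw [hq]; ring, map_add, map_add, hC,
      add_sub_add_right_eq_sub, map_sum, map_sum, ← Finset.sum_sub_distrib]
    refine Ideal.sum_mem _ fun i _ => ?_
    rw [map_mul, map_mul, ← h, ← sub_mul, pow_succ]
    exact Ideal.mul_mem_mul (ih _) (hm i)

/-- The variables of one shape among those of all. -/
def varEmb {C ι G : Type} {r g : ℕ} (hg : g ≤ r) (i : ι) : C ⊕ Fin g ↪ C ⊕ (ι × Fin r ⊕ G) :=
  ⟨Sum.map id fun j => Sum.inl (i, Fin.castLE hg j),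
    Sum.map_injective.mpr ⟨Function.injective_id, fun _ _ hab =>
      Fin.castLE_injective hg (congrArg Prod.snd (Sum.inl_injective hab))⟩⟩

variable [IsLocalRing O] [IsAdicComplete (maximalIdeal R) R]

/-- **The variables**: presentations of finitely many quotients with common coordinates come from
one evaluation. -/
theorem exists_vars {C : Type} [Finite C] (x : C → R) (hx : ∀ c, x c ∈ maximalIdeal R) {ι : Type}
    [Finite ι] (I : ι → Ideal R) {r : ℕ} (g : ι → ℕ) (hgr : ∀ i, g i ≤ r)
    (K : ∀ i, Ideal (MvPowerSeries (C ⊕ Fin (g i)) O))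
    (hpres : ∀ i, I i ≠ ⊤ → ∃ γ : MvPowerSeries (C ⊕ Fin (g i)) O →ₐ[O] R ⧸ I i,
      Function.Surjective γ ∧ (∀ c, γ (X (Sum.inl c)) = Ideal.Quotient.mk (I i) (x c)) ∧
        K i ≤ RingHom.ker γ)
    {G : Type} [Finite G] (e : G → R) (he : ∀ j, e j ∈ maximalIdeal R) :
    ∃ θ : MvPowerSeries (C ⊕ (ι × Fin r ⊕ G)) O →ₐ[O] R, (∀ c, θ (X (Sum.inl c)) = x c) ∧
      (∀ j, θ (X (Sum.inr (Sum.inr j))) = e j) ∧
      (∀ i, θ (X i) ∈ maximalIdeal R) ∧
      ∀ i, (∀ a, ∃ z, a - θ (rename (varEmb (hgr i) i) z) ∈ I i) ∧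
        ∀ z ∈ K i, θ (rename (varEmb (hgr i) i) z) ∈ I i := by
  classical
  -- for each quotient, lifts of its further coordinates
  have haux : ∀ i, ∃ y : Fin (g i) → R, (∀ j, y j ∈ maximalIdeal R) ∧
      ∀ ψ : MvPowerSeries (C ⊕ Fin (g i)) O →ₐ[O] R, (∀ c, ψ (X (Sum.inl c)) = x c) →
        (∀ j, ψ (X (Sum.inr j)) = y j) →
          (∀ a, ∃ z, a - ψ z ∈ I i) ∧ ∀ z ∈ K i, ψ z ∈ I i := fun i => by
    by_cases hI : I i = ⊤
    · exact ⟨0, fun j => zero_mem _, fun ψ _ _ =>
        ⟨fun a => ⟨0, hI ▸ Submodule.mem_top⟩, fun z _ => hI ▸ Submodule.mem_top⟩⟩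
    obtain ⟨γ, hγ, hγx, hK⟩ := hpres i hI
    have : Nontrivial (R ⧸ I i) := Ideal.Quotient.nontrivial_iff.mpr hI
    have : IsLocalRing (R ⧸ I i) := IsLocalRing.of_surjective' _ Ideal.Quotient.mk_surjective
    have hmk : IsLocalHom (Ideal.Quotient.mk (I i)) :=
      IsLocalHom.of_surjective _ Ideal.Quotient.mk_surjective
    have hloc : IsLocalHom (γ : MvPowerSeries (C ⊕ Fin (g i)) O →+* R ⧸ I i) :=
      IsLocalHom.of_surjective _ hγ
    have hγm : ∀ q, γ (X q) ∈ maximalIdeal (R ⧸ I i) := fun q =>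
      map_nonunit (γ : MvPowerSeries (C ⊕ Fin (g i)) O →+* R ⧸ I i) _
        (span_X_le_maximalIdeal (Ideal.subset_span ⟨_, rfl⟩))
    choose y hy using fun j => Ideal.Quotient.mk_surjective (γ (X (Sum.inr j)))
    refine ⟨y, fun j hu => hγm _ (hy j ▸ hu.map (Ideal.Quotient.mk (I i))), fun ψ h1 h2 => ?_⟩
    -- an evaluation with these values lifts `γ`
    have key : γ = (Ideal.Quotient.mkₐ O (I i)).comp ψ := by
      refine evalHom_ext hγm fun q => ?_
      obtain c | j := q
      · simp [h1, hγx]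
      · simp [h2, hy]
    refine ⟨fun a => ?_, fun z hz => ?_⟩
    · obtain ⟨z, hz⟩ := hγ (Ideal.Quotient.mk (I i) a)
      refine ⟨z, Ideal.Quotient.eq.mp (hz.symm.trans ?_)⟩
      rw [key]
      rfl
    · have h3 := RingHom.mem_ker.mp (hK hz)
      rw [key] at h3
      exact Ideal.Quotient.eq_zero_iff_mem.mp h3
  choose y hym hy using haux
  -- one evaluation, with a block of `r` variables for each quotient
  let s : C ⊕ (ι × Fin r ⊕ G) → R :=
    Sum.elim x (Sum.elim (fun q => if hq : (q.2 : ℕ) < g q.1 then y q.1 ⟨q.2, hq⟩ else 0) e)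
  have hs : ∀ q, s q ∈ maximalIdeal R := by
    rintro (c | ⟨i, j⟩ | j)
    · exact hx c
    · simp only [s, Sum.elim_inr, Sum.elim_inl]
      split_ifs
      exacts [hym i _, zero_mem _]
    · exact he j
  obtain ⟨θ, hθ⟩ := Assembly.exists_evalHom (O := O) s hs
  refine ⟨θ, fun c => hθ _, fun j => hθ _, fun q => (hθ q).symm ▸ hs q, fun i =>
    hy i (θ.comp (rename (varEmb (hgr i) i))) (fun c => ?_) fun j => ?_⟩
  · rw [AlgHom.comp_apply, rename_X, hθ]
    rfl
  · rw [AlgHom.comp_apply, rename_X, hθ]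
    simp [s, varEmb]

end Vars

/-! ## The dimension of a limit -/

section Limit

variable {O : Type} [CommRing O] [IsDomain O] [IsDiscreteValuationRing O]
  [IsAdicComplete (maximalIdeal O) O] [Finite (ResidueField O)] {V : Type} [Finite V]
  {ι G : Type} [Finite ι] [Finite G] {r g : ℕ} (hg : g ≤ r) (i : ι) (η : V → O)
  (kind : V → PlaceKind) (U : Ultrafilter ℕ)
  (I : ℕ → Ideal (MvPowerSeries (Coord V (ι × Fin r ⊕ G)) O))

/-- The limit is presented by the variables and satisfies the relations. -/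
theorem limit_vars_props
    (hsurj : ∀ n x, ∃ z : MvPowerSeries (Coord V (Fin g)) O,
      x - rename (varEmb hg i) z ∈ I n)
    (hrel : ∀ n, ∀ z ∈ mixedRel (ρ := Fin g) η kind, rename (varEmb hg i) z ∈ I n) :
    haveI := isAdicComplete_mvPowerSeries (σ := Coord V (ι × Fin r ⊕ G)) (O := O)
    haveI := finite_residueField_mvPowerSeries (σ := Coord V (ι × Fin r ⊕ G)) (O := O)
    (∀ x, ∃ z : MvPowerSeries (Coord V (Fin g)) O,
      x - rename (varEmb hg i) z ∈ limitIdeal U I) ∧
      ∀ z ∈ mixedRel (ρ := Fin g) η kind, rename (varEmb hg i) z ∈ limitIdeal U I := by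
  have := isAdicComplete_mvPowerSeries (σ := Coord V (ι × Fin r ⊕ G)) (O := O)
  have := finite_residueField_mvPowerSeries (σ := Coord V (ι × Fin r ⊕ G)) (O := O)
  have := isAdicComplete_mvPowerSeries (σ := Coord V (Fin g)) (O := O)
  have := finite_residueField_mvPowerSeries (σ := Coord V (Fin g)) (O := O)
  let e := (rename (varEmb hg i) (R := O) :
    MvPowerSeries (Coord V (Fin g)) O →ₐ[O] MvPowerSeries (Coord V (ι × Fin r ⊕ G)) O).toRingHom
  have he : ∀ a ∈ maximalIdeal (MvPowerSeries (Coord V (Fin g)) O), e a ∈ maximalIdeal _ :=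
    fun a ha hu => by
      refine ha (MvPowerSeries.isUnit_iff_constantCoeff.mpr ?_)
      have := MvPowerSeries.isUnit_iff_constantCoeff.mp hu
      rwa [show e a = rename (varEmb hg i) a from rfl, constantCoeff_rename] at this
  obtain ⟨e', -, hconv, hs, hR⟩ := exists_limit_presentation U (fun _ => e) (fun _ => he) I hsurj
    (R := mixedRel η kind) hrel
  have hee : e' = e := RingHom.ext fun z =>
    ((conv_const (U := U) (e z)).unique (hconv _ z (conv_const z))).symm
  subst hee
  exact ⟨hs, hR⟩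

variable {q : Ideal (MvPowerSeries (Coord V (ι × Fin r ⊕ G)) O)}
  (hs : ∀ x, ∃ z : MvPowerSeries (Coord V (Fin g)) O, x - rename (varEmb hg i) z ∈ q)
  (hR : ∀ z ∈ mixedRel (ρ := Fin g) η kind, rename (varEmb hg i) z ∈ q)
  (hη : ∀ v, η v ∈ maximalIdeal O)

include hs hR hη in
omit [Finite ι] [Finite G] in
/-- **The dimension at a shape.** -/
theorem ringKrullDim_vars_le :
    ringKrullDim (MvPowerSeries (Coord V (ι × Fin r ⊕ G)) O ⧸ q) ≤
      ((Nat.card (MixedIndex kind (Fin g)) + 1 : ℕ) : WithBot ℕ∞) :=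
  (ringKrullDim_le_of_surjective_mod (rename (varEmb hg i) (R := O)).toRingHom hs hR).trans
    (ringKrullDim_quotient_le_mixed η kind hη le_rfl)

include hs hR hη in
omit [Finite ι] [Finite G] in
/-- It drops when a nonzero constant is in the ideal. -/
theorem ringKrullDim_vars_lt {a : O} (ha : a ≠ 0)
    (haq : algebraMap O (MvPowerSeries (Coord V (ι × Fin r ⊕ G)) O) a ∈ q) :
    ringKrullDim (MvPowerSeries (Coord V (ι × Fin r ⊕ G)) O ⧸ q) <
      ((Nat.card (MixedIndex kind (Fin g)) + 1 : ℕ) : WithBot ℕ∞) := by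
  let e := (rename (varEmb hg i) (R := O) :
    MvPowerSeries (Coord V (Fin g)) O →ₐ[O] MvPowerSeries (Coord V (ι × Fin r ⊕ G)) O)
  refine lt_of_le_of_lt (ringKrullDim_le_of_surjective_mod e.toRingHom (R := q.comap e.toRingHom)
    hs fun z hz => hz) (ringKrullDim_quotient_lt_mixed η kind hη (fun z hz => hR z hz) ha ?_)
  show e (C a) ∈ q
  rw [show e (C a) = algebraMap O _ a from e.commutes a]
  exact haq

end Limit

variable {O : Type} [CommRing O] [IsDomain O] [IsDiscreteValuationRing O]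
  [IsAdicComplete (maximalIdeal O) O] [Finite (ResidueField O)] [CharZero O]
  {p : ℕ} [Fact p.Prime] [CharP (ResidueField O) p] {Wd : Rigid O}

/-! ## The variables of the shapes -/

namespace Shape

variable (κ : Shape) (pd : PlaceData p Wd)

/-- What a shape saves: its double places, and one for both conditions at `p`. -/
def saved : ℕ := (κ.bothSet pd).card + κ.atP.weight

omit [IsAdicComplete (maximalIdeal O) O] [Finite (ResidueField O)] [CharZero O]
  [CharP (ResidueField O) p] [Fact (Nat.Prime p)] in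
/-- The parameters of a shape. -/
theorem card_mixedIndex_add_saved {r : ℕ} (hw : (κ.pat pd).weight ≤ r) :
    Nat.card (MixedIndex (fun v : pd.Pl => κ.kind v.1) (Fin (κ.free pd r))) + κ.saved pd = r := by
  classical
  have h := card_mixedIndex_add (fun v : pd.Pl => κ.kind v.1) (ρ := Fin (κ.free pd r))
  have hs : Nat.card pd.Pl = pd.scalars.card := by
    rw [Nat.card_eq_fintype_card]
    exact Fintype.card_coe _
  have hb : Nat.card {v : pd.Pl // κ.kind v.1 = .both} =
      ((κ.bothSet pd).filter (· ∈ pd.scalars)).card := by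
    rw [Nat.card_congr (Equiv.subtypeSubtypeEquivSubtypeInter _ fun v => κ.kind v = .both)]
    refine Nat.subtype_card _ fun v => ?_
    simp only [Finset.mem_filter, bothSet, Finset.mem_sdiff, pd.mem_scalars]
    constructor
    · rintro ⟨⟨-, h2⟩, h1⟩; exact ⟨h1, h2⟩
    · rintro ⟨h1, h2⟩; exact ⟨⟨⟨h1.1, h1.2.1⟩, h2⟩, h1⟩
  rw [Nat.card_sum (α := pd.Pl × Fin 3), Nat.card_prod, Nat.card_fin, Nat.card_fin, hs, hb] at h
  rw [weight_pat] at hw
  have hsplit := Finset.card_filter_add_card_filter_not (s := κ.bothSet pd) (· ∈ pd.scalars)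
  simp only [free, saved] at h ⊢
  omega

end Shape

variable (pd : PlaceData p Wd)

/-- The ring of variables of finitely many shapes, with further named variables `G`. -/
abbrev Lam (ι : Type) (r : ℕ) (G : Type) : Type :=
  MvPowerSeries (Coord pd.Pl ((ι × Fin r) ⊕ G)) O

variable {ι G : Type} (κ : ι → Shape) {r : ℕ}

/-- The variables of a shape in the ring of variables. -/
def incl (i : ι) : MvPowerSeries (Coord pd.Pl (Fin ((κ i).free pd r))) O →ₐ[O] Lam pd ι r G :=
  rename (varEmb (Nat.sub_le _ _) i)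

variable [Finite ι] [Finite G]

omit [CharZero O] in
/-- **One level**: the evaluation, onto modulo the ideal of every shape. -/
theorem exists_hom {A : Type} [CommRing A] [IsLocalRing A] [Algebra O A] [Module.Finite O A]
    {Q : Set ℕ} {ru : Gal →* M2 A} (L : LiftData pd Q ru)
    (hfin : GaloisFactorsThroughFiniteLevel Wd.rb) {c : O} (hc : 2 * c = 1) (J : ι → Ideal A)
    (hbound : ∀ i, ∀ (R : Type) [CommRing R] [IsLocalRing R] [IsNoetherianRing R] [Algebra O R]
        (h : IsResAlg O R) (r' : Gal →* M2 R) (hr' : IsCont r'), Lifts Wd h r' → IsNormal Wd r' →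
        Algebra.adjoin O (entries r') = ⊤ → ((κ i).pat pd).Holds p Q r' hr' →
        ∀ (C : Type) (x : C → R), ((κ i).pat pd).KillsScalar Wd h r' x →
          Module.finrank (ResidueField O) (Assembly.killedDer h x) + ((κ i).pat pd).weight ≤ r)
    (hatP : ∀ i [IsLocalRing (A ⧸ shapeIdeal pd (κ i) ru (J i))]
      (hc' : IsCont (mapM (Ideal.Quotient.mk (shapeIdeal pd (κ i) ru (J i))) ru)),
      (κ i).atP.Holds (toRep (mapM (Ideal.Quotient.mk (shapeIdeal pd (κ i) ru (J i))) ru) hc') p)
    (g : G → A) (hg : ∀ j, g j ∈ maximalIdeal A) :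
    ∃ φ : Lam pd ι r G →ₐ[O] A, (∀ a ∈ maximalIdeal (Lam pd ι r G), φ a ∈ maximalIdeal A) ∧
      (∀ x, φ (X (Sum.inl x)) = pd.coord (algebraMap O A c) ru x) ∧
      (∀ j, φ (X (Sum.inr (Sum.inr j))) = g j) ∧
      ∀ i, (∀ x, ∃ a, x - incl pd κ i a ∈ (shapeIdeal pd (κ i) ru (J i)).comap φ) ∧
        mixedRel (pd.eta c) (fun v : pd.Pl => (κ i).kind v.1) ≤
          ((shapeIdeal pd (κ i) ru (J i)).comap φ).comap (incl pd κ i) ∧
        ((shapeIdeal pd (κ i) ru (J i)).comap φ ≠ ⊤ → ((κ i).pat pd).weight ≤ r) ∧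
        ∀ a, ∃ x, a - φ x ∈ shapeIdeal pd (κ i) ru (J i) := by
  classical
  have := IsNoetherianRing.of_finite O A
  have := L.res.isLocalHom
  have := IsLocalRing.isAdicComplete_of_module_finite (𝒪 := O) (T := A)
  -- each proper shape ideal has a presentation
  have hco := fun i (hI : shapeIdeal pd (κ i) ru (J i) ≠ ⊤) =>
    L.exists_coords hfin hc (κ i) (hbound i) hI (hatP i)
  -- made simultaneous
  obtain ⟨θ, hθ, hθg, hm, hs⟩ := exists_vars (O := O) (r := r) _
    (L.coord_mem (algebraMap O A c)) (fun i => shapeIdeal pd (κ i) ru (J i))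
    (fun i => (κ i).free pd r) (fun i => Nat.sub_le _ _)
    (fun i => mixedRel (pd.eta c) fun v : pd.Pl => (κ i).kind v.1) (fun i hI => (hco i hI).2) g hg
  have := Fintype.ofFinite (Coord pd.Pl ((ι × Fin r) ⊕ G))
  refine ⟨θ, fun a ha => ?_, hθ, hθg, fun i => ⟨fun x => ?_, fun z hz => ?_, fun hI => ?_,
    fun a => ?_⟩⟩
  -- the evaluation is local
  · obtain ⟨q, hq⟩ := Ideal.mem_span_range_iff_exists_fun.mp (Patching.sub_C_mem_span_range_X a)
    rw [show a = ∑ i, q i * X i + C (constantCoeff a) by rw [hq]; ring, map_add, map_sum]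
    refine add_mem (Ideal.sum_mem _ fun i _ => ?_) ?_
    · rw [map_mul]; exact Ideal.mul_mem_left _ _ (hm i)
    · rw [show θ (C (constantCoeff a)) = algebraMap O A (constantCoeff a) from θ.commutes _]
      exact map_nonunit _ _ ((IsLocalRing.mem_maximalIdeal _).mpr fun hu =>
        (IsLocalRing.mem_maximalIdeal _).mp ha (MvPowerSeries.isUnit_iff_constantCoeff.mpr hu))
  · obtain ⟨z, hz⟩ := (hs i).1 (θ x)
    exact ⟨z, Ideal.mem_comap.mpr (by rwa [map_sub])⟩
  · exact (hs i).2 z hz
  · exact (hco i fun h => hI (by rw [h, Ideal.comap_top])).1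
  · obtain ⟨z, hz⟩ := (hs i).1 a
    exact ⟨_, hz⟩

variable {c : O} (U : Ultrafilter ℕ) (i : ι) (I : ℕ → Ideal (Lam pd ι r G))
  (hsurj : ∀ n x, ∃ a, x - incl pd κ i a ∈ I n)
  (hrel : ∀ n, mixedRel (pd.eta c) (fun v : pd.Pl => (κ i).kind v.1) ≤
    (I n).comap (incl pd κ i))
  (hw : ∀ n, I n ≠ ⊤ → ((κ i).pat pd).weight ≤ r)

include hsurj hrel in
omit [CharZero O] [Fact (Nat.Prime p)] [CharP (ResidueField O) p] in
/-- The limit of a shape is presented by its variables and satisfies its relations. -/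
theorem limit_shape_props :
    haveI := isAdicComplete_mvPowerSeries (σ := Coord pd.Pl ((ι × Fin r) ⊕ G)) (O := O)
    haveI := finite_residueField_mvPowerSeries (σ := Coord pd.Pl ((ι × Fin r) ⊕ G)) (O := O)
    (∀ x, ∃ a, x - incl pd κ i a ∈ limitIdeal U I) ∧
      mixedRel (pd.eta c) (fun v : pd.Pl => (κ i).kind v.1) ≤
        (limitIdeal U I).comap (incl pd κ i) :=
  limit_vars_props (Nat.sub_le _ _) i (pd.eta c) _ U I hsurj fun n _ hz => hrel n hz

omit [CharZero O] [CharP (ResidueField O) p] [Fact (Nat.Prime p)] in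
include hsurj hrel hw in
/-- **The dimension of a shape in the limit.** -/
theorem ringKrullDim_shape_le {q : Ideal (Lam pd ι r G)}
    (hq : haveI := isAdicComplete_mvPowerSeries (σ := Coord pd.Pl ((ι × Fin r) ⊕ G)) (O := O)
      haveI := finite_residueField_mvPowerSeries (σ := Coord pd.Pl ((ι × Fin r) ⊕ G)) (O := O)
      limitIdeal U I ≤ q) :
    ringKrullDim (Lam pd ι r G ⧸ q) ≤
        ((r + 1 - ((κ i).bothSet pd).card - (κ i).atP.weight : ℕ) : WithBot ℕ∞) ∧
      ∀ a : O, a ≠ 0 → algebraMap O (Lam pd ι r G) a ∈ q →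
        ringKrullDim (Lam pd ι r G ⧸ q) <
          ((r + 1 - ((κ i).bothSet pd).card - (κ i).atP.weight : ℕ) : WithBot ℕ∞) := by
  have := isAdicComplete_mvPowerSeries (σ := Coord pd.Pl ((ι × Fin r) ⊕ G)) (O := O)
  have := finite_residueField_mvPowerSeries (σ := Coord pd.Pl ((ι × Fin r) ⊕ G)) (O := O)
  by_cases hall : ∀ n, I n = ⊤
  · have htop : q = ⊤ := top_le_iff.mp ((le_limitIdeal fun n => (hall n).ge).trans hq)
    have : Subsingleton (Lam pd ι r G ⧸ q) := Ideal.Quotient.subsingleton_iff.mpr htop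
    rw [ringKrullDim_eq_bot_of_subsingleton]
    exact ⟨bot_le, fun _ _ _ => WithBot.bot_lt_coe _⟩
  push Not at hall
  obtain ⟨n₀, hn₀⟩ := hall
  have hcard : Nat.card (MixedIndex (fun v : pd.Pl => (κ i).kind v.1)
      (Fin ((κ i).free pd r))) + 1 = r + 1 - ((κ i).bothSet pd).card - (κ i).atP.weight := by
    have h := (κ i).card_mixedIndex_add_saved pd (hw n₀ hn₀)
    rw [Shape.saved] at h
    omega
  rw [← hcard]
  obtain ⟨hs, hR⟩ := limit_shape_props pd κ U i I hsurj hrel
  have hs' := fun x => (hs x).imp fun _ hz => hq hz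
  exact ⟨ringKrullDim_vars_le _ i (pd.eta c) _ hs' (fun z hz => hq (hR hz)) (pd.eta_mem c),
    fun a ha haq =>
      ringKrullDim_vars_lt _ i (pd.eta c) _ hs' (fun z hz => hq (hR hz)) (pd.eta_mem c) ha haq⟩

omit [IsAdicComplete (maximalIdeal O) O] [Finite (ResidueField O)] [CharZero O]
  [CharP (ResidueField O) p] [Finite ι] [Fact (Nat.Prime p)] in
/-- **The shape of the end**: special at every place and one condition at `p`. -/
theorem card_free_of_special (hκ : ∀ v ∈ pd.B, v ∉ pd.ram → (κ i).kind v = .special)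
    (hp : (κ i).atP.weight = 0) (hwi : ((κ i).pat pd).weight ≤ r) :
    Nat.card (pd.Pl × Fin 3 ⊕ Fin ((κ i).free pd r)) = r ∧
      specialRel (pd.eta c) (ρ := Fin ((κ i).free pd r)) ≤
        mixedRel (pd.eta c) fun v : pd.Pl => (κ i).kind v.1 := by
  classical
  have hv : ∀ v : pd.Pl, (κ i).kind v.1 = .special := fun v =>
    hκ v.1 (pd.mem_scalars.1 v.2).1 (pd.mem_scalars.1 v.2).2.1
  have hb : (κ i).bothSet pd = ∅ := Finset.filter_eq_empty_iff.mpr fun v hv' h => by
    rw [hκ v (Finset.mem_sdiff.1 hv').1 (Finset.mem_sdiff.1 hv').2] at h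
    cases h
  refine ⟨?_, Ideal.span_le.mpr ?_⟩
  · have hs : Nat.card pd.Pl = pd.scalars.card := by
      rw [Nat.card_eq_fintype_card]
      exact Fintype.card_coe _
    rw [Shape.weight_pat, hb, hp] at hwi
    rw [Nat.card_sum, Nat.card_prod, Nat.card_fin, Nat.card_fin, hs]
    simp only [Shape.free, hb, hp, Finset.filter_empty, Finset.card_empty, add_zero] at hwi ⊢
    omega
  · rintro y (⟨v, rfl⟩ | ⟨⟨v, k⟩, rfl⟩) <;>
      refine Ideal.subset_span (Set.mem_iUnion.mpr ⟨v, ?_⟩) <;>
      simp only [placeRel, hv v]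
    · exact Set.mem_insert _ _
    · exact Set.mem_insert_of_mem _ ⟨k, rfl⟩

end Fermat.Agent.RT.Lifting
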