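import Fermat.Agent.RT.Lifting.Family
import Fermat.Agent.RT.Lifting.Chain
import Fermat.Agent.RT.Lifting.Vars
import Fermat.Agent.RT.Lifting.Ideals
import Fermat.Agent.RT.Lifting.Kinds

/-!
# The shapes of the assembly and their ideals

The places that are added are those at which the point ramifies and the residual representation does
not, and `p` when it is bad and can be left out of the level; one shape for each kind at each of
them, one ring of variables for all. The ideals of the choices form the data of the chain.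

See `choiceData` and `prod_choiceL_le`.
-/

set_option autoImplicit false

noncomputable section

namespace Fermat.Agent.RT.Lifting

open IsLocalRing MvPowerSeries Fermat.Agent.Deform Fermat.Agent.RT.Algebra
open Fermat.Agent.RT.Germ
open scoped Classical

attribute [local instance] Fermat.Agent.RT.Algebra.isAdicComplete_mvPowerSeries
attribute [local instance] Fermat.Agent.RT.Algebra.finite_residueField_mvPowerSeries

instance instFintypePlaceKindP5 : Fintype PlaceKind :=
  ⟨{.special, .unramified, .both}, fun k => by cases k <;> simp⟩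

/-! ## The places that are added and their shapes -/

/-- The condition at `p` of a kind. -/
def atPOf : PlaceKind → Pattern.CondAtP
  | .special => .strict
  | .unramified => .flat
  | .both => .both

/-- A Frobenius element at a prime. -/
def frobAt (ℓ : ℕ) : Gal :=
  if h : ℓ.Prime then
    haveI : Fact ℓ.Prime := ⟨h⟩
    (Arith.exists_isFrobeniusAt (CFT.Local.padicPlace_liesOverPrime ℓ) h).choose
  else 1

/-- `frobAt ℓ` is a Frobenius element at the standard place over the prime `ℓ`. -/
theorem frobAt_spec (ℓ : ℕ) [Fact ℓ.Prime] : (padicPlace ℓ).IsFrobeniusAt (frobAt ℓ) ℓ := by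
  rw [frobAt, dif_pos (Fact.out : ℓ.Prime)]
  exact (Arith.exists_isFrobeniusAt (CFT.Local.padicPlace_liesOverPrime ℓ) Fact.out).choose_spec

variable {O : Type} [CommRing O] [IsDomain O] [IsDiscreteValuationRing O]
  [IsAdicComplete (maximalIdeal O) O] [Finite (ResidueField O)] [CharZero O]
  {p : ℕ} [Fact p.Prime] [CharP (ResidueField O) p] [Algebra (ZMod p) (ResidueField O)]
  {W : WeierstrassCurve ℤ}

attribute [local instance] Stage.finite_alg

namespace Setup

variable (St : Setup O p W)

/-- `p` is bad and can be left out of the level. -/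
def CaseO : Prop :=
  ¬ W.IsGoodPrimeFor p ∧ W.IsResiduallyModularOfLevel p (∏ x ∈ St.pd.B, x)

/-- The places that are added. -/
def plus : Finset ℕ :=
  if St.CaseO then insert p (St.pd.B \ St.pd.ram) else St.pd.B \ St.pd.ram

/-- The first set of places. -/
def base : Finset ℕ :=
  if ¬ W.IsGoodPrimeFor p ∧ ¬ St.CaseO then insert p St.pd.ram else St.pd.ram

omit [IsAdicComplete (maximalIdeal O) O] [Finite (ResidueField O)] [CharZero O]
  [CharP (ResidueField O) p] in
/-- The added places are those of `B` outside `ram`, and `p` in case `O`. -/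
theorem mem_plus {v : ℕ} :
    v ∈ St.plus ↔ (v ∈ St.pd.B ∧ v ∉ St.pd.ram) ∨ (v = p ∧ St.CaseO) := by
  unfold plus
  split_ifs with h
  · simp only [Finset.mem_insert, Finset.mem_sdiff, h, and_true]
    exact or_comm
  · simp [h]

omit [IsAdicComplete (maximalIdeal O) O] [Finite (ResidueField O)] [CharZero O]
  [CharP (ResidueField O) p] in
/-- `p` is not among the places `B`. -/
theorem p_notMem_B : p ∉ St.pd.B := fun h => ((St.mem_B p).1 h).1 rfl

/-- The index of a place that is added. -/
abbrev Idx : Type := {v : ℕ // v ∈ St.plus}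

omit [IsAdicComplete (maximalIdeal O) O] [Finite (ResidueField O)] [CharZero O]
  [CharP (ResidueField O) p] in
/-- An added place other than `p` is in `B` and outside `ram`. -/
theorem mem_of_ne {b : St.Idx} (h : b.1 ≠ p) : b.1 ∈ St.pd.B ∧ b.1 ∉ St.pd.ram :=
  (St.mem_plus.1 b.2).resolve_right fun h' => h h'.1

/-- The sign of the point at a place that is added. -/
def sgnOf (b : St.Idx) : Bool := if b.1 = p then true else St.pd.s b.1

/-- The alternatives at a place that is added. -/
def alts (b : St.Idx) : Finset (Option Bool) := if b.1 = p then {none, some true} else Finset.univ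

/-- The shape of a kind at every place that is added. -/
def shapeOf (i : St.Idx → PlaceKind) : Shape where
  kind v := if h : v ∈ St.plus then i ⟨v, h⟩ else .unramified
  atP := if h : p ∈ St.plus then atPOf (i ⟨p, h⟩)
    else if W.IsGoodPrimeFor p then .flat else .strict

omit [IsAdicComplete (maximalIdeal O) O] [Finite (ResidueField O)] [CharZero O]
  [CharP (ResidueField O) p] in
theorem kind_shapeOf (i : St.Idx → PlaceKind) (b : St.Idx) : (St.shapeOf i).kind b.1 = i b := by
  simp only [shapeOf, dif_pos b.2]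

omit [IsAdicComplete (maximalIdeal O) O] [Finite (ResidueField O)] [CharZero O]
  [CharP (ResidueField O) p] in
theorem atP_shapeOf (i : St.Idx → PlaceKind) {b : St.Idx} (h : b.1 = p) :
    (St.shapeOf i).atP = atPOf (i b) := by
  have hp : p ∈ St.plus := (congrArg (· ∈ St.plus) h).mp b.2
  obtain rfl : b = ⟨p, hp⟩ := Subtype.ext h
  simp only [shapeOf, dif_pos hp]

omit [IsAdicComplete (maximalIdeal O) O] [Finite (ResidueField O)] [CharZero O]
  [CharP (ResidueField O) p] in
theorem both_le_saved {i : St.Idx → PlaceKind} {b : St.Idx} (h : i b = .both) :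
    1 ≤ ((St.shapeOf i).bothSet St.pd).card + (St.shapeOf i).atP.weight := by
  by_cases hb : b.1 = p
  · rw [St.atP_shapeOf i hb, h]; exact Nat.le_add_left _ _
  · refine le_add_right (Finset.card_pos.2 ⟨b.1, Finset.mem_filter.2 ⟨?_, ?_⟩⟩)
    · exact Finset.mem_sdiff.2 (St.mem_of_ne hb)
    · rw [St.kind_shapeOf, h]

omit [IsAdicComplete (maximalIdeal O) O] [Finite (ResidueField O)] [CharZero O]
  [CharP (ResidueField O) p] in
theorem two_le_saved {i : St.Idx → PlaceKind} {b b' : St.Idx} (hb : b.1 ≠ p) (hne : b ≠ b')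
    (h : i b = .both) (h' : i b' = .both) :
    2 ≤ ((St.shapeOf i).bothSet St.pd).card + (St.shapeOf i).atP.weight := by
  have hm : ∀ x : St.Idx, x.1 ≠ p → i x = .both → x.1 ∈ (St.shapeOf i).bothSet St.pd :=
    fun x hx hxi => Finset.mem_filter.2
      ⟨Finset.mem_sdiff.2 (St.mem_of_ne hx), by rw [St.kind_shapeOf, hxi]⟩
  by_cases hb' : b'.1 = p
  · rw [St.atP_shapeOf i hb', h']
    exact Nat.add_le_add_right (Finset.card_pos.2 ⟨b.1, hm b hb h⟩) 1
  · refine le_add_right (Finset.one_lt_card.2 ⟨b.1, hm b hb h, b'.1, hm b' hb' h', fun e => ?_⟩)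
    exact hne (Subtype.ext e)

variable (ls : Finset ℕ) (r : ℕ)

/-- The named variables. -/
abbrev GVar : Type :=
  (St.Idx ⊕ St.Idx × Fin 2 × Fin 2) ⊕ (Fin r ⊕ {ℓ : ℕ // ℓ ∈ ls})

/-- The ring of variables of the assembly. -/
abbrev Vars : Type := Lam St.pd (St.Idx → PlaceKind) r (St.GVar ls r)

variable {ls r}

/-- A named variable. -/
def var (j : St.GVar ls r) : St.Vars ls r := X (Sum.inr (Sum.inr j))

/-- The variable of a place that is added. -/
def yVar (b : St.Idx) : St.Vars ls r := St.var (Sum.inl (Sum.inl b))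

end Setup

variable (St : Setup O p W) (ls : Finset ℕ) (r : ℕ)

/-! ## The ideals at the levels -/

set_option genSizeOfSpec false in
set_option genInjectivity false in
/-- The levels with the ideal of flatness at `p`. -/
structure Pre where
  A : ∀ n, AuxData St ls r n
  P : ∀ n, Stage (A n) St.top
  flatJ : ∀ n, Ideal (P n).Ring

variable {St ls r}

namespace Pre

variable (Q : Pre St ls r) (n : ℕ)

/-- The ideal of strictness. -/
def strictI : Ideal (Q.P n).Ring := Ideal.span (strictSet (Q.P n).rho St.τ₀ St.ε p)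

/-- The ideal of an alternative. -/
def altI (b : St.Idx) (a : Option Bool) : Ideal (Q.P n).Ring :=
  if hb : b.1 = p then
    match a with
    | none => Q.flatJ n
    | some true => Q.strictI n
    | some false => ⊤
  else
    haveI : Fact b.1.Prime := ⟨(St.pd.prime b.1 (St.mem_of_ne hb).1).1⟩
    altIdeal (Q.P n).rho b.1 a

/-- The ideal of a kind. -/
def kindI (b : St.Idx) (k : PlaceKind) : Ideal (Q.P n).Ring :=
  if b.1 = p then
    match k with
    | .special => Q.strictI n
    | .unramified => Q.flatJ n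
    | .both => Q.flatJ n ⊔ Q.strictI n
  else Ideal.span (placeSet St.pd (Q.P n).rho b.1 k)

/-- The ideal at `p` of a shape. -/
def atPI (i : St.Idx → PlaceKind) : Ideal (Q.P n).Ring :=
  if h : p ∈ St.plus then Q.kindI n ⟨p, h⟩ (i ⟨p, h⟩) else ⊥

/-- The ideal of a shape. -/
def shapeI (i : St.Idx → PlaceKind) : Ideal (Q.P n).Ring :=
  shapeIdeal St.pd (St.shapeOf i) (Q.P n).rho (Q.atPI n i)

theorem shapeI_eq (i : St.Idx → PlaceKind) : Q.shapeI n i = ⨆ b, Q.kindI n b (i b) := by
  rw [shapeI, shapeIdeal_eq]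
  refine le_antisymm (sup_le ?_ (iSup₂_le fun v hv => ?_)) (iSup_le fun b => ?_)
  · unfold atPI
    split_ifs with h
    · exact le_iSup_of_le ⟨p, h⟩ le_rfl
    · exact bot_le
  · rw [Finset.mem_sdiff] at hv
    have hvp : v ≠ p := fun e => St.p_notMem_B (e ▸ hv.1)
    let b : St.Idx := ⟨v, St.mem_plus.2 (Or.inl hv)⟩
    refine le_iSup_of_le b ?_
    rw [show Q.kindI n b (i b) = Ideal.span (placeSet St.pd (Q.P n).rho v (i b)) by
      unfold kindI; exact if_neg hvp, ← St.kind_shapeOf i b]
  · by_cases hb : b.1 = p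
    · have hp : p ∈ St.plus := (congrArg (· ∈ St.plus) hb).mp b.2
      obtain rfl : b = ⟨p, hp⟩ := Subtype.ext hb
      refine le_sup_of_le_left ?_
      rw [atPI, dif_pos hp]
    · refine le_sup_of_le_right (le_iSup₂_of_le b.1 (Finset.mem_sdiff.2 (St.mem_of_ne hb)) ?_)
      unfold kindI
      rw [if_neg hb, St.kind_shapeOf]

theorem altI_none (b : St.Idx) : Q.altI n b none = Q.kindI n b .unramified := by
  by_cases hb : b.1 = p
  · simp [altI, kindI, hb]
  · have : Fact b.1.Prime := ⟨(St.pd.prime b.1 (St.mem_of_ne hb).1).1⟩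
    unfold altI kindI
    rw [dif_neg hb, if_neg hb,
      placeSet_eq (St.mem_of_ne hb).1 (St.mem_of_ne hb).2]
    rfl

theorem altI_sign (b : St.Idx) : Q.altI n b (some (St.sgnOf b)) = Q.kindI n b .special := by
  by_cases hb : b.1 = p
  · simp [altI, kindI, Setup.sgnOf, hb]
  · have : Fact b.1.Prime := ⟨(St.pd.prime b.1 (St.mem_of_ne hb).1).1⟩
    unfold altI kindI
    rw [dif_neg hb, if_neg hb,
      placeSet_eq (St.mem_of_ne hb).1 (St.mem_of_ne hb).2, Setup.sgnOf, if_neg hb]
    rfl

/-- The values of the named variables. -/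
def gvar : St.GVar ls r → (Q.P n).Ring
  | .inl (.inl b) =>
    if b.1 = p then alphaAt (Q.P n).rho St.τ₀ St.Fp - (St.ε St.Fp : (Q.P n).Ring)
    else ((Q.P n).rho (St.pd.φT b.1)).trace -
      (sgn (St.pd.s b.1) : (Q.P n).Ring) * ((b.1 : (Q.P n).Ring) + 1)
  | .inl (.inr (b, i, j)) => if b.1 = p then 0 else ((Q.P n).rho (St.pd.σT b.1) - 1) i j
  | .inr (.inl i) => ((Q.P n).rho ((Q.A n).aX i)).trace - 2
  | .inr (.inr ℓ) =>
    ((Q.P n).rho (frobAt ℓ.1)).trace - ((W.apOfModel ℓ.1 : ℤ) : (Q.P n).Ring)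

set_option genSizeOfSpec false in
set_option genInjectivity false in
/-- What is used of the levels. -/
structure Valid : Prop where
  atP_holds : ∀ n (i : St.Idx → PlaceKind) [IsLocalRing ((Q.P n).Ring ⧸ Q.shapeI n i)]
    (hc : IsCont (mapM (Ideal.Quotient.mk (Q.shapeI n i)) (Q.P n).rho)),
    (St.shapeOf i).atP.Holds
      (toRep (mapM (Ideal.Quotient.mk (Q.shapeI n i)) (Q.P n).rho) hc) p
  gvar_mem : ∀ n j, Q.gvar n j ∈ maximalIdeal (Q.P n).Ring
  none_le : ∀ n (b : St.Idx), b.1 ≠ p → Q.altI n b none ≤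
    Ideal.span (Set.range fun ij : Fin 2 × Fin 2 => Q.gvar n (Sum.inl (Sum.inr (b, ij))))
  alpha_mem : ∀ n, St.CaseO → alphaAt (Q.P n).rho St.τ₀ St.Fp - (St.ε St.Fp : (Q.P n).Ring) ∈
    Q.strictI n
  strict_le : ∀ n, St.CaseO → Q.strictI n ≤ Q.flatJ n ⊔
    Ideal.span {alphaAt (Q.P n).rho St.τ₀ St.Fp - (St.ε St.Fp : (Q.P n).Ring)}

/-- At a place added on top, `both` lies in `unramified` plus one variable. -/
theorem kindI_both_le (hQ : Q.Valid) (b : St.Idx) :
    Q.kindI n b .both ≤
      Q.kindI n b .unramified ⊔ Ideal.span {Q.gvar n (Sum.inl (Sum.inl b))} := by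
  by_cases hb : b.1 = p
  · have hO := ((St.mem_plus.1 b.2).resolve_left fun h =>
      St.p_notMem_B ((congrArg (· ∈ St.pd.B) hb).mp h.1)).2
    simp only [kindI, hb, if_true, gvar]
    exact sup_le le_sup_left (hQ.strict_le n hO)
  · have : Fact b.1.Prime := ⟨(St.pd.prime b.1 (St.mem_of_ne hb).1).1⟩
    simp only [kindI, hb, if_false, gvar,
      placeSet_eq (St.mem_of_ne hb).1 (St.mem_of_ne hb).2]
    exact span_kindSet_both_le _ _ (St.pd.frob b.1 (St.mem_of_ne hb).1)

/-- At a place already added, `both` lies in `special` plus the equations of `none`. -/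
theorem kindI_both_le' (hQ : Q.Valid) {b : St.Idx} (hb : b.1 ≠ p) :
    Q.kindI n b .both ≤ Q.kindI n b .special ⊔
      Ideal.span (Set.range fun ij : Fin 2 × Fin 2 => Q.gvar n (Sum.inl (Sum.inr (b, ij)))) := by
  have : Fact b.1.Prime := ⟨(St.pd.prime b.1 (St.mem_of_ne hb).1).1⟩
  have h := hQ.none_le n b hb
  rw [altI_none] at h
  simp only [kindI, hb, if_false, placeSet_eq (St.mem_of_ne hb).1 (St.mem_of_ne hb).2] at h ⊢
  simp only [kindSet, Ideal.span_union] at h ⊢
  exact sup_le (le_sup_of_le_right h) le_sup_left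

end Pre

/-! ## The system -/

set_option genSizeOfSpec false in
set_option genSizeOf false in
set_option genInjectivity false in
variable (St ls r) in
/-- The levels with their maps from the ring of variables: the named variables go to their values
and, for every shape, the map is onto modulo its ideal and obeys its relations and weight bound. -/
structure Sys where
  Q : Pre St ls r
  valid : Q.Valid
  φ : ∀ n, St.Vars ls r →ₐ[O] (Q.P n).Ring
  φ_mem : ∀ n, ∀ a ∈ maximalIdeal (St.Vars ls r), φ n a ∈ maximalIdeal (Q.P n).Ring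
  φ_coord : ∀ n x,
    φ n (X (Sum.inl x)) = St.pd.coord (algebraMap O (Q.P n).Ring St.c) (Q.P n).rho x
  φ_var : ∀ n j, φ n (St.var j) = Q.gvar n j
  surj : ∀ n i a, ∃ x, a - φ n x ∈ Q.shapeI n i
  incl_surj : ∀ n i x, ∃ a, x - incl St.pd St.shapeOf i a ∈ (Q.shapeI n i).comap (φ n)
  rel : ∀ n i, mixedRel (St.pd.eta St.c) (fun v : St.pd.Pl => (St.shapeOf i).kind v.1) ≤
    ((Q.shapeI n i).comap (φ n)).comap (incl St.pd St.shapeOf i)
  weight : ∀ n i, (Q.shapeI n i).comap (φ n) ≠ ⊤ → ((St.shapeOf i).pat St.pd).weight ≤ r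

/-- **The maps from the variables exist.** -/
theorem Pre.Valid.exists_sys {Q : Pre St ls r} (hQ : Q.Valid) :
    ∃ Y : Sys St ls r, Y.Q = Q := by
  have hfin : GaloisFactorsThroughFiniteLevel St.Wd.rb := by
    rw [St.rb_eq]; exact CFT.TWPrimes.finiteLevel_matRes _ St.b
  choose φ h1 h2 h3 h4 using fun n =>
    exists_hom (ι := St.Idx → PlaceKind) (G := St.GVar ls r) St.pd St.shapeOf (r := r)
      (Q.P n).liftData hfin St.two_mul_c (fun i => Q.atPI n i)
      (fun i => (Q.A n).bound _ subset_rfl ((St.shapeOf i).compat_pat St.pd))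
      (fun i hh hc => @hQ.atP_holds n i hh hc) (Q.gvar n) (hQ.gvar_mem n)
  exact ⟨⟨Q, hQ, φ, h1, h2, h3, fun n i => (h4 n i).2.2.2, fun n i => (h4 n i).1,
    fun n i => (h4 n i).2.1, fun n i => (h4 n i).2.2.1⟩, rfl⟩

/-! ## The data of the chain -/

namespace Sys

variable (Y : Sys St ls r) (U : Ultrafilter ℕ)

/-- The tower of the levels. -/
abbrev tower : Tower St ls r (St.Vars ls r) where
  A := Y.Q.A
  P := Y.Q.P
  φ := Y.φ
  φ_mem := Y.φ_mem
  Z i := St.var (Sum.inr (Sum.inl i))
  φ_Z n _ := Y.φ_var n _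

/-- The limit of the ideal of a shape. -/
def shapeL (i : St.Idx → PlaceKind) : Ideal (St.Vars ls r) :=
  limitIdeal U fun n => (Y.Q.shapeI n i).comap (Y.φ n)

/-- The ideal of a choice. -/
def choiceL (c : St.Idx → Option Bool) : Ideal (St.Vars ls r) :=
  limitIdeal U fun n => (⨆ b, Y.Q.altI n b (c b)).comap (Y.φ n)

/-- The equations of `none` at a place. -/
def noneL (b : St.Idx) : Ideal (St.Vars ls r) :=
  if b.1 = p then limitIdeal U fun n => (Y.Q.flatJ n).comap (Y.φ n)
  else Ideal.span (Set.range fun ij : Fin 2 × Fin 2 => St.var (Sum.inl (Sum.inr (b, ij))))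

/-- The kinds of a good choice. -/
def kindsAt (D : Finset St.Idx) : St.Idx → PlaceKind :=
  fun b => if b ∈ D then .special else .unramified

theorem iSup_altI_good (n : ℕ) (D : Finset St.Idx) :
    ⨆ b, Y.Q.altI n b (goodChoice St.sgnOf D b) = Y.Q.shapeI n (kindsAt D) := by
  rw [Pre.shapeI_eq]
  refine iSup_congr fun b => ?_
  by_cases hb : b ∈ D
  · rw [goodChoice_mem _ hb, kindsAt, if_pos hb, Pre.altI_sign]
  · rw [goodChoice_notMem _ hb, kindsAt, if_neg hb, Pre.altI_none]

theorem choiceL_good (D : Finset St.Idx) :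
    Y.choiceL U (goodChoice St.sgnOf D) = Y.shapeL U (kindsAt D) := by
  rw [choiceL, shapeL]
  simp_rw [iSup_altI_good]

/-- A shape below another and some variables has the smaller limit. -/
theorem shapeL_le {i j : St.Idx → PlaceKind} (s : Set (St.GVar ls r))
    (h : ∀ n, Y.Q.shapeI n j ≤ Y.Q.shapeI n i ⊔ Ideal.span (Y.Q.gvar n '' s)) :
    Y.shapeL U j ≤ Y.shapeL U i ⊔ Ideal.span (St.var '' s) := by
  refine le_trans (limitIdeal_mono fun n => ?_) (limitIdeal_sup (U := U) _ _).le
  refine (Ideal.comap_mono (h n)).trans ?_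
  have e : Y.Q.gvar n '' s = Y.φ n '' (St.var '' s) := by
    rw [Set.image_image]
    exact Set.image_congr' fun j => (Y.φ_var n j).symm
  rw [e]
  exact comap_sup_span_le (Y.φ n : St.Vars ls r →+* (Y.Q.P n).Ring) (Y.surj n i) _

/-- The dimension at a shape saving `k`. -/
theorem dim_le {i : St.Idx → PlaceKind} {k : ℕ}
    (hk : k ≤ ((St.shapeOf i).bothSet St.pd).card + (St.shapeOf i).atP.weight)
    {q : Ideal (St.Vars ls r)} (hq : Y.shapeL U i ≤ q) :
    ringKrullDim (St.Vars ls r ⧸ q) ≤ ((r + 1 - k : ℕ) : WithBot ℕ∞) ∧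
      ∀ a : O, a ≠ 0 → algebraMap O (St.Vars ls r) a ∈ q →
        ringKrullDim (St.Vars ls r ⧸ q) < ((r + 1 - k : ℕ) : WithBot ℕ∞) := by
  obtain ⟨h1, h2⟩ := ringKrullDim_shape_le St.pd St.shapeOf (c := St.c) U i
    (fun n => (Y.Q.shapeI n i).comap (Y.φ n)) (fun n => Y.incl_surj n i) (fun n => Y.rel n i)
    (fun n => Y.weight n i) hq
  have hle : ((r + 1 - ((St.shapeOf i).bothSet St.pd).card - (St.shapeOf i).atP.weight : ℕ) :
      WithBot ℕ∞) ≤ ((r + 1 - k : ℕ) : WithBot ℕ∞) := Nat.cast_le.2 (by omega)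
  exact ⟨h1.trans hle, fun a ha haq => (h2 a ha haq).trans_le hle⟩

theorem kinds_update_le (n : ℕ) {i : St.Idx → PlaceKind} {b : St.Idx} {k : PlaceKind}
    {J : Ideal (Y.Q.P n).Ring} (h : Y.Q.kindI n b k ≤ Y.Q.kindI n b (i b) ⊔ J) :
    Y.Q.shapeI n (Function.update i b k) ≤ Y.Q.shapeI n i ⊔ J := by
  rw [Pre.shapeI_eq, Pre.shapeI_eq]
  refine iSup_le fun x => ?_
  rcases eq_or_ne x b with rfl | hx
  · rw [Function.update_self]
    exact h.trans (sup_le_sup_right (le_iSup (fun x => Y.Q.kindI n x (i x)) x) _)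
  · rw [Function.update_of_ne hx]
    exact le_sup_of_le_left (le_iSup (fun x => Y.Q.kindI n x (i x)) x)

theorem both_shapeL_le {D : Finset St.Idx} {b : St.Idx} (hb : b ∉ D) :
    Y.shapeL U (Function.update (kindsAt D) b .both) ≤
      Y.choiceL U (goodChoice St.sgnOf D) ⊔ Ideal.span {St.yVar b} := by
  have h := Y.shapeL_le U (i := kindsAt D) (j := Function.update (kindsAt D) b .both)
    {Sum.inl (Sum.inl b)} fun n => by
      rw [Set.image_singleton]
      refine Y.kinds_update_le n ?_
      rw [kindsAt, if_neg hb]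
      exact Y.Q.kindI_both_le n Y.valid b
  rwa [Set.image_singleton, ← choiceL_good] at h

theorem both_both_shapeL_le {D : Finset St.Idx} {b b' : St.Idx} (hb : b ∈ D) (hb' : b' ∉ D)
    (hbp : b.1 ≠ p) :
    Y.shapeL U (Function.update (Function.update (kindsAt D) b' .both) b .both) ≤
      Y.choiceL U (goodChoice St.sgnOf D) ⊔ Ideal.span {St.yVar b'} ⊔ Y.noneL U b := by
  have hne : b ≠ b' := fun e => hb' (e ▸ hb)
  have h := Y.shapeL_le U (i := Function.update (kindsAt D) b' .both)
    (j := Function.update (Function.update (kindsAt D) b' .both) b .both)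
    (Set.range fun ij => Sum.inl (Sum.inr (b, ij))) fun n => by
      rw [← Set.range_comp]
      refine Y.kinds_update_le n ?_
      rw [Function.update_of_ne hne, kindsAt, if_pos hb]
      exact Y.Q.kindI_both_le' n Y.valid hbp
  refine h.trans (sup_le (le_sup_of_le_left (Y.both_shapeL_le U hb')) (le_sup_of_le_right ?_))
  rw [noneL, if_neg hbp, ← Set.range_comp]
  rfl

omit [IsAdicComplete (maximalIdeal O) O] [Finite (ResidueField O)] [CharZero O]
  [CharP (ResidueField O) p] in
theorem var_mem_max (j : St.GVar ls r) : St.var j ∈ maximalIdeal (St.Vars ls r) :=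
  Algebra.span_X_le_maximalIdeal (Ideal.subset_span ⟨_, rfl⟩)

theorem mem_choiceL {c : St.Idx → Option Bool} {b : St.Idx} {x : St.Vars ls r}
    (h : ∀ n, Y.φ n x ∈ Y.Q.altI n b (c b)) : x ∈ Y.choiceL U c :=
  le_limitIdeal (J := Ideal.span {x})
    (fun n => (Ideal.span_singleton_le_iff_mem _).2
      (le_iSup (fun b => Y.Q.altI n b (c b)) b (h n) : _ ∈ ⨆ b, Y.Q.altI n b (c b)))
    (Ideal.mem_span_singleton_self x)

theorem sign_mem {ϖ : O} (hϖ : Irreducible ϖ) {c : St.Idx → Option Bool} {b : St.Idx}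
    (hbp : b.1 ≠ p) (hc : c b = some (!St.sgnOf b)) :
    ∃ k, algebraMap O (St.Vars ls r) ϖ ^ k ∈
      Y.choiceL U c ⊔ Ideal.span {St.yVar b} := by
  have : Fact b.1.Prime := ⟨(St.pd.prime b.1 (St.mem_of_ne hbp).1).1⟩
  set o : O := 2 * (sgn (St.pd.s b.1) : O) * ((b.1 : O) + 1) with ho
  have ho0 : o ≠ 0 := by
    refine mul_ne_zero (mul_ne_zero two_ne_zero ?_) (Nat.cast_add_one_ne_zero _)
    exact fun h => by simpa [h] using congrArg ((↑) : ℤ → O) (sgn_mul_self (St.pd.s b.1))
  have hmem : St.yVar b + algebraMap O (St.Vars ls r) o ∈ Y.choiceL U c := by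
    refine Y.mem_choiceL U (b := b) fun n => ?_
    rw [map_add, Setup.yVar, Y.φ_var, AlgHom.commutes, hc, Setup.sgnOf, if_neg hbp]
    unfold Pre.altI
    rw [dif_neg hbp, Pre.gvar, if_neg hbp]
    refine (congrArg (· ∈ altIdeal (Y.Q.P n).rho b.1 (some (!St.pd.s b.1))) ?_).mp
      (trace_sub_mem (St.pd.frob b.1 (St.mem_of_ne hbp).1))
    simp only [ho, sgn_not, map_mul, map_ofNat, map_intCast, map_add, map_natCast, map_one,
      Int.cast_neg]
    ring
  obtain ⟨k, hk⟩ := IsDiscreteValuationRing.associated_pow_irreducible ho0 hϖ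
  refine ⟨k, ?_⟩
  obtain ⟨u, hu⟩ := hk
  rw [← map_pow, ← hu, map_mul]
  refine Ideal.mul_mem_right _ _ ?_
  rw [show algebraMap O (St.Vars ls r) o = (St.yVar b + algebraMap O (St.Vars ls r) o) - St.yVar b
    by ring]
  exact sub_mem (Ideal.mem_sup_left hmem)
    (Ideal.mem_sup_right (Ideal.mem_span_singleton_self _))

/-- The sets from which a place may be added. -/
def Admissible (D : Finset St.Idx) : Prop := ∀ x ∈ D, x.1 ≠ p

theorem noneL_le {c : St.Idx → Option Bool} {b : St.Idx} (hc : c b = none) :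
    Y.noneL U b ≤ Y.choiceL U c := by
  by_cases hb : b.1 = p
  · rw [noneL, if_pos hb]
    refine limitIdeal_mono fun n => Ideal.comap_mono (le_iSup_of_le b ?_)
    rw [hc]; unfold Pre.altI; rw [dif_pos hb]
  · have : Fact b.1.Prime := ⟨(St.pd.prime b.1 (St.mem_of_ne hb).1).1⟩
    rw [noneL, if_neg hb, Ideal.span_le]
    rintro _ ⟨⟨i, j⟩, rfl⟩
    refine Y.mem_choiceL U (b := b) fun n => ?_
    rw [Y.φ_var, hc]; unfold Pre.altI; rw [dif_neg hb, Pre.gvar, if_neg hb]
    exact sub_one_apply_mem (St.pd.gen b.1 (St.mem_of_ne hb).1).1 i j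

/-- **The data of the chain.** -/
theorem choiceData {ϖ : O} (hϖ : Irreducible ϖ) (hr : 2 ≤ r) :
    ChoiceData r St.sgnOf (algebraMap O (St.Vars ls r) ϖ) St.yVar (Y.noneL U) St.alts
      (Y.choiceL U) (Admissible (St := St)) where
  y_mem b := var_mem_max _
  sign c b hc h := by
    by_cases hb : b.1 = p
    · have h1 := hc b
      rw [h, Setup.sgnOf, if_pos hb, Setup.alts, if_pos hb] at h1
      simp at h1
    · exact Y.sign_mem U hϖ hb h
  y_le D b hb := by
    refine Y.mem_choiceL U (b := b) fun n => ?_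
    rw [Setup.yVar, Y.φ_var, goodChoice_mem _ hb, Pre.altI_sign]
    by_cases hbp : b.1 = p
    · have hO := ((St.mem_plus.1 b.2).resolve_left fun h =>
        St.p_notMem_B ((congrArg (· ∈ St.pd.B) hbp).mp h.1)).2
      simpa only [Pre.gvar, Pre.kindI, hbp, if_true] using Y.valid.alpha_mem n hO
    · have : Fact b.1.Prime := ⟨(St.pd.prime b.1 (St.mem_of_ne hbp).1).1⟩
      simp only [Pre.gvar, Pre.kindI, hbp, if_false,
        placeSet_eq (St.mem_of_ne hbp).1 (St.mem_of_ne hbp).2]
      exact trace_sub_mem (St.pd.frob b.1 (St.mem_of_ne hbp).1)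
  none_le _ _ _ h := Y.noneL_le U h
  dim D b hb q hq := by
    refine (Y.dim_le U (St.both_le_saved (i := Function.update (kindsAt D) b .both)
      (b := b) (Function.update_self ..)) ((Y.both_shapeL_le U hb).trans hq)).1.trans ?_
    exact Nat.cast_le.2 (by omega)
  dim_pi D b hb := by
    have h := (Y.dim_le U (St.both_le_saved (i := Function.update (kindsAt D) b .both)
      (b := b) (Function.update_self ..))
      ((Y.both_shapeL_le U hb).trans le_sup_left)).2 ϖ hϖ.ne_zero
      (Ideal.mem_sup_right (Ideal.mem_span_singleton_self _))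
    rwa [Nat.add_sub_cancel] at h
  dim_none D b b' hD hb hb' := by
    have hne : b ≠ b' := fun e => hb' (e ▸ hb)
    refine ((Y.dim_le U (St.two_le_saved (hD b hb) hne
      (i := Function.update (Function.update (kindsAt D) b' .both) b .both)
      (Function.update_self ..) (by rw [Function.update_of_ne hne.symm, Function.update_self]))
      (Y.both_both_shapeL_le U hb hb' (hD b hb))).1).trans_lt ?_
    exact Nat.cast_lt.2 (by omega)

/-- **The products of the choices** kill a stage at which the alternatives do. -/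
theorem prod_choiceL_le {T : Finset ℕ} (F : Family Y.tower T) (alts : St.Idx → Finset (Option Bool))
    (h : ∀ n b, ∏ a ∈ alts b, Y.Q.altI n b a ≤
      RingHom.ker (F.g n).toRingHom) :
    ∏ c ∈ Fintype.piFinset alts, Y.choiceL U c ≤
      limitIdeal U fun n => RingHom.ker (F.hom n : St.Vars ls r →+* (F.S n).alg) := by
  refine (prod_limitIdeal_le (U := U) _ _).trans (limitIdeal_mono fun n => ?_)
  refine (prod_comap_le (Y.φ n : St.Vars ls r →+* (Y.Q.P n).Ring) _ _).trans ?_
  have h1 := prod_choices_le alts (fun b a => Y.Q.altI n b a) (⊥ : Ideal (Y.Q.P n).Ring)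
  simp only [bot_sup_eq] at h1
  exact Ideal.comap_mono (h1.trans (iSup_le (h n)))

end Sys

end Fermat.Agent.RT.Lifting
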