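import Fermat.Agent.RT.Lifting.EndKill
import Fermat.Agent.RT.Lifting.Sys

/-!
# The witnesses at a stage

The trace of Frobenius at a prime outside all levels is the Hecke operator there, so the product of
the witnesses maps every stage into the augmentation.
-/

set_option autoImplicit false

noncomputable section

namespace Fermat.Agent.RT.Lifting

open IsLocalRing Fermat.Agent.Deform Fermat.Agent.RT.Glue Fermat.Agent.RT.Modules
open Fermat.Agent.RT.LowerB (auxSet Data models)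

variable {O : Type} [CommRing O] [IsDomain O] [IsDiscreteValuationRing O]
  [IsAdicComplete (maximalIdeal O) O] [Finite (ResidueField O)] [CharZero O]
  {p : ℕ} [Fact p.Prime] [CharP (ResidueField O) p] [Algebra (ZMod p) (ResidueField O)]
  {W : WeierstrassCurve ℤ} {St : Setup O p W} {ls : Finset ℕ} {r n : ℕ} {A : AuxData St ls r n}

namespace Stage

variable {T : Finset ℕ} (S : Stage A T)

omit [IsAdicComplete (maximalIdeal O) O] [Finite (ResidueField O)] [CharZero O]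
  [CharP (ResidueField O) p] in
theorem notMem_excAux {ℓ : ℕ} (hℓ : ℓ ∈ ls) (hbad : ℓ ∉ badSet p W) :
    ℓ ∉ excAux (badSet p W) A.qv := by
  rw [excAux, Finset.mem_union, not_or]
  refine ⟨hbad, fun h => ?_⟩
  obtain ⟨i, -, hi⟩ := Finset.mem_image.1 h
  exact A.avoid i (hi ▸ hℓ)

/-- The trace of Frobenius is the Hecke operator. -/
theorem trace_frobenius {ℓ : ℕ} (hℓ : ℓ.Prime) (hℓS : ℓ ∉ excAux (badSet p W) A.qv) {F : Gal}
    (hF : haveI : Fact ℓ.Prime := ⟨hℓ⟩; (padicPlace ℓ).IsFrobeniusAt F ℓ) :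
    (S.ru F).trace = sA (heckeModule S.hyp) S.hyp.mem_of_dvd hℓ hℓS := by
  have : Fact ℓ.Prime := ⟨hℓ⟩
  have h := S.G.charpoly_frobenius (Finset.mem_union_left _ St.data.p_mem) hℓ hℓS
    (CFT.Local.padicPlace_liesOverPrime ℓ) hF
  have h1 := congrArg (fun f => Polynomial.coeff f 1) h
  rw [(S.spec F).1]
  have e : (S.G.rep.ρ F).charpoly = (S.G.R F).charpoly := by
    rw [show S.G.rep.ρ F = Matrix.toLinAlgEquiv' (S.G.R F) from rfl,
      ← LinearMap.charpoly_toMatrix _ (Pi.basisFun _ (Fin 2))]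
    congr 1
    exact LinearMap.toMatrix'_toLin' (S.G.R F)
  simp only [e, Matrix.charpoly_fin_two] at h1
  simpa [Polynomial.coeff_X_pow] using h1

/-- **The witnesses at a stage.** -/
theorem witness_mem (hT : T ⊆ St.top) {P' : Stage A St.top} {g : P'.Ring →ₐ[O] S.alg}
    (hg : mapM (g : P'.Ring →+* S.alg) P'.rho = S.ru)
    (hls : ∀ ℓ ∈ ls, ℓ.Prime ∧ ℓ ∉ badSet p W) (P : ℕ → Polynomial ℤ)
    (hP : ∀ (M : ℕ) [NeZero M] (f : CuspForm (CongruenceSubgroup.Gamma0 M) 2), f.IsNewform →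
      M ∣ ∏ x ∈ St.top, x → ∃ ℓ ∈ ls,
        Polynomial.aeval (ModularFormClass.qCoeff f ℓ) (P ℓ) = 0)
    (x : S.M) :
    g (∏ ℓ ∈ ls.attach, Polynomial.aeval (P'.rho (frobAt ℓ.1)).trace (P ℓ.1)) • x ∈
      ⨆ δ, LinearMap.range ((heckeModule S.hyp).dia δ - 1) := by
  have hlsS : ∀ ℓ ∈ ls, ℓ.Prime ∧ ℓ ∉ excAux (badSet p W) A.qv := fun ℓ hℓ =>
    ⟨(hls ℓ hℓ).1, notMem_excAux hℓ (hls ℓ hℓ).2⟩
  have hQ : NoSpecial St.b (excAux (badSet p W) A.qv) (auxSet A.qv) := fun q hq => by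
    obtain ⟨h1, h2, -, h4, h5, h6⟩ := A.isAux.rankCond St.data S.lev hq subset_rfl
    exact ⟨h1, h2, h4, h5, h6⟩
  have hLN : ∀ v : ℕ, v.Prime → v ∣ S.L → v ∣ ∏ x ∈ St.top, x ∨ v ∈ auxSet A.qv :=
    fun v hv hd => ((S.lev.dvd_iff v hv).1 hd).imp_left fun h => Finset.dvd_prod_of_mem _ (hT h)
  have key := witness_apply_mem (St.data.mono Finset.subset_union_left) S.hyp (auxSet A.qv) hQ
    hLN ls hlsS P hP x
  have e : g (∏ ℓ ∈ ls.attach, Polynomial.aeval (P'.rho (frobAt ℓ.1)).trace (P ℓ.1)) =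
      ∏ ℓ ∈ ls.attach, Polynomial.aeval
        (sA (heckeModule S.hyp) S.hyp.mem_of_dvd (hlsS ℓ.1 ℓ.2).1 (hlsS ℓ.1 ℓ.2).2) (P ℓ.1) := by
    rw [map_prod]
    refine Finset.prod_congr rfl fun ℓ _ => ?_
    have : Fact ℓ.1.Prime := ⟨(hls ℓ.1 ℓ.2).1⟩
    rw [← S.trace_frobenius (hlsS ℓ.1 ℓ.2).1 (hlsS ℓ.1 ℓ.2).2 (frobAt_spec ℓ.1), ← hg]
    refine Eq.trans ?_ (congrArg (fun t => Polynomial.aeval t (P ℓ.1))
      (AddMonoidHom.map_trace (g : P'.Ring →+* S.alg).toAddMonoidHom (P'.rho (frobAt ℓ.1))))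
    exact (Polynomial.aeval_algHom_apply (g : P'.Ring →+* S.alg).toIntAlgHom _ (P ℓ.1)).symm
  rw [e]
  exact key

end Stage

end Fermat.Agent.RT.Lifting
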