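import Fermat.Agent.RT.Lifting.Run
import Fermat.Agent.RT.Lifting.Endgame
import Fermat.Agent.RT.Lifting.StageKill
import Fermat.Agent.RT.Lifting.StageAlts

/-!
# The contradiction at the top of the chain

`Sys.false_of_annData`: the data of the chain of stages and witnesses against the newforms of
level dividing the product of the largest set cannot both exist. The prime of full dimension at
the largest set lies in a prime containing the variables of the auxiliary primes; that contains
everything mapping the stages into the augmentation, so also the product of the witnesses, which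
does not vanish there.
It ends the proof in `RT/Lifting/Main`.
-/

set_option autoImplicit false

noncomputable section

namespace Fermat.Agent.RT.Lifting

open IsLocalRing MvPowerSeries
open Fermat.Agent.RT.Modules (heckeModule)
open Fermat.Agent.RT.Germ

attribute [local instance] Fermat.Agent.RT.Algebra.isAdicComplete_mvPowerSeries
attribute [local instance] Fermat.Agent.RT.Algebra.finite_residueField_mvPowerSeries

variable {O : Type} [CommRing O] [IsDomain O] [IsDiscreteValuationRing O]
  [IsAdicComplete (maximalIdeal O) O] [Finite (ResidueField O)] [CharZero O]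
  {p : ℕ} [Fact p.Prime] [CharP (ResidueField O) p] [Algebra (ZMod p) (ResidueField O)]
  {W : WeierstrassCurve ℤ} {St : Setup O p W} {ls : Finset ℕ} {r : ℕ}

namespace Sys

variable (Y : Sys St ls r) {U : Ultrafilter ℕ}

omit [IsAdicComplete (maximalIdeal O) O] [Finite (ResidueField O)] [CharZero O]
  [CharP (ResidueField O) p] in
/-- With every place added, a place unramified residually is special. -/
theorem kind_top {v : ℕ} (hv : v ∈ St.pd.B) (hr : v ∉ St.pd.ram) :
    (St.shapeOf (kindsAt Finset.univ)).kind v = .special := by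
  refine (St.kind_shapeOf (kindsAt Finset.univ)
    ⟨v, St.mem_plus.2 (Or.inl ⟨hv, hr⟩)⟩).trans ?_
  rw [kindsAt, if_pos (Finset.mem_univ _)]

omit [IsAdicComplete (maximalIdeal O) O] [Finite (ResidueField O)] [CharZero O]
  [CharP (ResidueField O) p] in
/-- With every place added, the condition at `p` has weight zero. -/
theorem atP_top_weight : (St.shapeOf (kindsAt Finset.univ)).atP.weight = 0 := by
  unfold Setup.shapeOf
  dsimp only
  split_ifs with h h'
  · rw [kindsAt, if_pos (Finset.mem_univ _)]; rfl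
  · rfl
  · rfl

/-- The point kills the ideal of the shape with every place special. -/
theorem toPoint_shapeI_top (n : ℕ) :
    ∀ a ∈ Y.Q.shapeI n (kindsAt Finset.univ), (Y.Q.P n).toPoint a = 0 := by
  suffices h : Y.Q.shapeI n (kindsAt Finset.univ) ≤
      RingHom.ker ((Y.Q.P n).toPoint : (Y.Q.P n).Ring →+* O) from fun a ha => h ha
  rw [Pre.shapeI_eq]
  refine iSup_le fun b => ?_
  rw [kindsAt, if_pos (Finset.mem_univ _)]
  by_cases hb : b.1 = p
  · have hO := ((St.mem_plus.1 b.2).resolve_left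
      fun h => St.p_notMem_B ((congrArg (· ∈ St.pd.B) hb).mp h.1)).2
    unfold Pre.kindI Pre.strictI
    rw [if_pos hb]
    exact Ideal.span_le.2 fun x hx => (Y.Q.P n).toPoint_strictSet hO.1 hx
  · have : Fact b.1.Prime := ⟨(St.pd.prime b.1 (St.mem_of_ne hb).1).1⟩
    unfold Pre.kindI
    rw [if_neg hb, placeSet_eq (St.mem_of_ne hb).1 (St.mem_of_ne hb).2]
    exact Ideal.span_le.2 fun x hx =>
      (Y.Q.P n).toPoint_altSet (St.mem_of_ne hb).1 (St.mem_of_ne hb).2 hx

variable (U) in
/-- **The contradiction.** -/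
theorem false_of_annData {ϖ : O} (hϖ : Irreducible ϖ) (hr : 2 ≤ r) (N : AnnData Y U ϖ)
    (hkill : ∀ (D : Finset St.Idx), (Admissible D ∨ D = Finset.univ) →
      ∀ (F : Family Y.tower (St.stageSet D)) n b,
        ∏ a ∈ altsAt D b, Y.Q.altI n b a ≤ RingHom.ker (F.g n).toRingHom)
    (hend : ∀ (F : Family Y.tower (St.stageSet Finset.univ)) (Q : Ideal (St.Vars ls r)), Q.IsPrime →
      N.ann _ F ≤ Q → (∀ i, St.var (Sum.inr (Sum.inl i)) ∈ Q) → ∀ f : St.Vars ls r,
        (∀ n (x : (F.S n).M), F.hom n f • x ∈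
          ⨆ δ, LinearMap.range ((heckeModule (F.S n).hyp).dia δ - 1)) → f ∈ Q)
    {K : Type} [NontriviallyNormedField K] [IsUltrametricDist K] [CompleteSpace K] [IsAlgClosed K]
    (φK : O →+* ball1 K) (hφinj : Function.Injective φK)
    (hφ : ∀ a ∈ maximalIdeal O, ‖(φK a : K)‖ < 1)
    (hls : ∀ ℓ ∈ ls, ℓ.Prime ∧ ℓ ∉ badSet p W ∧ W.IsGoodPrimeFor ℓ ∧ ℓ ≠ p)
    (P : ℕ → Polynomial ℤ) (hP : ∀ ℓ ∈ ls, (P ℓ).eval (W.apOfModel ℓ) ≠ 0)
    (hw : ∀ (M : ℕ) [NeZero M] (f : CuspForm (CongruenceSubgroup.Gamma0 M) 2), f.IsNewform →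
      M ∣ ∏ x ∈ St.top, x → ∃ ℓ ∈ ls,
        Polynomial.aeval (ModularFormClass.qCoeff f ℓ) (P ℓ) = 0) : False := by
  -- a prime of full dimension for the good choice at all places
  obtain ⟨F, q, hq, hann, hL, hdim⟩ := N.exists_prime_top hr hϖ hkill
  rw [choiceL_good] at hL
  have hzero : ∀ n j, ((Y.Q.P n).toPoint (Y.Q.gvar n j) = 0) →
      (Y.Q.P n).toPoint (Y.φ n (St.var j)) = 0 := fun n j h => by rwa [Y.φ_var]
  -- above it a prime with the augmentation variables but not the witness
  obtain ⟨Q, hQ, hqQ, hZ, hne⟩ := exists_endPrime Y.tower U St.shapeOf (kindsAt Finset.univ)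
    (fun v hv hr => kind_top hv hr) atP_top_weight (fun n => Y.Q.atPI n (kindsAt Finset.univ))
    (fun n => Y.incl_surj n _) (fun n => Y.rel n _) (fun n => Y.weight n _)
    (fun n => Y.toPoint_shapeI_top n)
    (fun ℓ => St.var (Sum.inr (Sum.inr ℓ)))
    (fun n ℓ => hzero n _ (by
      have : Fact ℓ.1.Prime := ⟨(hls ℓ.1 ℓ.2).1⟩
      rw [Pre.gvar, map_sub, map_intCast, (Y.Q.P n).toPoint_trace_frobenius (hls ℓ.1 ℓ.2).1
        (hls ℓ.1 ℓ.2).2.2.1 (hls ℓ.1 ℓ.2).2.2.2 (CFT.Local.padicPlace_liesOverPrime ℓ.1)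
        (frobAt_spec ℓ.1), sub_self]))
    (fun n i => hzero n _ (by
      rw [Pre.gvar, map_sub, (Y.Q.P n).toPoint_trace_aX, map_ofNat, sub_self]))
    φK hφinj hφ (q := q) hL hdim P hP
  refine hne (hend F Q hQ (hann.trans hqQ) hZ _ fun n x => ?_)
  -- at each level the witness becomes the product over traces of Frobenius
  have e : Y.φ n (∏ ℓ ∈ ls.attach, Polynomial.aeval
      (St.var (Sum.inr (Sum.inr ℓ)) + (W.apOfModel ℓ.1 : St.Vars ls r)) (P ℓ.1)) =
      ∏ ℓ ∈ ls.attach, Polynomial.aeval ((Y.Q.P n).rho (frobAt ℓ.1)).trace (P ℓ.1) := by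
    rw [map_prod]
    refine Finset.prod_congr rfl fun ℓ _ => ?_
    rw [Polynomial.aeval_def, Polynomial.aeval_def]
    refine (Polynomial.hom_eval₂ _ _ (Y.φ n : St.Vars ls r →+* (Y.Q.P n).Ring) _).trans ?_
    refine congrArg₂ (fun f t => Polynomial.eval₂ f t (P ℓ.1)) (RingHom.ext_int _ _) ?_
    show Y.φ n _ = _
    rw [map_add, map_intCast, Y.φ_var, Pre.gvar, sub_add_cancel]
  show (F.g n) (Y.φ n _) • x ∈ _
  rw [e]
  -- which sends the module into the augmentation
  exact (F.S n).witness_mem (by rw [St.stageSet_univ]) (F.g_rho n)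
    (fun ℓ hℓ => ⟨(hls ℓ hℓ).1, (hls ℓ hℓ).2.1⟩) P hw x

end Sys

end Fermat.Agent.RT.Lifting
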