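import Fermat.Agent.RT.Lifting.StrictEq
import Fermat.Agent.CFT.Tangent.LocalPlace
import Mathlib

/-!
# The sign at `p`

A strictly ordinary representation satisfies the equations with some sign. The sign is residual,
and the equations at inertia and at one Frobenius element give them all.
-/

set_option autoImplicit false

noncomputable section

namespace Fermat.Agent.RT.Lifting

open IsLocalRing Fermat.Agent.Deform Fermat.Agent.Arith

variable {R : Type} [CommRing R] [IsLocalRing R] {p : ℕ} [Fact p.Prime] {ru : Gal →* M2 R}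
  {τ₀ : Gal}

omit [Fact p.Prime] in
/-- Some entry of `ru τ₀ - det` is a unit. -/
theorem exists_isUnit_entry (hu : IsUnit ((ru τ₀).det - 1)) :
    ∃ i j, IsUnit ((ru τ₀ - (ru τ₀).det • 1) i j) := by
  by_contra hall
  push Not at hall
  set T := ru τ₀
  set d := T.det
  have hd : IsUnit d := (Matrix.isUnit_iff_isUnit_det T).mp
    ((Group.isUnit τ₀).map ru)
  have hm : ∀ i j, Ideal.Quotient.mk (maximalIdeal R) (T i j) =
      Ideal.Quotient.mk (maximalIdeal R) ((d • (1 : M2 R)) i j) := fun i j =>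
    Ideal.Quotient.eq.mpr ((mem_maximalIdeal _).mpr (hall i j))
  have h2 : Ideal.Quotient.mk (maximalIdeal R) d =
      Ideal.Quotient.mk (maximalIdeal R) (d * d) := by
    conv_lhs => rw [show d = T.det from rfl, Matrix.det_fin_two, map_sub, map_mul, map_mul, hm,
      hm, hm, hm]
    simp
  rw [Ideal.Quotient.eq, show d - d * d = -(d * (d - 1)) by ring, neg_mem_iff] at h2
  exact (mem_maximalIdeal _).mp h2 (hd.mul hu)

/-- Inertia lies in the decomposition group. -/
theorem mem_decomposition_of_mem_inertia {v : ℕ} [Fact v.Prime] {τ : Gal}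
    (hτ : τ ∈ (padicPlace v).inertiaSubgroupIn ℚ) :
    τ ∈ (padicPlace v).decompositionSubgroup ℚ := by
  obtain ⟨⟨τ', hτ'⟩, -, rfl⟩ := hτ
  exact hτ'

omit [IsLocalRing R] [Fact p.Prime] in
/-- The sign equations multiply. -/
theorem line_mul {Q : M2 R} {σ σ' : Gal} {a a' : R} (h : Q * (ru σ - a • 1) = 0)
    (h' : Q * (ru σ' - a' • 1) = 0) : Q * (ru (σ * σ') - (a * a') • 1) = 0 := by
  rw [mul_sub, mul_smul_one, sub_eq_zero] at h h' ⊢
  rw [map_mul, ← mul_assoc, h, smul_mul_assoc, h', smul_smul]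

/-- A strictly ordinary representation satisfies the equations with some sign. -/
theorem exists_strictEq_of_isStrictOrdinaryAt [IsNoetherianRing R] (hc : IsCont ru)
    (hdet : (toRep ru hc).DetIsCyclotomic p) (h : (toRep ru hc).IsStrictOrdinaryAt p)
    (hτ₀ : τ₀ ∈ (padicPlace p).inertiaSubgroupIn ℚ) :
    ∃ z : Gal → R, (∀ σ ∈ (padicPlace p).decompositionSubgroup ℚ, z σ * z σ = 1) ∧
      (∀ τ ∈ (padicPlace p).inertiaSubgroupIn ℚ, z τ = 1) ∧ StrictEq ru τ₀ z p := by
  classical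
  obtain ⟨L, ⟨b, hb⟩, -, hI, hD⟩ := h.2 _ (CFT.Local.padicPlace_liesOverPrime p)
  choose x z hx hz hcyc using hD
  let z' : Gal → R := fun σ => if hσ : σ ∈ (padicPlace p).decompositionSubgroup ℚ then z σ hσ else 1
  have hzσ : ∀ σ (hσ : σ ∈ (padicPlace p).decompositionSubgroup ℚ), z' σ = z σ hσ := fun σ hσ =>
    dif_pos hσ
  have hb0 : b 0 ∈ L := hb ▸ Submodule.mem_span_singleton_self _
  have key : ∀ σ (hσ : σ ∈ (padicPlace p).decompositionSubgroup ℚ), ∃ c : R,
      (toRep ru hc).ρ σ (b 1) = c • b 0 + z σ hσ • b 1 ∧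
        LinearMap.det ((toRep ru hc).ρ σ) = x σ hσ * z σ hσ := by
    intro σ hσ
    have h1 := hz σ hσ (b 1)
    rw [hb] at h1
    obtain ⟨c, hc'⟩ := Submodule.mem_span_singleton.mp h1
    have h2 : (toRep ru hc).ρ σ (b 1) = c • b 0 + z σ hσ • b 1 := by rw [hc']; abel
    refine ⟨c, h2, ?_⟩
    rw [← LinearMap.det_toMatrix b, Matrix.det_fin_two]
    simp [LinearMap.toMatrix_apply, hx σ hσ _ hb0, h2]
  have hz1 : ∀ τ (hτ : τ ∈ (padicPlace p).inertiaSubgroupIn ℚ),
      z τ (mem_decomposition_of_mem_inertia hτ) = 1 := by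
    intro τ hτ
    have h1 := sub_mem (hI τ hτ (b 1)) (hz τ (mem_decomposition_of_mem_inertia hτ) (b 1))
    rw [sub_sub_sub_cancel_left, hb] at h1
    obtain ⟨c, hc'⟩ := Submodule.mem_span_singleton.mp h1
    have h2 := congrArg (fun v => b.repr v 1) hc'
    simp at h2
    exact sub_eq_zero.mp h2.symm
  have hzz : ∀ σ (hσ : σ ∈ (padicPlace p).decompositionSubgroup ℚ), z σ hσ * z σ hσ = 1 := by
    intro σ hσ
    refine sub_eq_zero.mp ((inferInstance : IsHausdorff (maximalIdeal R) R).haus _ fun n => ?_)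
    rw [SModEq.zero, smul_eq_mul, Ideal.mul_top]
    obtain ⟨a, ha⟩ : ∃ a : ℕ, ∀ μ : AlgebraicClosure ℚ, μ ^ p ^ n = 1 → σ μ = μ ^ a := by
      have : NeZero (p ^ n) := ⟨pow_ne_zero _ (Fact.out : p.Prime).ne_zero⟩
      obtain ⟨ζ, hζ⟩ := HasEnoughRootsOfUnity.exists_primitiveRoot (AlgebraicClosure ℚ) (p ^ n)
      obtain ⟨a, -, ha⟩ := hζ.eq_pow_of_pow_eq_one (ξ := σ ζ)
        (by rw [← map_pow, hζ.pow_eq_one, map_one])
      refine ⟨a, fun μ hμ => ?_⟩
      obtain ⟨i, -, rfl⟩ := hζ.eq_pow_of_pow_eq_one hμ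
      rw [map_pow, ← ha, pow_right_comm]
    have hspan : Ideal.span {((p ^ n : ℕ) : R)} ≤ maximalIdeal R ^ n := by
      rw [Ideal.span_le, Set.singleton_subset_iff, SetLike.mem_coe, Nat.cast_pow]
      exact Ideal.pow_mem_pow hdet.1 n
    obtain ⟨-, -, hd⟩ := key σ hσ
    have h1 := hspan (hdet.2 n σ a ha)
    have h2 := hspan (hcyc σ hσ n a ha)
    rw [hd] at h1
    have ha' : IsUnit (a : R) ∨ n = 0 := by
      rcases Nat.eq_zero_or_pos n with hn | hn
      · exact Or.inr hn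
      refine Or.inl ?_
      have hdu : IsUnit (LinearMap.det ((toRep ru hc).ρ σ)) :=
        (LinearMap.isUnit_det _ ((Group.isUnit σ).map (toRep ru hc).ρ))
      by_contra hna
      have h3 := Ideal.pow_le_self hn.ne' h1
      rw [← hd] at h3
      exact (mem_maximalIdeal _).mp
        (by simpa using add_mem h3 ((mem_maximalIdeal _).mpr hna)) hdu
    rcases ha' with hau | rfl
    · obtain ⟨a', ha'⟩ := isUnit_iff_exists_inv'.mp hau
      have h3 : (a : R) * (z σ hσ * z σ hσ - 1) ∈ maximalIdeal R ^ n := by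
        rw [show (a : R) * (z σ hσ * z σ hσ - 1) =
          (x σ hσ * z σ hσ - a) - z σ hσ * (x σ hσ - a * z σ hσ) by ring]
        exact sub_mem h1 (Ideal.mul_mem_left _ _ h2)
      have := Ideal.mul_mem_left _ a' h3
      rwa [← mul_assoc, ha', one_mul] at this
    · simp
  refine ⟨z', fun σ hσ => by rw [hzσ σ hσ]; exact hzz σ hσ,
    fun τ hτ => by rw [hzσ τ (mem_decomposition_of_mem_inertia hτ)]; exact hz1 τ hτ, fun σ hσ => ?_⟩
  -- `ru τ₀ - det` kills the line
  set hτ := mem_decomposition_of_mem_inertia hτ₀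
  have hd0 : (ru τ₀).det = x τ₀ hτ := by
    obtain ⟨-, -, hd⟩ := key τ₀ hτ
    rw [hz1 τ₀ hτ₀, mul_one] at hd
    rw [← hd]
    exact (LinearMap.det_toLin' (ru τ₀)).symm
  have hkill : ∀ w : Fin 2 → R, w ∈ L → (ru τ₀ - (ru τ₀).det • 1).mulVec w = 0 := fun w hw => by
    have h1 : (ru τ₀).mulVec w = x τ₀ hτ • w := hx τ₀ hτ w hw
    rw [Matrix.sub_mulVec, h1, Matrix.smul_mulVec, Matrix.one_mulVec, hd0, sub_self]
  refine Matrix.ext_of_mulVec_single fun i => ?_
  rw [← Matrix.mulVec_mulVec, Matrix.zero_mulVec]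
  refine hkill _ ?_
  rw [Matrix.sub_mulVec, Matrix.smul_mulVec, Matrix.one_mulVec, hzσ σ hσ]
  exact hz σ hσ (Pi.single i 1)

omit [Fact p.Prime] in
/-- A sign is determined residually. -/
theorem sign_unique (h2 : IsUnit (2 : R)) (hu : IsUnit ((ru τ₀).det - 1)) {σ : Gal} {a c : R}
    (ha : a * a = 1) (hc : c * c = 1)
    (h : (ru τ₀ - (ru τ₀).det • 1) * (ru σ - a • 1) = 0)
    (h' : ∀ i j, ((ru τ₀ - (ru τ₀).det • 1) * (ru σ - c • 1)) i j ∈ maximalIdeal R) : a = c := by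
  obtain ⟨i, j, hij⟩ := exists_isUnit_entry hu
  have hdiff : (a - c) * (ru τ₀ - (ru τ₀).det • 1) i j ∈ maximalIdeal R := by
    have e : ((ru τ₀ - (ru τ₀).det • 1) * (ru σ - c • 1)) i j =
        (a - c) * (ru τ₀ - (ru τ₀).det • 1) i j := by
      rw [show ru σ - c • 1 = (ru σ - a • 1) + (a - c) • 1 by rw [sub_smul]; abel, mul_add, h,
        zero_add, mul_smul_one, Matrix.smul_apply, smul_eq_mul]
    exact e ▸ h' i j
  have hm : a - c ∈ maximalIdeal R :=
    ((maximalIdeal.isMaximal R).isPrime.mem_or_mem hdiff).resolve_right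
      fun h0 => (mem_maximalIdeal _).mp h0 hij
  have hsum : IsUnit (a + c) := by
    by_contra hn
    have h3 := sub_mem ((mem_maximalIdeal (a + c)).2 hn) hm
    rw [show a + c - (a - c) = 2 * c by ring] at h3
    exact (mem_maximalIdeal _).1 h3 (h2.mul (IsUnit.of_mul_eq_one _ hc))
  have h0 : (a - c) * (a + c) = 0 := by linear_combination ha - hc
  exact sub_eq_zero.1 (hsum.mul_left_eq_zero.1 h0)

/-- A sign on the decomposition group, fixed at a finite level. -/
structure LocalSign (ε : Gal → ℤ) (F : Gal) (p : ℕ) [Fact p.Prime] : Prop where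
  sq : ∀ σ ∈ (padicPlace p).decompositionSubgroup ℚ, ε σ * ε σ = 1
  inertia : ∀ τ ∈ (padicPlace p).inertiaSubgroupIn ℚ, ε τ = 1
  decomp : ∃ L₀ : IntermediateField ℚ QBar, FiniteDimensional ℚ L₀ ∧
    ∀ σ ∈ (padicPlace p).decompositionSubgroup ℚ, ∀ (i : ℕ),
      ∀ τ ∈ (padicPlace p).inertiaSubgroupIn ℚ,
        (∀ x ∈ L₀, σ x = (F ^ i * τ) x) → ε σ = ε F ^ i

/-- The equations at inertia and at one Frobenius element give all of them. -/
theorem strictEq_of_frobenius [IsNoetherianRing R] (hc : IsCont ru) {F : Gal}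
    (hF : (padicPlace p).IsFrobeniusAt F p) {ε : Gal → ℤ} (hε : LocalSign ε F p)
    (hI : ∀ τ ∈ (padicPlace p).inertiaSubgroupIn ℚ,
      (ru τ₀ - (ru τ₀).det • 1) * (ru τ - 1) = 0)
    (hFe : (ru τ₀ - (ru τ₀).det • 1) * (ru F - (ε F : R) • 1) = 0) :
    StrictEq ru τ₀ (fun σ => (ε σ : R)) p := by
  intro σ hσ
  set Q := ru τ₀ - (ru τ₀).det • 1
  refine Matrix.ext fun a b => (inferInstance : IsHausdorff (maximalIdeal R) R).haus _ fun j => ?_
  rw [SModEq.zero, smul_eq_mul, Ideal.mul_top]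
  obtain ⟨L₁, hL₁, h1⟩ := hc j
  obtain ⟨L₀, hL₀, hdec⟩ := hε.decomp
  let M : IntermediateField ℚ QBar := L₁ ⊔ L₀
  have : FiniteDimensional ℚ M := inferInstance
  let N : IntermediateField ℚ QBar := IntermediateField.normalClosure ℚ M QBar
  have : Normal ℚ N := normalClosure.normal ℚ M QBar
  have : FiniteDimensional ℚ N := normalClosure.is_finiteDimensional ℚ M QBar
  obtain ⟨i, τ, hτ, he⟩ := CFT.Tangent.exists_frobenius_mul_inertia N hF hσ
  have hMN : M ≤ N := M.le_normalClosure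
  have hεσ : ε σ = ε F ^ i := hdec σ hσ i τ hτ fun x hx => he x (hMN ((le_sup_right : L₀ ≤ M) hx))
  have hpow : ∀ k, Q * (ru (F ^ k) - ((ε F : R) ^ k) • 1) = 0 := by
    intro k
    induction k with
    | zero => simp
    | succ k ih => rw [pow_succ, pow_succ]; exact line_mul ih hFe
  have hall : Q * (ru (F ^ i * τ) - ((ε σ : R)) • 1) = 0 := by
    have := line_mul (hpow i) (a' := 1) (by simpa using hI τ hτ)
    rwa [mul_one, ← Int.cast_pow, ← hεσ] at this
  set g := (F ^ i * τ)⁻¹ * σ with hg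
  have hσg : σ = F ^ i * τ * g := by rw [hg, mul_inv_cancel_left]
  have hfix : ∀ x ∈ L₁, g x = x := fun x hx => by
    rw [hg, AlgEquiv.mul_apply, he x (hMN ((le_sup_left : L₁ ≤ M) hx)), ← AlgEquiv.mul_apply,
      inv_mul_cancel, AlgEquiv.one_apply]
  have e : (Q * (ru σ - (ε σ : R) • 1)) a b = ((Q * ru (F ^ i * τ)) * (ru g - 1)) a b := by
    have e1 : Q * (ru σ - (ε σ : R) • 1) =
        (Q * ru (F ^ i * τ)) * (ru g - 1) + Q * (ru (F ^ i * τ) - (ε σ : R) • 1) := by
      conv_lhs => rw [hσg, map_mul]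
      rw [← hσg, mul_sub, mul_sub (Q * ru (F ^ i * τ)), mul_sub, mul_one, mul_assoc]
      abel
    rw [e1, hall, add_zero]
  rw [e, Matrix.mul_apply]
  exact Ideal.sum_mem _ fun k _ => Ideal.mul_mem_left _ _ (by simpa using h1 g hfix k b)

end Fermat.Agent.RT.Lifting
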