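import Fermat.Agent.RT.Lifting.LevelsStep
import Fermat.Agent.RT.LowerB.Strict
import Fermat.Agent.RT.LowerB.Ordinary

/-!
# Strictness at `p` along the levels

Given `StrictAtNew`, for a semistable `W` bad at `p`: on the kernel of `degStar` at `p` the
equations of strictness hold with the residual sign. When `p` cannot be removed they hold on the
whole Hecke algebra.

See `apply_eq_zero_strict`, `strictEq_of_new` and `Lev.new_at_p`.
-/

set_option autoImplicit false

noncomputable section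

attribute [-instance] NormedAlgebra.toAlgebra

namespace Fermat.Agent.RT.Lifting

open IsLocalRing Fermat.Agent.Deform Fermat.Agent.RT.Glue Fermat.Agent.RT.Modules
open Fermat.Agent.RT.LowerB (auxSet Data models)
open Fermat.Agent.LevelRaising (RaiseData)
open GaloisReps (HeckeGaloisModel)

/-! ## The equations in traces -/

section Generic

variable {A : Type} [CommRing A] [IsLocalRing A] {ru : Gal →* M2 A} {τ₀ : Gal}

omit [IsLocalRing A] in
/-- The trace of the equations in traces of group elements. -/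
theorem trace_eqn (σ g : Gal) (e : A) :
    ((ru τ₀ - (ru τ₀).det • 1) * (ru σ - e • 1) * ru g).trace =
      (ru (τ₀ * σ * g)).trace - e * (ru (τ₀ * g)).trace - (ru τ₀).det * (ru (σ * g)).trace +
        (ru τ₀).det * e * (ru g).trace := by
  simp only [map_mul, sub_mul, mul_sub, smul_mul_assoc, mul_smul_comm, one_mul, mul_one,
    smul_sub, smul_smul, Matrix.trace_sub, Matrix.trace_smul, smul_eq_mul]
  ring

omit [IsLocalRing A] in
/-- The difference of the equations of the two signs. -/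
theorem trace_eqn_neg (σ g : Gal) (e : A) :
    ((ru τ₀ - (ru τ₀).det • 1) * (ru σ - (-e) • 1) * ru g).trace -
        ((ru τ₀ - (ru τ₀).det • 1) * (ru σ - e • 1) * ru g).trace =
      2 * e * ((ru τ₀ - (ru τ₀).det • 1) * ru g).trace := by
  rw [trace_eqn, trace_eqn, sub_mul, smul_mul_assoc, one_mul, Matrix.trace_sub, Matrix.trace_smul,
    smul_eq_mul, ← map_mul]
  ring

/-- A sign whose equation vanishes in trace at a point is the residual sign. -/
private theorem sign_eq_of_trace_eq_zero {R : Type} [CommRing R] [Nontrivial R] (θc : A →+* R)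
    (h2' : IsUnit (2 : A)) {σ g₀ : Gal}
    (hg₀ : IsUnit (((ru τ₀ - (ru τ₀).det • 1) * ru g₀).trace)) {m ε : ℤ} (hm : m = 1 ∨ m = -1)
    (hε : ε * ε = 1)
    (hres : ∀ i j, ((ru τ₀ - (ru τ₀).det • 1) * (ru σ - (ε : A) • 1)) i j ∈ maximalIdeal A)
    (hzero : θc ((ru τ₀ - (ru τ₀).det • 1) * (ru σ - (m : A) • 1) * ru g₀).trace = 0) : m = ε := by
  by_contra hne
  have hm2 : m = -ε := by
    rcases hm with rfl | rfl <;>
      rcases Int.eq_one_or_neg_one_of_mul_eq_one (hε) with h' | h' <;> clear * - h' hne <;>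
      omega
  have h1 : ((ru τ₀ - (ru τ₀).det • 1) * (ru σ - (m : A) • 1) * ru g₀).trace ∈ maximalIdeal A :=
    (mem_maximalIdeal _).2 fun hu' => (hu'.map θc).ne_zero hzero
  have h2 : ((ru τ₀ - (ru τ₀).det • 1) * (ru σ - (ε : A) • 1) * ru g₀).trace ∈
      maximalIdeal A := by
    rw [Matrix.trace_fin_two, Matrix.mul_apply, Matrix.mul_apply, Fin.sum_univ_two,
      Fin.sum_univ_two]
    exact add_mem (add_mem (Ideal.mul_mem_right _ _ (hres 0 0))
      (Ideal.mul_mem_right _ _ (hres 0 1))) (add_mem (Ideal.mul_mem_right _ _ (hres 1 0))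
        (Ideal.mul_mem_right _ _ (hres 1 1)))
  have h3 := sub_mem h1 h2
  have hεu : IsUnit ((ε : A)) :=
    IsUnit.of_mul_eq_one _ (by rw [← Int.cast_mul, hε, Int.cast_one])
  refine (mem_maximalIdeal _).1 h3 ?_
  have hcast : (m : A) = -(ε : A) := by rw [hm2, Int.cast_neg]
  have e3 := trace_eqn_neg (ru := ru) (τ₀ := τ₀) σ g₀ (ε : A)
  rw [← hcast] at e3
  rw [e3]
  exact (h2'.mul hεu).mul hg₀

omit [IsLocalRing A] in
/-- Entries are combinations of traces against a spanning set. -/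
theorem entry_mem_of_trace {X : M2 A} {I : Ideal A}
    (hspan : Submodule.span A (Set.range ru) = ⊤) (h : ∀ g, (X * ru g).trace ∈ I) (i j : Fin 2) :
    X i j ∈ I := by
  have hX : ∀ Y : M2 A, (X * Y).trace ∈ I := fun Y => by
    have hY : Y ∈ Submodule.span A (Set.range ru) := by rw [hspan]; trivial
    induction hY using Submodule.span_induction with
    | mem Y hY => obtain ⟨g, rfl⟩ := hY; exact h g
    | zero => rw [mul_zero, Matrix.trace_zero]; exact zero_mem _
    | add Y Z _ _ hY hZ => rw [mul_add, Matrix.trace_add]; exact add_mem hY hZ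
    | smul a Y _ hY => rw [mul_smul_comm, Matrix.trace_smul]; exact Ideal.mul_mem_left _ a hY
  have := hX (Matrix.single j i 1)
  rwa [Matrix.trace_mul_single, MulOpposite.smul_eq_mul_unop, MulOpposite.unop_op, mul_one] at this

end Generic

variable {O : Type} [CommRing O] [IsDomain O] [IsDiscreteValuationRing O]
  [IsAdicComplete (maximalIdeal O) O] [Finite (ResidueField O)] [CharZero O]
  {p : ℕ} [Fact p.Prime]

section Realised

variable {L : ℕ} [NeZero L] {Δ : Type} [CommGroup Δ] [Finite Δ] {ψ : (ZMod L)ˣ →* Δ}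
  {S : Finset ℕ} {abar : ℕ → ResidueField O} {H : HeckeModule L ψ S abar}

omit [IsAdicComplete (maximalIdeal O) O] [Finite (ResidueField O)] [CharZero O] [NeZero L] in
/-- Values at a realisation keep units and the maximal ideal. -/
theorem mem_maximal_iff_realised [IsLocalRing H.algebra] (hp : (p : O) ∈ maximalIdeal O)
    [IsAdicComplete (maximalIdeal O) O] [Finite (ResidueField O)] [CharZero O]
    {R : Type} [CommRing R] [IsDomain R] [IsDiscreteValuationRing R] [CharZero R] [Algebra O R]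
    [Module.Finite O R] {j : R →+* KBar O}
    (hj : j.comp (algebraMap O R) = algebraMap O (KBar O))
    (θ : H.algebra →ₐ[O] KBar O) {x : H.algebra} {y : R} (hxy : θ x = j y) :
    x ∈ maximalIdeal H.algebra ↔ y ∈ maximalIdeal R := by
  have hne : ∀ z, IsIntegral O z → (p : KBar O) * z ≠ 1 := fun z hz h1 =>
    one_ne_zero (α := KBar O) (eq_zero_of_forall_integral hp fun N =>
      ⟨z ^ N, hz.pow N, by rw [← mul_pow, h1, one_pow]⟩)
  constructor
  · intro hx
    by_contra hy
    obtain ⟨s, hs⟩ := (not_not.1 hy : IsUnit y).exists_right_inv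
    obtain ⟨k, hk⟩ := exists_pow_le (H := H) (p := p)
    obtain ⟨a, ha⟩ := Ideal.mem_span_singleton'.1 (hk (Ideal.pow_mem_pow hx k))
    refine hne (θ a * j (s ^ k)) ((isIntegral_point θ a).mul (isIntegral_of_algHom j hj _)) ?_
    rw [← mul_assoc, ← map_natCast θ, ← map_mul, mul_comm (p : H.algebra), ha, map_pow, hxy,
      ← map_pow, ← map_mul, ← mul_pow, hs, one_pow, map_one]
  · intro hy
    by_contra hx
    obtain ⟨s, hs⟩ := (not_not.1 hx : IsUnit x).exists_right_inv
    obtain ⟨k, hk⟩ : ∃ k, y ^ k ∈ Ideal.span {(p : R)} := by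
      refine Ideal.mem_radical_iff.1 ?_
      have hp0 : (p : R) ≠ 0 := Nat.cast_ne_zero.2 (Fact.out : p.Prime).ne_zero
      rw [Ideal.radical_eq_sInf]
      refine Ideal.mem_sInf.2 fun {P} hP => ?_
      rw [eq_maximalIdeal (hP.2.isMaximal fun h0 => hp0 ?_)]
      · exact hy
      · simpa [h0] using hP.1 (Ideal.mem_span_singleton_self _)
    obtain ⟨a, ha⟩ := Ideal.mem_span_singleton'.1 hk
    refine hne (j a * θ (s ^ k)) ((isIntegral_of_algHom j hj _).mul (isIntegral_point θ _)) ?_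
    rw [← mul_assoc, ← map_natCast j, ← map_mul, mul_comm _ a, ha, map_pow, ← hxy, ← map_pow,
      ← map_mul, ← mul_pow, hs, one_pow, map_one]

end Realised

/-- A vanishing equation of a representation `ρ` with the traces of `ru` at a point `θ` vanishes
on the traces at `θ`: the determinants at `τ₀` agree, traces giving twice the determinant. -/
private theorem trace_eqn_eq_zero_of_realised {A R K : Type} [CommRing A] [CommRing R]
    [IsLocalRing R] [CommRing K] [IsDomain K] [CharZero K] {ru : Gal →* M2 A} {τ₀ σ : Gal}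
    (θ : A →+* K) (j : R →+* K) (ρ : GaloisRepAdic R) {m : ℤ}
    (h : ∀ s, θ (ru s).trace = j (LinearMap.trace R _ (ρ.ρ s)))
    (heq : (ρ.ρ τ₀ - LinearMap.det (ρ.ρ τ₀) • 1) * (ρ.ρ σ - (m : R) • 1) = 0) :
    ∀ y, θ ((ru τ₀ - (ru τ₀).det • 1) * (ru σ - (m : A) • 1) * ru y).trace = 0 := by
  have hd : θ (ru τ₀).det = j (LinearMap.det (ρ.ρ τ₀)) := by
    let bR : Module.Basis (Fin 2) R ρ.V := Module.finBasisOfFinrankEq R ρ.V ρ.finrank_eq
    have e1 := congrArg θ (Glue.two_mul_det (ru τ₀))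
    have e2 := congrArg j (Glue.two_mul_det (LinearMap.toMatrix bR bR (ρ.ρ τ₀)))
    rw [← LinearMap.toMatrix_mul, ← map_mul ρ.ρ, LinearMap.det_toMatrix,
      ← LinearMap.trace_eq_matrix_trace, ← LinearMap.trace_eq_matrix_trace] at e2
    rw [← map_mul ru] at e1
    simp only [map_mul θ, map_sub, map_ofNat, h] at e1
    simp only [map_mul j, map_sub, map_ofNat] at e2
    exact mul_left_cancel₀ two_ne_zero (e1.trans e2.symm)
  intro y
  have h0 : LinearMap.trace R _ ((ρ.ρ τ₀ - LinearMap.det (ρ.ρ τ₀) • 1) *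
      (ρ.ρ σ - (m : R) • 1) * ρ.ρ y) = 0 := by rw [heq, zero_mul, map_zero]
  have e2 : LinearMap.trace R _ ((ρ.ρ τ₀ - LinearMap.det (ρ.ρ τ₀) • 1) *
      (ρ.ρ σ - (m : R) • 1) * ρ.ρ y) =
      LinearMap.trace R _ (ρ.ρ (τ₀ * σ * y)) - (m : R) * LinearMap.trace R _
        (ρ.ρ (τ₀ * y)) -
        LinearMap.det (ρ.ρ τ₀) * LinearMap.trace R _ (ρ.ρ (σ * y)) +
        LinearMap.det (ρ.ρ τ₀) * (m : R) * LinearMap.trace R _ (ρ.ρ y) := by
    simp only [map_mul, sub_mul, mul_sub, smul_mul_assoc, mul_smul_comm, one_mul, mul_one,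
      smul_sub, smul_smul, map_sub, map_smul, smul_eq_mul]
    ring
  rw [e2] at h0
  have h1 := congrArg j h0
  simp only [map_add, map_sub, map_intCast, map_zero, map_mul j, ← h, ← hd] at h1
  rw [trace_eqn]
  simp only [map_add, map_sub, map_intCast, map_mul θ]
  exact h1

/-! ## The new part -/

section New

variable [CharP (ResidueField O) p] [Algebra (ZMod p) (ResidueField O)]
  {W : WeierstrassCurve ℤ} {hΔ : W.Δ ≠ 0}
  {M : ℕ} [NeZero M] [NeZero (M * p)] {Δ : Type} [CommGroup Δ] [Finite Δ]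
  {ψ : (ZMod M)ˣ →* Δ} {S : Finset ℕ} {abar : ℕ → ResidueField O} {hq : RaiseData p M}
  {hqS : p ∈ S} (h : Hyp p ψ S abar)
  [IsLocalRing (heckeModule (h.raise hq hqS)).algebra]
  [IsLocalHom (algebraMap O (heckeModule (h.raise hq hqS)).algebra)]
  {pt : ∀ θ : (heckeModule (h.raise hq hqS)).algebra →ₐ[O] KBar O,
    Point (p := p) (heckeModule (h.raise hq hqS)) (h.raise hq hqS).mem_of_dvd θ.toRingHom}

/-- **The new part at `p` is strict.** -/
theorem apply_eq_zero_strict (hp : (p : O) ∈ maximalIdeal O) (hW : W.IsSemistableModel)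
    (hdvd : (p : ℤ) ∣ W.Δ) (hstrict : StrictAtNew p O)
    {D : ∀ (N : ℕ) [NeZero N], HeckeGaloisModel N p} (G : Glued D pt)
    (hG : G.rep.residual.IsEquiv ((Core.rhoBar W p hΔ (ResidueField O)).baseChangeAlong
      (ResidueField.map (algebraMap O (heckeModule (h.raise hq hqS)).algebra))))
    {ru : Gal →* M2 (heckeModule (h.raise hq hqS)).algebra}
    (htr : ∀ σ, (ru σ).trace = (G.R σ).trace)
    (hspan : Submodule.span (heckeModule (h.raise hq hqS)).algebra (Set.range ru) = ⊤)
    {τ₀ : Gal} (hτ₀ : τ₀ ∈ (padicPlace p).inertiaSubgroupIn ℚ)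
    (hu : IsUnit ((ru τ₀).det - 1)) {ε : Gal → ℤ}
    (hε : ∀ σ ∈ (padicPlace p).decompositionSubgroup ℚ, ε σ * ε σ = 1)
    (hres : ∀ σ ∈ (padicPlace p).decompositionSubgroup ℚ, ∀ i j,
      ((ru τ₀ - (ru τ₀).det • 1) *
        (ru σ - (ε σ : (heckeModule (h.raise hq hqS)).algebra) • 1)) i j ∈ maximalIdeal _)
    {σ : Gal} (hσ : σ ∈ (padicPlace p).decompositionSubgroup ℚ)
    {x : (heckeModule (h.raise hq hqS)).M} (hx : degStar ψ S abar hq hqS x = 0) (i j : Fin 2) :
    (((ru τ₀ - (ru τ₀).det • 1) *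
        (ru σ - (ε σ : (heckeModule (h.raise hq hqS)).algebra) • 1)) i j :
      Module.End O (heckeModule (h.raise hq hqS)).M) x = 0 := by
  classical
  let A := (heckeModule (h.raise hq hqS)).algebra
  have hp2 := h.ne_two
  -- Step 1: it suffices that the traces of the equation against all `ru g` annihilate `x`, for
  -- which they need vanish only at the systems of newforms exactly divisible by `p`.
  let annX : Ideal A :=
    { carrier := {a | (a : Module.End O (heckeModule (h.raise hq hqS)).M) x = 0}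
      zero_mem' := by
        show ((0 : A) : Module.End O (heckeModule (h.raise hq hqS)).M) x = 0
        rw [ZeroMemClass.coe_zero, LinearMap.zero_apply]
      add_mem' := fun {a c} ha hc => by
        show ((a + c : A) : Module.End O (heckeModule (h.raise hq hqS)).M) x = 0
        rw [Subalgebra.coe_add, LinearMap.add_apply, ha, hc, add_zero]
      smul_mem' := fun c a ha => by
        show ((c * a : A) : Module.End O (heckeModule (h.raise hq hqS)).M) x = 0
        rw [Subalgebra.coe_mul, Module.End.mul_apply, ha, map_zero] }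
  refine entry_mem_of_trace (I := annX) hspan (fun g => ?_) i j
  obtain ⟨e, he⟩ := exists_complexEquiv (O := O) hp
  obtain ⟨g₀, hg₀⟩ := LowerB.exists_isUnit_trace _ hspan hu
  refine apply_eq_zero_of_new h he _ (fun θ L' f hθ hf hdvdL hcoef hqL hq2 => ?_) hx
  have : NeZero L' :=
    ⟨fun h0 => pow_ne_zero 2 (NeZero.ne (M * p)) (Nat.eq_zero_of_zero_dvd (h0 ▸ hdvdL))⟩
  -- Step 2: the representation `ρ` of such a newform has the traces of `ru` at the point `θc`.
  obtain ⟨r⟩ := nonempty_realisation hp hf e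
  let θc : (heckeModule (h.raise hq hqS)).algebra →ₐ[O] KBar O := pointOf e θ hθ
  have key : ∀ s, θc (ru s).trace = r.trace (D L') s := fun s => by
    rw [htr]
    exact G.trace_realisation hp hqS r hdvdL θc (fun ℓ hℓ hℓS => by
      rw [apply_pointOf]
      exact hcoef ℓ hℓ hℓS _ (ZMod.coe_unitOfCoprime _ _)) s
  set ρ := (D L').rep r.ι r.θ' r.p_mem
  have htrρ : ∀ s, θc (ru s).trace = r.j (LinearMap.trace r.R _ (ρ.ρ s)) := key
  -- Step 3: `ρ` is absolutely irreducible and residually ordinary, with cyclotomic determinant,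
  -- so it is strict: at `σ` it satisfies the equation with some sign `m`.
  obtain ⟨k₁, g₁, h₁, hu₁⟩ := G.exists_trace_commutator
  have habs : ρ.residual.IsAbsolutelyIrreducible := by
    refine isAbsolutelyIrreducible_of_trace_commutator _ ⟨k₁, g₁, h₁, by_contra fun hn => ?_⟩
    refine (mem_maximalIdeal _).1 ((mem_maximal_iff_realised hp r.j_algebraMap θc
      (x := (ru (k₁ * g₁ * h₁)).trace - (ru (g₁ * k₁ * h₁)).trace) ?_).2
      ((mem_maximalIdeal _).2 hn)) ?_
    · rw [map_sub, map_sub, htrρ, htrρ]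
    · rw [htr, htr, ← G.trace_rep, ← G.trace_rep]; exact hu₁
  have hdetρ : ρ.DetIsCyclotomic p := by
    refine ⟨r.p_mem, fun n s a ha => ?_⟩
    rw [Nat.cast_pow, Ideal.mem_span_singleton]
    exact (D L').det_eigenAction_congr r.ι r.θ' r.p_mem ha
  have hord : (GaloisRepAdic.ofResidualGaloisRep ρ.residual).IsOrdinaryAt p := by
    refine LowerB.isOrdinaryAt_residual_of_trace hΔ hp2 hdvd (hW p Fact.out hdvd) habs hdetρ
      fun s a ha => (mem_maximal_iff_realised hp r.j_algebraMap θc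
        (x := (ru s).trace - a) ?_).1 ?_
    · rw [map_sub, map_sub, htrρ, map_natCast, map_natCast]
    · rw [← residue_eq_zero_iff, map_sub, map_natCast, htr, LowerB.residue_trace G hG, sub_eq_zero]
      show ResidueField.map _ (LinearMap.trace _ _
        (((EC.Rep.residualRep W p hΔ).ρ s).baseChange (ResidueField O))) = _
      rw [LinearMap.trace_baseChange, ha, map_natCast, map_natCast]
  have hst : ρ.IsStrictOrdinaryAt p := hstrict L' f hf hqL hq2 e r (D L') habs hord
  obtain ⟨c, hc, -, heq⟩ := LowerB.exists_sign_eq hdetρ hst hσ hτ₀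
  obtain ⟨m, rfl, hm⟩ : ∃ m : ℤ, (m : r.R) = c ∧ (m = 1 ∨ m = -1) := by
    rcases hc with h' | h'
    · exact ⟨1, by rw [h', Int.cast_one], Or.inl rfl⟩
    · exact ⟨-1, by rw [h', Int.cast_neg, Int.cast_one], Or.inr rfl⟩
  -- Step 4: so the trace of the equation with sign `m` against every element vanishes at `θc`.
  have hzero : ∀ y, θc ((ru τ₀ - (ru τ₀).det • 1) * (ru σ - (m : A) • 1) * ru y).trace = 0 :=
    trace_eqn_eq_zero_of_realised (θc : A →+* KBar O) r.j ρ htrρ heq
  -- Step 5: the sign is the residual one, as the two equations differ by a unit against `g₀`.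
  have hsign : m = ε σ :=
    sign_eq_of_trace_eq_zero (θc : A →+* KBar O) (Glue.isUnit_two hp hp2) hg₀ hm (hε σ hσ)
      (hres σ hσ) (hzero g₀)
  subst hsign
  exact e.symm.injective (by rw [map_zero]; exact hzero g)

end New

/-! ## The whole algebra and Case II -/

section Whole

variable [CharP (ResidueField O) p] [Algebra (ZMod p) (ResidueField O)]
  {W : WeierstrassCurve ℤ} {hΔ : W.Δ ≠ 0} {L : ℕ} [NeZero L] {Δ : Type} [CommGroup Δ] [Finite Δ]
  {ψ : (ZMod L)ˣ →* Δ} {S : Finset ℕ} {abar : ℕ → ResidueField O} {H : HeckeModule L ψ S abar}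
  [IsLocalRing H.algebra] [IsLocalHom (algebraMap O H.algebra)]
  {hS : ∀ v : ℕ, v.Prime → v ∣ L → v ∈ S}
  {pt : ∀ θ : H.algebra →ₐ[O] KBar O, Point (p := p) H hS θ.toRingHom}

omit [CharP (ResidueField O) p] [NeZero L] in
/-- **Strictness with the residual sign** when `p` is exactly in the level of every point. -/
theorem strictEq_of_new (hp : (p : O) ∈ maximalIdeal O) (hp2 : p ≠ 2)
    (hW : W.IsSemistableModel) (hdvd : (p : ℤ) ∣ W.Δ) (hstrict : StrictAtNew p O)
    {D : ∀ (N : ℕ) [NeZero N], HeckeGaloisModel N p} (G : Glued D pt)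
    (hG : G.rep.residual.IsEquiv ((Core.rhoBar W p hΔ (ResidueField O)).baseChangeAlong
      (ResidueField.map (algebraMap O H.algebra))))
    (hnew : ∀ θ, p ∣ (pt θ).M ∧ ¬ p ^ 2 ∣ (pt θ).M)
    {ru : Gal →* M2 H.algebra} (htr : ∀ σ, (ru σ).trace = (G.R σ).trace)
    (hdet : ∀ σ, (ru σ).det = (G.R σ).det)
    (hspan : Submodule.span H.algebra (Set.range ru) = ⊤)
    {τ₀ : Gal} (hτ₀ : τ₀ ∈ (padicPlace p).inertiaSubgroupIn ℚ)
    (hu : IsUnit ((ru τ₀).det - 1)) {ε : Gal → ℤ}
    (hε : ∀ σ ∈ (padicPlace p).decompositionSubgroup ℚ, ε σ * ε σ = 1)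
    (hres : ∀ σ ∈ (padicPlace p).decompositionSubgroup ℚ, ∀ i j,
      ((ru τ₀ - (ru τ₀).det • 1) * (ru σ - (ε σ : H.algebra) • 1)) i j ∈ maximalIdeal H.algebra) :
    StrictEq ru τ₀ (fun σ => (ε σ : H.algebra)) p := by
  obtain ⟨ε', hε', -, heq⟩ := LowerB.exists_strictEq hp hp2 hstrict G hnew
    (LowerB.isOrdinaryAt_residual_point hΔ hp hp2 hdvd (hW p Fact.out hdvd) G hG) hτ₀
    (by rw [← hdet]; exact hu) ru htr hdet hspan
  intro σ hσ
  have h := sign_unique (Glue.isUnit_two hp hp2) hu (hε' σ hσ)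
    (by rw [← Int.cast_mul, hε σ hσ, Int.cast_one]) (heq σ hσ) (hres σ hσ)
  simp only [← h]
  exact heq σ hσ

end Whole

section CaseTwo

variable [CharP (ResidueField O) p] [Algebra (ZMod p) (ResidueField O)]
  {W : WeierstrassCurve ℤ} {hΔ : W.Δ ≠ 0} {S₀ : Finset ℕ}
  {b : Module.Basis (Fin 2) (ResidueField O) (Core.rhoBar W p hΔ (ResidueField O)).V}
  {r : ℕ} {qv : Fin r → ℕ} {Δ : Type} [CommGroup Δ] [Finite Δ]
  {ψ₀ : (ZMod (auxProd qv))ˣ →* Δ} {T : Finset ℕ} {L : ℕ} [NeZero L] {ψ : (ZMod L)ˣ →* Δ}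

omit [Finite Δ] [NeZero L] in
/-- **Case II**: every point is new at `p` when `p` cannot be removed. -/
theorem Lev.new_at_p {n : ℕ} (hl : Lev S₀ ψ₀ T L ψ) (d : Data O p W hΔ S₀ b)
    (ha : IsAux O p W hΔ S₀ b n qv) (hpT : p ∈ T)
    (hnot : ¬ W.IsResiduallyModularOfLevel p (∏ x ∈ T.erase p, x))
    {H : HeckeModule L ψ (excAux S₀ qv) (Core.abar W (ResidueField O))}
    {hS : ∀ v : ℕ, v.Prime → v ∣ L → v ∈ excAux S₀ qv}
    {pt : ∀ θ : H.algebra →ₐ[O] KBar O, Point (p := p) H hS θ.toRingHom}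
    (θ : H.algebra →ₐ[O] KBar O) : p ∣ (pt θ).M ∧ ¬ p ^ 2 ∣ (pt θ).M := by
  classical
  have hpr : p.Prime := Fact.out
  have hpL : p ∣ L := (hl.dvd_iff p hpr).2 (Or.inl hpT)
  refine ⟨by_contra fun hn => hnot ?_, (pt θ).sq_not_dvd hpr hpL fun u hu => by
    rw [hl.psi_eq_one hpT hu, map_one, map_one]⟩
  have hc := (pt θ).congruent p hpr hpL hn
  have hM : NeZero (∏ x ∈ T.erase p, x) :=
    ⟨Finset.prod_ne_zero_iff.2 fun x hx => (hl.mem x (Finset.mem_of_mem_erase hx)).1.ne_zero⟩
  have hLp : L / p = (∏ x ∈ T.erase p, x) * auxProd qv := by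
    rw [hl.eq_mul, ← Finset.mul_prod_erase T (fun x => x) hpT, mul_assoc,
      Nat.mul_div_cancel_left _ hpr.pos]
  have hdvd : (∏ x ∈ T.erase p, x) ∣ L := by
    rw [hl.eq_mul]
    exact Dvd.dvd.mul_right (Finset.prod_dvd_prod_of_subset _ _ _ (Finset.erase_subset p T)) _
  rw [hLp] at hc
  have : NeZero ((∏ x ∈ T.erase p, x) * ∏ q ∈ auxSet qv, q) :=
    ⟨mul_ne_zero (NeZero.ne _) (Finset.prod_ne_zero_iff.2 fun q hq => (hl.aux q hq).ne_zero)⟩
  refine LowerB.residuallyModular_of_congruentLevel hΔ (ResidueField O)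
    ((d.mono Finset.subset_union_left).congruentLevel_descent
      (hl.squarefree.squarefree_of_dvd hdvd) (fun x hx hd => hl.mem_exc hx (hd.trans hdvd))
      (auxSet qv) (fun q hq => ?_) hc)
  exact ha.rankCond d hl hq (Finset.erase_subset p T)

end CaseTwo

end Fermat.Agent.RT.Lifting
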