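import Fermat.Agent.RT.Lifting.Stage
import Fermat.Agent.RT.Lifting.Kinds
import Fermat.Agent.RT.Lifting.LevelsAtP

/-!
# One place added to a stage

The two degeneracy maps and their adjoints between a stage of `T` and one of `T ∪ {w}`, equivariant
for the ring of the level, with composites `(w + 1, t; t, w + 1)` and Ihara's lemma on both sides.
At `w ≠ p` the number `t` is the trace of Frobenius and its square is `(w + 1) ^ 2` on the kernel
of the adjoints; at `w = p` it is `α + p / α` for the unit root `α` and that kernel is strict.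

Main results: `exists_step` and `exists_step_atP`.
-/

set_option autoImplicit false
set_option genSizeOf false
set_option genInjectivity false

noncomputable section

namespace Fermat.Agent.RT.Lifting

open IsLocalRing Fermat.Agent.Deform Fermat.Agent.RT.Glue Fermat.Agent.RT.Modules
open Fermat.Agent.RT.LowerB (auxSet Data models)
open Fermat.Agent.LevelRaising (RaiseData)

attribute [-instance] NormedAlgebra.toAlgebra LieRinehartAlgebra.toIsScalarTower

/-! ## The equations at `p` -/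

section Matrices

variable {R : Type} [CommRing R]

/-- The equations at `p` pass to a conjugate. -/
theorem mul_eq_zero_of_conj {r r' : Gal →* M2 R} {Q : M2 R} (hQ : IsUnit Q)
    (hconj : ∀ σ, Q * r σ = r' σ * Q) (hdet : ∀ σ, (r' σ).det = (r σ).det) {τ₀ σ : Gal} (a : R)
    (h : (r τ₀ - (r τ₀).det • 1) * (r σ - a • 1) = 0) :
    (r' τ₀ - (r' τ₀).det • 1) * (r' σ - a • 1) = 0 := by
  have hc : ∀ g (c : R), (r' g - c • 1) * Q = Q * (r g - c • 1) := fun g c => by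
    rw [mul_sub, sub_mul, hconj g, mul_smul_one, smul_mul_assoc, one_mul]
  refine hQ.mul_left_eq_zero.1 ?_
  rw [mul_assoc, hc, ← mul_assoc, hdet, hc, mul_assoc, h, mul_zero]

theorem mapMatrix_eqn {S : Type} [CommRing S] (f : R →+* S) (ru : Gal →* M2 R) (τ₀ σ : Gal)
    (a : R) : f.mapMatrix ((ru τ₀ - (ru τ₀).det • 1) * (ru σ - a • 1)) =
      (mapM f ru τ₀ - (mapM f ru τ₀).det • 1) * (mapM f ru σ - f a • 1) := by
  rw [map_mul, mapMatrix_sub_det, map_sub, mapMatrix_smul', map_one]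
  rfl

theorem map_eqn_entry {O₁ S : Type} [CommRing O₁] [CommRing S] [Algebra O₁ R] [Algebra O₁ S]
    (f : R →ₐ[O₁] S) (ru : Gal →* M2 R) (τ₀ σ : Gal) (a : R) (i j : Fin 2) :
    f (((ru τ₀ - (ru τ₀).det • 1) * (ru σ - a • 1)) i j) =
      ((mapM (f : R →+* S) ru τ₀ - (mapM (f : R →+* S) ru τ₀).det • 1) *
        (mapM (f : R →+* S) ru σ - f a • 1)) i j :=
  congrFun (congrFun (mapMatrix_eqn (f : R →+* S) ru τ₀ σ a) i) j

/-- The equations at inertia pass to a conjugate. -/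
private theorem conj_eqn_one {r r' : Gal →* M2 R} {Q : M2 R} (hQ : IsUnit Q)
    (hconj : ∀ σ, Q * r σ = r' σ * Q) (hdet : ∀ σ, (r' σ).det = (r σ).det) {τ₀ σ : Gal}
    (h : (r τ₀ - (r τ₀).det • 1) * (r σ - 1) = 0) :
    (r' τ₀ - (r' τ₀).det • 1) * (r' σ - 1) = 0 := by
  have h1 := mul_eq_zero_of_conj hQ hconj hdet (τ₀ := τ₀) (σ := σ) (1 : R)
    (by rw [one_smul]; exact h)
  rwa [one_smul] at h1

variable {A B O₁ : Type} [CommRing A] [CommRing B] [CommRing O₁] [Algebra O₁ R] [Algebra O₁ A]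
  [Algebra O₁ B] {g : R →ₐ[O₁] A} {rho : Gal →* M2 R} {ru : Gal →* M2 A} {τ₀ σ : Gal}

private theorem eqn_mem_ker (hg : mapM (g : R →+* A) rho = ru) {a : R} {b : A} (hab : g a = b)
    (h : (ru τ₀ - (ru τ₀).det • 1) * (ru σ - b • 1) = 0) (i j : Fin 2) :
    ((rho τ₀ - (rho τ₀).det • 1) * (rho σ - a • 1)) i j ∈ RingHom.ker (g : R →+* A) := by
  subst hg hab
  rw [RingHom.mem_ker, RingHom.coe_coe, map_eqn_entry, h, Matrix.zero_apply]

private theorem eqn_one_mem_ker (hg : mapM (g : R →+* A) rho = ru)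
    (h : (ru τ₀ - (ru τ₀).det • 1) * (ru σ - 1) = 0) (i j : Fin 2) :
    ((rho τ₀ - (rho τ₀).det • 1) * (rho σ - 1)) i j ∈ RingHom.ker (g : R →+* A) := by
  have h1 := eqn_mem_ker hg (map_one g) (τ₀ := τ₀) (σ := σ) (by rw [one_smul]; exact h) i j
  rwa [one_smul] at h1

private theorem map_sign_entry (hg : mapM (g : R →+* A) rho = ru) (e : ℤ) (i j : Fin 2) :
    g (((rho τ₀ - (rho τ₀).det • 1) * (rho σ - (e : R) • 1)) i j) =
      ((ru τ₀ - (ru τ₀).det • 1) * (ru σ - (e : A) • 1)) i j := by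
  subst hg
  rw [map_eqn_entry, map_intCast]

private theorem map_mem_maximal [IsLocalRing R] [IsLocalRing A]
    (hl : IsLocalHom (g : R →+* A)) {x : R} (hx : x ∈ maximalIdeal R) :
    g x ∈ maximalIdeal A :=
  (mem_maximalIdeal _).2 fun hn => (mem_maximalIdeal _).1 hx (hl.map_nonunit _ hn)

private theorem map_sq_sub {x : R} {t : A} (h : g x = t) (w : ℕ) :
    g (x ^ 2 - ((w : R) + 1) ^ 2) = t ^ 2 - ((w : A) + 1) ^ 2 := by
  rw [map_sub, map_pow, map_pow, map_add, map_natCast, map_one, h]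

private theorem map_alphaAt_eq (hg : mapM (g : R →+* A) rho = ru) {F : Gal}
    (hu : IsUnit ((rho τ₀).det - 1)) {α : A}
    (hI : (ru τ₀ - (ru τ₀).det • 1) * (ru τ₀ - 1) = 0)
    (hF : (ru τ₀ - (ru τ₀).det • 1) * (ru F - α • 1) = 0) : g (alphaAt rho τ₀ F) = α := by
  subst hg
  have e : (mapM (g : R →+* A) rho τ₀).det - 1 = (g : R →+* A) ((rho τ₀).det - 1) := by
    rw [map_sub, map_one, RingHom.map_det]; rfl
  exact (alphaAt_map (g : R →+* A) rho hu F).trans (alphaAt_eq (e ▸ hu.map _) hI hF)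

private theorem isUnit_map_det (hg : mapM (g : R →+* A) rho = ru)
    (hu : IsUnit ((rho τ₀).det - 1)) : IsUnit ((ru τ₀).det - 1) := by
  subst hg
  have e : (mapM (g : R →+* A) rho τ₀).det - 1 = (g : R →+* A) ((rho τ₀).det - 1) := by
    rw [map_sub, map_one, RingHom.map_det]; rfl
  exact e ▸ hu.map _

private theorem sign_mem_maximal [IsLocalRing R] [IsLocalRing A]
    (hl : IsLocalHom (g : R →+* A)) (hg : mapM (g : R →+* A) rho = ru) {e : ℤ} {i j : Fin 2}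
    (h : ((rho τ₀ - (rho τ₀).det • 1) * (rho σ - (e : R) • 1)) i j ∈ maximalIdeal R) :
    ((ru τ₀ - (ru τ₀).det • 1) * (ru σ - (e : A) • 1)) i j ∈ maximalIdeal A :=
  map_sign_entry hg e i j ▸ map_mem_maximal hl h

private theorem eqn_unit_root {a α α' c t : A} (ha : a = α) (hα : α' * α = 1)
    (ht : t = α' * (α * α + c)) : a * a + c = a * t := by
  subst ha ht
  rw [← mul_assoc, mul_comm a α', hα, one_mul]

private theorem ker_mul_span_le {g' : R →ₐ[O₁] B} {N M' : Type} [AddCommGroup N] [Module A N]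
    [AddCommGroup M'] [Module B M'] (hfaith : ∀ b : B, (∀ z : M', b • z = 0) → b = 0)
    {g₁ g₂ : M' → N} (h₁ : ∀ (a : R) z, g₁ (g' a • z) = g a • g₁ z)
    (h₂ : ∀ (a : R) z, g₂ (g' a • z) = g a • g₂ z) {X : Set R}
    (hkill : ∀ z, g₁ z = 0 → g₂ z = 0 → ∀ x ∈ X, g' x • z = 0) :
    RingHom.ker (g : R →+* A) * Ideal.span X ≤ RingHom.ker (g' : R →+* B) := by
  refine Ideal.mul_le.2 fun a ha x hx => ?_
  have ha0 : g a = 0 := ha
  rw [RingHom.mem_ker, RingHom.coe_coe]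
  induction hx using Submodule.span_induction with
  | mem x hx =>
    refine hfaith _ fun z => ?_
    rw [mul_comm a x, map_mul, mul_smul]
    exact hkill _ (by rw [h₁, ha0, zero_smul]) (by rw [h₂, ha0, zero_smul]) x hx
  | zero => rw [mul_zero, map_zero]
  | add x y _ _ hx hy => rw [mul_add, map_add, hx, hy, add_zero]
  | smul c x _ hx => rw [smul_eq_mul, mul_left_comm, map_mul, hx, mul_zero]

end Matrices

variable {O : Type} [CommRing O] [IsDomain O] [IsDiscreteValuationRing O]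
  [IsAdicComplete (maximalIdeal O) O] [Finite (ResidueField O)] [CharZero O]
  {p : ℕ} [Fact p.Prime] [CharP (ResidueField O) p] [Algebra (ZMod p) (ResidueField O)]
  {W : WeierstrassCurve ℤ}

attribute [local instance] Stage.finite_alg

/-! ## The degeneracy maps -/

section Maps

variable {M q : ℕ} [NeZero M] [NeZero (M * q)] {Δ : Type} [CommGroup Δ] [Finite Δ]
  {ψ : (ZMod M)ˣ →* Δ} {S : Finset ℕ} {hq : RaiseData q M} {hqS : q ∈ S}
  (h : Hyp p ψ S (Core.abar W (ResidueField O)))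
  {f : (heckeModule (h.raise hq hqS)).algebra →ₐ[O] (heckeModule h).algebra}
  (hd : ∀ δ, f (diaA _ δ) = diaA _ δ)
  (hT : ∀ (x : ℕ) (hx : x.Prime) (hxS : x ∉ S), f (TA _ hx hxS) = TA _ hx hxS)

/-- `deg` and `degStar` as four maps. -/
theorem exists_degMaps (hΔ : W.Δ ≠ 0) (hirr : W.ModRepIsIrreducible p) {t : (heckeModule h).algebra}
    (ht : (t : Module.End O (heckeModule h).M) = symEnd ψ S _ hq) (hd : ∀ δ,
      f (diaA _ δ) = diaA _ δ)
    (hT : ∀ (x : ℕ) (hx : x.Prime) (hxS : x ∉ S), f (TA _ hx hxS) = TA _ hx hxS) :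
    ∃ (f₁ f₂ : (heckeModule h).M →ₗ[O] (heckeModule (h.raise hq hqS)).M)
      (g₁ g₂ : (heckeModule (h.raise hq hqS)).M →ₗ[O] (heckeModule h).M),
      (∀ δ x, f₁ ((heckeModule h).dia δ x) = (heckeModule (h.raise hq hqS)).dia δ (f₁ x)) ∧
      (∀ δ x, f₂ ((heckeModule h).dia δ x) = (heckeModule (h.raise hq hqS)).dia δ (f₂ x)) ∧
      (∀ δ z, g₁ ((heckeModule (h.raise hq hqS)).dia δ z) = (heckeModule h).dia δ (g₁ z)) ∧
      (∀ δ z, g₂ ((heckeModule (h.raise hq hqS)).dia δ z) = (heckeModule h).dia δ (g₂ z)) ∧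
      (∀ (a : (heckeModule (h.raise hq hqS)).algebra) x, f₁ (f a • x) = a • f₁ x) ∧
      (∀ (a : (heckeModule (h.raise hq hqS)).algebra) x, f₂ (f a • x) = a • f₂ x) ∧
      (∀ (a : (heckeModule (h.raise hq hqS)).algebra) z, g₁ (a • z) = f a • g₁ z) ∧
      (∀ (a : (heckeModule (h.raise hq hqS)).algebra) z, g₂ (a • z) = f a • g₂ z) ∧
      (∀ x, g₁ (f₁ x) = (q + 1) • x) ∧ (∀ x, g₁ (f₂ x) = t • x) ∧
      (∀ x, g₂ (f₁ x) = t • x) ∧ (∀ x, g₂ (f₂ x) = (q + 1) • x) ∧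
      (∀ x y, f₁ x + f₂ y ∈ augSub (heckeModule (h.raise hq hqS)).dia →
        x ∈ augSub (heckeModule h).dia ∧ y ∈ augSub (heckeModule h).dia) ∧
      (∀ x y, ∃ z, g₁ z - x ∈ augSub (heckeModule h).dia ∧
        g₂ z - y ∈ augSub (heckeModule h).dia) ∧
      ∀ z, g₁ z = 0 → g₂ z = 0 → degStar ψ S _ hq hqS z = 0 := by
  let D := deg ψ S (Core.abar W (ResidueField O)) hq hqS
  let E := degStar ψ S (Core.abar W (ResidueField O)) hq hqS
  refine ⟨D.comp (LinearMap.inl O _ _), D.comp (LinearMap.inr O _ _),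
    (LinearMap.fst O _ _).comp E, (LinearMap.snd O _ _).comp E, fun δ x => ?_, fun δ x => ?_,
    fun δ z => ?_, fun δ z => ?_, fun a x => ?_, fun a x => ?_, fun a z => ?_, fun a z => ?_,
    fun x => ?_, fun x => ?_, fun x => ?_, fun x => ?_, fun x y hxy => ?_, fun x y => ?_,
    fun z h1 h2 => Prod.ext h1 h2⟩
  -- in order: compatibility with diamonds and operators, the composites, Ihara on both sides
  · refine (congrArg D ?_).trans (deg_dia (hq := hq) (hqS := hqS) h δ (x, 0))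
    exact Prod.ext rfl (map_zero (h.dia δ)).symm
  · refine (congrArg D ?_).trans (deg_dia (hq := hq) (hqS := hqS) h δ (0, x))
    exact Prod.ext (map_zero (h.dia δ)).symm rfl
  · exact congrArg Prod.fst (degStar_dia (hq := hq) (hqS := hqS) h δ z)
  · exact congrArg Prod.snd (degStar_dia (hq := hq) (hqS := hqS) h δ z)
  · refine (congrArg D ?_).trans (deg_smul (hq := hq) (hqS := hqS) h hd hT a (x, 0))
    exact Prod.ext rfl (map_zero (f a).1).symm
  · refine (congrArg D ?_).trans (deg_smul (hq := hq) (hqS := hqS) h hd hT a (0, x))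
    exact Prod.ext (map_zero (f a).1).symm rfl
  · exact congrArg Prod.fst (degStar_smul (hq := hq) (hqS := hqS) h hd hT a z)
  · exact congrArg Prod.snd (degStar_smul (hq := hq) (hqS := hqS) h hd hT a z)
  · refine (congrArg Prod.fst (degStar_deg (hq := hq) (hqS := hqS) h (x, 0))).trans ?_
    exact (congrArg _ (map_zero _)).trans (add_zero _)
  · refine (congrArg Prod.fst (degStar_deg (hq := hq) (hqS := hqS) h (0, x))).trans ?_
    exact (congrArg (· + _) (smul_zero _)).trans ((zero_add _).trans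
      (LinearMap.congr_fun ht.symm x))
  · refine (congrArg Prod.snd (degStar_deg (hq := hq) (hqS := hqS) h (x, 0))).trans ?_
    exact (congrArg _ (smul_zero _)).trans ((add_zero _).trans (LinearMap.congr_fun ht.symm x))
  · refine (congrArg Prod.snd (degStar_deg (hq := hq) (hqS := hqS) h (0, x))).trans ?_
    exact (congrArg (· + _) (map_zero _)).trans (zero_add _)
  · refine mem_augSub_of_deg_curve (hq := hq) (hqS := hqS) h hΔ hirr (u := (x, y)) ?_
    refine (congrArg (fun v => v ∈ augSub (h.raise hq hqS).dia) ?_).mp hxy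
    refine (map_add D _ _).symm.trans (congrArg D ?_)
    exact Prod.ext (add_zero x) (zero_add y)
  · exact exists_degStar_sub_mem_curve (hq := hq) (hqS := hqS) h hΔ hirr (x, y)

end Maps

variable {St : Setup O p W} {ls : Finset ℕ} {r n : ℕ} {A : AuxData St ls r n}

/-- The maps between a stage and a stage with one more place. -/
structure Step (P : Stage A St.top) {T T' : Finset ℕ} (S : Stage A T) (g : P.Ring →ₐ[O] S.alg)
    (S' : Stage A T') (g' : P.Ring →ₐ[O] S'.alg) (t : S.alg) (c : ℕ) where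
  f₁ : S.M →ₗ[O] S'.M
  f₂ : S.M →ₗ[O] S'.M
  g₁ : S'.M →ₗ[O] S.M
  g₂ : S'.M →ₗ[O] S.M
  f₁_dia : ∀ δ x, f₁ ((heckeModule S.hyp).dia δ x) = (heckeModule S'.hyp).dia δ (f₁ x)
  f₂_dia : ∀ δ x, f₂ ((heckeModule S.hyp).dia δ x) = (heckeModule S'.hyp).dia δ (f₂ x)
  g₁_dia : ∀ δ z, g₁ ((heckeModule S'.hyp).dia δ z) = (heckeModule S.hyp).dia δ (g₁ z)
  g₂_dia : ∀ δ z, g₂ ((heckeModule S'.hyp).dia δ z) = (heckeModule S.hyp).dia δ (g₂ z)
  f₁_smul : ∀ (a : P.Ring) x, f₁ (g a • x) = g' a • f₁ x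
  f₂_smul : ∀ (a : P.Ring) x, f₂ (g a • x) = g' a • f₂ x
  g₁_smul : ∀ (a : P.Ring) z, g₁ (g' a • z) = g a • g₁ z
  g₂_smul : ∀ (a : P.Ring) z, g₂ (g' a • z) = g a • g₂ z
  g₁f₁ : ∀ x, g₁ (f₁ x) = c • x
  g₁f₂ : ∀ x, g₁ (f₂ x) = t • x
  g₂f₁ : ∀ x, g₂ (f₁ x) = t • x
  g₂f₂ : ∀ x, g₂ (f₂ x) = c • x
  inj : ∀ x y, f₁ x + f₂ y ∈ augSub (heckeModule S'.hyp).dia →
    x ∈ augSub (heckeModule S.hyp).dia ∧ y ∈ augSub (heckeModule S.hyp).dia
  surj : ∀ x y, ∃ z, g₁ z - x ∈ augSub (heckeModule S.hyp).dia ∧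
    g₂ z - y ∈ augSub (heckeModule S.hyp).dia

namespace Stage

variable (P : Stage A St.top)

/-- The determinant at `τ₀` is not residually `1`. -/
theorem isUnit_det_sub_one : IsUnit ((P.rho St.τ₀).det - 1) := by
  by_contra h
  have h1 := (augment_eq_zero_iff P.liftData.res _).2 ((mem_maximalIdeal _).2 h)
  rw [map_sub, map_one, sub_eq_zero] at h1
  refine St.τ₀_det (Eq.trans ?_ h1)
  simp only [Matrix.det_fin_two, map_sub, map_mul]
  rw [P.liftData.lifts, P.liftData.lifts, P.liftData.lifts, P.liftData.lifts]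

variable {P} {T : Finset ℕ} {S : Stage A T} {g : P.Ring →ₐ[O] S.alg}

theorem map_trace_rho (hg : mapM (g : P.Ring →+* S.alg) P.rho = S.ru) (σ : Gal) :
    g (P.rho σ).trace = (S.ru σ).trace := by
  rw [← hg]
  exact AddMonoidHom.map_trace (g : P.Ring →+* S.alg).toAddMonoidHom _

theorem isUnit_det_sub_one_ru (hg : mapM (g : P.Ring →+* S.alg) P.rho = S.ru) :
    IsUnit ((S.ru St.τ₀).det - 1) :=
  isUnit_map_det hg P.isUnit_det_sub_one

/-- Two maps to a stage agree when they agree on the lift. -/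
private theorem comp_eq_of_map {B B' : Type} [CommRing B] [Algebra O B] [CommRing B'] [Algebra O B']
    {f : B' →ₐ[O] B} {g : P.Ring →ₐ[O] B} {g' : P.Ring →ₐ[O] B'} {r : Gal →* M2 B}
    {r' : Gal →* M2 B'} (hf : mapM (f : B' →+* B) r' = r)
    (hg : mapM (g : P.Ring →+* B) P.rho = r) (hg' : mapM (g' : P.Ring →+* B') P.rho = r') :
    f.comp g' = g := P.ring_hom_ext (by
  subst hg'
  rw [hg, ← hf, mapM_mapM]
  rfl)

/-- The equations of strictness lie in the maximal ideal. -/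
theorem strictSet_subset_maximal (hbad : ¬ W.IsGoodPrimeFor p) :
    strictSet P.rho St.τ₀ St.ε p ⊆ maximalIdeal P.Ring := fun x hx => by
  have h0 : P.toPoint x = 0 := by
    obtain ⟨σ, hσ, i, j, rfl⟩ := hx
    exact (map_sign_entry P.mapM_toPoint (St.ε σ) i j).trans
      (congrFun (congrFun ((St.ε_spec hbad).2 σ hσ) i) j)
  refine (mem_maximalIdeal _).2 fun hu => ?_
  have h1 := hu.map P.toPoint
  rw [h0] at h1
  exact not_isUnit_zero h1

end Stage

open Stage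

variable (P : Stage A St.top) {T : Finset ℕ} (S : Stage A T) {g : P.Ring →ₐ[O] S.alg}

/-! ## One place added -/

theorem Setup.mem_of_top {w : ℕ} (hw : w ∈ St.top) (hwT : w ∉ T) :
    RaiseData w S.L ∧ w ∈ excAux (badSet p W) A.qv ∧ w.Prime ∧ NeZero (S.L * w) := by
  obtain ⟨hwp, hwS, -⟩ := St.mem_bad_of_mem_top hw
  have hwQ : w ∉ auxSet A.qv := fun h => (A.isAux.prime_of_mem h).2 hwS
  exact ⟨S.lev.raiseData hwp hwT hwQ, Finset.mem_union_left _ hwS, hwp,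
    ⟨mul_ne_zero (NeZero.ne S.L) hwp.ne_zero⟩⟩

theorem Setup.lev_step {w : ℕ} (hw : w ∈ St.top) (hwT : w ∉ T) :
    Lev (badSet p W) A.ψ₀ (insert w T) (S.L * w) (upPsi S.ψ w) := by
  obtain ⟨hwp, hwS, -⟩ := St.mem_bad_of_mem_top hw
  exact S.lev.step hwp hwS hwT fun h => (A.isAux.prime_of_mem h).2 hwS

/-- **A stage with one more place.** -/
theorem exists_upStage {w : ℕ} (hTop : T ⊆ St.top) (hw : w ∈ St.top) (hwT : w ∉ T)
    (hmod : W.IsResiduallyModularOfLevel p (∏ x ∈ T, x)) :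
    ∃ (S' : Stage A (insert w T)) (g' : P.Ring →ₐ[O] S'.alg),
      IsLocalHom (g' : P.Ring →+* S'.alg) ∧ mapM (g' : P.Ring →+* S'.alg) P.rho = S'.ru := by
  obtain ⟨hwp, -, -⟩ := St.mem_bad_of_mem_top hw
  have hmod' : W.IsResiduallyModularOfLevel p (∏ x ∈ insert w T, x) := by
    rw [Finset.prod_insert hwT, mul_comm]
    refine LowerB.residuallyModular_raise St.hΔ (ResidueField O)
      (Finset.prod_ne_zero_iff.2 fun x hx => (St.mem_bad_of_mem_top (hTop hx)).1.ne_zero) hwp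
      (fun hd => ?_) hmod
    obtain ⟨x, hx, hwx⟩ := (hwp.prime.dvd_finsetProd_iff _).1 hd
    exact hwT ((Nat.prime_dvd_prime_iff_eq hwp (St.mem_bad_of_mem_top (hTop hx)).1).1 hwx ▸ hx)
  obtain ⟨S'⟩ := exists_stage A (Finset.insert_subset hw hTop) hmod'
  obtain ⟨g', h1, h2⟩ := P.exists_toStage S' (Finset.insert_subset hw hTop)
  exact ⟨S', g', h1, h2⟩

/-- **The flip at a place other than `p`.** -/
theorem exists_step (hg : mapM (g : P.Ring →+* S.alg) P.rho = S.ru) {w : ℕ} (hw : w ∈ St.top)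
    (hwT : w ∉ T) (hwp : w ≠ p) (S' : Stage A (insert w T)) {g' : P.Ring →ₐ[O] S'.alg}
    (hg' : mapM (g' : P.Ring →+* S'.alg) P.rho = S'.ru) :
    ∃ D : Step P S g S' g' (g ((P.rho (St.pd.φT w)).trace)) (w + 1),
      ∀ z, D.g₁ z = 0 → D.g₂ z = 0 →
        g' ((P.rho (St.pd.φT w)).trace ^ 2 - ((w : P.Ring) + 1) ^ 2) • z = 0 := by
  obtain ⟨hq, hqS, hwpr, hne⟩ := Setup.mem_of_top S hw hwT
  have hstep := Setup.lev_step S hw hwT
  have hwB : w ∈ St.pd.B := (St.mem_top.1 hw).resolve_right fun h => hwp h.1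
  have : Fact w.Prime := ⟨hwpr⟩
  have hpS : p ∈ excAux (badSet p W) A.qv := Finset.mem_union_left _ St.data.p_mem
  obtain ⟨f, hfs, hd, hT, hf⟩ := S.map_trace_lifts S' (Finset.subset_insert w T)
  have hga : ∀ a, f (g' a) = g a := DFunLike.congr_fun (comp_eq_of_map hf hg hg')
  rcases S' with ⟨L', ψ', lev', hyp', pos', pt', G', res', ru', cont', resAlg', lifts', normal',
    spec', span', equiv'⟩
  obtain rfl := hstep.level_unique lev'
  obtain rfl := hstep.psi_unique lev'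
  obtain rfl : hyp' = S.hyp.raise hq hqS := rfl
  have ht : ((g ((P.rho (St.pd.φT w)).trace) : S.alg) : Module.End O S.M) =
      symEnd S.ψ (excAux (badSet p W) A.qv) (Core.abar W (ResidueField O)) hq := by
    rw [map_trace_rho hg, (S.spec _).1]
    exact S.hyp.trace_eq_symEnd S.G St.p_small hpS hq hwp
      (CFT.Local.padicPlace_liesOverPrime w) (St.pd.frob w hwB)
  obtain ⟨f₁, f₂, g₁, g₂, hp⟩ :=
    exists_degMaps (hq := hq) (hqS := hqS) (f := f) S.hyp St.hΔ St.irr ht hd hT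
  refine ⟨⟨f₁, f₂, g₁, g₂, hp.1, hp.2.1, hp.2.2.1, hp.2.2.2.1, fun a x =>
    (congrArg (fun v => f₁ (v • x))
      (hga a).symm).trans (hp.2.2.2.2.1 (g' a) x),
    fun a x => (congrArg (fun v => f₂ (v • x)) (hga a).symm).trans (hp.2.2.2.2.2.1 (g' a) x),
        fun a z => (hp.2.2.2.2.2.2.1 (g' a) z).trans (congrArg (· • g₁ z) (hga a)),
    fun a z => (hp.2.2.2.2.2.2.2.1 (g' a) z).trans (congrArg (· • g₂ z) (hga a)),
      hp.2.2.2.2.2.2.2.2.1,
        hp.2.2.2.2.2.2.2.2.2.1, hp.2.2.2.2.2.2.2.2.2.2.1, hp.2.2.2.2.2.2.2.2.2.2.2.1,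
        hp.2.2.2.2.2.2.2.2.2.2.2.2.1,
        hp.2.2.2.2.2.2.2.2.2.2.2.2.2.1⟩, fun z h1 h2 => ?_⟩
  rw [map_sq_sub ((map_trace_rho hg' _).trans (spec' _).1) w]
  exact trace_sq_sub_apply_std (hq := hq) (hqS := hqS) (h := S.hyp) G' St.p_small hpS hwp
    (CFT.Local.padicPlace_liesOverPrime w) (St.pd.frob w hwB)
      (hp.2.2.2.2.2.2.2.2.2.2.2.2.2.2 z h1 h2)

/-! ## The step at `p` -/

/-- The unit root of the lower stage. -/
private theorem exists_unitRoot (hOld : OrdinaryAtOld W p O)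
    (hg : mapM (g : P.Ring →+* S.alg) P.rho = S.ru) (hdvd : (p : ℤ) ∣ W.Δ)
    (hq : RaiseData p S.L) (hqS : p ∈ excAux (badSet p W) A.qv) :
    ∃ t : S.alg, (t : Module.End O S.M) =
        symEnd S.ψ (excAux (badSet p W) A.qv) (Core.abar W (ResidueField O)) hq ∧
      IsUnit (g (alphaAt P.rho St.τ₀ St.Fp)) ∧
      g (alphaAt P.rho St.τ₀ St.Fp) * g (alphaAt P.rho St.τ₀ St.Fp) + (p : S.alg) =
        g (alphaAt P.rho St.τ₀ St.Fp) * t ∧
      (∀ τ ∈ (padicPlace p).inertiaSubgroupIn ℚ, ∀ i j,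
        ((P.rho St.τ₀ - (P.rho St.τ₀).det • 1) * (P.rho τ - 1)) i j ∈
          RingHom.ker (g : P.Ring →+* S.alg)) ∧
      ∀ i j, ((P.rho St.τ₀ - (P.rho St.τ₀).det • 1) *
        (P.rho St.Fp - alphaAt P.rho St.τ₀ St.Fp • 1)) i j ∈
          RingHom.ker (g : P.Ring →+* S.alg) := by
  have hu : IsUnit ((S.ru St.τ₀).det - 1) := isUnit_det_sub_one_ru hg
  obtain ⟨α, hα, hI, hF, hαT⟩ := hOld hdvd (St.semistable p Fact.out hdvd) S.L _ S.ψ _ hqS S.hyp
    hq (models p) S.pt S.G St.τ₀ St.Fp St.τ₀_mem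
    ((congrArg (fun d => IsUnit (d - 1)) (S.spec _).2.1).mp hu) St.Fp_frob
  obtain ⟨Q, hQ, hconj⟩ :=
    exists_conj_of_isEquiv (r := S.G.R) (hr := S.G.cont) S.equiv
  have hdet : ∀ σ, (S.ru σ).det = (S.G.R σ).det := fun σ => (S.spec σ).2.1
  have hF' := mul_eq_zero_of_conj hQ hconj hdet α hF
  have hαe : g (alphaAt P.rho St.τ₀ St.Fp) = α := map_alphaAt_eq hg P.isUnit_det_sub_one
    (conj_eqn_one hQ hconj hdet (hI St.τ₀ St.τ₀_mem)) hF'
  obtain ⟨α', hα'⟩ := hα.exists_left_inv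
  exact ⟨α' * (α * α + (p : S.alg)),
    LinearMap.ext fun z => (congrArg (α' : Module.End O S.M) (LinearMap.congr_fun hαT z)).trans
      (LinearMap.congr_fun (congrArg Subtype.val hα') _),
    hαe ▸ hα, eqn_unit_root hαe hα' rfl,
    fun τ hτ => eqn_one_mem_ker hg (conj_eqn_one hQ hconj hdet (hI τ hτ)),
    eqn_mem_ker hg hαe hF'⟩

/-- The maps at `p` and their kernel. -/
private theorem exists_step_atP_maps (hNew : StrictAtNew p O)
    (hg : mapM (g : P.Ring →+* S.alg) P.rho = S.ru) (hbad : ¬ W.IsGoodPrimeFor p) (hpT : p ∉ T)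
    (S' : Stage A (insert p T)) {g' : P.Ring →ₐ[O] S'.alg}
    (hloc : IsLocalHom (g' : P.Ring →+* S'.alg))
    (hg' : mapM (g' : P.Ring →+* S'.alg) P.rho = S'.ru)
    (hq : RaiseData p S.L) (hqS : p ∈ excAux (badSet p W) A.qv) {t : S.alg}
    (ht : (t : Module.End O S.M) =
      symEnd S.ψ (excAux (badSet p W) A.qv) (Core.abar W (ResidueField O)) hq) :
    ∃ D : Step P S g S' g' t (p + 1),
      ∀ z, D.g₁ z = 0 → D.g₂ z = 0 → ∀ x ∈ strictSet P.rho St.τ₀ St.ε p, g' x • z = 0 := by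
  have hw : p ∈ St.top := St.mem_top.2 (Or.inr ⟨rfl, hbad⟩)
  have hne : NeZero (S.L * p) := ⟨mul_ne_zero (NeZero.ne S.L) (Fact.out : p.Prime).ne_zero⟩
  have hstep := Setup.lev_step S hw hpT
  have hdvd : (p : ℤ) ∣ W.Δ := not_not.1 hbad
  obtain ⟨f, hfs, hd, hT, hf⟩ := S.map_trace_lifts S' (Finset.subset_insert p T)
  have hga : ∀ a, f (g' a) = g a := DFunLike.congr_fun (comp_eq_of_map hf hg hg')
  have hu' : IsUnit ((S'.ru St.τ₀).det - 1) := isUnit_det_sub_one_ru hg'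
  have hres : ∀ σ ∈ (padicPlace p).decompositionSubgroup ℚ, ∀ i j,
      ((S'.ru St.τ₀ - (S'.ru St.τ₀).det • 1) * (S'.ru σ - (St.ε σ : S'.alg) • 1)) i j ∈
        maximalIdeal S'.alg := fun σ hσ i j =>
    sign_mem_maximal hloc hg' (strictSet_subset_maximal hbad ⟨σ, hσ, i, j, rfl⟩)
  have hspec := (St.ε_spec hbad).1
  rcases S' with ⟨L', ψ', lev', hyp', pos', pt', G', res', ru', cont', resAlg', lifts', normal',
    spec', span', equiv'⟩
  obtain rfl := hstep.level_unique lev'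
  obtain rfl := hstep.psi_unique lev'
  obtain rfl : hyp' = S.hyp.raise hq hqS := rfl
  obtain ⟨f₁, f₂, g₁, g₂, hp⟩ :=
    exists_degMaps (hq := hq) (hqS := hqS) (f := f) S.hyp St.hΔ St.irr ht hd hT
  have hkill : ∀ z, g₁ z = 0 → g₂ z = 0 → ∀ x ∈ strictSet P.rho St.τ₀ St.ε p, g' x • z = 0 := by
    rintro z h1 h2 _ ⟨σ, hσ, i, j, rfl⟩
    refine (congrArg (· • z) (map_sign_entry hg' (St.ε σ) i j)).trans ?_
    exact apply_eq_zero_strict (hq := hq) (hqS := hqS) S.hyp St.p_small St.semistable hdvd hNew G'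
      res' (fun τ => (spec' τ).1) span' St.τ₀_mem hu' hspec.sq
      hres hσ (hp.2.2.2.2.2.2.2.2.2.2.2.2.2.2 z h1 h2) i j
  exact ⟨⟨f₁, f₂, g₁, g₂, hp.1, hp.2.1, hp.2.2.1, hp.2.2.2.1,
    fun a x => (congrArg (fun v => f₁ (v • x)) (hga a).symm).trans (hp.2.2.2.2.1 (g' a) x),
    fun a x => (congrArg (fun v => f₂ (v • x)) (hga a).symm).trans (hp.2.2.2.2.2.1 (g' a) x),
    fun a z => (hp.2.2.2.2.2.2.1 (g' a) z).trans (congrArg (· • g₁ z) (hga a)),
    fun a z => (hp.2.2.2.2.2.2.2.1 (g' a) z).trans (congrArg (· • g₂ z) (hga a)),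
    hp.2.2.2.2.2.2.2.2.1,
        hp.2.2.2.2.2.2.2.2.2.1, hp.2.2.2.2.2.2.2.2.2.2.1, hp.2.2.2.2.2.2.2.2.2.2.2.1,
        hp.2.2.2.2.2.2.2.2.2.2.2.2.1,
        hp.2.2.2.2.2.2.2.2.2.2.2.2.2.1⟩, hkill⟩

/-- **The flip at `p`.** -/
theorem exists_step_atP (hOld : OrdinaryAtOld W p O) (hNew : StrictAtNew p O)
    (hg : mapM (g : P.Ring →+* S.alg) P.rho = S.ru) (hbad : ¬ W.IsGoodPrimeFor p) (hpT : p ∉ T)
    (S' : Stage A (insert p T)) {g' : P.Ring →ₐ[O] S'.alg}
    (hloc : IsLocalHom (g' : P.Ring →+* S'.alg))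
    (hg' : mapM (g' : P.Ring →+* S'.alg) P.rho = S'.ru) :
    ∃ (t : S.alg) (D : Step P S g S' g' t (p + 1)),
      IsUnit (g (alphaAt P.rho St.τ₀ St.Fp)) ∧
      g (alphaAt P.rho St.τ₀ St.Fp) * g (alphaAt P.rho St.τ₀ St.Fp) + (p : S.alg) =
        g (alphaAt P.rho St.τ₀ St.Fp) * t ∧
      (∀ τ ∈ (padicPlace p).inertiaSubgroupIn ℚ, ∀ i j,
        ((P.rho St.τ₀ - (P.rho St.τ₀).det • 1) * (P.rho τ - 1)) i j ∈
          RingHom.ker (g : P.Ring →+* S.alg)) ∧
      (∃ a : P.Ring, ∀ i j,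
        ((P.rho St.τ₀ - (P.rho St.τ₀).det • 1) * (P.rho St.Fp - a • 1)) i j ∈
          RingHom.ker (g : P.Ring →+* S.alg)) ∧
      (∀ z, D.g₁ z = 0 → D.g₂ z = 0 → ∀ x ∈ strictSet P.rho St.τ₀ St.ε p, g' x • z = 0) ∧
      RingHom.ker (g : P.Ring →+* S.alg) * Ideal.span (strictSet P.rho St.τ₀ St.ε p) ≤
        RingHom.ker (g' : P.Ring →+* S'.alg) := by
  have hw : p ∈ St.top := St.mem_top.2 (Or.inr ⟨rfl, hbad⟩)
  obtain ⟨hq, hqS, -, -⟩ := Setup.mem_of_top S hw hpT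
  obtain ⟨t, ht, hroot⟩ := exists_unitRoot P S hOld hg (not_not.1 hbad) hq hqS
  obtain ⟨D, hD⟩ := exists_step_atP_maps P S hNew hg hbad hpT S' hloc hg' hq hqS ht
  exact ⟨t, D, hroot.1, hroot.2.1, hroot.2.2.1, ⟨_, hroot.2.2.2⟩, hD,
    ker_mul_span_le (fun _ hb => Subtype.ext (LinearMap.ext hb)) D.g₁_smul D.g₂_smul hD⟩

end Fermat.Agent.RT.Lifting
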