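import Fermat.Agent.RT.Lifting.Run
import Fermat.Agent.RT.Lifting.StageStep
import Fermat.Agent.RT.Lifting.StageAlts

/-!
# The choices at a stage kill the stage

At a place outside the set of a stage the alternative `none` dies, at a place in it the product of
all alternatives; at `p` the ideal of flatness, and that times strictness.
-/

set_option autoImplicit false

noncomputable section

namespace Fermat.Agent.RT.Lifting

open IsLocalRing MvPowerSeries Fermat.Agent.Deform

attribute [local instance] Fermat.Agent.RT.Algebra.isAdicComplete_mvPowerSeries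
attribute [local instance] Fermat.Agent.RT.Algebra.finite_residueField_mvPowerSeries

variable {O : Type} [CommRing O] [IsDomain O] [IsDiscreteValuationRing O]
  [IsAdicComplete (maximalIdeal O) O] [Finite (ResidueField O)] [CharZero O]
  {p : ℕ} [Fact p.Prime] [CharP (ResidueField O) p] [Algebra (ZMod p) (ResidueField O)]
  {W : WeierstrassCurve ℤ} {St : Setup O p W} {ls : Finset ℕ} {r : ℕ}

/-- At a stage of a set that gains `p`, flatness times strictness dies. -/
theorem Stage.flat_mul_strict_le {n : ℕ} {A : AuxData St ls r n} (P : Stage A St.top)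
    (hOld : OrdinaryAtOld W p O) (hNew : StrictAtNew p O) (hbad : ¬ W.IsGoodPrimeFor p)
    {T T' : Finset ℕ} (hT' : T' = insert p T) (hpT : p ∉ T) (S : Stage A T)
    {g : P.Ring →ₐ[O] S.alg} (hg : mapM (g : P.Ring →+* S.alg) P.rho = S.ru) (S' : Stage A T')
    {g' : P.Ring →ₐ[O] S'.alg} (hloc : IsLocalHom (g' : P.Ring →+* S'.alg))
    (hg' : mapM (g' : P.Ring →+* S'.alg) P.rho = S'.ru) :
    RingHom.ker (g : P.Ring →+* S.alg) * Ideal.span (strictSet P.rho St.τ₀ St.ε p) ≤
      RingHom.ker (g' : P.Ring →+* S'.alg) := by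
  subst hT'
  obtain ⟨t, D, -, -, -, -, -, h⟩ := exists_step_atP P S hOld hNew hg hbad hpT S' hloc hg'
  exact h

namespace Sys

variable (Y : Sys St ls r)

/-- **The choices at a stage kill the stage.** -/
theorem kills (hOld : OrdinaryAtOld W p O) (hNew : StrictAtNew p O)
    (hflat : St.CaseO → ∀ n, ∃ (S : Stage (Y.Q.A n) St.pd.B)
      (g : (Y.Q.P n).Ring →ₐ[O] S.alg), IsLocalHom (g : (Y.Q.P n).Ring →+* S.alg) ∧
      mapM (g : (Y.Q.P n).Ring →+* S.alg) (Y.Q.P n).rho = S.ru ∧
      Y.Q.flatJ n = RingHom.ker (g : (Y.Q.P n).Ring →+* S.alg))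
    (D : Finset St.Idx) (hD : Admissible D ∨ D = Finset.univ)
    (F : Family Y.tower (St.stageSet D)) (n : ℕ) (b : St.Idx) :
    ∏ a ∈ altsAt D b, Y.Q.altI n b a ≤ RingHom.ker (F.g n).toRingHom := by
  by_cases hb : b.1 = p
  · have hO : St.CaseO := ((St.mem_plus.1 b.2).resolve_left
      fun h => St.p_notMem_B ((congrArg (· ∈ St.pd.B) hb).mp h.1)).2
    obtain ⟨S, g, -, hg, hJ⟩ := hflat hO n
    by_cases hbD : b ∈ D
    · have hDu : D = Finset.univ := hD.resolve_left fun h => h b hbD hb
      have hset : St.stageSet D = insert p St.pd.B := by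
        rw [hDu, St.stageSet_univ, Setup.top, if_neg hO.1]
      rw [altsAt, if_pos hbD, Setup.alts, if_pos hb, Finset.prod_pair (by simp)]
      unfold Pre.altI Pre.strictI
      rw [dif_pos hb, dif_pos hb, hJ]
      exact (Y.Q.P n).flat_mul_strict_le hOld hNew hO.1 hset St.p_notMem_B S hg (F.S n) (F.loc n)
        (F.g_rho n)
    · have hne : ∀ x ∈ D, x.1 ≠ p := fun x hx h => hbD (Subtype.ext (h.trans hb.symm) ▸ hx)
      rw [altsAt, if_neg hbD, Finset.prod_singleton]
      unfold Pre.altI
      rw [dif_pos hb, hJ]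
      exact (Y.Q.P n).ker_le_ker (St.stageSet_subset_B hO hne) (F.S n) S (F.g_rho n) hg
  · have : Fact b.1.Prime := ⟨(St.pd.prime b.1 (St.mem_of_ne hb).1).1⟩
    by_cases hbD : b ∈ D
    · rw [altsAt, if_pos hbD, Setup.alts, if_neg hb]
      unfold Pre.altI
      simp only [dif_neg hb]
      exact (Y.Q.P n).prod_altIdeal_le_ker (hvB := (St.mem_of_ne hb).1) (S := F.S n)
        (hg := F.g_rho n) (hvT := St.mem_stageSet hbD)
    · rw [altsAt, if_neg hbD, Finset.prod_singleton]
      unfold Pre.altI
      rw [dif_neg hb]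
      exact Ideal.span_le.2 fun y hy => (Y.Q.P n).apply_altSet_none (hvB := (St.mem_of_ne hb).1)
        (S := F.S n) (hg := F.g_rho n) (hvT := St.notMem_stageSet hbD) hy

end Sys

end Fermat.Agent.RT.Lifting
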