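import Fermat.Agent.RT.Lifting.Run
import Fermat.Agent.RT.Lifting.StageStep

/-!
# The two numbers of a flip in the ring of variables

At a place `w ≠ p` they are `w + 1` and the trace variable moved to it; at `p` they are `p + 1` and
`α + p / α` for the variable unit root `α`.
-/

set_option autoImplicit false
set_option genSizeOf false
set_option genInjectivity false

noncomputable section

namespace Fermat.Agent.RT.Lifting

open IsLocalRing MvPowerSeries

attribute [local instance] Fermat.Agent.RT.Algebra.isAdicComplete_mvPowerSeries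
attribute [local instance] Fermat.Agent.RT.Algebra.finite_residueField_mvPowerSeries
attribute [local instance] Stage.finite_alg

section Moves

variable {O₁ R A Λ : Type} [CommRing O₁] [CommRing R] [CommRing A] [CommRing Λ] [Algebra O₁ R]
  [Algebra O₁ A] [Algebra O₁ Λ] {f : Λ →ₐ[O₁] A} {g : R →ₐ[O₁] A} {M : Type} [AddCommGroup M]
  [Module A M]

private theorem map_moved_trace {y : Λ} {x : R} {s : ℤ} {w : ℕ}
    (h : f y = g (x - (s : R) * ((w : R) + 1))) :
    f (y + (s : Λ) * ((w + 1 : ℕ) : Λ)) = g x := by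
  rw [map_add, h, map_sub, map_mul, map_mul, map_intCast, map_intCast, map_add, map_natCast,
    map_natCast, map_one, Nat.cast_succ, sub_add_cancel]

private theorem map_moved_int {y : Λ} {x : R} {s : ℤ} (h : f y = g (x - (s : R))) :
    f (y + (s : Λ)) = g x := by
  rw [map_add, h, map_sub, map_intCast, map_intCast, sub_add_cancel]

private theorem map_sq_sub_smul {T : Λ} {x : R} {w : ℕ} {z : M} (h : f T = g x)
    (hz : g (x ^ 2 - ((w : R) + 1) ^ 2) • z = 0) :
    f (T ^ 2 - ((w + 1 : ℕ) : Λ) ^ 2) • z = 0 := by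
  rw [map_sub, map_pow, map_pow, h, map_natCast, Nat.cast_succ]
  rwa [map_sub, map_pow, map_pow, map_add, map_natCast, map_one] at hz

private theorem map_eq_of_unit_root {α T : Λ} {a t : A} {q : ℕ} (hα : f α = a)
    (hT : α * T = α * α + (q : Λ)) (ha : a * a + (q : A) = a * t) (hu : IsUnit a) : f T = t := by
  have h := congrArg f hT
  rw [map_mul, hα, map_add, map_mul, hα, map_natCast, ha] at h
  exact hu.mul_left_cancel h

private theorem smul_span_eq_zero {X : Set R} {z : M} (h : ∀ x ∈ X, g x • z = 0) {x : R}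
    (hx : x ∈ Ideal.span X) : g x • z = 0 := by
  induction hx using Submodule.span_induction with
  | mem x hx => exact h x hx
  | zero => rw [map_zero, zero_smul]
  | add x y _ _ hx hy => rw [map_add, add_smul, hx, hy, add_zero]
  | smul a x _ hx => rw [smul_eq_mul, map_mul, mul_smul, hx, smul_zero]

private theorem smul_eq_zero_of_eq_mul {u K y : Λ} {z : M} (hu : u = K * y) (h : f y • z = 0) :
    f u • z = 0 := by
  rw [hu, map_mul, mul_smul, h, smul_zero]

end Moves

variable {O : Type} [CommRing O] [IsDomain O] [IsDiscreteValuationRing O]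
  [IsAdicComplete (maximalIdeal O) O] [Finite (ResidueField O)] [CharZero O]
  {p : ℕ} [Fact p.Prime] [CharP (ResidueField O) p] [Algebra (ZMod p) (ResidueField O)]
  {W : WeierstrassCurve ℤ} {St : Setup O p W} {ls : Finset ℕ} {r : ℕ}

omit [Finite (ResidueField O)] [CharZero O] [CharP (ResidueField O) p]
  [Algebra (ZMod p) (ResidueField O)] [IsDomain O] [IsDiscreteValuationRing O]
  [IsAdicComplete (maximalIdeal O) O] [Fact p.Prime] in
private theorem isUnit_add_of_mem_maximalIdeal {Λ : Type} [CommRing Λ] [IsLocalRing Λ] {x u : Λ}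
    (hx : x ∈ maximalIdeal Λ) (hu : IsUnit u) : IsUnit (x + u) := by
  by_contra h
  have := sub_mem ((mem_maximalIdeal _).2 h) hx
  rw [add_sub_cancel_left] at this
  exact (mem_maximalIdeal _).1 this hu

namespace Sys

variable (Y : Sys St ls r) {T T' : Finset ℕ} (F : Family Y.tower T) (F' : Family Y.tower T')

/-- The flip numbers of a step, and what is used of them. -/
structure FlipPair (b : St.Idx) (ϖ : O) where
  TΛ : St.Vars ls r
  c : ℕ
  μ : St.Vars ls r
  t : ∀ n, (F.S n).alg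
  step : ∀ n, Step (Y.Q.P n) (F.S n) (F.g n) (F'.S n) (F'.g n) (t n) c
  hom_eq : ∀ n, F.hom n TΛ = t n
  μ_mul : μ * μ = 1
  ker : ∀ n (z : (F'.S n).M), (step n).g₁ z = 0 → (step n).g₂ z = 0 →
    F'.hom n (TΛ ^ 2 - (c : St.Vars ls r) ^ 2) • z = 0
  mem : ∀ P : Ideal (St.Vars ls r), P.IsPrime → St.yVar b ∈ P →
    algebraMap O (St.Vars ls r) ϖ ∉ P →
      TΛ + μ * (c : St.Vars ls r) ∈ P ∧ TΛ - μ * (c : St.Vars ls r) ∉ P
  mem_back : ∀ q : Ideal (St.Vars ls r), q.IsPrime → TΛ + μ * (c : St.Vars ls r) ∈ q →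
    St.yVar b ∈ q

variable {ϖ : O}

omit [IsAdicComplete (maximalIdeal O) O] [Finite (ResidueField O)] [CharZero O]
  [CharP (ResidueField O) p] in
theorem notMem_of_ne_zero (hϖ : Irreducible ϖ) {P : Ideal (St.Vars ls r)} (hP : P.IsPrime)
    (hP' : algebraMap O (St.Vars ls r) ϖ ∉ P) {o : O} (ho : o ≠ 0) :
    algebraMap O (St.Vars ls r) o ∉ P := by
  obtain ⟨k, u, hu⟩ := IsDiscreteValuationRing.associated_pow_irreducible ho hϖ
  intro h
  refine hP' (hP.mem_of_pow_mem k ?_)
  rw [← map_pow, ← hu, map_mul]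
  exact P.mul_mem_right _ h

theorem hom_var (n : ℕ) (j : St.GVar ls r) :
    F.hom n (St.var j) = F.g n (Y.Q.gvar n j) :=
  congrArg (F.g n) (Y.φ_var n j)

omit [IsAdicComplete (maximalIdeal O) O] [Finite (ResidueField O)] [CharZero O]
  [CharP (ResidueField O) p] in
theorem sgn_cast_mul_self (s : Bool) :
    (sgn s : St.Vars ls r) * (sgn s : St.Vars ls r) = 1 := by
  rw [← Int.cast_mul, sgn_mul_self, Int.cast_one]

variable {b : St.Idx} (hϖ : Irreducible ϖ)

include hϖ

/-- **At a place other than `p`.** -/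
theorem exists_flipPair (hbp : b.1 ≠ p) (hbT : b.1 ∉ T) (F₁ : Family Y.tower (insert b.1 T)) :
    Nonempty (Y.FlipPair F F₁ b ϖ) := by
  have : Fact b.1.Prime := ⟨(St.pd.prime b.1 (St.mem_of_ne hbp).1).1⟩
  have hw : b.1 ∈ St.top := St.B_subset_top (St.mem_of_ne hbp).1
  choose D hD using fun n => exists_step (Y.Q.P n) (F.S n) (F.g_rho n) hw hbT hbp (F₁.S n)
    (F₁.g_rho n)
  set s : St.Vars ls r := (sgn (St.pd.s b.1) : St.Vars ls r) with hsdef
  set TΛ : St.Vars ls r := St.yVar b + s * ((b.1 + 1 : ℕ) : St.Vars ls r) with hT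
  have hss : s * s = 1 := sgn_cast_mul_self _
  have hgv : ∀ n, Y.Q.gvar n (Sum.inl (Sum.inl b)) = ((Y.Q.P n).rho (St.pd.φT b.1)).trace -
      (sgn (St.pd.s b.1) : (Y.Q.P n).Ring) * ((b.1 : (Y.Q.P n).Ring) + 1) := fun n => if_neg hbp
  have hhom : ∀ {T₀ : Finset ℕ} (G : Family Y.tower T₀) n,
      G.hom n TΛ = G.g n ((Y.Q.P n).rho (St.pd.φT b.1)).trace := fun G n =>
    map_moved_trace ((hom_var Y G n _).trans (congrArg (G.g n) (hgv n)))
  refine ⟨{ TΛ := TΛ, c := b.1 + 1, μ := -s, t := _, step := D, hom_eq := fun n => hhom F n,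
            μ_mul := by linear_combination hss, ker := fun n z h1 h2 => ?_,
            mem := fun P hP hy hπ => ⟨?_, fun h => ?_⟩, mem_back := fun q _ hq => ?_ }⟩
  · exact map_sq_sub_smul (hhom F₁ n) (hD n z h1 h2)
  · rwa [hT, neg_mul, add_neg_cancel_right]
  · refine notMem_of_ne_zero hϖ hP hπ
      (o := 2 * (sgn (St.pd.s b.1) : O) * ((b.1 + 1 : ℕ) : O)) ?_ ?_
    · refine mul_ne_zero (mul_ne_zero two_ne_zero ?_) (Nat.cast_ne_zero.2 (Nat.succ_ne_zero _))
      exact fun h' => by simpa [h'] using congrArg ((↑) : ℤ → O) (sgn_mul_self (St.pd.s b.1))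
    · have e : algebraMap O (St.Vars ls r) (2 * (sgn (St.pd.s b.1) : O) * ((b.1 + 1 : ℕ) : O)) =
          (TΛ - -s * ((b.1 + 1 : ℕ) : St.Vars ls r)) - St.yVar b := by
        rw [hT, hsdef, map_mul, map_mul, map_ofNat, map_intCast, map_natCast]
        ring
      exact e ▸ sub_mem h hy
  · rwa [hT, neg_mul, add_neg_cancel_right] at hq

omit hϖ in
/-- **At `p`.** -/
theorem exists_flipPair_atP (hb : b.1 = p) (hOld : OrdinaryAtOld W p O) (hNew : StrictAtNew p O)
    (hpT : p ∉ T) (F₁ : Family Y.tower (insert b.1 T)) :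
    Nonempty (Y.FlipPair F F₁ b ϖ) := by
  have hO : St.CaseO :=
    ((St.mem_plus.1 b.2).resolve_left
      fun h => St.p_notMem_B ((congrArg (· ∈ St.pd.B) hb).mp h.1)).2
  have hins : insert b.1 T = insert p T := congrArg (fun v => insert v T) hb
  revert F₁
  rw [hins]
  intro F₁
  choose t D hu hαt hI hFr hkill hmul using fun n => exists_step_atP (Y.Q.P n) (F.S n) hOld hNew
    (F.g_rho n) hO.1 hpT (F₁.S n) (F₁.loc n) (F₁.g_rho n)
  let e : St.Vars ls r := (St.ε St.Fp : St.Vars ls r)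
  have hedef : e = (St.ε St.Fp : St.Vars ls r) := rfl
  let α : St.Vars ls r := St.yVar b + e
  have hαdef : α = St.yVar b + e := rfl
  have hee : e * e = 1 := by
    rw [hedef, ← Int.cast_mul,
      (St.ε_spec hO.1).1.sq _ (frobenius_mem_decomposition St.Fp_frob), Int.cast_one]
  have heu : IsUnit e := IsUnit.of_mul_eq_one _ hee
  have hy : St.yVar b ∈ maximalIdeal (St.Vars ls r) := var_mem_max _
  have hpm : (p : St.Vars ls r) ∈ maximalIdeal (St.Vars ls r) := by
    rw [← map_natCast (algebraMap O (St.Vars ls r))]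
    exact (mem_maximalIdeal _).2 fun hu => (mem_maximalIdeal _).1 St.p_small
      (by simpa [MvPowerSeries.isUnit_iff_constantCoeff, MvPowerSeries.algebraMap_apply] using hu)
  -- `α`, a variable unit root, is a unit; so are `α + e` and every `α + u p`
  have hα : IsUnit α := isUnit_add_of_mem_maximalIdeal hy heu
  have h2e : IsUnit (2 * e) := by
    refine IsUnit.mul (IsUnit.of_mul_eq_one (algebraMap O _ St.c) ?_) heu
    rw [← map_ofNat (algebraMap O (St.Vars ls r)) 2, ← map_mul, St.two_mul_c, map_one]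
  have hαe : IsUnit (α + e) := by
    rw [hαdef, add_assoc, ← two_mul]
    exact isUnit_add_of_mem_maximalIdeal hy h2e
  have hαp : ∀ u : St.Vars ls r, IsUnit (α + u * (p : St.Vars ls r)) := fun u =>
    add_comm α _ ▸ isUnit_add_of_mem_maximalIdeal (Ideal.mul_mem_left _ u hpm) hα
  -- `TΛ = α + p / α`
  obtain ⟨β, hβ⟩ := hα.exists_left_inv
  obtain ⟨TΛ, hαT⟩ : ∃ x, α * x = α * α + (p : St.Vars ls r) :=
    ⟨β * (α * α + (p : St.Vars ls r)), by rw [← mul_assoc, mul_comm α β, hβ, one_mul]⟩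
  have hgv : ∀ n, Y.Q.gvar n (Sum.inl (Sum.inl b)) =
      alphaAt (Y.Q.P n).rho St.τ₀ St.Fp - (St.ε St.Fp : (Y.Q.P n).Ring) := fun n => if_pos hb
  have hhomα : ∀ {T₀ : Finset ℕ} (G : Family Y.tower T₀) n,
      G.hom n α = G.g n (alphaAt (Y.Q.P n).rho St.τ₀ St.Fp) := fun G n =>
    map_moved_int ((hom_var Y G n _).trans (congrArg (G.g n) (hgv n)))
  -- `α (TΛ ∓ e (p + 1))` factor: one through `yVar b`, the other into units
  have e1 : α * (TΛ + -e * ((p + 1 : ℕ) : St.Vars ls r)) =
      St.yVar b * (α + -e * (p : St.Vars ls r)) := by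
    push_cast
    linear_combination hαT + (α - e * (p : St.Vars ls r)) * hαdef - (p : St.Vars ls r) * hee
  have e2 : α * (TΛ - -e * ((p + 1 : ℕ) : St.Vars ls r)) =
      (α + e) * (α + e * (p : St.Vars ls r)) := by
    push_cast
    linear_combination hαT - (p : St.Vars ls r) * hee
  refine ⟨{ TΛ := TΛ, c := p + 1, μ := -e, t := t, step := D, hom_eq := fun n => ?_,
            μ_mul := by linear_combination hee, ker := fun n z h1 h2 => ?_,
            mem := fun P hP hyP _ => ⟨?_, fun h => ?_⟩, mem_back := fun q hq hqT => ?_ }⟩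
  · exact map_eq_of_unit_root (hhomα F n) hαT (hαt n) (hu n)
  · have hy0 : F₁.hom n (St.yVar b) • z = 0 :=
      (congrArg (· • z) ((hom_var Y F₁ n _).trans (congrArg (F₁.g n) (hgv n)))).trans
        (smul_span_eq_zero (hkill n z h1 h2) (alphaAt_sub_mem (Y.Q.P n).isUnit_det_sub_one
          St.τ₀_mem St.Fp_frob (St.ε_spec hO.1).1))
    obtain ⟨K, hK⟩ : ∃ K, TΛ ^ 2 - ((p + 1 : ℕ) : St.Vars ls r) ^ 2 = K * St.yVar b :=
      ⟨β * (α + -e * (p : St.Vars ls r)) * (TΛ + e * ((p + 1 : ℕ) : St.Vars ls r)), by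
        linear_combination (β * (TΛ + e * ((p + 1 : ℕ) : St.Vars ls r))) * e1 -
          ((TΛ + -e * ((p + 1 : ℕ) : St.Vars ls r)) * (TΛ + e * ((p + 1 : ℕ) : St.Vars ls r))) * hβ
            +
          ((p + 1 : ℕ) : St.Vars ls r) ^ 2 * hee⟩
    exact smul_eq_zero_of_eq_mul hK hy0
  · refine (hP.mem_or_mem (x := α) ?_).resolve_left fun h => hP.ne_top (P.eq_top_of_isUnit_mem h hα)
    rw [e1]
    exact P.mul_mem_right _ hyP
  · exact hP.ne_top (P.eq_top_of_isUnit_mem (P.mul_mem_left α h)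
      (e2 ▸ hαe.mul (hαp e)))
  · have h : St.yVar b * (α + -e * (p : St.Vars ls r)) ∈ q := e1 ▸ q.mul_mem_left α hqT
    exact (hq.mem_or_mem h).resolve_right
      fun h => hq.ne_top (q.eq_top_of_isUnit_mem h (hαp (-e)))

end Sys

end Fermat.Agent.RT.Lifting
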