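import Fermat.Agent.RT.Lifting.Places

/-!
# Running the chain on the families of stages

An ideal for every family, with a prime of full dimension at the first and the flip at every step,
gives for a family of the largest set a prime of full dimension containing its ideal and that of
the good choice, if at the stages the products of the alternatives map to zero.
-/

set_option autoImplicit false

noncomputable section

namespace Fermat.Agent.RT.Lifting

open IsLocalRing MvPowerSeries Fermat.Agent.RT.Algebra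

attribute [local instance] Fermat.Agent.RT.Algebra.isAdicComplete_mvPowerSeries
attribute [local instance] Fermat.Agent.RT.Algebra.finite_residueField_mvPowerSeries

variable {O : Type} [CommRing O] [IsDomain O] [IsDiscreteValuationRing O]
  [IsAdicComplete (maximalIdeal O) O] [Finite (ResidueField O)] [CharZero O]
  {p : ℕ} [Fact p.Prime] [CharP (ResidueField O) p] [Algebra (ZMod p) (ResidueField O)]
  {W : WeierstrassCurve ℤ} {St : Setup O p W} {ls : Finset ℕ} {r : ℕ}

namespace Sys

/-- The alternatives at a stage. -/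
def altsAt (D : Finset St.Idx) (b : St.Idx) : Finset (Option Bool) :=
  if b ∈ D then St.alts b else {none}

variable (Y : Sys St ls r) (U : Ultrafilter ℕ) (ϖ : O)

/-- An ideal for every family, with the start and the flips. -/
structure AnnData where
  ann : ∀ T : Finset ℕ, Family Y.tower T → Ideal (St.Vars ls r)
  limit_le : ∀ (T : Finset ℕ) (F : Family Y.tower T),
    (limitIdeal U fun n => RingHom.ker (F.hom n : St.Vars ls r →+* (F.S n).alg)) ≤ ann T F
  start : ∃ F : Family Y.tower (St.stageSet ∅), ∃ q : Ideal (St.Vars ls r), q.IsPrime ∧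
    ann _ F ≤ q ∧ ((r + 1 : ℕ) : WithBot ℕ∞) ≤ ringKrullDim (St.Vars ls r ⧸ q)
  flip : ∀ (D : Finset St.Idx) (F : Family Y.tower (St.stageSet D)) (b : St.Idx), b ∉ D →
    ∃ F' : Family Y.tower (St.stageSet (insert b D)), ∀ P : Ideal (St.Vars ls r), P.IsPrime →
      ann _ F ≤ P → St.yVar b ∈ P → algebraMap O (St.Vars ls r) ϖ ∉ P →
        ∃ q' : Ideal (St.Vars ls r), q'.IsPrime ∧ q' ≤ P ∧ St.yVar b ∈ q' ∧ ann _ F' ≤ q' ∧
          ((r + 1 : ℕ) : WithBot ℕ∞) ≤ ringKrullDim (St.Vars ls r ⧸ q')

variable {Y U ϖ}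

/-- The product of the choices at a stage lies in its ideal. -/
theorem AnnData.prod_le (N : AnnData Y U ϖ) {D : Finset St.Idx}
    (F : Family Y.tower (St.stageSet D))
    (h : ∀ n b, ∏ a ∈ altsAt D b, Y.Q.altI n b a ≤ RingHom.ker (F.g n).toRingHom) :
    ∏ c ∈ Fintype.piFinset (altsAt D), Y.choiceL U c ≤ N.ann _ F :=
  (Y.prod_choiceL_le U F (altsAt D) h).trans (N.limit_le _ F)

variable (hr : 2 ≤ r) (hϖ : Irreducible ϖ)
  (hkill : ∀ (D : Finset St.Idx), (Admissible D ∨ D = Finset.univ) →
    ∀ (F : Family Y.tower (St.stageSet D)) n b,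
      ∏ a ∈ altsAt D b, Y.Q.altI n b a ≤ RingHom.ker (F.g n).toRingHom)

include hr hϖ hkill

/-- **The chain up to the places other than `p`.** -/
theorem AnnData.exists_prime_admissible (N : AnnData Y U ϖ) (D : Finset St.Idx)
    (hD : Admissible D) :
    ∃ F : Family Y.tower (St.stageSet D), ∃ q : Ideal (St.Vars ls r), q.IsPrime ∧
      N.ann _ F ≤ q ∧ Y.choiceL U (goodChoice St.sgnOf D) ≤ q ∧
      ((r + 1 : ℕ) : WithBot ℕ∞) ≤ ringKrullDim (St.Vars ls r ⧸ q) := by
  induction D using Finset.induction_on with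
  | empty =>
    obtain ⟨F, q, hq, hle, hdim⟩ := N.start
    refine ⟨F, q, hq, hle, ?_, hdim⟩
    have h := (N.prod_le F (hkill ∅ (Or.inl hD) F)).trans hle
    rw [show Fintype.piFinset (altsAt (∅ : Finset St.Idx)) = {goodChoice St.sgnOf ∅} from
      Finset.ext fun c => by
        rw [Fintype.mem_piFinset, Finset.mem_singleton, funext_iff]
        exact forall_congr' fun b => by simp [altsAt, goodChoice], Finset.prod_singleton] at h
    exact h
  | insert b D hb ih =>
    have hD' : Admissible D := fun x hx => hD x (Finset.mem_insert_of_mem hx)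
    obtain ⟨F, q, hq, hle, hqL, hdim⟩ := ih hD'
    obtain ⟨F', hflip⟩ := N.flip D F b hb
    obtain ⟨q', h1, h2, h3, h4⟩ := (Y.choiceData U hϖ hr).exists_next hb hD' hle hqL hdim hflip
      (N.prod_le F' (hkill _ (Or.inl hD) F'))
    exact ⟨F', q', h1, h2, h3, h4⟩

/-- **The chain.** -/
theorem AnnData.exists_prime_top (N : AnnData Y U ϖ) :
    ∃ F : Family Y.tower (St.stageSet Finset.univ), ∃ q : Ideal (St.Vars ls r), q.IsPrime ∧
      N.ann _ F ≤ q ∧ Y.choiceL U (goodChoice St.sgnOf Finset.univ) ≤ q ∧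
      ((r + 1 : ℕ) : WithBot ℕ∞) ≤ ringKrullDim (St.Vars ls r ⧸ q) := by
  have hA : Admissible St.awayP := fun x hx => (Finset.mem_filter.1 hx).2
  obtain ⟨F, q, hq, hle, hqL, hdim⟩ := N.exists_prime_admissible hr hϖ hkill St.awayP hA
  by_cases hO : St.CaseO
  · let b : St.Idx := ⟨p, St.mem_plus.2 (Or.inr ⟨rfl, hO⟩)⟩
    have hb : b ∉ St.awayP := fun h => (Finset.mem_filter.1 h).2 rfl
    have huniv : insert b St.awayP = Finset.univ := Finset.eq_univ_of_forall fun x => by
      by_cases hx : x.1 = p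
      · exact Finset.mem_insert.2 (Or.inl (Subtype.ext hx))
      · exact Finset.mem_insert_of_mem (Finset.mem_filter.2 ⟨Finset.mem_univ _, hx⟩)
    obtain ⟨F', hflip⟩ := N.flip St.awayP F b hb
    obtain ⟨q', h1, h2, h3, h4⟩ := (Y.choiceData U hϖ hr).exists_next hb hA hle hqL hdim hflip
      (N.prod_le F' (hkill _ (Or.inr huniv) F'))
    rw [← huniv]
    exact ⟨F', q', h1, h2, h3, h4⟩
  · rw [← St.awayP_eq_univ hO]
    exact ⟨F, q, hq, hle, hqL, hdim⟩

end Sys

end Fermat.Agent.RT.Lifting
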