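import Fermat.Agent.RT.Lifting.FamilyMod
import Fermat.Agent.RT.Lifting.FlipVar
import Fermat.Agent.RT.Lifting.Run

/-!
# The annihilators of the limits along the chain

Each family of stages has a limit over the variables (`Sys.presOf`); its annihilator is
`Sys.annOf`. The step of the chain (`Sys.exists_flip`) makes these annihilators data for the chain
(`Sys.exists_annData`). Used in `RT/Lifting/Main`.
-/

set_option autoImplicit false

noncomputable section

namespace Fermat.Agent.RT.Lifting

open IsLocalRing MvPowerSeries Fermat.Agent.RT.Algebra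
open Fermat.Agent.RT.Modules (heckeModule)
open Fermat.Agent.RT.Germ

attribute [local instance] Fermat.Agent.RT.Algebra.isAdicComplete_mvPowerSeries
attribute [local instance] Fermat.Agent.RT.Algebra.finite_residueField_mvPowerSeries

variable {O : Type} [CommRing O] [IsDomain O] [IsDiscreteValuationRing O]
  [IsAdicComplete (maximalIdeal O) O] [Finite (ResidueField O)] [CharZero O]
  {p : ℕ} [Fact p.Prime] [CharP (ResidueField O) p] [Algebra (ZMod p) (ResidueField O)]
  {W : WeierstrassCurve ℤ}

/-- The hyperfilter on `ℕ` lies beyond every number. -/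
theorem hyperfilter_eventually_le (j : ℕ) :
    ∀ᶠ n in (Filter.hyperfilter ℕ : Filter ℕ), j ≤ n :=
  (Filter.eventually_ge_atTop j).filter_mono Nat.hyperfilter_le_atTop

namespace Sys

variable {St : Setup O p W} {ls : Finset ℕ} {r : ℕ} (Y : Sys St ls r)

/-- A presentation of the limit of a family. -/
def presOf {T : Finset ℕ} (hT : T ⊆ St.top) (F : Family Y.tower T) :
    {Pr : Presentation (Filter.hyperfilter ℕ) (MvPowerSeries (Fin r) O) F.Mod // 0 < Pr.rank} :=
  ⟨(F.exists_pres hyperfilter_eventually_le hT).choose,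
    (F.exists_pres hyperfilter_eventually_le hT).choose_spec⟩

/-- The annihilator of the limit of a family. -/
def annOf (T : Finset ℕ) (F : Family Y.tower T) : Ideal (St.Vars ls r) :=
  if hT : T ⊆ St.top then Module.annihilator (St.Vars ls r) (Y.presOf hT F).1.Lim else ⊤

theorem annOf_eq {T : Finset ℕ} (hT : T ⊆ St.top) (F : Family Y.tower T) :
    Y.annOf T F = Module.annihilator (St.Vars ls r) (Y.presOf hT F).1.Lim :=
  dif_pos hT

/-- The step of the chain at the place `b`: a prime in the support at `T` which contains the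
variable of `b` but not `ϖ` contains one of full dimension in the support at `insert b T`, again
with that variable. -/
theorem exists_flip {ϖ : O} (hϖ : Irreducible ϖ) (hOld : OrdinaryAtOld W p O)
    (hNew : StrictAtNew p O) {T : Finset ℕ} {b : St.Idx} (hT' : insert b.1 T ⊆ St.top)
    (hbT : b.1 ∉ T) (hmod : W.IsResiduallyModularOfLevel p (∏ x ∈ insert b.1 T, x))
    (F : Family Y.tower T) :
    ∃ F' : Family Y.tower (insert b.1 T), ∀ P : Ideal (St.Vars ls r), P.IsPrime →
      Y.annOf T F ≤ P → St.yVar b ∈ P → algebraMap O (St.Vars ls r) ϖ ∉ P →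
        ∃ q' : Ideal (St.Vars ls r), q'.IsPrime ∧ q' ≤ P ∧ St.yVar b ∈ q' ∧
          Y.annOf _ F' ≤ q' ∧
          ((r + 1 : ℕ) : WithBot ℕ∞) ≤ ringKrullDim (St.Vars ls r ⧸ q') := by
  have hT : T ⊆ St.top := (Finset.subset_insert _ _).trans hT'
  obtain ⟨F'⟩ := exists_family Y.tower hT' hmod
  obtain ⟨fp⟩ : Nonempty (Y.FlipPair F F' b ϖ) := by
    by_cases hb : b.1 = p
    · exact Y.exists_flipPair_atP F hb hOld hNew
        (fun h => hbT ((congrArg (· ∈ T) hb.symm).mp h)) F'
    · exact Y.exists_flipPair F hϖ hb hbT F'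
  refine ⟨F', fun P hP hle hy hϖP => ?_⟩
  rw [annOf_eq Y hT] at hle
  obtain ⟨h1, h2⟩ := fp.mem P hP hy hϖP
  obtain ⟨q, hq, hqP, hqT, hann, hdim⟩ := Family.exists_prime_flip (Y.presOf hT F).1
    (Y.presOf hT' F').1 fp.step fp.hom_eq fp.ker hle fp.μ_mul h1 h2
  exact ⟨q, hq, hqP, fp.mem_back q hq hqT, (annOf_eq Y hT' F').le.trans hann, hdim⟩

/-- **The annihilators of the limits are data for the chain.** -/
theorem exists_annData {ϖ : O} (hϖ : Irreducible ϖ) (hOld : OrdinaryAtOld W p O)
    (hNew : StrictAtNew p O) (hbase : W.IsResiduallyModularOfLevel p (∏ x ∈ St.base, x)) :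
    ∃ N : AnnData Y (Filter.hyperfilter ℕ) ϖ, N.ann = Y.annOf := by
  have hmod : ∀ D : Finset St.Idx,
      W.IsResiduallyModularOfLevel p (∏ x ∈ St.stageSet D, x) := fun D =>
    St.modular_mono (St.stageSet_subset D) Finset.subset_union_left hbase
  refine ⟨{ ann := Y.annOf, limit_le := fun T F => ?_, start := ?_,
            flip := fun D F b hb => ?_ }, rfl⟩
  · by_cases hT : T ⊆ St.top
    · rw [annOf_eq Y hT]
      exact Family.limitIdeal_ker_le _
    · rw [annOf, dif_neg hT]
      exact le_top
  · obtain ⟨F⟩ := exists_family Y.tower (St.stageSet_subset ∅) (hmod ∅)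
    obtain ⟨q, hq, hle, hdim⟩ := Family.exists_start (Y.presOf (St.stageSet_subset ∅) F).1
      (Y.presOf (St.stageSet_subset ∅) F).2
    exact ⟨F, q, hq, (annOf_eq Y (St.stageSet_subset ∅) F).le.trans hle, hdim⟩
  · have h := hmod (insert b D)
    have hsub := St.stageSet_subset (insert b D)
    rw [St.stageSet_insert] at h hsub ⊢
    exact Y.exists_flip hϖ hOld hNew hsub (St.notMem_stageSet hb) h F

end Sys

end Fermat.Agent.RT.Lifting
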