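import Fermat.Agent.RT.Lifting.StageStep
import Fermat.Agent.RT.Lifting.Kinds
import Fermat.Agent.RT.Glue.FlatDescent

/-!
# The conditions at `p` on the quotients of the ring of a level

At a good `p` the lift of a level is flat. At a bad `p` it is flat modulo the kernel of the map to
a stage without `p`, strict modulo the equations of strictness, and strict itself when `p` cannot
be left out of the level.
-/

set_option autoImplicit false

noncomputable section

namespace Fermat.Agent.RT.Lifting

open IsLocalRing Fermat.Agent.Deform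

section General

variable {R R' : Type} [CommRing R] [IsLocalRing R] [CommRing R'] [IsLocalRing R'] {p : ℕ}

/-- Flatness goes along a map of coefficient rings. -/
theorem isFlatAt_toRep_map (φ : R →+* R') (hφ : IsLocalHom φ) [Finite (ResidueField R')]
    {r : Gal →* M2 R} {hr : IsCont r} (h : (toRep r hr).IsFlatAt p)
    (hc : IsCont (mapM φ r)) : (toRep (mapM φ r) hc).IsFlatAt p :=
  LowerB.isFlatAt_congr (isEquiv_baseChangeAlong_toRep φ hφ r hr) (isFlatAt_baseChange φ hφ h)

/-- Flatness of the image under a map, read on the base change. -/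
theorem isFlatAt_baseChangeAlong_toRep (φ : R →+* R') (hφ : IsLocalHom φ) {r : Gal →* M2 R}
    (hr : IsCont r) {r' : Gal →* M2 R'} {hr' : IsCont r'} (h : mapM φ r = r')
    (hflat : (toRep r' hr').IsFlatAt p) : ((toRep r hr).baseChangeAlong φ hφ).IsFlatAt p :=
  LowerB.isFlatAt_congr (isEquiv_symm (isEquiv_trans (isEquiv_baseChangeAlong_toRep φ hφ r hr)
    (isEquiv_toRep_congr h (hr.map φ hφ) hr'))) hflat

end General

variable {O : Type} [CommRing O] [IsDomain O] [IsDiscreteValuationRing O]
  [IsAdicComplete (maximalIdeal O) O] [Finite (ResidueField O)] [CharZero O]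
  {p : ℕ} [Fact p.Prime] [CharP (ResidueField O) p] [Algebra (ZMod p) (ResidueField O)]
  {W : WeierstrassCurve ℤ} {St : Setup O p W} {ls : Finset ℕ} {r n : ℕ}
  {A : AuxData St ls r n}

omit [IsAdicComplete (maximalIdeal O) O] [CharZero O] in
/-- A coefficient algebra has a finite residue field. -/
theorem finite_residueField_of_isResAlg {R : Type} [CommRing R] [IsLocalRing R] [Algebra O R]
    (h : IsResAlg O R) : Finite (ResidueField R) :=
  haveI := h.isLocalHom
  Finite.of_surjective (ResidueField.map (algebraMap O R)) h.map_bijective.2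

namespace Stage

variable {T : Finset ℕ}

/-- A stage without `p` is flat at `p`. -/
theorem isFlatAt_ru (S : Stage A T) (hpT : p ∉ T) : (toRep S.ru S.cont).IsFlatAt p :=
  LowerB.isFlatAt_congr S.equiv (S.lev.isFlatAt S.G St.p_small S.hyp.isPGroup hpT
    fun h => (A.isAux.prime_of_mem h).2 (Finset.mem_insert_self _ _))

variable (P : Stage A St.top)

/-- **At a good `p` the lift is flat.** -/
theorem isFlatAt_rho (hgood : W.IsGoodPrimeFor p) : (toRep P.rho P.liftData.cont).IsFlatAt p := by
  have hpT : p ∉ St.top := fun h =>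
    (St.mem_top.1 h).elim (fun hB => ((St.mem_B p).1 hB).1 rfl) fun h' => h'.2 hgood
  have : IsNoetherianRing P.Ring := IsNoetherianRing.of_finite O P.Ring
  have := finite_residueField_of_isResAlg P.liftData.res
  have hfin : ∀ {B : Type} [CommRing B] [Algebra O B] [Module.Finite O B] (f : P.Ring →ₐ[O] B),
      (f : P.Ring →+* B).Finite := by
    intro B _ _ _ f
    let := (f : P.Ring →+* B).toAlgebra
    have : IsScalarTower O P.Ring B :=
      IsScalarTower.of_algebraMap_eq fun x => (f.commutes x).symm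
    exact Module.Finite.of_restrictScalars_finite O P.Ring B
  refine isFlatAt_of_pair (P.toTop : P.Ring →+* P.alg) (P.toPoint : P.Ring →+* O) P.isLocalHom_toTop
    P.isLocalHom_toPoint (fun _ => P.ring_eq_zero) (hfin P.toTop) (hfin P.toPoint) _ ?_ ?_
  · exact isFlatAt_baseChangeAlong_toRep _ _ _ P.mapM_toTop (P.isFlatAt_ru hpT)
  · exact isFlatAt_baseChangeAlong_toRep _ _ _ P.mapM_toPoint (St.x.flat hgood)

/-- At a good `p` every quotient is flat. -/
theorem flat_quot_of_good (hgood : W.IsGoodPrimeFor p) (I : Ideal P.Ring)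
    [IsLocalRing (P.Ring ⧸ I)] (hc : IsCont (mapM (Ideal.Quotient.mk I) P.rho)) :
    (toRep (mapM (Ideal.Quotient.mk I) P.rho) hc).IsFlatAt p := by
  have := finite_residueField_of_isResAlg (isResAlg_quot P.liftData.res I)
  exact isFlatAt_toRep_map _ (IsLocalHom.of_surjective _ Ideal.Quotient.mk_surjective)
    (P.isFlatAt_rho hgood) hc

/-- **Flatness modulo the kernel of a map to a stage without `p`.** -/
theorem flat_quot_of_stage (S : Stage A T) (g : P.Ring →ₐ[O] S.alg)
    (hloc : IsLocalHom (g : P.Ring →+* S.alg))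
    (hg : mapM (g : P.Ring →+* S.alg) P.rho = S.ru) (hpT : p ∉ T) (I : Ideal P.Ring)
    (hI : RingHom.ker (g : P.Ring →+* S.alg) ≤ I) [IsLocalRing (P.Ring ⧸ I)]
    (hc : IsCont (mapM (Ideal.Quotient.mk I) P.rho)) :
    (toRep (mapM (Ideal.Quotient.mk I) P.rho) hc).IsFlatAt p := by
  set K := RingHom.ker (g : P.Ring →+* S.alg)
  have : Nontrivial (P.Ring ⧸ K) := Ideal.Quotient.nontrivial_iff.mpr (RingHom.ker_ne_top _)
  have : IsLocalRing (P.Ring ⧸ K) := IsLocalRing.of_surjective' _ Ideal.Quotient.mk_surjective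
  have : IsNoetherianRing P.Ring := IsNoetherianRing.of_finite O P.Ring
  have hmk : IsLocalHom (Ideal.Quotient.mk K) :=
    IsLocalHom.of_surjective _ Ideal.Quotient.mk_surjective
  let φ : P.Ring ⧸ K →+* S.alg := RingHom.kerLift (g : P.Ring →+* S.alg)
  have hφ : IsLocalHom φ := ⟨fun x hx => by
    obtain ⟨a, rfl⟩ := Ideal.Quotient.mk_surjective x
    exact (hloc.map_nonunit a hx).map _⟩
  have hφfin : φ.Finite := by
    let := φ.toAlgebra
    have : IsScalarTower O (P.Ring ⧸ K) S.alg :=
      IsScalarTower.of_algebraMap_eq fun x => (g.commutes x).symm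
    exact Module.Finite.of_restrictScalars_finite O (P.Ring ⧸ K) S.alg
  have hcK := P.liftData.cont.map _ hmk
  have hflat : (toRep (mapM (Ideal.Quotient.mk K) P.rho) hcK).IsFlatAt p := by
    refine Glue.isFlatAt_of_baseChange φ hφ (RingHom.kerLift_injective _) hφfin _ ?_
    refine isFlatAt_baseChangeAlong_toRep φ hφ hcK ?_ (S.isFlatAt_ru hpT)
    rw [mapM_mapM]
    exact hg
  have := finite_residueField_of_isResAlg (isResAlg_quot P.liftData.res I)
  have hψ : IsLocalHom (Ideal.Quotient.factor hI) :=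
    IsLocalHom.of_surjective _ (Ideal.Quotient.factor_surjective hI)
  have e : mapM (Ideal.Quotient.factor hI) (mapM (Ideal.Quotient.mk K) P.rho) =
      mapM (Ideal.Quotient.mk I) P.rho := by
    rw [mapM_mapM, Ideal.Quotient.factor_comp_mk]
  exact LowerB.isFlatAt_congr (isEquiv_toRep_congr e (hcK.map _ hψ) hc)
    (isFlatAt_toRep_map _ hψ hflat (hcK.map _ hψ))

/-- **The equations of strictness modulo an ideal make the quotient strict.** -/
theorem strict_quot (hbad : ¬ W.IsGoodPrimeFor p) (I : Ideal P.Ring)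
    (hI : Ideal.span (strictSet P.rho St.τ₀ St.ε p) ≤ I) [IsLocalRing (P.Ring ⧸ I)]
    (hc : IsCont (mapM (Ideal.Quotient.mk I) P.rho)) :
    (toRep (mapM (Ideal.Quotient.mk I) P.rho) hc).IsStrictOrdinaryAt p := by
  have hf : IsLocalHom (Ideal.Quotient.mk I) :=
    IsLocalHom.of_surjective _ Ideal.Quotient.mk_surjective
  obtain ⟨hε, -⟩ := St.ε_spec hbad
  refine isStrictOrdinaryAt_of_strictEq hc ?_ St.τ₀_mem ?_
    (fun σ hσ => by rw [← Int.cast_mul, hε.sq σ hσ, Int.cast_one])
    (fun τ hτ => by rw [hε.inertia τ hτ, Int.cast_one])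
    (strictEq_of_forall_eq_zero (Ideal.Quotient.mk I) fun x hx =>
      Ideal.Quotient.eq_zero_iff_mem.mpr (hI (Ideal.subset_span hx)))
  · exact detIsCyclotomic_congr (isEquiv_baseChangeAlong_toRep _ hf P.rho P.liftData.cont)
      (CFT.Tangent.DetIsCyclotomic.baseChange _ hf P.liftData.det)
  · have e : (mapM (Ideal.Quotient.mk I) P.rho St.τ₀).det - 1 =
        Ideal.Quotient.mk I ((P.rho St.τ₀).det - 1) := by
      rw [map_sub, map_one, RingHom.map_det]
      rfl
    rw [e]
    exact P.isUnit_det_sub_one.map _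

/-- **Strictness when `p` cannot be left out of the level.** -/
theorem strictEq_rho (hbad : ¬ W.IsGoodPrimeFor p) (hNew : StrictAtNew p O)
    (hno : ¬ W.IsResiduallyModularOfLevel p (∏ x ∈ St.pd.B, x)) :
    StrictEq P.rho St.τ₀ (fun σ => (St.ε σ : P.Ring)) p := by
  obtain ⟨hε, hx⟩ := St.ε_spec hbad
  have hpT : p ∈ St.top := St.mem_top.2 (Or.inr ⟨rfl, hbad⟩)
  have herase : St.top.erase p = St.pd.B := by
    rw [Setup.top, if_neg hbad, Finset.erase_insert fun h => ((St.mem_B p).1 h).1 rfl]
  have hu : IsUnit ((P.ru St.τ₀).det - 1) := isUnit_det_sub_one_ru P.mapM_toTop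
  have htop : StrictEq P.ru St.τ₀ (fun σ => (St.ε σ : P.alg)) p :=
    strictEq_of_new St.p_small St.ne_two St.semistable (not_not.1 hbad) hNew P.G
      P.residual (fun θ => P.lev.new_at_p St.data A.isAux hpT (by rw [herase]; exact hno) θ)
      (fun σ => (P.spec σ).1) (fun σ => (P.spec σ).2.1) P.span St.τ₀_mem hu hε.sq
      fun σ hσ i j => by
        have := P.isLocalHom_toTop
        have h := map_nonunit (P.toTop : P.Ring →+* P.alg) _
          (strictSet_subset_maximal (P := P) hbad ⟨σ, hσ, i, j, rfl⟩)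
        rwa [RingHom.coe_coe, map_eqn_entry, map_intCast, P.mapM_toTop] at h
  intro σ hσ
  refine Matrix.ext fun i j => P.ring_eq_zero ?_ ?_
  · rw [map_eqn_entry, map_intCast, P.mapM_toTop, htop σ hσ, Matrix.zero_apply]
  · rw [map_eqn_entry, map_intCast, P.mapM_toPoint, hx σ hσ, Matrix.zero_apply]

/-- The ideal of strictness is zero when `p` cannot be left out. -/
theorem span_strictSet_eq_bot (hbad : ¬ W.IsGoodPrimeFor p) (hNew : StrictAtNew p O)
    (hno : ¬ W.IsResiduallyModularOfLevel p (∏ x ∈ St.pd.B, x)) :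
    Ideal.span (strictSet P.rho St.τ₀ St.ε p) = ⊥ :=
  Ideal.span_eq_bot.2 fun _ hy => strictSet_subset (P.strictEq_rho hbad hNew hno) hy

/-- When `p` cannot be left out every quotient is strict. -/
theorem strict_quot_of_new (hbad : ¬ W.IsGoodPrimeFor p) (hNew : StrictAtNew p O)
    (hno : ¬ W.IsResiduallyModularOfLevel p (∏ x ∈ St.pd.B, x)) (I : Ideal P.Ring)
    [IsLocalRing (P.Ring ⧸ I)] (hc : IsCont (mapM (Ideal.Quotient.mk I) P.rho)) :
    (toRep (mapM (Ideal.Quotient.mk I) P.rho) hc).IsStrictOrdinaryAt p :=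
  P.strict_quot hbad I (by rw [P.span_strictSet_eq_bot hbad hNew hno]; exact bot_le) hc

end Stage

end Fermat.Agent.RT.Lifting

end
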