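import Fermat.Agent.RT.Lifting.Sys
import Fermat.Agent.RT.Lifting.StageAtP

/-!
# The levels of the assembly exist

The largest stage at every level, with the kernel of the map to the stage without `p` as the ideal
of flatness when `p` can be left out.
-/

set_option autoImplicit false

noncomputable section

namespace Fermat.Agent.RT.Lifting

open IsLocalRing Fermat.Agent.Deform
open Fermat.Agent.RT.LowerB (auxSet Data models)
open scoped Classical

variable {O : Type} [CommRing O] [IsDomain O] [IsDiscreteValuationRing O]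
  [IsAdicComplete (maximalIdeal O) O] [Finite (ResidueField O)] [CharZero O]
  {p : ℕ} [Fact p.Prime] [CharP (ResidueField O) p] [Algebra (ZMod p) (ResidueField O)]
  {W : WeierstrassCurve ℤ} {St : Setup O p W} {ls : Finset ℕ} {r : ℕ}

omit [IsAdicComplete (maximalIdeal O) O] [Finite (ResidueField O)] [CharZero O]
  [CharP (ResidueField O) p] in
theorem Setup.p_mem_top (h : ¬ W.IsGoodPrimeFor p) : p ∈ St.top := St.mem_top.2 (Or.inr ⟨rfl, h⟩)

omit [IsAdicComplete (maximalIdeal O) O] [Finite (ResidueField O)] [CharZero O]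
  [CharP (ResidueField O) p] in
theorem Setup.caseO_of_mem_plus {b : St.Idx} (hb : b.1 = p) : St.CaseO :=
  ((St.mem_plus.1 b.2).resolve_left fun h =>
    St.p_notMem_B ((congrArg (· ∈ St.pd.B) hb).mp h.1)).2

namespace Stage

variable {n : ℕ} {A : AuxData St ls r n} (P : Stage A St.top)

/-- Non-units are recognised at the point. -/
theorem mem_max_of_point {x : P.Ring} (h : P.toPoint x ∈ maximalIdeal O) :
    x ∈ maximalIdeal P.Ring :=
  (mem_maximalIdeal _).2 fun hu => (mem_maximalIdeal _).1 h (hu.map P.toPoint)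

theorem point_trace (σ : Gal) : P.toPoint (P.rho σ).trace = (St.x.xw σ).trace := by
  exact (AddMonoidHom.map_trace (P.toPoint : P.Ring →+* O).toAddMonoidHom _).trans
    (congrArg Matrix.trace (DFunLike.congr_fun P.mapM_toPoint σ))

theorem gvar_y_mem {v : ℕ} (hv : v ∈ St.pd.B) (hr : v ∉ St.pd.ram) :
    (P.rho (St.pd.φT v)).trace - (sgn (St.pd.s v) : P.Ring) * ((v : P.Ring) + 1) ∈
      maximalIdeal P.Ring := by
  have : Fact v.Prime := ⟨(St.pd.prime v hv).1⟩
  refine P.mem_max_of_point ?_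
  rw [map_sub, P.point_trace, map_mul, map_intCast, map_add, map_natCast, map_one,
    St.sign v hv hr _ ⟨_, St.pd.frob v hv, Or.inl rfl⟩]
  exact zero_mem _

theorem gvar_z_mem {v : ℕ} (hv : v ∈ St.pd.B) (hr : v ∉ St.pd.ram) (i j : Fin 2) :
    (P.rho (St.pd.σT v) - 1) i j ∈ maximalIdeal P.Ring := by
  have : Fact v.Prime := ⟨(St.pd.prime v hv).1⟩
  refine P.mem_max_of_point ?_
  have h1 := St.x.lifts (St.pd.σT v) i j
  rw [St.pd.rb_unram v hr (St.pd.prime v hv).2 _ (St.pd.gen v hv).1] at h1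
  have h2 : P.toPoint ((P.rho (St.pd.σT v) - 1) i j) = (St.x.xw (St.pd.σT v) - 1) i j := by
    have h0 := congrFun (congrFun (DFunLike.congr_fun P.mapM_toPoint (St.pd.σT v)) i) j
    rw [Matrix.sub_apply, Matrix.sub_apply, map_sub]
    rcases eq_or_ne i j with rfl | hij
    · rw [Matrix.one_apply_eq, Matrix.one_apply_eq, map_one]; exact congrArg (· - 1) h0
    · rw [Matrix.one_apply_ne hij, Matrix.one_apply_ne hij, map_zero]; exact congrArg (· - 0) h0
  rw [h2, ← augment_eq_zero_iff isResAlg_self, Matrix.sub_apply, map_sub, h1]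
  rcases eq_or_ne i j with rfl | hij
  · rw [Matrix.one_apply_eq, Matrix.one_apply_eq, map_one, sub_self]
  · rw [Matrix.one_apply_ne hij, Matrix.one_apply_ne hij, map_zero, sub_self]

theorem gvar_aux_mem (i : Fin r) :
    (P.rho (A.aX i)).trace - 2 ∈ maximalIdeal P.Ring := by
  have : Fact (A.qv i).Prime := ⟨A.isAux.prime i⟩
  have hqp : A.qv i ≠ p := fun h =>
    A.isAux.notMem i ((congrArg (· ∈ badSet p W) h).mpr St.data.p_mem)
  have hqB : A.qv i ∉ St.pd.B := fun h =>
    A.isAux.notMem i (St.mem_bad_of_mem_top (St.B_subset_top h)).2.1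
  obtain ⟨a, hmem, -⟩ := A.gen i
    (Finset.dvd_prod_of_mem (fun q => q) (Finset.mem_image_of_mem A.qv (Finset.mem_univ i)))
  refine P.mem_max_of_point ?_
  rw [map_sub, P.point_trace, map_ofNat, St.notMem_B hqB hqp (A.isAux.prime i) _ hmem,
    Matrix.trace_one, Fintype.card_fin, Nat.cast_ofNat, sub_self]
  exact zero_mem _

theorem gvar_ap_mem {ℓ : ℕ} [Fact ℓ.Prime] (hg : W.IsGoodPrimeFor ℓ) (hℓp : ℓ ≠ p) {F : Gal}
    (hF : (padicPlace ℓ).IsFrobeniusAt F ℓ) :
    (P.rho F).trace - ((W.apOfModel ℓ : ℤ) : P.Ring) ∈ maximalIdeal P.Ring := by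
  refine P.mem_max_of_point ?_
  rw [map_sub, P.point_trace, map_intCast,
    (St.x.frob ℓ Fact.out hg hℓp _ (CFT.Local.padicPlace_liesOverPrime ℓ) F hF).1, sub_self]
  exact zero_mem _

theorem gvar_none_le {v : ℕ} [Fact v.Prime] (hv : v ∈ St.pd.B) :
    altIdeal P.rho v none ≤
      Ideal.span (Set.range fun ij : Fin 2 × Fin 2 => (P.rho (St.pd.σT v) - 1) ij.1 ij.2) := by
  have : IsNoetherianRing P.Ring := IsNoetherianRing.of_finite O P.Ring
  obtain ⟨hσ, π, m, hπ, h1, h2, h3⟩ := St.pd.gen v hv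
  have hvp := (St.pd.prime v hv).2
  refine (altIdeal_none_le P.liftData.cont hvp ?_ (fun τ hτ => ⟨P.liftData.unip v hv τ hτ,
    det_eq_one_of_inertia P.liftData.det Fact.out hvp (CFT.Local.padicPlace_liesOverPrime v) hτ⟩)
    hσ hπ h1 h2 h3).le
  have := P.liftData.res.isLocalHom
  rw [← map_natCast (algebraMap O P.Ring)]
  exact map_nonunit _ _ St.p_small

end Stage

namespace Pre

variable {A : ∀ n, AuxData St ls r n}

/-- The equations of strictness follow from flatness and one number. -/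
theorem strictSpan_le (hOld : OrdinaryAtOld W p O) (hNew : StrictAtNew p O) {n : ℕ}
    (P : Stage (A n) St.top) (hO : St.CaseO) (S : Stage (A n) St.pd.B) {g : P.Ring →ₐ[O] S.alg}
    (hg : mapM (g : P.Ring →+* S.alg) P.rho = S.ru) :
    Ideal.span (strictSet P.rho St.τ₀ St.ε p) ≤ RingHom.ker (g : P.Ring →+* S.alg) ⊔
      Ideal.span {alphaAt P.rho St.τ₀ St.Fp - (St.ε St.Fp : P.Ring)} := by
  have : IsNoetherianRing P.Ring := IsNoetherianRing.of_finite O P.Ring
  obtain ⟨S', g', hloc, hg'⟩ :=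
    exists_upStage P St.B_subset_top (Setup.p_mem_top hO.1) St.p_notMem_B hO.2
  obtain ⟨t, D, -, -, hI, ha, -, -⟩ :=
    exists_step_atP P S hOld hNew hg hO.1 St.p_notMem_B S' hloc hg'
  exact span_strictSet_le P.liftData.cont P.isUnit_det_sub_one St.τ₀_mem St.Fp_frob
    (St.ε_spec hO.1).1 hI ha

/-- The values of the variables are non-units. -/
private theorem gvar_mem_maximalIdeal (Q : Pre St ls r)
    (hls : ∀ ℓ ∈ ls, ℓ.Prime ∧ W.IsGoodPrimeFor ℓ ∧ ℓ ≠ p) (n : ℕ) (j : St.GVar ls r) :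
    Q.gvar n j ∈ maximalIdeal (Q.P n).Ring := by
  rcases j with (b | ⟨b, i, j⟩) | (i | ⟨ℓ, hℓ⟩)
  · simp only [Pre.gvar]
    split_ifs with hb
    · have hO := Setup.caseO_of_mem_plus hb
      exact Ideal.span_le.2 (Stage.strictSet_subset_maximal hO.1)
        (alphaAt_sub_mem (Q.P n).isUnit_det_sub_one St.τ₀_mem St.Fp_frob (St.ε_spec hO.1).1)
    · exact (Q.P n).gvar_y_mem (St.mem_of_ne hb).1 (St.mem_of_ne hb).2
  · simp only [Pre.gvar]
    split_ifs with hb
    · exact zero_mem _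
    · exact (Q.P n).gvar_z_mem (St.mem_of_ne hb).1 (St.mem_of_ne hb).2 i j
  · exact (Q.P n).gvar_aux_mem i
  · have : Fact ℓ.Prime := ⟨(hls ℓ hℓ).1⟩
    exact (Q.P n).gvar_ap_mem (hls ℓ hℓ).2.1 (hls ℓ hℓ).2.2 (frobAt_spec ℓ)

/-- **The levels exist.** -/
theorem exists_valid (A : ∀ n, AuxData St ls r n)
    (hls : ∀ ℓ ∈ ls, ℓ.Prime ∧ W.IsGoodPrimeFor ℓ ∧ ℓ ≠ p) (hOld : OrdinaryAtOld W p O)
    (hNew : StrictAtNew p O) (hmod : W.IsResiduallyModularOfLevel p (∏ x ∈ St.top, x)) :
    ∃ Q : Pre St ls r, Q.A = A ∧ Q.Valid ∧ (St.CaseO → ∀ n,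
      ∃ (S : Stage (Q.A n) St.pd.B) (g : (Q.P n).Ring →ₐ[O] S.alg),
        IsLocalHom (g : (Q.P n).Ring →+* S.alg) ∧
        mapM (g : (Q.P n).Ring →+* S.alg) (Q.P n).rho = S.ru ∧
        Q.flatJ n = RingHom.ker (g : (Q.P n).Ring →+* S.alg)) := by
  -- the largest stage at each level; `flatJ` is the kernel to the stage without `p`, when there is
  -- one
  let P := fun n => (exists_stage (A n) subset_rfl hmod).some
  let S := fun (hO : St.CaseO) n => (exists_stage (A n) St.B_subset_top hO.2).some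
  choose g hloc hg using fun (hO : St.CaseO) n => (P n).exists_toStage (S hO n) St.B_subset_top
  let Q : Pre St ls r :=
    { A := A
      P := P
      flatJ := fun n => if hO : St.CaseO then RingHom.ker (g hO n : (P n).Ring →+* (S hO n).alg)
        else ⊥ }
  have hflat : ∀ hO n, Q.flatJ n = RingHom.ker (g hO n : (P n).Ring →+* (S hO n).alg) :=
    fun hO n => dif_pos hO
  refine ⟨Q, rfl, ?_, fun hO n => ⟨S hO n, g hO n, hloc hO n, hg hO n, hflat hO n⟩⟩
  refine
    { atP_holds := fun n i _ hc => ?_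
      gvar_mem := fun n j => ?_
      none_le := fun n b hb => ?_
      alpha_mem := fun n hO => alphaAt_sub_mem (Q.P n).isUnit_det_sub_one St.τ₀_mem St.Fp_frob
        (St.ε_spec hO.1).1
      strict_le := fun n hO => ?_ }
  · -- the condition at `p` in each shape
    set I := Q.shapeI n i
    set f := Ideal.Quotient.mk I
    have hJ : Q.atPI n i ≤ I := le_shapeIdeal _ _ _ _
    have hG : W.IsGoodPrimeFor p → (toRep (mapM f (Q.P n).rho) hc).IsFlatAt p := fun h =>
      (Q.P n).flat_quot_of_good h I hc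
    have hS : ¬ W.IsGoodPrimeFor p → ¬ W.IsResiduallyModularOfLevel p (∏ x ∈ St.pd.B, x) →
        (toRep (mapM f (Q.P n).rho) hc).IsStrictOrdinaryAt p := fun h h' =>
      (Q.P n).strict_quot_of_new h hNew h' I hc
    have hF : ∀ hO : St.CaseO, Q.flatJ n ≤ I →
        (toRep (mapM f (Q.P n).rho) hc).IsFlatAt p := fun hO hI =>
      (Q.P n).flat_quot_of_stage (S hO n) (g hO n) (hloc hO n) (hg hO n) St.p_notMem_B I
        (hflat hO n ▸ hI) hc
    have hT : St.CaseO → Q.strictI n ≤ I →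
        (toRep (mapM f (Q.P n).rho) hc).IsStrictOrdinaryAt p := fun hO hI =>
      (Q.P n).strict_quot hO.1 I hI hc
    by_cases hO : St.CaseO
    · have hp : p ∈ St.plus := St.mem_plus.2 (Or.inr ⟨rfl, hO⟩)
      rw [St.atP_shapeOf i (b := ⟨p, hp⟩) rfl]
      rw [Pre.atPI, dif_pos hp] at hJ
      generalize i ⟨p, hp⟩ = k at hJ ⊢
      simp only [Pre.kindI, if_true] at hJ
      cases k with
      | special => exact hT hO hJ
      | unramified => exact hF hO hJ
      | both => exact ⟨hF hO (le_sup_left.trans hJ), hT hO (le_sup_right.trans hJ)⟩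
    · have hp : p ∉ St.plus := fun h =>
        hO ((St.mem_plus.1 h).resolve_left fun h => St.p_notMem_B h.1).2
      simp only [Setup.shapeOf, dif_neg hp]
      split_ifs with hg
      · exact hG hg
      · exact hS hg fun hm => hO ⟨hg, hm⟩
  · exact gvar_mem_maximalIdeal Q hls n j
  · have : Fact b.1.Prime := ⟨(St.pd.prime b.1 (St.mem_of_ne hb).1).1⟩
    unfold Pre.altI
    rw [dif_neg hb]
    refine ((Q.P n).gvar_none_le (St.mem_of_ne hb).1).trans (le_of_eq ?_)
    simp only [Pre.gvar, if_neg hb]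
  · rw [hflat hO]
    exact strictSpan_le hOld hNew (Q.P n) hO (S hO n) (hg hO n)

end Pre

end Fermat.Agent.RT.Lifting
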