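import Fermat.Agent.RT.Lifting.Base
import Fermat.Agent.RT.Lifting.End
import Fermat.Agent.RT.Lifting.Finish
import Fermat.Agent.RT.Lifting.Kills
import Fermat.Agent.RT.Lifting.Limits
import Fermat.Agent.RT.Lifting.Valid

/-!
# Modularity lifting at an odd prime `p`

`isModular_of_residuallyModular`: for an odd `p`, a semistable model with irreducible mod `p`
representation, residually modular of a squarefree level with `p` in it only if `p` divides the
discriminant, is modular of exactly its conductor level, given `Lower`, `StrictAtNew` and
`OrdinaryAtOld` of `RT/Lifting/Inputs` over a coefficient ring embedded in the integers of `ℂ_p`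
whose residue field has a root of every quadratic over `ZMod p`. It is used in `RT/Frey/Lifting`,
for `p = 3, 5`. The proof is by contradiction:

1. Level lowering gives residual modularity at the first set of places (`RT/Lifting/Base`).
2. If `W` is not modular of the conductor level, finitely many primes `ℓ` and polynomials `P ℓ`
   have some `P ℓ (a_ℓ)` zero on each newform of the levels in question, but none zero at `W`
   (`exists_witness`, `RT/Lifting/End`).
3. Auxiliary primes give the patching levels, valid at `p` by the inputs, and so the system
   (`RT/Lifting/Valid`).
4. The places are added one at a time; each step carries a prime of full dimension in the support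
   of the patched module to the next stage (`Sys.exists_annData`, `RT/Lifting/Limits`).
5. The last such prime leads to a prime at the point of `W` containing the product of the
   `P ℓ (a_ℓ)`, which does not vanish there (`Sys.false_of_annData`, `RT/Lifting/Finish`).

## References

* A. Wiles, *Modular elliptic curves and Fermat's Last Theorem*, Ann. of Math. (1995).
* R. Taylor, A. Wiles, *Ring-theoretic properties of certain Hecke algebras*, Ann. of Math. (1995).
* F. Diamond, *The Taylor-Wiles construction and multiplicity one*, Invent. Math. (1997).

As in these sources one starts at the minimal level by level lowering and patches with auxiliary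
primes. No isomorphism of deformation rings with Hecke rings and no numerical criterion is proved:
further primes are added one at a time by comparing supports of patched modules through the two
degeneracy maps and Ihara's lemma, which suffices to find the point of the curve.

## Words used in this directory

* A *place* is a prime `v ≠ p` where the point of the curve is ramified. Those unramified
  residually, and `p` when it is bad and can be left out of the level (`CaseO`), are added one at a
  time (`Setup.plus`); the others are in every stage of the chain (`Setup.base`).
* An *alternative* at a place is an `Option Bool`: `none` for unramified, a sign for special of that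
  sign. A *choice* gives one at every added place; it is good for `D` if it is the sign of the
  point on `D` and `none` elsewhere.
* A *kind* at a place is special, unramified or both; a *shape* gives one at every place and the
  condition at `p`, and its *pattern* is the condition it puts on deformations.
* A patching *level* (index `n`) is one set of auxiliary primes; a *stage* at it is a set of
  places with the localised Hecke module of that set and those primes, and its representation. A
  *tower* is the rings of the largest stages at all levels with their maps from one ring of
  variables; a *family* is a stage of one set of places at every level.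
* `Pre` is the levels with the ideal of flatness at `p`, `Pre.Valid` what is needed of them, and
  `Sys` those two with the maps from the variables.
-/

set_option autoImplicit false

noncomputable section

namespace Fermat.Agent.RT.Lifting

open IsLocalRing MvPowerSeries Fermat.Agent.RT.Algebra
open Fermat.Agent.RT.Modules (heckeModule)
open Fermat.Agent.RT.Germ

attribute [local instance] Fermat.Agent.RT.Algebra.isAdicComplete_mvPowerSeries
attribute [local instance] Fermat.Agent.RT.Algebra.finite_residueField_mvPowerSeries

variable {O : Type} [CommRing O] [IsDomain O] [IsDiscreteValuationRing O]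
  [IsAdicComplete (maximalIdeal O) O] [Finite (ResidueField O)] [CharZero O]
  {p : ℕ} [Fact p.Prime] [CharP (ResidueField O) p] [Algebra (ZMod p) (ResidueField O)]
  {W : WeierstrassCurve ℤ}

/-- **Modularity lifting**: residual modularity at a squarefree level gives modularity of exactly
the conductor level, given level lowering and the conditions at `p` on congruent forms, over a
coefficient ring whose residue field contains a root of every quadratic over `ZMod p`. -/
theorem isModular_of_residuallyModular (hΔ : W.Δ ≠ 0) (hW : W.IsSemistableModel) (hp2 : p ≠ 2)
    (hirr : W.ModRepIsIrreducible p) (hp : (p : O) ∈ maximalIdeal O)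
    (hk : ∀ f : Polynomial (ZMod p), f.natDegree = 2 →
      ∃ x : ResidueField O, (f.map (algebraMap (ZMod p) (ResidueField O))).IsRoot x)
    (φ : O →+* ball1 ℂ_[p]) (hφinj : Function.Injective φ)
    (hφ : ∀ c ∈ maximalIdeal O, ‖(φ c : ℂ_[p])‖ < 1)
    (hLower : Lower W p hΔ) (hNew : StrictAtNew p O) (hOld : OrdinaryAtOld W p O)
    {M : ℕ} (hM : Squarefree M) (hbad : p ∣ M → (p : ℤ) ∣ W.Δ)
    (hmod : W.IsResiduallyModularOfLevel p M) :
    Mlc1IsModularModelOfExactConductorLevel W := by
  by_contra hno
  -- the fixed data, and residual modularity at the first and at the largest set of places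
  obtain ⟨St⟩ := exists_setup (O := O) hΔ hW hp2 hirr hp hk
  have hbase := St.modular_base hLower hM hbad hmod
  have htop : W.IsResiduallyModularOfLevel p (∏ x ∈ St.top, x) :=
    St.modular_mono subset_rfl (St.base_union_plus ▸ Finset.subset_union_left) hbase
  have hpr : ∀ v ∈ St.top, v.Prime := fun v hv => St.prime_of_mem_top hv
  have hsq : Squarefree (∏ x ∈ St.top, x) :=
    Finset.squarefree_prod_of_pairwise_isCoprime (fun a ha c hc hac =>
      Nat.coprime_iff_isRelPrime.1 ((Nat.coprime_primes (hpr a ha) (hpr c hc)).2 hac))
      fun a ha => (hpr a ha).squarefree
  -- the witnesses against the newforms of the levels in question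
  obtain ⟨ls, P, hls, hw⟩ := exists_witness hΔ hsq (fun v hv hd => by
    obtain ⟨x, hx, hvx⟩ := (hv.prime.dvd_finsetProd_iff _).1 hd
    obtain rfl := (Nat.prime_dvd_prime_iff_eq hv (hpr x hx)).1 hvx
    exact (St.mem_bad_of_mem_top hx).2.2) (badSet p W) hno
  have hls' : ∀ ℓ ∈ ls, ℓ.Prime ∧ ℓ ∉ badSet p W ∧ W.IsGoodPrimeFor ℓ ∧ ℓ ≠ p := fun ℓ hℓ =>
    ⟨(hls ℓ hℓ).1, (hls ℓ hℓ).2.1, (hls ℓ hℓ).2.2.1,
      fun h => (hls ℓ hℓ).2.1 (Finset.mem_insert.2 (Or.inl h))⟩
  -- the auxiliary primes and the system of patching levels
  obtain ⟨r₀, hr₀⟩ := exists_auxData St ls fun ℓ hℓ => (hls ℓ hℓ).1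
  let A := fun n => (hr₀ (max r₀ 2) (le_max_left _ _) n).some
  obtain ⟨Q, -, hQ, hflat⟩ := Pre.exists_valid A
    (fun ℓ hℓ => ⟨(hls' ℓ hℓ).1, (hls' ℓ hℓ).2.2.1, (hls' ℓ hℓ).2.2.2⟩) hOld hNew htop
  obtain ⟨Y, rfl⟩ := hQ.exists_sys
  -- the chain of stages and its end
  obtain ⟨ϖ, hϖ⟩ := IsDiscreteValuationRing.exists_irreducible O
  obtain ⟨N, hN⟩ := Y.exists_annData hϖ hOld hNew hbase
  refine Y.false_of_annData (Filter.hyperfilter ℕ) hϖ (le_max_right _ _) N
    (Y.kills hOld hNew hflat) (fun F Q hQ' hle hZ f hf => ?_) φ hφinj hφ hls' P
    (fun ℓ hℓ => (hls ℓ hℓ).2.2.2) hw
  rw [hN, Sys.annOf_eq Y (St.stageSet_subset _) F] at hle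
  exact Family.mem_of_augmentation (Y.presOf (St.stageSet_subset _) F).1 hle hZ hf

end Fermat.Agent.RT.Lifting
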