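import Fermat.Agent.RT.Lifting.Places
import Fermat.Agent.EC.Rep.IndexTwo
import Fermat.Agent.RT.Lifting.Inputs

/-!
# Residual modularity at the first set of places

`Setup.modular_base`: given `Lower`, residual modularity at a squarefree level with `p` in it only
if `p` divides the discriminant gives residual modularity at the product of the first set of
places: level lowering removes every prime other than `p` at which the residual representation is
unramified; when `p` can be left out of the level one starts from the product of the places.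
It starts the chain in `RT/Lifting/Main`.
-/

set_option autoImplicit false

noncomputable section

namespace Fermat.Agent.RT.Lifting

open IsLocalRing

variable {O : Type} [CommRing O] [IsDomain O] [IsDiscreteValuationRing O]
  [IsAdicComplete (maximalIdeal O) O] [Finite (ResidueField O)] [CharZero O]
  {p : ℕ} [Fact p.Prime] [CharP (ResidueField O) p] [Algebra (ZMod p) (ResidueField O)]
  {W : WeierstrassCurve ℤ}

namespace Setup

variable (St : Setup O p W)

omit [IsAdicComplete (maximalIdeal O) O] [Finite (ResidueField O)] [CharZero O]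
  [CharP (ResidueField O) p] in
/-- Outside `ram` and `p` the residual representation is unramified. -/
theorem isUnramifiedAt_residual {q : ℕ} (hq : q.Prime) (hqr : q ∉ St.pd.ram) (hqp : q ≠ p) :
    (GaloisRepAdic.ofResidualGaloisRep (EC.Rep.residualRep W p St.hΔ)).IsUnramifiedAt q := by
  have : Fact q.Prime := ⟨hq⟩
  intro A hA σ hσ
  have hunr : (Core.rhoBar W p St.hΔ (ResidueField O)).IsUnramifiedAt q := by
    by_contra h
    obtain ⟨τ, hτ, hne⟩ := LowerB.exists_padic_inertia_ne (b := St.b) h
    exact hne (by rw [← St.rb_eq]; exact St.pd.rb_unram q hqr hqp τ hτ)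
  exact EC.Rep.baseChange_injective (K := ResidueField O)
    ((hunr A hA σ hσ).trans (LinearMap.baseChange_one (ZMod p) _).symm)

omit [IsAdicComplete (maximalIdeal O) O] [Finite (ResidueField O)] [CharZero O]
  [CharP (ResidueField O) p] in
/-- Primes not in `ram` are removed from the level. -/
theorem exists_modular_ram (hLower : Lower W p St.hΔ) (M : ℕ) (hM : Squarefree M)
    (hbad : p ∣ M → (p : ℤ) ∣ W.Δ) (hmod : W.IsResiduallyModularOfLevel p M) :
    ∃ T : Finset ℕ, (∀ x ∈ T, x.Prime ∧ x ∣ M ∧ (x ∈ St.pd.ram ∨ x = p)) ∧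
      W.IsResiduallyModularOfLevel p (∏ x ∈ T, x) := by
  induction M using Nat.strong_induction_on with
  | _ M ih =>
    by_cases h : ∃ q ∈ M.primeFactors, q ∉ St.pd.ram ∧ q ≠ p
    · obtain ⟨q, hq, hqr, hqp⟩ := h
      obtain ⟨hqpr, hqM, hM0⟩ := Nat.mem_primeFactors.1 hq
      have hd : M / q ∣ M := Nat.div_dvd_of_dvd hqM
      obtain ⟨T, hT, hmodT⟩ := ih (M / q)
        (Nat.div_lt_self (Nat.pos_of_ne_zero hM0) hqpr.one_lt) (hM.squarefree_of_dvd hd)
        (fun h => hbad (h.trans hd))
        (hLower M q hM hbad hqpr hqM hqp (St.isUnramifiedAt_residual hqpr hqr hqp) hmod)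
      exact ⟨T, fun x hx => ⟨(hT x hx).1, (hT x hx).2.1.trans hd, (hT x hx).2.2⟩, hmodT⟩
    · push Not at h
      refine ⟨M.primeFactors, fun x hx => ⟨Nat.prime_of_mem_primeFactors hx,
        Nat.dvd_of_mem_primeFactors hx, or_iff_not_imp_left.2 (h x hx)⟩, ?_⟩
      rwa [Nat.prod_primeFactors_of_squarefree hM]

omit [IsAdicComplete (maximalIdeal O) O] [Finite (ResidueField O)] [CharZero O] in
/-- **The first set of places is modular.** -/
theorem modular_base (hLower : Lower W p St.hΔ) {M : ℕ} (hM : Squarefree M)
    (hbad : p ∣ M → (p : ℤ) ∣ W.Δ) (hmod : W.IsResiduallyModularOfLevel p M) :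
    W.IsResiduallyModularOfLevel p (∏ x ∈ St.base, x) := by
  have hsub : St.base ⊆ St.top := St.base_union_plus ▸ Finset.subset_union_left
  by_cases hO : St.CaseO
  · have hB : Squarefree (∏ x ∈ St.pd.B, x) :=
      Finset.squarefree_prod_of_pairwise_isCoprime (fun a ha c hc hac =>
        Nat.coprime_iff_isRelPrime.1
          ((Nat.coprime_primes (St.pd.prime a ha).1 (St.pd.prime c hc).1).2 hac))
        fun a ha => (St.pd.prime a ha).1.squarefree
    have hpB : ¬ p ∣ ∏ x ∈ St.pd.B, x := fun hd => by
      obtain ⟨x, hx, hpx⟩ := ((Fact.out : p.Prime).prime.dvd_finsetProd_iff _).1 hd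
      exact (St.pd.prime x hx).2
        ((Nat.prime_dvd_prime_iff_eq Fact.out (St.pd.prime x hx).1).1 hpx).symm
    obtain ⟨T, hT, hmodT⟩ := St.exists_modular_ram hLower _ hB (fun h => absurd h hpB) hO.2
    refine St.modular_mono hsub (fun x hx => ?_) hmodT
    rcases (hT x hx).2.2 with h | h
    · exact St.ram_subset_base h
    · exact absurd ((congrArg (· ∣ ∏ x ∈ St.pd.B, x) h).mp (hT x hx).2.1) hpB
  · obtain ⟨T, hT, hmodT⟩ := St.exists_modular_ram hLower M hM hbad hmod
    refine St.modular_mono hsub (fun x hx => ?_) hmodT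
    rcases (hT x hx).2.2 with h | h
    · exact St.ram_subset_base h
    · refine St.mem_base.2 (Or.inr ⟨h, ?_, hO⟩)
      exact not_not.2 (hbad ((congrArg (· ∣ M) h).mp (hT x hx).2.1))

end Setup

end Fermat.Agent.RT.Lifting
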