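import Fermat.Agent.Deform.Basic
import Fermat.Agent.RT.Glue.Rep

/-!
# Normalised lifts with equal traces are equal

The values of both lifts are to span the matrices (as they do when the residual ones do) and `2` to
be a unit. The trace pairing carries linear relations between the values of one lift to those of
the other, so a correspondence of matrices is defined; the normalisation fixes the matrix units in
it.
-/

set_option autoImplicit false

noncomputable section

namespace Fermat.Agent.RT.Lifting

open IsLocalRing Fermat.Agent.Deform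

variable {O : Type} [CommRing O] [IsLocalRing O] {Wd : Rigid O}
  {A : Type} [CommRing A] [IsLocalRing A] [Algebra O A]

/-- The matrices of lifts span, if the residual ones do. -/
theorem span_eq_top_of_lifts {h : IsResAlg O A} {r : Gal →* M2 A} (hr : Lifts Wd h r)
    (hspan : Submodule.span (ResidueField O) (Set.range Wd.rb) = ⊤) :
    Submodule.span A (Set.range r) = ⊤ := by
  have := h.isLocalHom
  set φ : ResidueField O →+* ResidueField A := ResidueField.map (algebraMap O A)
  have hφ : Function.Surjective φ := h.map_bijective.2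
  refine Glue.span_range_eq_top _ (eq_top_iff.2 fun X _ => ?_)
  have hmap : ∀ Y ∈ Submodule.span (ResidueField O) (Set.range Wd.rb),
      φ.mapMatrix Y ∈ Submodule.span (ResidueField A)
        (Set.range fun g => (r g).map (residue A)) := fun Y hY => by
    induction hY using Submodule.span_induction with
    | mem Y hY =>
      obtain ⟨g, rfl⟩ := hY
      refine Submodule.subset_span ⟨g, Matrix.ext fun i j => ?_⟩
      show residue A (r g i j) = φ (Wd.rb g i j)
      rw [← hr g i j, map_augment]
    | zero => rw [map_zero]; exact zero_mem _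
    | add Y Z _ _ hY hZ => rw [map_add]; exact add_mem hY hZ
    | smul c Y _ hY =>
      rw [show φ.mapMatrix (c • Y) = φ c • φ.mapMatrix Y from Matrix.ext fun i j => map_mul φ c _]
      exact Submodule.smul_mem _ _ hY
  choose g hg using fun i j => hφ (X i j)
  have := hmap (Matrix.of g) (by rw [hspan]; trivial)
  rwa [show φ.mapMatrix (Matrix.of g) = X from Matrix.ext hg] at this

omit [IsLocalRing A] in
/-- The trace pairing against a spanning set is nondegenerate. -/
private theorem eq_zero_of_trace_mul_eq_zero {r : Gal →* M2 A}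
    (hspan : Submodule.span A (Set.range r) = ⊤) {X : M2 A}
    (hX : ∀ g, (X * r g).trace = 0) : X = 0 := by
  have : ∀ Z : M2 A, (X * Z).trace = 0 := fun Z => by
    have hZ : Z ∈ Submodule.span A (Set.range r) := by rw [hspan]; trivial
    induction hZ using Submodule.span_induction with
    | mem Z hZ => obtain ⟨g, rfl⟩ := hZ; exact hX g
    | zero => simp
    | add Y Z _ _ hY hZ => rw [mul_add, Matrix.trace_add, hY, hZ, add_zero]
    | smul c Y _ hY => rw [mul_smul_comm, Matrix.trace_smul, hY, smul_zero]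
  refine Matrix.ext fun i j => ?_
  simpa [Matrix.trace_mul_single] using this (Matrix.single j i 1)

omit [IsLocalRing A] in
/-- Every matrix is the value of a formal combination of a spanning set. -/
private theorem exists_lift_eq {r : Gal →* M2 A} (hspan : Submodule.span A (Set.range r) = ⊤)
    (Y : M2 A) : ∃ a, MonoidAlgebra.lift A (M2 A) Gal r a = Y := by
  set F := MonoidAlgebra.lift A (M2 A) Gal r
  have hY : Y ∈ Submodule.span A (Set.range r) := by rw [hspan]; trivial
  induction hY using Submodule.span_induction with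
  | mem Y hY => obtain ⟨g, rfl⟩ := hY; exact ⟨MonoidAlgebra.of A Gal g, by simp [F]⟩
  | zero => exact ⟨0, map_zero F⟩
  | add Y Z _ _ hY hZ =>
    obtain ⟨a, rfl⟩ := hY; obtain ⟨b, rfl⟩ := hZ; exact ⟨a + b, map_add F a b⟩
  | smul c Y _ hY => obtain ⟨a, rfl⟩ := hY; exact ⟨c • a, map_smul F c a⟩

omit [IsLocalRing A] in
/-- Diagonal matrices with the same traces, also of their squares, are equal when `2` and the
difference of a diagonal entry and the other one of the second matrix are units. -/
private theorem diag_eq_of_traces {X X' : M2 A} (h2 : IsUnit (2 : A))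
    (hu : IsUnit (X 0 0 - X' 1 1)) (hX01 : X 0 1 = 0) (hX10 : X 1 0 = 0) (hX01' : X' 0 1 = 0)
    (hX10' : X' 1 0 = 0) (e1 : X 0 0 + X 1 1 = X' 0 0 + X' 1 1)
    (e2 : X 0 0 * X 0 0 + X 1 1 * X 1 1 = X' 0 0 * X' 0 0 + X' 1 1 * X' 1 1) : X' = X := by
  have e3 : X 0 0 = X' 0 0 := by
    refine sub_eq_zero.1 (hu.mul_left_eq_zero.1 (h2.mul_right_eq_zero.1 ?_))
    linear_combination (2 * X 0 0 - X 0 0 - X 1 1 - X' 0 0 - X' 1 1) * e1 + (1 : A) * e2
  have h11 : X' 1 1 = X 1 1 := by linear_combination e3 - e1
  refine Matrix.ext fun i j => ?_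
  fin_cases i <;> fin_cases j <;> simp [hX01, hX10, hX01', hX10', e3, h11]

/-- **Normalised lifts with equal traces are equal.** -/
theorem eq_of_trace_eq {h : IsResAlg O A} {r r' : Gal →* M2 A} (hr : Lifts Wd h r)
    (hr' : Lifts Wd h r') (hn : IsNormal Wd r) (hn' : IsNormal Wd r') (h2 : IsUnit (2 : A))
    (hspan : Submodule.span A (Set.range r) = ⊤) (hspan' : Submodule.span A (Set.range r') = ⊤)
    (htr : ∀ σ, (r σ).trace = (r' σ).trace) : r = r' := by
  classical
  set F := MonoidAlgebra.lift A (M2 A) Gal r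
  set F' := MonoidAlgebra.lift A (M2 A) Gal r'
  have htrF : ∀ a, (F a).trace = (F' a).trace := fun a => by
    induction a using MonoidAlgebra.induction_on with
    | of g => simp [F, F', htr]
    | add x y hx hy => simp [map_add, hx, hy]
    | smul c x hx => simp [map_smul, hx]
  -- Step 1: `X` and `Y` correspond if one formal combination of group elements has these two
  -- values. This respects the algebra operations and, by nondegeneracy of the trace pairing, is
  -- single valued.
  let Corr : M2 A → M2 A → Prop := fun X Y => ∃ a, F a = X ∧ F' a = Y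
  have hmul : ∀ {X Y X' Y'}, Corr X Y → Corr X' Y' → Corr (X * X') (Y * Y') :=
    fun ⟨a, ha, ha'⟩ ⟨b, hb, hb'⟩ => ⟨a * b, by rw [map_mul, ha, hb], by rw [map_mul, ha', hb']⟩
  have hadd : ∀ {X Y X' Y'}, Corr X Y → Corr X' Y' → Corr (X + X') (Y + Y') :=
    fun ⟨a, ha, ha'⟩ ⟨b, hb, hb'⟩ => ⟨a + b, by rw [map_add, ha, hb], by rw [map_add, ha', hb']⟩
  have hsub : ∀ {X Y X' Y'}, Corr X Y → Corr X' Y' → Corr (X - X') (Y - Y') :=
    fun ⟨a, ha, ha'⟩ ⟨b, hb, hb'⟩ => ⟨a - b, by rw [map_sub, ha, hb], by rw [map_sub, ha', hb']⟩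
  have hsmul : ∀ (c : A) {X Y}, Corr X Y → Corr (c • X) (c • Y) :=
    fun c _ _ ⟨a, ha, ha'⟩ => ⟨c • a, by rw [map_smul, ha], by rw [map_smul, ha']⟩
  have hone : Corr 1 1 := ⟨1, map_one F, map_one F'⟩
  have huniq : ∀ {X Y Y'}, Corr X Y → Corr X Y' → Y = Y' := fun {X Y Y'} h₁ h₂ => by
    obtain ⟨a, ha, ha'⟩ := hsub h₁ h₂
    refine sub_eq_zero.1 (eq_zero_of_trace_mul_eq_zero hspan' fun g => ?_)
    rw [← ha', show r' g = F' (MonoidAlgebra.of A Gal g) by simp [F'], ← map_mul, ← htrF, map_mul,
      ha, sub_self, zero_mul, Matrix.trace_zero]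
  have heval : ∀ c : Gal →₀ O, Corr (evalC c r) (evalC c r') := fun c => by
    refine ⟨c.sum fun σ o => algebraMap O A o • MonoidAlgebra.of A Gal σ, ?_, ?_⟩ <;>
      simp [evalC, F, F', Finsupp.sum]
  -- Step 2: `cX` takes one diagonal value `X` on both, being determined by the traces of `X`
  -- and `X ^ 2` and by its residue.
  obtain ⟨hX01, hX10, hY10⟩ := hn
  obtain ⟨hX01', hX10', hY10'⟩ := hn'
  set X := evalC Wd.cX r
  set X' := evalC Wd.cX r' with hX'
  have hXX : Corr X X' := heval Wd.cX
  have htr1 : ∀ {Y Y'}, Corr Y Y' → Y.trace = Y'.trace :=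
    fun ⟨a, ha, ha'⟩ => by rw [← ha, ← ha', htrF]
  have e1 : X 0 0 + X 1 1 = X' 0 0 + X' 1 1 := by
    simpa [Matrix.trace_fin_two] using htr1 hXX
  have e2 : X 0 0 * X 0 0 + X 1 1 * X 1 1 = X' 0 0 * X' 0 0 + X' 1 1 * X' 1 1 := by
    simpa [Matrix.trace_fin_two, Matrix.mul_apply, Fin.sum_univ_two, hX01, hX10, hX01', hX10']
      using htr1 (hmul hXX hXX)
  have a00 : augment h (X 0 0) = 1 := by simpa [Matrix.single_apply] using augment_X hr 0 0
  have a11 : augment h (X 1 1) = 0 := by simpa [Matrix.single_apply] using augment_X hr 1 1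
  have b11 : augment h (X' 1 1) = 0 := by simpa [Matrix.single_apply] using augment_X hr' 1 1
  have hu : IsUnit (X 0 0 - X' 1 1) :=
    isUnit_of_augment_ne_zero h (by rw [map_sub, a00, b11, sub_zero]; exact one_ne_zero)
  have e4 : X' = X := diag_eq_of_traces h2 hu hX01 hX10 hX01' hX10' e1 e2
  rw [e4] at hXX
  -- Step 3: hence all four matrix units correspond to themselves: the diagonal ones by `X`, the
  -- lower one by the normalisation of `cY`, the upper one as it is then determined.
  obtain ⟨u, hu'⟩ := isUnit_iff_exists_inv.1 (show IsUnit (X 0 0 - X 1 1) from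
    isUnit_of_augment_ne_zero h (by rw [map_sub, a00, a11, sub_zero]; exact one_ne_zero))
  let E : Fin 2 → Fin 2 → M2 A := fun i j => Matrix.single i j 1
  have p00 : Corr (E 0 0) (E 0 0) := by
    have e : E 0 0 = u • (X - X 1 1 • 1) := by
      refine Matrix.ext fun i j => ?_
      fin_cases i <;> fin_cases j <;> simp [E, hX01, hX10]
      linear_combination -hu'
    rw [e]; exact hsmul u (hsub hXX (hsmul _ hone))
  have p11 : Corr (E 1 1) (E 1 1) := by
    have e : E 1 1 = 1 - E 0 0 := by
      refine Matrix.ext fun i j => ?_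
      fin_cases i <;> fin_cases j <;> simp [E]
    rw [e]; exact hsub hone p00
  have hcut : ∀ (Y : M2 A) i j, E i i * Y * E j j = Y i j • E i j := fun Y i j => by
    refine Matrix.ext fun a b => ?_
    fin_cases i <;> fin_cases j <;> fin_cases a <;> fin_cases b <;>
      simp [E, Matrix.mul_apply, Fin.sum_univ_two]
  have p10 : Corr (E 1 0) (E 1 0) := by
    have := hmul (hmul p11 (heval Wd.cY)) p00
    rwa [hcut, hcut, hY10, hY10', one_smul] at this
  have p01 : Corr (E 0 1) (E 0 1) := by
    obtain ⟨Z, hZ⟩ : ∃ Z, Corr (E 0 1) Z := by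
      obtain ⟨a, ha⟩ := exists_lift_eq hspan (E 0 1)
      exact ⟨F' a, a, ha, rfl⟩
    have h1 := hmul (hmul p00 hZ) p11
    rw [hcut, hcut, show E 0 1 0 1 = 1 by simp [E], one_smul] at h1
    have h3 := hmul p10 h1
    have e : E 1 0 * E 0 1 = E 1 1 := by
      refine Matrix.ext fun a b => ?_
      fin_cases a <;> fin_cases b <;> simp [E, Matrix.mul_apply]
    rw [mul_smul_comm, e] at h3
    have ht : Z 0 1 = 1 := by simpa [E] using congrFun (congrFun (huniq h3 p11) 1) 1
    rwa [ht, one_smul] at h1
  -- Step 4: each `r σ` is a combination of matrix units, so corresponds to itself.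
  refine MonoidHom.ext fun σ => huniq (X := r σ) ?_ ⟨MonoidAlgebra.of A Gal σ, by simp [F],
    by simp [F']⟩
  have e : r σ = r σ 0 0 • E 0 0 + r σ 0 1 • E 0 1 + r σ 1 0 • E 1 0 + r σ 1 1 • E 1 1 := by
    refine Matrix.ext fun i j => ?_
    fin_cases i <;> fin_cases j <;> simp [E]
  nth_rewrite 2 [e]
  nth_rewrite 1 [e]
  exact hadd (hadd (hadd (hsmul _ p00) (hsmul _ p01)) (hsmul _ p10)) (hsmul _ p11)

end Fermat.Agent.RT.Lifting
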