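import Fermat.Agent.RT.Lifting.Tame
import Fermat.Agent.RT.Algebra.Point

/-!
# The alternatives at a place of unipotent inertia

At each point the representation is unramified at `v`, or special of one of the two signs; so,
when the points separate, the product of the three ideals of equations is zero.
-/

set_option autoImplicit false

noncomputable section

namespace Fermat.Agent.RT.Lifting

open IsLocalRing Fermat.Agent.Deform Fermat.Agent.Arith

variable {R : Type} [CommRing R] (ru : Gal →* M2 R) (v : ℕ) [Fact v.Prime]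

/-- The sign of an alternative. -/
def sgn (b : Bool) : ℤ := if b then 1 else -1

/-- The sign of an alternative squares to one. -/
theorem sgn_mul_self (b : Bool) : sgn b * sgn b = 1 := by cases b <;> rfl

theorem sgn_not (b : Bool) : sgn (!b) = -sgn b := by cases b <;> rfl

/-- The equations of an alternative at `v`: unramified, or special of a sign. -/
def altSet : Option Bool → Set R
  | none => {x | ∃ τ ∈ (padicPlace v).inertiaSubgroupIn ℚ, ∃ i j, x = (ru τ - 1) i j}
  | some b => {x | ∃ F, (padicPlace v).IsFrobeniusAt F v ∧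
      (x = (ru F).trace - (sgn b : R) * ((v : R) + 1) ∨
        ∃ τ ∈ (padicPlace v).inertiaSubgroupIn ℚ, ∃ i j,
          x = ((ru F - ((sgn b : R) * (v : R)) • 1) * (ru τ - 1)) i j)}

/-- The ideal of an alternative at `v`. -/
def altIdeal (a : Option Bool) : Ideal R := Ideal.span (altSet ru v a)

variable {ru v}

theorem sub_one_apply_mem {τ : Gal} (hτ : τ ∈ (padicPlace v).inertiaSubgroupIn ℚ) (i j : Fin 2) :
    (ru τ - 1) i j ∈ altIdeal ru v none :=
  Ideal.subset_span ⟨τ, hτ, i, j, rfl⟩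

theorem trace_sub_mem {b : Bool} {F : Gal} (hF : (padicPlace v).IsFrobeniusAt F v) :
    (ru F).trace - (sgn b : R) * ((v : R) + 1) ∈ altIdeal ru v (some b) :=
  Ideal.subset_span ⟨F, hF, Or.inl rfl⟩

variable {S : Type} [CommRing S]

theorem altSet_map (f : R →+* S) (a : Option Bool) :
    f '' altSet ru v a ⊆ altSet (f.mapMatrix.toMonoidHom.comp ru) v a := by
  have hone : ∀ i j : Fin 2, f ((1 : M2 R) i j) = (1 : M2 S) i j := fun i j => by
    rcases eq_or_ne i j with rfl | hij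
    · simp
    · simp [hij]
  rintro _ ⟨x, hx, rfl⟩
  cases a with
  | none =>
    obtain ⟨τ, hτ, i, j, rfl⟩ := hx
    exact ⟨τ, hτ, i, j, by simp [hone]⟩
  | some b =>
    obtain ⟨F, hF, rfl | ⟨τ, hτ, i, j, rfl⟩⟩ := hx
    · exact ⟨F, hF, Or.inl (by simp [Matrix.trace_fin_two])⟩
    · refine ⟨F, hF, Or.inr ⟨τ, hτ, i, j, ?_⟩⟩
      simp [Matrix.mul_apply, Fin.sum_univ_two, Matrix.smul_apply, hone]

variable [IsLocalRing R] [IsNoetherianRing R] {p : ℕ} [Fact p.Prime] (hc : IsCont ru)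
  (hvp : v ≠ p) (hpm : (p : R) ∈ maximalIdeal R)
  (hu : ∀ τ ∈ (padicPlace v).inertiaSubgroupIn ℚ, (ru τ).trace = 2 ∧ (ru τ).det = 1)
  (hdet : ∀ F, (padicPlace v).IsFrobeniusAt F v → (ru F).det = v)

include hc hvp hpm hu hdet in
/-- At a point all the equations of one alternative hold. -/
theorem exists_alt_map_eq_zero {K : Type} [CommRing K] [IsDomain K] [CharZero K] (θ : R →+* K) :
    ∃ a : Option Bool, ∀ x ∈ altSet ru v a, θ x = 0 := by
  by_cases h : ∀ x ∈ altSet ru v none, θ x = 0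
  · exact ⟨none, h⟩
  push Not at h
  obtain ⟨x, ⟨τ₁, hτ₁, i₁, j₁, rfl⟩, hne⟩ := h
  have hv : v.Prime := Fact.out
  obtain ⟨F₀, hF₀⟩ :=
    Arith.exists_isFrobeniusAt (CFT.Local.padicPlace_liesOverPrime v) hv
  let ρ : Gal →* M2 K := θ.mapMatrix.toMonoidHom.comp ru
  have hρ : ∀ g, ρ g = θ.mapMatrix (ru g) := fun g => rfl
  have hN : ∀ τ ∈ (padicPlace v).inertiaSubgroupIn ℚ, θ.mapMatrix (ru τ - 1) * θ.mapMatrix
      (ru τ - 1) = 0 :=
    fun τ hτ => by rw [← map_mul, sub_one_sq_eq_zero (hu τ hτ).1 (hu τ hτ).2, map_zero]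
  have hconj : ∀ F τ, (padicPlace v).IsFrobeniusAt F v → τ ∈ (padicPlace v).inertiaSubgroupIn ℚ →
      θ.mapMatrix (ru F) * θ.mapMatrix (ru τ - 1) =
        (v : K) • (θ.mapMatrix (ru τ - 1) * θ.mapMatrix (ru F)) := fun F τ hF hτ => by
    rw [← map_mul, ← map_mul, frobenius_mul_sub_one hc hvp hpm hu hF hτ]
    refine Matrix.ext fun i j => ?_
    simp [Matrix.mul_apply]
  have hsign : ∀ F τ, (padicPlace v).IsFrobeniusAt F v → τ ∈ (padicPlace v).inertiaSubgroupIn ℚ →
      θ.mapMatrix (ru τ - 1) = 0 ∨ ∃ ε : K, ε * ε = 1 ∧ θ (ru F).trace = ε * ((v : K) + 1) ∧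
        θ.mapMatrix (ru F) * θ.mapMatrix (ru τ - 1) = (ε * v) • θ.mapMatrix (ru τ - 1) := by
    intro F τ hF hτ
    rcases Algebra.eq_zero_or_exists_sign (hN τ hτ) (hconj F τ hF hτ)
      (by rw [← RingHom.map_det, hdet F hF, map_natCast]) (Nat.cast_ne_zero.mpr hv.ne_zero)
      (Nat.cast_ne_one.mpr hv.ne_one) (Nat.cast_add_one_ne_zero v) with h | ⟨ε, h1, h2, h3, -⟩
    · exact Or.inl h
    · refine Or.inr ⟨ε, h1, ?_, h3⟩
      rw [← h2, Matrix.trace_fin_two, Matrix.trace_fin_two, map_add]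
      rfl
  have hne' : θ.mapMatrix (ru τ₁ - 1) ≠ 0 := fun h0 => hne (congrFun (congrFun h0 i₁) j₁)
  obtain ⟨ε, hε, htr, hl⟩ := (hsign F₀ τ₁ hF₀ hτ₁).resolve_left hne'
  obtain ⟨b, hb⟩ : ∃ b, (sgn b : K) = ε := by
    rcases mul_self_eq_one_iff.mp hε with rfl | rfl
    · exact ⟨true, by simp [sgn]⟩
    · exact ⟨false, by simp [sgn]⟩
  -- the same trace at every Frobenius element
  have htrF : ∀ F, (padicPlace v).IsFrobeniusAt F v → θ (ru F).trace = ε * ((v : K) + 1) := by
    intro F hF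
    set τ := F₀⁻¹ * F
    have hτ : τ ∈ (padicPlace v).inertiaSubgroupIn ℚ := Arith.inv_mul_mem_inertia hF hF₀
    have e : θ.mapMatrix (ru F) =
        θ.mapMatrix (ru F₀) + θ.mapMatrix (ru F₀) * θ.mapMatrix (ru τ - 1) := by
      rw [map_sub, map_one, mul_sub, mul_one, add_sub_cancel, ← map_mul, ← map_mul,
        mul_inv_cancel_left]
    have htF : θ (ru F).trace = (θ.mapMatrix (ru F)).trace := by
      rw [Matrix.trace_fin_two, Matrix.trace_fin_two, map_add]; rfl
    have htF₀ : θ (ru F₀).trace = (θ.mapMatrix (ru F₀)).trace := by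
      rw [Matrix.trace_fin_two, Matrix.trace_fin_two, map_add]; rfl
    rw [htF, e, Matrix.trace_add, ← htF₀, htr]
    rcases hsign F₀ τ hF₀ hτ with h0 | ⟨ε', -, -, h3⟩
    · rw [h0, mul_zero, Matrix.trace_zero, add_zero]
    · have h2 : (θ.mapMatrix (ru τ - 1)).trace = 0 := by
        have h2 : θ ((ru τ - 1).trace) = 0 := by
          rw [Matrix.trace_sub, (hu τ hτ).1, Matrix.trace_one, Fintype.card_fin]
          simp
        rw [← h2, Matrix.trace_fin_two, Matrix.trace_fin_two, map_add]; rfl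
      rw [h3, Matrix.trace_smul, h2, smul_zero, add_zero]
  refine ⟨some b, ?_⟩
  rintro x ⟨F, hF, rfl | ⟨τ, hτ, i, j, rfl⟩⟩
  · rw [map_sub, map_mul, map_add, map_natCast, map_one, map_intCast, htrF F hF, hb, sub_self]
  · have h4 : θ.mapMatrix ((ru F - ((sgn b : R) * (v : R)) • 1) * (ru τ - 1)) = 0 := by
      have e : θ.mapMatrix (((sgn b : R) * (v : R)) • (1 : M2 R)) = ((ε * v) • 1 : M2 K) := by
        refine Matrix.ext fun a c => ?_
        rcases eq_or_ne a c with rfl | hac <;> simp [*]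
      rw [map_mul, map_sub, e, sub_mul, smul_one_mul, sub_eq_zero]
      rcases hsign F τ hF hτ with h0 | ⟨ε', -, htr', h3⟩
      · rw [h0, mul_zero, smul_zero]
      · have he : ε' = ε := by
          rw [htrF F hF] at htr'
          exact (mul_right_cancel₀ (Nat.cast_add_one_ne_zero v) htr').symm
        rw [h3, he]
    exact congrFun (congrFun h4 i) j

include hc hvp hpm hu hdet in
/-- The product of the three alternatives is zero when the points separate. -/
theorem prod_altIdeal_eq_bot {K ι : Type} [CommRing K] [IsDomain K] [CharZero K]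
    (θ : ι → R →+* K) (hsep : ∀ x : R, (∀ k, θ k x = 0) → x = 0) :
    ∏ a : Option Bool, altIdeal ru v a = ⊥ := by
  refine eq_bot_iff.mpr fun x hx => (Ideal.mem_bot).mpr (hsep x fun k => ?_)
  obtain ⟨a, ha⟩ := exists_alt_map_eq_zero hc hvp hpm hu hdet (θ k)
  have hle : altIdeal ru v a ≤ RingHom.ker (θ k) := Ideal.span_le.mpr ha
  rw [← Finset.mul_prod_erase _ _ (Finset.mem_univ a)] at hx
  exact hle ((Ideal.mul_le_inf.trans inf_le_left) hx)

include hc hvp hpm hu in
omit [Fact p.Prime] in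
/-- Unramified is generated by one element of inertia. -/
theorem altIdeal_none_le [Fact p.Prime] {σ : Gal}
    (hσ : σ ∈ (padicPlace v).inertiaSubgroupIn ℚ) {π : QBar} (hπ : π ≠ 0) {m : ℤ}
    (hord : Mazur.Eisenstein.ordAt (padicPlace v) v π = m / p)
    (hπσ : EC.Reduction.res (padicPlace v) (σ π / π) ≠ 1)
    (hπσp : EC.Reduction.res (padicPlace v) (σ π / π) ^ p = 1) :
    altIdeal ru v none = Ideal.span (Set.range fun ij : Fin 2 × Fin 2 => (ru σ - 1) ij.1 ij.2) := by
  refine le_antisymm (Ideal.span_le.mpr ?_) (Ideal.span_le.mpr ?_)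
  · rintro _ ⟨τ, hτ, i, j, rfl⟩
    exact sub_one_mem_of_generator hc hvp hpm hu hσ hπ hord hπσ hπσp
      (fun a b => Ideal.subset_span
        (Set.mem_range_self (f := fun ij : Fin 2 × Fin 2 => (ru σ - 1) ij.1 ij.2) (a, b))) τ hτ i j
  · rintro _ ⟨⟨i, j⟩, rfl⟩
    exact sub_one_apply_mem hσ i j

end Fermat.Agent.RT.Lifting
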