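import Fermat.Agent.RT.LowerB.Setup
import Fermat.Agent.RT.Modules.GaloisSide
import Fermat.Agent.RT.Glue.Main

/-!
# Polynomials killing every newform of level dividing `N` kill the module modulo the augmentation

At a prime `q ≡ 1` of `Q` where the squared residual trace is not `4` no congruent newform is
special, so the systems at a squarefree level supported on `N` and `Q` come from newforms of level
dividing `N`.
-/

set_option autoImplicit false

noncomputable section

namespace Fermat.Agent.RT.Lifting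

open IsLocalRing MvPolynomial
open Fermat.Agent.RT.Glue Fermat.Agent.RT.Modules Fermat.Agent.RT.GammaH
open GaloisReps (HeckeGaloisModel)

variable {O : Type} [CommRing O] [IsDomain O] [IsDiscreteValuationRing O]
  [IsAdicComplete (maximalIdeal O) O] [Finite (ResidueField O)] [CharZero O]
  {p : ℕ} [Fact p.Prime] [CharP (ResidueField O) p]

section Kernel

variable {L : ℕ} [NeZero L] {Δ : Type} [CommGroup Δ] [Finite Δ] {ψ : (ZMod L)ˣ →* Δ}
  {S : Finset ℕ} {abar : ℕ → ResidueField O} (h : Modules.Hyp p ψ S abar)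

/-- The kernel of corestriction is the augmentation. -/
theorem mem_iSup_range_of_coresLoc_eq_zero {x : locHom S abar ψ.ker}
    (hx : coresLoc ψ S abar x = 0) : x ∈ ⨆ δ, LinearMap.range (h.dia δ - 1) := by
  obtain ⟨g, ⟨hinj, -⟩, hA, hdec⟩ := h.exists_coresLoc_splitting
  obtain ⟨_, ⟨r, rfl⟩, a, ha, rfl⟩ := Submodule.mem_sup.1 (hdec x)
  rw [map_add, hA a ha, add_zero] at hx
  rw [hinj (a₁ := r) (a₂ := 0) (hx.trans (map_zero (coresLoc ψ S abar ∘ₗ g)).symm),
    map_zero, zero_add]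
  exact ha

omit [Finite (ResidueField O)] [CharZero O] in
/-- The operators commute with corestriction. -/
theorem coresLoc_locAct (a : OpRing O L S) (x : locHom S abar ψ.ker) :
    coresLoc ψ S abar (locAct S abar ψ.ker a x) =
      locAct S abar ⊤ a (coresLoc ψ S abar x) := by
  let := Fintype.ofFinite ((ZMod L)ˣ ⧸ ψ.ker)
  refine Subtype.ext ?_
  rw [coe_coresLoc, coe_locAct_apply, coe_locAct_apply, coe_coresLoc, map_smul]

omit [Finite (ResidueField O)] [CharZero O] in
theorem locAct_eq_zero_of_eq_top {K : Subgroup (ZMod L)ˣ} (hK : K = ⊤) {a : OpRing O L S}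
    (ha : locAct S abar K a = 0) : locAct S abar ⊤ a = 0 := by
  subst hK
  exact ha

end Kernel

variable [Algebra (ZMod p) (ResidueField O)] {W : WeierstrassCurve ℤ} {hΔ : W.Δ ≠ 0}
  {S : Finset ℕ}
  {b : Module.Basis (Fin 2) (ResidueField O) (Core.rhoBar W p hΔ (ResidueField O)).V}

variable (b) in
/-- Every prime of `Q` lies in `S`, is not `p`, is `1` in the residue field and has a Frobenius
element whose squared residual trace is not `4`. Then no congruent newform is special there. -/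
def NoSpecial (S : Finset ℕ) (Q : Finset ℕ) : Prop :=
  ∀ q ∈ Q, q.Prime ∧ q ∈ S ∧ q ≠ p ∧ (q : ResidueField O) = 1 ∧
    ∃ (A : ValuationSubring (AlgebraicClosure ℚ)) (s : GaloisReps.AbsGal),
      A.LiesOverPrime q ∧ A.IsFrobeniusAt s q ∧
        (Deform.matRes (Core.rhoBar W p hΔ (ResidueField O)) b s).trace ^ 2 ≠ 4

/-- At level `Γ₀(L)`, every prime of `L` in `Q` or dividing `N`, polynomials killing the newforms
of level dividing `N` kill. -/
theorem witness_eq_zero_top (d : LowerB.Data O p W hΔ S b) {N L : ℕ} [NeZero L] (Q : Finset ℕ)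
    (hQ : NoSpecial b S Q)
    (hLN : ∀ v : ℕ, v.Prime → v ∣ L → v ∣ N ∨ v ∈ Q)
    (ls : Finset ℕ) (hls : ∀ ℓ ∈ ls, ℓ.Prime ∧ ℓ ∉ S) (P : ℕ → Polynomial ℤ)
    (hP : ∀ (M : ℕ) [NeZero M] (g : CuspForm (CongruenceSubgroup.Gamma0 M) 2), g.IsNewform →
      M ∣ N → ∃ ℓ ∈ ls, Polynomial.aeval (ModularFormClass.qCoeff g ℓ) (P ℓ) = 0)
    (h0 : Modules.Hyp p (1 : (ZMod L)ˣ →* Unit) S (Core.abar W (ResidueField O))) :
    locAct S (Core.abar W (ResidueField O)) (1 : (ZMod L)ˣ →* Unit).ker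
      (∏ ℓ ∈ ls, Polynomial.aeval (tOp O L S ℓ) (P ℓ)) = 0 := by
  classical
  have hΔp : IsPGroup p Unit := fun _ => ⟨0, rfl⟩
  set H := heckeModule h0
  let F : OpRing O L S →ₐ[O] H.algebra := (locAct S _ _).codRestrict _ h0.locAct_mem
  suffices hz : F (∏ ℓ ∈ ls, Polynomial.aeval (tOp O L S ℓ) (P ℓ)) = 0 from congrArg Subtype.val hz
  rcases Nat.eq_zero_or_pos H.d with hd | hd
  · have : Subsingleton H.M := by
      have : IsEmpty (Fin H.d × Unit) := by rw [hd]; infer_instance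
      exact Function.Surjective.subsingleton H.basis_bijective.2
    exact Subtype.ext (LinearMap.ext fun x => Subsingleton.elim _ _)
  have : IsLocalRing H.algebra := isLocalRing_algebra _ d.p_small hΔp hd
  have : IsLocalHom (algebraMap O H.algebra) := isLocalHom_algebraMap _
  obtain ⟨pt, G, hG, -, -, -⟩ := exists_rep d.p_small (H := H) hΔp d.ne_two d.p_mem
    h0.mem_of_dvd d.absIrr d.hasCharpolys (LowerB.models p)
  obtain ⟨e, -⟩ := exists_complexEquiv (O := O) d.p_small
  -- It suffices to vanish at each point, where the eigensystem is that of a newform `g` of a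
  -- squarefree level `L'` dividing `L ^ 2`.
  refine eq_zero_of_forall_point fun θ => e.injective ?_
  rw [map_zero]
  let θ' : H.algebra →+* ℂ := e.toRingHom.comp θ.toRingHom
  obtain ⟨L', g, hg, hdvd, hcoef, hsq, -, -⟩ := H.eigen θ'
  have : NeZero L' :=
    ⟨fun h => pow_ne_zero 2 (NeZero.ne L) (Nat.eq_zero_of_zero_dvd (h ▸ hdvd))⟩
  have hsqf : ∀ v : ℕ, v.Prime → ¬ v ^ 2 ∣ L' := fun v hv hd2 => by
    have hvL : v ∣ L := hv.dvd_of_dvd_pow ((dvd_pow_self v two_ne_zero).trans (hd2.trans hdvd))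
    obtain ⟨u, -, hu⟩ := (hsq v hv hvL).1 hd2
    refine hu ?_
    rw [show (⟨H.dia ((1 : (ZMod L)ˣ →* Unit) u), Algebra.subset_adjoin (Or.inl ⟨_, rfl⟩)⟩ :
      H.algebra) = 1 from Subtype.ext (map_one H.dia), map_one]
  have hL'sq : Squarefree L' :=
    Nat.squarefree_iff_prime_squarefree.2 fun v hv hd2 => hsqf v hv (by rwa [sq])
  have hval : ∀ ℓ (hℓ : ℓ.Prime) (hℓS : ℓ ∉ S),
      ModularFormClass.qCoeff g ℓ = e (θ (sA H h0.mem_of_dvd hℓ hℓS)) := fun ℓ hℓ hℓS =>
    hcoef ℓ hℓ hℓS _ (ZMod.coe_unitOfCoprime _ _)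
  obtain ⟨r⟩ := nonempty_realisation (O := O) d.p_small hg e
  -- At `q ∈ Q` the squared residual trace of Frobenius is not `4`, so `g` is not special there.
  have hnoQ : ∀ q ∈ Q, ¬ q ∣ L' := by
    intro q hq hqL'
    obtain ⟨hqpr, -, hqp, hq1, A, s, hA, hs, htr⟩ := hQ q hq
    have key := G.trace_realisation d.p_small d.p_mem r hdvd θ hval s
    have hloc := stdModel_local p hqpr hqp hqL' (hsqf q hqpr)
    have h1 := r.trace_sq_frobenius (LowerB.models p L') hqpr hqp hqL' hloc.2 hA hs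
    set a : H.algebra := (G.R s).trace ^ 2 - ((q : H.algebra) + 1) ^ 2 with ha
    have hua : IsUnit a := by
      refine residue_ne_zero_iff_isUnit _ |>.1 fun hz => htr ?_
      rw [ha, map_sub, map_pow, map_pow, map_add, map_natCast, map_one, LowerB.residue_trace G hG,
        ← map_natCast (ResidueField.map (algebraMap O H.algebra)), hq1, map_one,
        sub_eq_zero, one_add_one_eq_two, show (2 : ResidueField H.algebra) ^ 2 =
          ResidueField.map (algebraMap O H.algebra) 4 by rw [map_ofNat]; norm_num,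
        ← map_pow] at hz
      have h1 := (ResidueField.map (algebraMap O H.algebra)).injective hz
      rwa [LinearMap.trace_eq_matrix_trace (ResidueField O) b] at h1
    refine (hua.map θ).ne_zero ?_
    rw [ha, map_sub, map_pow, key, h1, map_pow, map_add, map_natCast, map_one, sub_self]
  -- So `L'` divides `N`, and one of the factors vanishes at the point.
  have hL'N : L' ∣ N := by
    rw [← Nat.prod_primeFactors_of_squarefree hL'sq]
    refine Finset.prod_primes_dvd N (fun v hv => (Nat.prime_of_mem_primeFactors hv).prime)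
      fun v hv => ?_
    obtain ⟨hv, hvd, -⟩ := Nat.mem_primeFactors.1 hv
    exact (hLN v hv (hv.dvd_of_dvd_pow (hvd.trans hdvd))).resolve_right fun hq => hnoQ v hq hvd
  obtain ⟨ℓ, hℓls, hℓ0⟩ := hP L' g hg hL'N
  obtain ⟨hℓ, hℓS⟩ := hls ℓ hℓls
  have hsA : sA H h0.mem_of_dvd hℓ hℓS = F (tOp O L S ℓ) := by
    rw [sA, show halfInvExp Unit = 0 by simp [halfInvExp], pow_zero, one_mul]
    rfl
  rw [hval ℓ hℓ hℓS, hsA] at hℓ0
  show (θ'.comp F.toRingHom) _ = 0
  rw [map_prod]
  refine Finset.prod_eq_zero hℓls ?_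
  rw [← hℓ0]
  exact (Polynomial.aeval_algHom_apply (θ'.comp F.toRingHom).toIntAlgHom (tOp O L S ℓ) (P ℓ)).symm

/-- **The witnesses kill the module modulo the augmentation.** -/
theorem witness_apply_mem (d : LowerB.Data O p W hΔ S b) {N L : ℕ} [NeZero L] {Δ : Type}
    [CommGroup Δ] [Finite Δ] {ψ : (ZMod L)ˣ →* Δ}
    (h : Modules.Hyp p ψ S (Core.abar W (ResidueField O))) (Q : Finset ℕ)
    (hQ : NoSpecial b S Q) (hLN : ∀ v : ℕ, v.Prime → v ∣ L → v ∣ N ∨ v ∈ Q)
    (ls : Finset ℕ) (hls : ∀ ℓ ∈ ls, ℓ.Prime ∧ ℓ ∉ S) (P : ℕ → Polynomial ℤ)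
    (hP : ∀ (M : ℕ) [NeZero M] (g : CuspForm (CongruenceSubgroup.Gamma0 M) 2), g.IsNewform →
      M ∣ N → ∃ ℓ ∈ ls, Polynomial.aeval (ModularFormClass.qCoeff g ℓ) (P ℓ) = 0)
    (x : (heckeModule h).M) :
    ((∏ ℓ ∈ ls.attach, Polynomial.aeval
        (sA (heckeModule h) h.mem_of_dvd (hls ℓ.1 ℓ.2).1 (hls ℓ.1 ℓ.2).2) (P ℓ.1) :
          (heckeModule h).algebra) : Module.End O (heckeModule h).M) x ∈
      ⨆ δ, LinearMap.range (h.dia δ - 1) := by
  classical
  let F : OpRing O L S →ₐ[O] (heckeModule h).algebra := (locAct S _ _).codRestrict _ h.locAct_mem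
  -- lift the operators to the ring of abstract operators
  let sOp : {ℓ // ℓ ∈ ls} → OpRing O L S := fun ℓ =>
    X (Sum.inl (ZMod.unitOfCoprime ℓ.1
      (coprime_of_notMem h.mem_of_dvd (hls ℓ.1 ℓ.2).1 (hls ℓ.1 ℓ.2).2))) ^ halfInvExp Δ *
      tOp O L S ℓ.1
  set z : OpRing O L S := ∏ ℓ ∈ ls.attach, Polynomial.aeval (sOp ℓ) (P ℓ.1) with hz
  have hFz : (∏ ℓ ∈ ls.attach, Polynomial.aeval
      (sA (heckeModule h) h.mem_of_dvd (hls ℓ.1 ℓ.2).1 (hls ℓ.1 ℓ.2).2) (P ℓ.1) :
          (heckeModule h).algebra) = F z := by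
    rw [hz, map_prod]
    refine Finset.prod_congr rfl fun ℓ _ => ?_
    refine Eq.trans ?_
      (Polynomial.aeval_algHom_apply F.toRingHom.toIntAlgHom (sOp ℓ) (P ℓ.1))
    congr 2
    show _ = F (sOp ℓ)
    rw [map_mul, map_pow, sA]
    congr 2
    exact Subtype.ext (h.dia_psi _)
  rw [hFz]
  -- it is enough that the corestriction to full level vanishes
  refine mem_iSup_range_of_coresLoc_eq_zero h ?_
  show coresLoc ψ S _ (locAct S _ ψ.ker z x) = 0
  refine (coresLoc_locAct (ψ := ψ) z x).trans ?_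
  -- at full level the witnesses vanish
  have h0 : locAct S (Core.abar W (ResidueField O)) (⊤ : Subgroup (ZMod L)ˣ)
      (∏ ℓ ∈ ls, Polynomial.aeval (tOp O L S ℓ) (P ℓ)) = 0 :=
    locAct_eq_zero_of_eq_top (K := (1 : (ZMod L)ˣ →* Unit).ker) (eq_top_iff.2 fun _ _ => rfl)
      (witness_eq_zero_top d Q hQ hLN ls hls P hP
        (d.hyp (fun _ => ⟨0, rfl⟩) (fun _ => ⟨1, rfl⟩) h.squarefree h.mem_of_dvd))
  let I : Ideal (OpRing O L S) :=
    RingHom.ker (locAct S (Core.abar W (ResidueField O)) (⊤ : Subgroup (ZMod L)ˣ))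
  -- and diamonds act there as one, so the two products agree
  have hX : ∀ u : (ZMod L)ˣ, Ideal.Quotient.mk I (X (Sum.inl u)) = 1 := fun u => by
    rw [← map_one (Ideal.Quotient.mk I), Ideal.Quotient.mk_eq_mk_iff_sub_mem]
    refine (RingHom.mem_ker ..).2 (LinearMap.ext fun y => Subtype.ext ?_)
    rw [coe_locAct_apply, sub_smul, one_smul, X_inl_smul]
    exact sub_eq_zero.2 (diamond_top O u _)
  have hzI : z ∈ I := by
    rw [← Ideal.Quotient.eq_zero_iff_mem, hz, map_prod]
    have h1 : Ideal.Quotient.mk I (∏ ℓ ∈ ls, Polynomial.aeval (tOp O L S ℓ) (P ℓ)) = 0 :=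
      Ideal.Quotient.eq_zero_iff_mem.2 ((RingHom.mem_ker ..).2 h0)
    rw [map_prod, ← Finset.prod_attach] at h1
    rw [← h1]
    refine Finset.prod_congr rfl fun ℓ _ => ?_
    refine ((Polynomial.aeval_algHom_apply (Ideal.Quotient.mk I).toIntAlgHom (sOp ℓ)
      (P ℓ.1)).symm.trans (Eq.trans ?_
      (Polynomial.aeval_algHom_apply (Ideal.Quotient.mk I).toIntAlgHom (tOp O L S ℓ.1) (P ℓ.1))))
    congr 2
    show Ideal.Quotient.mk I (sOp ℓ) = Ideal.Quotient.mk I (tOp O L S ℓ.1)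
    rw [map_mul, map_pow, hX, one_pow, one_mul]
  rw [(RingHom.mem_ker ..).1 hzI]
  rfl

end Fermat.Agent.RT.Lifting
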