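import Fermat.Agent.RT.Modules.Cores
import Fermat.Agent.RT.Glue.Algebra
import Fermat.Agent.RT.Assembly.Diamond
import Fermat.Agent.RT.Assembly.LevelChar
import Fermat.Agent.RT.Assembly.Coords

/-!
# The Hecke module as a module over the power series in the diamond variables

The variables act as `dia δ - 1` on generators `δ` (`levelModule`); the relations lie in the
level ideal and the maximal ideal gives the augmentation (`mem_maximalIdeal_smul_top_iff`).
-/

set_option autoImplicit false

noncomputable section

namespace Fermat.Agent.RT.Lifting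

open IsLocalRing MvPowerSeries
open Fermat.Agent.RT.Glue Fermat.Agent.RT.Modules
open Fermat.Agent.RT.Assembly (LevelGroup levelGen levelIdeal levelChar DiaBasis)

variable {O : Type} [CommRing O] [IsDomain O] [IsDiscreteValuationRing O]
  [IsAdicComplete (maximalIdeal O) O] [Finite (ResidueField O)] [CharZero O]
  {p : ℕ} [Fact p.Prime] [CharP (ResidueField O) p]
  {r n L : ℕ} [NeZero L] {S : Finset ℕ} {abar : ℕ → ResidueField O}
  {ψ : (ZMod L)ˣ →* LevelGroup Empty p r n}

/-! ## The action of the power series -/

/-- The element of the power series with image `δ`. -/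
def levelMon (δ : LevelGroup Empty p r n) : MvPowerSeries (Fin r) O :=
  ∏ i, (1 + X i) ^ (δ.toAdd.2 i).val

theorem eq_prod_levelGen (δ : LevelGroup Empty p r n) :
    δ = ∏ i, levelGen p n (Sum.inr i) ^ (δ.toAdd.2 i).val := by
  classical
  apply Multiplicative.toAdd.injective
  rw [toAdd_prod]
  simp only [toAdd_pow, levelGen, toAdd_ofAdd]
  refine Prod.ext (funext fun v => v.elim) (funext fun i => ?_)
  simp only [Prod.snd_sum, Prod.smul_snd, Finset.sum_apply, Pi.smul_apply, Pi.single_apply,
    smul_ite, smul_zero, nsmul_one, Finset.sum_ite_eq, Finset.mem_univ, if_true,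
    ZMod.natCast_zmod_val]

omit [IsDomain O] [IsDiscreteValuationRing O] [IsAdicComplete (maximalIdeal O) O]
  [Finite (ResidueField O)] [CharZero O] [Fact (Nat.Prime p)] [CharP (ResidueField O) p] in
theorem levelMon_sub_one_mem (δ : LevelGroup Empty p r n) :
    (levelMon δ : MvPowerSeries (Fin r) O) - 1 ∈ Ideal.span (Set.range X) := by
  rw [← Ideal.Quotient.eq_zero_iff_mem, map_sub, map_one, levelMon, map_prod, sub_eq_zero]
  refine Finset.prod_eq_one fun i _ => ?_
  rw [map_pow, map_add, map_one,
    Ideal.Quotient.eq_zero_iff_mem.2 (Ideal.subset_span (Set.mem_range_self i)), add_zero, one_pow]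

variable (h : Modules.Hyp p ψ S abar)

/-- The defining property of the action of the power series. -/
def IsLevelAct (Γ : MvPowerSeries (Fin r) O →ₐ[O] Module.End O (heckeModule h).M) : Prop :=
  (∀ i, Γ (X i) = (heckeModule h).dia (levelGen p n (Sum.inr i)) - 1) ∧
    ∀ f, Γ f ∈ (heckeModule h).algebra

theorem exists_levelAct (hp : (p : O) ∈ maximalIdeal O) : ∃ Γ, IsLevelAct h Γ := by
  classical
  set H := heckeModule h
  have hΔ : IsPGroup p (LevelGroup Empty p r n) := Assembly.isPGroup_levelGroup p n
  rcases Nat.eq_zero_or_pos H.d with hd | hd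
  · have : Subsingleton H.M := by
      have : IsEmpty (Fin H.d × LevelGroup Empty p r n) := by rw [hd]; infer_instance
      exact Function.Surjective.subsingleton H.basis_bijective.2
    have hone : ∀ f : Module.End O H.M, f = 0 := fun f =>
      LinearMap.ext fun x => Subsingleton.elim _ _
    exact ⟨{ toFun := fun _ => 0, map_one' := (hone 1).symm, map_mul' := fun _ _ =>
      (mul_zero 0).symm, map_zero' := rfl, map_add' := fun _ _ => (add_zero 0).symm,
             commutes' := fun c => (hone _).symm },
      fun i => (hone _).symm, fun f => zero_mem _⟩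
  have : IsLocalRing H.algebra := isLocalRing_algebra _ hp hΔ hd
  have := isAdicComplete_algebra H
  have hpm : (p : H.algebra) ∈ maximalIdeal H.algebra := by
    have := isLocalHom_algebraMap H
    rw [← map_natCast (algebraMap O H.algebra)]
    exact map_nonunit (algebraMap O H.algebra) _ hp
  have : CharP (ResidueField H.algebra) p := (CharP.charP_iff_prime_eq_zero Fact.out).2 (by
    rw [← map_natCast (residue H.algebra), residue_eq_zero_iff]; exact hpm)
  have hmem : ∀ i, diaA H (levelGen p n (Sum.inr i)) - 1 ∈ maximalIdeal H.algebra := fun i => by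
    obtain ⟨k, hk⟩ := hΔ (levelGen p n (Sum.inr i) : LevelGroup Empty p r n)
    rw [← residue_eq_zero_iff]
    refine pow_eq_zero_iff (n := p ^ k) (pow_ne_zero _ (Fact.out : p.Prime).ne_zero) |>.1 ?_
    have e1 : diaA H (levelGen p n (Sum.inr i)) ^ (p ^ k) = 1 :=
      (map_pow (diaA H) _ (p ^ k)).symm.trans ((congrArg (diaA H) hk).trans (map_one (diaA H)))
    have e2 : residue H.algebra (diaA H (levelGen p n (Sum.inr i))) ^ (p ^ k) = 1 :=
      ((map_pow (residue H.algebra) (diaA H (levelGen p n (Sum.inr i))) (p ^ k)).symm.trans
        (congrArg (residue H.algebra) e1)).trans (map_one (residue H.algebra))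
    rw [map_sub, map_one, sub_pow_char_pow, one_pow, e2, sub_self]
  obtain ⟨γ, hγ⟩ := Assembly.exists_evalHom (O := O)
    (fun i => diaA H (levelGen p n (Sum.inr i)) - 1) hmem
  exact ⟨H.algebra.val.comp γ, fun i => congrArg Subtype.val (hγ i), fun f => (γ f).2⟩

variable (hp : (p : O) ∈ maximalIdeal O)

/-- The action of the power series. -/
def levelAct : MvPowerSeries (Fin r) O →ₐ[O] Module.End O (heckeModule h).M :=
  (exists_levelAct h hp).choose

/-- The module structure; deliberately not an instance. -/
@[reducible] def levelModule : Module (MvPowerSeries (Fin r) O) (heckeModule h).M :=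
  Module.compHom _ (levelAct h hp).toRingHom

theorem levelAct_X (i : Fin r) :
    levelAct h hp (X i) = (heckeModule h).dia (levelGen p n (Sum.inr i)) - 1 :=
  (exists_levelAct h hp).choose_spec.1 i

theorem levelAct_mem (f : MvPowerSeries (Fin r) O) :
    levelAct h hp f ∈ (heckeModule h).algebra :=
  (exists_levelAct h hp).choose_spec.2 f

theorem levelSmul_eq (f : MvPowerSeries (Fin r) O) (x : (heckeModule h).M) :
    letI := levelModule h hp
    f • x = levelAct h hp f x := rfl

theorem level_C_smul (o : O) (x : (heckeModule h).M) :
    letI := levelModule h hp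
    (C o : MvPowerSeries (Fin r) O) • x = o • x := by
  show levelAct h hp (C o) x = _
  rw [show (C o : MvPowerSeries (Fin r) O) = algebraMap O _ o from rfl, AlgHom.commutes,
    Module.algebraMap_end_apply]

theorem levelAct_levelMon (δ : LevelGroup Empty p r n) :
    levelAct h hp (levelMon δ) = (heckeModule h).dia δ := by
  conv_rhs => rw [eq_prod_levelGen δ]
  have hX : ∀ i, levelAct h hp (1 + X i) = (heckeModule h).dia (levelGen p n (Sum.inr i)) :=
    fun i => by
    rw [map_add, map_one, levelAct_X, add_sub_cancel]
  let F : MvPowerSeries (Fin r) O →ₐ[O] (heckeModule h).algebra :=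
    (levelAct h hp).codRestrict _ (levelAct_mem h hp)
  have hF : F (levelMon δ) = diaA (heckeModule h)
      (∏ i, levelGen p n (Sum.inr i) ^ (δ.toAdd.2 i).val) := by
    rw [levelMon, map_prod, map_prod]
    refine Finset.prod_congr rfl fun i _ => ?_
    rw [map_pow, map_pow, show F (1 + X i) = diaA (heckeModule h) (levelGen p n (Sum.inr i)) from
      Subtype.ext (hX i)]
  exact congrArg Subtype.val hF

theorem levelIdeal_le_ker :
    levelIdeal O p n ≤ RingHom.ker (levelAct h hp) := by
  rw [levelIdeal, Ideal.span_le]
  rintro _ ⟨i, rfl⟩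
  rw [SetLike.mem_coe, RingHom.mem_ker, map_sub, map_pow, map_add, map_one, levelAct_X,
    add_sub_cancel, ← map_pow, sub_eq_zero, ← map_one (heckeModule h).dia]
  congr 1
  apply Multiplicative.toAdd.injective
  rw [toAdd_pow, levelGen, toAdd_ofAdd, toAdd_one]
  refine Prod.ext (funext fun v => v.elim) (funext fun j => ?_)
  show (p ^ n) • ((Pi.single i 1 : Fin r → ZMod (p ^ n)) j) = 0
  rw [nsmul_eq_mul, ZMod.natCast_self, zero_mul]

/-! ## Linearity of the commuting operators -/

/-- A linear map commuting with the diamond operators commutes with the power series. -/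
theorem comm_levelAct {L' : ℕ} [NeZero L'] {S' : Finset ℕ} {abar' : ℕ → ResidueField O}
    {ψ' : (ZMod L')ˣ →* LevelGroup Empty p r n} (h' : Modules.Hyp p ψ' S' abar') 
    (φ : (heckeModule h).M →ₗ[O] (heckeModule h').M)
    (hφ : ∀ δ x, φ ((heckeModule h).dia δ x) = (heckeModule h').dia δ (φ x))
    (f : MvPowerSeries (Fin r) O)
    (x : (heckeModule h).M) :
    φ (levelAct h hp f x) = levelAct h' hp f (φ x) := by
  classical
  revert f
  suffices key : ∀ q : MvPowerSeries (Fin r) O ⧸ levelIdeal O p n, ∀ g,
      Ideal.Quotient.mk _ g = q → ∀ y, φ (levelAct h hp g y) = levelAct h' hp g (φ y) from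
    fun f => key _ f rfl x
  let P : MvPowerSeries (Fin r) O → Prop := fun g =>
    ∀ y, φ (levelAct h hp g y) = levelAct h' hp g (φ y)
  -- the property depends only on the class modulo the level ideal
  have hcongr : ∀ g g', g - g' ∈ levelIdeal O p n → P g → P g' := fun g g' hgg hg y => by
    have h1 : levelAct h hp g = levelAct h hp g' := by
      rw [← sub_eq_zero, ← map_sub]; exact levelIdeal_le_ker h hp hgg
    have h2 : levelAct h' hp g = levelAct h' hp g' := by
      rw [← sub_eq_zero, ← map_sub]; exact levelIdeal_le_ker h' hp hgg
    rw [← h1, ← h2]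
    exact hg y
  -- the classes having it form a subspace
  let Wd : Submodule O (Fin 1 → MvPowerSeries (Fin r) O ⧸ levelIdeal O p n) :=
    { carrier := {q | ∀ g, Ideal.Quotient.mk _ g = q 0 → P g}
      add_mem' := fun {a b} ha hb g hg => by
        obtain ⟨ga, hga⟩ := Ideal.Quotient.mk_surjective (a 0)
        obtain ⟨gb, hgb⟩ := Ideal.Quotient.mk_surjective (b 0)
        refine hcongr (ga + gb) g ?_ fun y => ?_
        · rw [← Ideal.Quotient.eq, map_add, hga, hgb, hg]; rfl
        · rw [map_add, map_add, LinearMap.add_apply, LinearMap.add_apply, map_add, ha ga hga,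
            hb gb hgb]
      zero_mem' := fun g hg => hcongr 0 g (by
        rw [← Ideal.Quotient.eq, map_zero, hg]; rfl) fun y => by simp
      smul_mem' := fun c a ha g hg => by
        obtain ⟨ga, hga⟩ := Ideal.Quotient.mk_surjective (a 0)
        refine hcongr (algebraMap O _ c * ga) g ?_ fun y => ?_
        · rw [← Ideal.Quotient.eq, map_mul, hga, hg, Pi.smul_apply];
          exact (Algebra.smul_def c (a 0)).symm
        · rw [map_mul, map_mul, AlgHom.commutes, AlgHom.commutes, Module.End.mul_apply,
            Module.End.mul_apply, Module.algebraMap_end_apply, Module.algebraMap_end_apply,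
            map_smul, ha ga hga] }
  have htop : Wd = ⊤ := by
    -- stable under the variables and containing `1`, hence everything
    refine Assembly.eq_top_of_X_stable (Fact.out : p.Prime) hp n Wd (fun i q hq g hg => ?_)
      fun j g hg => ?_
    · obtain ⟨gq, hgq⟩ := Ideal.Quotient.mk_surjective (q 0)
      refine hcongr (X i * gq) g ?_ fun y => ?_
      · rw [← Ideal.Quotient.eq, map_mul, hgq, hg]; rfl
      · rw [map_mul, map_mul, Module.End.mul_apply, Module.End.mul_apply, levelAct_X, levelAct_X,
          LinearMap.sub_apply, LinearMap.sub_apply, Module.End.one_apply, Module.End.one_apply,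
          map_sub, hφ, hq gq hgq]
    · refine hcongr 1 g ?_ fun y => by simp
      rw [← Ideal.Quotient.eq, map_one, hg, Subsingleton.elim j 0, Pi.single_eq_same]
  intro q g hg y
  exact (show (fun _ => q) ∈ Wd from htop ▸ Submodule.mem_top) g hg y

/-- An operator commuting with the diamond operators is linear over the power series. -/
theorem level_smul_comm (φ : Module.End O (heckeModule h).M)
    (hφ : ∀ δ x, φ ((heckeModule h).dia δ x) = (heckeModule h).dia δ (φ x))
    (f : MvPowerSeries (Fin r) O)
    (x : (heckeModule h).M) :
    letI := levelModule h hp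
    φ (f • x) = f • φ x :=
  comm_levelAct h hp h φ hφ f x

theorem algebra_comm_dia (a : (heckeModule h).algebra) (δ : LevelGroup Empty p r n)
    (x : (heckeModule h).M) :
    (a : Module.End O (heckeModule h).M) ((heckeModule h).dia δ x) = (heckeModule h).dia δ
    ((a : Module.End O _) x) :=
  LinearMap.congr_fun (congrArg Subtype.val (mul_comm a (diaA (heckeModule h) δ))) x

/-- The Hecke algebra is linear over the power series. -/
theorem level_smul_algebra (a : (heckeModule h).algebra) (f : MvPowerSeries (Fin r) O)
    (x : (heckeModule h).M) :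
    letI := levelModule h hp
    (a : Module.End O (heckeModule h).M) (f • x) = f • (a : Module.End O _) x :=
  level_smul_comm h hp _ (algebra_comm_dia h a) f x

/-! ## Generators, relations and the augmentation -/

/-- The basis generates over the power series. -/
theorem level_exists_coeff (x : (heckeModule h).M) :
    letI := levelModule h hp
    ∃ c : Fin (heckeModule h).d → MvPowerSeries (Fin r) O,
      x = ∑ i, c i • (heckeModule h).basis i := by
  let := levelModule h hp
  classical
  have := Fintype.ofFinite (LevelGroup Empty p r n)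
  obtain ⟨c, rfl⟩ := (heckeModule h).basis_bijective.2 x
  refine ⟨fun i => ∑ δ, C (c (i, δ)) * levelMon δ, ?_⟩
  show c.sum _ = _
  rw [Finsupp.sum_fintype _ _ (by simp), Fintype.sum_prod_type]
  refine Finset.sum_congr rfl fun i _ => ?_
  rw [Finset.sum_smul]
  refine Finset.sum_congr rfl fun δ _ => ?_
  rw [mul_smul, level_C_smul]
  congr 1
  exact (LinearMap.congr_fun (levelAct_levelMon h hp δ) _).symm

/-- The relations between the basis lie in the level ideal. -/
theorem level_mem_levelIdeal (c : Fin (heckeModule h).d → MvPowerSeries (Fin r) O)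
    (hc : letI := levelModule h hp; ∑ i, c i • (heckeModule h).basis i = 0)
    (i : Fin (heckeModule h).d) : c i ∈ levelIdeal O p n := by
  classical
  let := levelModule h hp
  set χ := levelChar (V := Empty) (O := O) (r := r) (p := p) (ζ := (1 : O)) (one_pow p) n
  let B : DiaBasis (heckeModule h).dia (heckeModule h).d :=
    ⟨(heckeModule h).basis, (heckeModule h).basis_bijective⟩
  let q : MvPowerSeries (Fin r) O →+* MvPowerSeries (Fin r) O ⧸ levelIdeal O p n :=
    Ideal.Quotient.mk _
  -- `Wd` holds the classes `w` whose action becomes multiplication by `w` after specialising at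
  -- `χ`.
  let Wd : Submodule O (Fin 1 → MvPowerSeries (Fin r) O ⧸ levelIdeal O p n) :=
    { carrier := {w | ∀ g, q g = w 0 → ∀ y, B.spec χ (levelAct h hp g y) = w 0 • B.spec χ y}
      add_mem' := fun {a b} ha hb g hg y => by
        obtain ⟨ga, hga⟩ := Ideal.Quotient.mk_surjective (a 0)
        obtain ⟨gb, hgb⟩ := Ideal.Quotient.mk_surjective (b 0)
        have e : levelAct h hp g = levelAct h hp (ga + gb) := by
          rw [← sub_eq_zero, ← map_sub]
          refine levelIdeal_le_ker h hp ?_
          rw [← Ideal.Quotient.eq, map_add, hga, hgb]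
          exact hg
        rw [e, map_add, LinearMap.add_apply, map_add, ha ga hga, hb gb hgb, Pi.add_apply, add_smul]
      zero_mem' := fun g hg y => by
        have e : levelAct h hp g = 0 := levelIdeal_le_ker h hp (Ideal.Quotient.eq_zero_iff_mem.1 hg)
        rw [e, LinearMap.zero_apply, map_zero, Pi.zero_apply]
        exact funext fun _ => (zero_mul _).symm
      smul_mem' := fun c a ha g hg y => by
        obtain ⟨ga, hga⟩ := Ideal.Quotient.mk_surjective (a 0)
        have e : levelAct h hp g = levelAct h hp (algebraMap O _ c * ga) := by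
          rw [← sub_eq_zero, ← map_sub]
          refine levelIdeal_le_ker h hp ?_
          rw [← Ideal.Quotient.eq, map_mul, hga]
          exact hg.trans (Algebra.smul_def c (a 0))
        rw [e, map_mul, AlgHom.commutes, Module.End.mul_apply, Module.algebraMap_end_apply,
          map_smul, ha ga hga, Pi.smul_apply, smul_assoc] }
  -- It contains `1` and is stable under the variables, so it is everything.
  have htop : Wd = ⊤ := by
    refine Assembly.eq_top_of_X_stable (Fact.out : p.Prime) hp n Wd (fun j w hw g hg y => ?_)
      fun j g hg y => ?_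
    · obtain ⟨gw, hgw⟩ := Ideal.Quotient.mk_surjective (w 0)
      have e : levelAct h hp g = levelAct h hp (X j * gw) := by
        rw [← sub_eq_zero, ← map_sub]
        refine levelIdeal_le_ker h hp ?_
        rw [← Ideal.Quotient.eq, map_mul, hgw]
        exact hg
      have hgen : χ (levelGen p n (Sum.inr j)) = 1 + q (X j) := by
        rw [levelGen, Assembly.levelChar_apply_right]
        rcases Nat.lt_or_ge 1 (p ^ n) with hlt | hge
        · have := Fact.mk hlt
          rw [ZMod.val_one, pow_one]
        · have h1 : p ^ n = 1 := le_antisymm hge (Nat.one_le_pow _ _ (Fact.out : p.Prime).pos)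
          have h0 : q (X j) = 0 := by
            have := Assembly.one_add_mk_pow (O := O) (p := p) n j
            rwa [h1, pow_one, add_eq_left] at this
          rw [h0, add_zero, one_pow]
      rw [e, map_mul, Module.End.mul_apply, levelAct_X, LinearMap.sub_apply, map_sub,
        Module.End.one_apply, B.spec_dia, hgen, hw gw hgw, add_smul, one_smul, add_sub_cancel_left,
        smul_smul]
      rfl
    · have e : levelAct h hp g = 1 := by
        rw [← map_one (levelAct h hp), ← sub_eq_zero, ← map_sub]
        refine levelIdeal_le_ker h hp ?_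
        rw [← Ideal.Quotient.eq, map_one]
        rw [Subsingleton.elim j 0, Pi.single_eq_same] at hg
        exact hg
      rw [e, Module.End.one_apply, Subsingleton.elim j 0, Pi.single_eq_same, one_smul]
  have key : ∀ g y, B.spec χ (levelAct h hp g y) = q g • B.spec χ y := fun g y =>
    (show (fun _ => q g) ∈ Wd from htop ▸ Submodule.mem_top) g rfl y
  -- Specialised, the relation reads in the standard basis.
  have h0 := congrArg (B.spec χ) hc
  rw [map_sum, map_zero] at h0
  have h1 := congrFun h0 i
  simp only [levelSmul_eq, key] at h1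
  rw [Finset.sum_apply, Finset.sum_eq_single i (fun j _ hj => ?_) (by simp)] at h1
  · rw [Pi.smul_apply, show B.spec χ ((heckeModule h).basis i) =
      Pi.single i 1 from B.spec_basis χ i, Pi.single_eq_same, smul_eq_mul, mul_one] at h1
    exact Ideal.Quotient.eq_zero_iff_mem.1 h1
  · rw [Pi.smul_apply, show B.spec χ ((heckeModule h).basis j) =
      Pi.single j 1 from B.spec_basis χ j, Pi.single_eq_of_ne hj.symm, smul_zero]

/-- The ranges of `dia δ - 1` lie in the variables times the module. -/
theorem mem_spanX_smul_top {x : (heckeModule h).M}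
    (hx : x ∈ ⨆ δ, LinearMap.range ((heckeModule h).dia δ - 1)) :
    letI := levelModule h hp
    x ∈ (Ideal.span (Set.range (X : Fin r → MvPowerSeries (Fin r) O)) •
      (⊤ : Submodule (MvPowerSeries (Fin r) O) (heckeModule h).M)) := by
  let := levelModule h hp
  induction hx using Submodule.iSup_induction' with
  | mem δ x hx =>
    obtain ⟨y, rfl⟩ := hx
    have e : ((heckeModule h).dia δ - 1) y = (levelMon δ - 1 : MvPowerSeries (Fin r) O) • y := by
      rw [levelSmul_eq, map_sub, map_one, levelAct_levelMon]
    rw [e]
    exact Submodule.smul_mem_smul (levelMon_sub_one_mem δ) Submodule.mem_top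
  | zero => exact zero_mem _
  | add x y _ _ hx hy => exact add_mem hx hy

/-- The maximal ideal of the power series times the module is `augSub`. -/
theorem mem_maximalIdeal_smul_top_iff (x : (heckeModule h).M) :
    letI := levelModule h hp
    x ∈ (maximalIdeal (MvPowerSeries (Fin r) O) •
      (⊤ : Submodule (MvPowerSeries (Fin r) O) (heckeModule h).M)) ↔
          x ∈ augSub (heckeModule h).dia := by
  let := levelModule h hp
  constructor
  · intro hx
    refine Submodule.smul_induction_on hx (fun f hf y _ => ?_) fun a b ha hb => add_mem ha hb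
    have hc : constantCoeff f ∈ maximalIdeal O :=
      (IsLocalRing.mem_maximalIdeal _).2 fun hu => (IsLocalRing.mem_maximalIdeal _).1 hf
        (MvPowerSeries.isUnit_iff_constantCoeff.2 hu)
    -- `f` minus its constant is in the ideal of the variables
    have hmem : f - C (constantCoeff f) ∈ Ideal.span (Set.range X) := by
      have h1 := Algebra.mem_pow_span_X (σ := Fin r) (K := 1) (f := f - C (constantCoeff f))
        (MvPolynomial.ext _ _ fun d => ?_)
      · rwa [pow_one] at h1
      · rw [MvPolynomial.coeff_zero]
        by_cases hd : d.degree < 1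
        · rw [coeff_truncTotal _ hd]
          rw [Nat.lt_one_iff, Finsupp.degree_eq_zero_iff] at hd
          subst hd
          simp
        · rw [coeff_truncTotal_eq_zero _ (not_lt.1 hd)]
    rw [← sub_add_cancel f (C (constantCoeff f)), add_smul, level_C_smul]
    refine add_mem (Submodule.mem_sup_right ?_)
      (Submodule.mem_sup_left (Submodule.smul_mem_smul hc Submodule.mem_top))
    revert y
    suffices ∀ g ∈ Ideal.span (Set.range (X : Fin r → MvPowerSeries (Fin r) O)), ∀ y,
        g • y ∈ ⨆ δ, LinearMap.range ((heckeModule h).dia δ - 1) from fun y _ => this _ hmem y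
    intro g hg
    induction hg using Submodule.span_induction with
    -- a variable acts as a diamond minus one
    | mem g hg =>
      obtain ⟨i, rfl⟩ := hg
      intro y
      exact Submodule.mem_iSup_of_mem (levelGen p n (Sum.inr i))
        ⟨y, by rw [levelSmul_eq, levelAct_X]⟩
    | zero => intro y; rw [zero_smul]; exact zero_mem _
    | add a b _ _ ha hb => intro y; rw [add_smul]; exact add_mem (ha y) (hb y)
    | smul a b _ hb => intro y; rw [smul_eq_mul, mul_comm, mul_smul]; exact hb _
  · intro hx
    -- conversely
    obtain ⟨a, ha, b, hb, rfl⟩ := Submodule.mem_sup.1 hx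
    refine add_mem ?_
      (Submodule.smul_mono Algebra.span_X_le_maximalIdeal le_rfl (mem_spanX_smul_top h hp hb))
    refine Submodule.smul_induction_on ha (fun c hc y _ => ?_) fun u v hu hv => add_mem hu hv
    rw [← level_C_smul h hp c y]
    refine Submodule.smul_mem_smul ?_ Submodule.mem_top
    exact (IsLocalRing.mem_maximalIdeal _).2 fun hu => (IsLocalRing.mem_maximalIdeal _).1 hc (by
      simpa using MvPowerSeries.isUnit_iff_constantCoeff.1 hu)

end Fermat.Agent.RT.Lifting
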