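import Fermat.Agent.RT.Lifting.Family
import Fermat.Agent.RT.Lifting.LevelMod
import Fermat.Agent.RT.Lifting.StageStep
import Fermat.Agent.RT.Algebra.LimitFlip
import Fermat.Agent.RT.Algebra.Dense

/-!
# The limit of a family of stages

The modules of a family are free of bounded rank over the diamond series modulo the ideals of the
`(1 + X i) ^ p ^ n - 1`, which lie in higher and higher powers of the maximal ideal, so they have a
limit; it is finite over the variables, has a prime of full dimension in its support and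
flips along the steps.
-/

set_option autoImplicit false

noncomputable section

namespace Fermat.Agent.RT.Lifting

open IsLocalRing MvPowerSeries Fermat.Agent.Deform Fermat.Agent.RT.Glue
open Fermat.Agent.RT.Modules Fermat.Agent.RT.Algebra
open Fermat.Agent.RT.Assembly (levelGen)

attribute [local instance] Fermat.Agent.RT.Algebra.isAdicComplete_mvPowerSeries
attribute [local instance] Fermat.Agent.RT.Algebra.finite_residueField_mvPowerSeries

theorem mem_of_forall_mem_sup_pow {R : Type*} [CommRing R] [IsLocalRing R] [IsNoetherianRing R]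
    {I : Ideal R} {x : R} (h : ∀ j, x ∈ I ⊔ maximalIdeal R ^ j) : x ∈ I := by
  rw [← Ideal.Quotient.eq_zero_iff_mem]
  refine (inferInstance : IsHausdorff (maximalIdeal R) (R ⧸ I)).haus _ fun j => ?_
  rw [SModEq.zero, Ideal.smul_top_eq_map, Submodule.restrictScalars_mem,
    Ideal.Quotient.algebraMap_eq]
  have h1 := Ideal.mem_map_of_mem (Ideal.Quotient.mk I) (h j)
  rwa [Ideal.map_sup, Ideal.map_quotient_self, bot_sup_eq] at h1

variable {O : Type} [CommRing O] [IsDomain O] [IsDiscreteValuationRing O]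
  [IsAdicComplete (maximalIdeal O) O] [Finite (ResidueField O)] [CharZero O]
  {p : ℕ} [Fact p.Prime] [CharP (ResidueField O) p] [Algebra (ZMod p) (ResidueField O)]
  {W : WeierstrassCurve ℤ} {St : Setup O p W} {ls : Finset ℕ} {r : ℕ}
  {Λ : Type} [CommRing Λ] [IsLocalRing Λ] [Algebra O Λ] {Y : Tower St ls r Λ}

namespace Family

variable {T T' : Finset ℕ} (F : Family Y T)

/-- The module of a family at a level. -/
def Mod (n : ℕ) : Type := (F.S n).M

instance (n : ℕ) : AddCommGroup (F.Mod n) := inferInstanceAs (AddCommGroup (F.S n).M)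

instance (n : ℕ) : Module (MvPowerSeries (Fin r) O) (F.Mod n) :=
  levelModule (F.S n).hyp St.p_small

instance (n : ℕ) : Module Λ (F.Mod n) :=
  Module.compHom (F.S n).M (F.hom n : Λ →+* (F.S n).alg)

/-- An element of the module of a stage as one of the family. -/
def ofM {n : ℕ} (x : (F.S n).M) : F.Mod n := x

/-- An element of the module of a family as one of the stage. -/
def toM {n : ℕ} (x : F.Mod n) : (F.S n).M := x

instance (n : ℕ) : SMulCommClass Λ (MvPowerSeries (Fin r) O) (F.Mod n) :=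
  ⟨fun a f x => level_smul_algebra (F.S n).hyp St.p_small (F.hom n a) f (F.toM x)⟩

variable [IsAdicComplete (maximalIdeal Λ) Λ] {U : Ultrafilter ℕ}

omit [IsAdicComplete (maximalIdeal Λ) Λ] in
/-- **The limit exists.** -/
theorem exists_pres (hU : ∀ j, ∀ᶠ n in (U : Filter ℕ), j ≤ n) (hT : T ⊆ St.top) :
    ∃ Pr : Presentation U (MvPowerSeries (Fin r) O) F.Mod, 0 < Pr.rank := by
  obtain ⟨B₀, hB⟩ := exists_levBound St.data St.top
  have hle : ∀ n, (heckeModule (F.S n).hyp).d ≤ 2 ^ r * B₀ := fun n =>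
    hB (Y.A n).isAux (F.S n).lev hT (F.S n).hyp
  obtain ⟨Pr, hPr⟩ := Algebra.exists_presentation (U := U) (S := MvPowerSeries (Fin r) O)
    (M := F.Mod) hU
    (fun n => (heckeModule (F.S n).hyp).d) hle
    (fun n i => F.ofM ((heckeModule (F.S n).hyp).basis i))
    (fun n x => level_exists_coeff (F.S n).hyp St.p_small (F.toM x))
    (fun n c hc i => Ideal.pow_le_pow_right (Nat.le_succ n) (Assembly.levelIdeal_le St.p_small n
      (level_mem_levelIdeal (F.S n).hyp St.p_small c hc i)))
  obtain ⟨n, hn⟩ := hPr.exists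
  exact ⟨Pr, hn ▸ (F.S n).d_pos⟩

variable {F} (Pr : Presentation U (MvPowerSeries (Fin r) O) F.Mod)

omit [IsAdicComplete (maximalIdeal Λ) Λ] in
/-- Scalars agreeing at the levels agree on the limit. -/
theorem smul_lim_eq {s : MvPowerSeries (Fin r) O} {a : Λ}
    (h : ∀ n (x : F.Mod n), s • x = a • x) (u : Pr.Lim) : s • u = a • u :=
  (((Pr.tends_π u).smul s).congr (Filter.Eventually.of_forall fun n => h n _)).unique
    (Presentation.tends_smul_π a u)

omit [IsAdicComplete (maximalIdeal Λ) Λ] in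
/-- The quadratic relations at a level. -/
theorem quad_mod (n : ℕ) (i : Fin r) (x : F.Mod n) :
    ((1 + X i) ^ 2 + 1 : MvPowerSeries (Fin r) O) • x =
      (1 + X i : MvPowerSeries (Fin r) O) • (Y.Z i + 2 : Λ) • x := by
  set S := F.S n
  set G := levelGen (V := Empty) (r := r) p n (Sum.inr i)
  have hc : F.hom n (Y.Z i + 2) = diaA (heckeModule S.hyp) G + diaA (heckeModule S.hyp) G⁻¹ := by
    show F.g n (Y.φ n (Y.Z i + 2)) = _
    rw [map_add (Y.φ n), map_ofNat, Y.φ_Z, sub_add_cancel]
    refine ((AddMonoidHom.map_trace (F.g n : (Y.P n).Ring →+* S.alg).toAddMonoidHom _).trans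
      (congrArg Matrix.trace (DFunLike.congr_fun (F.g_rho n) ((Y.A n).aX i)))).trans ?_
    rw [(S.spec _).1]
    exact S.lev.trace_aX St.data (Y.A n).isAux (Y.A n).gen S.G S.residual i
  let L := levelAct S.hyp St.p_small
  have hX : L (1 + X i) = (heckeModule S.hyp).dia G := by
    rw [map_add, map_one, levelAct_X, add_sub_cancel]
  show L ((1 + X i) ^ 2 + 1) (F.toM x) =
    L (1 + X i) ((F.hom n (Y.Z i + 2) : Module.End O S.M) (F.toM x))
  rw [hc, map_add, map_pow, map_one, hX]
  show ((heckeModule S.hyp).dia G ^ 2 + 1 : Module.End O S.M) (F.toM x) =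
    (heckeModule S.hyp).dia G (((heckeModule S.hyp).dia G + (heckeModule S.hyp).dia G⁻¹ :
      Module.End O S.M) (F.toM x))
  rw [← Module.End.mul_apply, mul_add, ← map_mul, ← map_mul, mul_inv_cancel,
    map_one, pow_two, map_mul]

omit [IsAdicComplete (maximalIdeal Λ) Λ] in
/-- The quadratic relations on the limit. -/
theorem quad_lim (i : Fin r) (u : Pr.Lim) :
    ((1 + X i) ^ 2 + 1 : MvPowerSeries (Fin r) O) • u =
      (1 + X i : MvPowerSeries (Fin r) O) • (Y.Z i + 2 : Λ) • u :=
  (((Pr.tends_π u).smul _).congr (Filter.Eventually.of_forall fun n => quad_mod n i _)).unique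
    ((Presentation.tends_smul_π (Y.Z i + 2) u).smul _)

/-- The limit is finite over `Λ`. -/
theorem finite_lim : Module.Finite Λ Pr.Lim := by
  refine finite_of_quad (fun j => Presentation.exists_pow_smul_lim_mem (P := Pr) j)
    (fun o ho => ?_) fun i => ⟨Y.Z i + 2, fun u => quad_lim Pr i u⟩
  refine ⟨algebraMap O Λ o, ?_, smul_lim_eq Pr fun n x => ?_⟩
  · refine (mem_maximalIdeal _).2 fun hu => ?_
    have h1 := hu.map (Y.φ 0)
    rw [AlgHom.commutes] at h1
    exact (mem_maximalIdeal _).1 ho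
      (((Y.P 0).resAlg_ring).isLocalHom.map_nonunit o h1)
  · show levelAct (F.S n).hyp St.p_small (C o) (F.toM x) = F.hom n (algebraMap O Λ o) • F.toM x
    rw [AlgHom.commutes, show (C o : MvPowerSeries (Fin r) O) = algebraMap O _ o from rfl,
      AlgHom.commutes, Module.algebraMap_end_apply]
    exact (algebraMap_smul _ o (F.toM x)).symm

/-- What kills the levels kills the limit. -/
theorem limitIdeal_ker_le [Finite (ResidueField Λ)] :
    limitIdeal U (fun n => RingHom.ker (F.hom n : Λ →+* (F.S n).alg)) ≤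
      Module.annihilator Λ Pr.Lim :=
  Presentation.limitIdeal_le_annihilator (Filter.Eventually.of_forall fun n a ha x => by
    show F.hom n a • F.toM x = 0
    rw [show F.hom n a = 0 from ha, zero_smul])

/-- **The first prime.** -/
theorem exists_start (hPr : 0 < Pr.rank) :
    ∃ q : Ideal Λ, q.IsPrime ∧ Module.annihilator Λ Pr.Lim ≤ q ∧
      ((r + 1 : ℕ) : WithBot ℕ∞) ≤ ringKrullDim (Λ ⧸ q) := by
  have := finite_lim Pr
  let Q := Pr.Lim ⧸ (⊥ : Submodule Λ Pr.Lim)
  have he : Module.annihilator Λ Q = Module.annihilator Λ Pr.Lim :=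
    (Submodule.quotEquivOfEqBot (⊥ : Submodule Λ Pr.Lim) rfl).annihilator_eq
  have hne : Module.annihilator Λ Pr.Lim ≠ ⊤ := fun h => by
    have h1 := Module.mem_annihilator.1 ((Ideal.eq_top_iff_one _).1 h)
      (fun _ => 1 : Fin Pr.rank → MvPowerSeries (Fin r) O)
    rw [one_smul] at h1
    exact one_ne_zero (congrFun h1 ⟨0, hPr⟩)
  obtain ⟨q, hq⟩ := Ideal.nonempty_minimalPrimes hne
  rw [← he] at hq
  obtain ⟨hdim, -⟩ := minimalPrime_quotient_spec (S := MvPowerSeries (Fin r) O)
    (W := (⊥ : Submodule Λ Pr.Lim)) (fun s m hm => by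
      rw [Submodule.mem_bot] at hm ⊢; rw [hm, smul_zero])
    (fun s m hm => by
      rw [Submodule.mem_bot] at hm ⊢
      exact smul_eq_zero.1 (show s • (m : Fin Pr.rank → MvPowerSeries (Fin r) O) = 0 from hm)) hq
  refine ⟨q, hq.1.1, he ▸ hq.1.2, ?_⟩
  rw [hdim, Algebra.ringKrullDim_mvPowerSeries, Nat.card_fin]

/-- **The end**: what maps the levels into the augmentation lies in every prime containing the
annihilator and the variables of the auxiliary primes. -/
theorem mem_of_augmentation {Q : Ideal Λ} [Q.IsPrime] (hQ : Module.annihilator Λ Pr.Lim ≤ Q)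
    (hZ : ∀ i, Y.Z i ∈ Q) {f : Λ}
    (hf : ∀ n (x : (F.S n).M),
      F.hom n f • x ∈ ⨆ δ, LinearMap.range ((heckeModule (F.S n).hyp).dia δ - 1)) : f ∈ Q := by
  have := finite_lim Pr
  refine mem_of_forall_smul_mem_span_quad (M := Pr.Lim) hQ
    (fun i => (X i : MvPowerSeries (Fin r) O))
    (fun i => ⟨Y.Z i + 2, by rw [add_sub_cancel_right]; exact hZ i, fun u => quad_lim Pr i u⟩)
    fun u => ?_
  set J : Ideal (MvPowerSeries (Fin r) O) := Ideal.span (Set.range X)
  have hj : ∀ j, (f • u) ∈ (J ⊔ maximalIdeal (MvPowerSeries (Fin r) O) ^ j) •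
      (⊤ : Submodule (MvPowerSeries (Fin r) O) Pr.Lim) := fun j => by
    obtain ⟨n, ⟨ht, hs⟩, hm⟩ := (((Presentation.tends_smul_π f u) j).and
      (Pr.surj)).and (Pr.eventually_mem j) |>.exists
    have h1 : Pr.π n (f • u) ∈ (J ⊔ maximalIdeal _ ^ j) •
        (⊤ : Submodule (MvPowerSeries (Fin r) O) (F.Mod n)) := by
      have h2 : f • Pr.π n u ∈ J • (⊤ : Submodule (MvPowerSeries (Fin r) O) (F.Mod n)) :=
        mem_spanX_smul_top (F.S n).hyp St.p_small (hf n (F.toM (Pr.π n u)))
      rw [← sub_sub_cancel (f • Pr.π n u) (Pr.π n (f • u))]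
      exact sub_mem (Submodule.smul_mono le_sup_left le_rfl h2)
        (Submodule.smul_mono le_sup_right le_rfl ht)
    have hmap : ((J ⊔ maximalIdeal _ ^ j) •
        (⊤ : Submodule (MvPowerSeries (Fin r) O) Pr.Lim)).map (Pr.π n) =
          (J ⊔ maximalIdeal _ ^ j) • ⊤ := by
      rw [Submodule.map_smul'', Submodule.map_top]
      exact congrArg _ (LinearMap.range_eq_top.2 hs)
    rw [← hmap] at h1
    obtain ⟨w, hw, he⟩ := h1
    have h3 := hm (f • u - w) (by rw [map_sub, he, sub_self]; exact zero_mem _)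
    rw [← sub_add_cancel (f • u) w]
    exact add_mem (Submodule.smul_mono le_sup_right le_rfl h3) hw
  refine mem_smul_top_pi_iff.2 fun k => mem_of_forall_mem_sup_pow fun j => ?_
  exact mem_smul_top_pi_iff.1 (hj j) k

/-- A map commuting with the diamonds, linear over the diamond series. -/
def liftMap {F' : Family Y T'} (n : ℕ) (m : (F.S n).M →ₗ[O] (F'.S n).M)
    (hm : ∀ δ x, m ((heckeModule (F.S n).hyp).dia δ x) = (heckeModule (F'.S n).hyp).dia δ (m x)) :
    F.Mod n →ₗ[MvPowerSeries (Fin r) O] F'.Mod n where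
  toFun x := F'.ofM (m (F.toM x))
  map_add' x y := map_add m (F.toM x) (F.toM y)
  map_smul' f x := comm_levelAct (F.S n).hyp St.p_small (F'.S n).hyp m hm f (F.toM x)

/-- **The flip.** -/
theorem exists_prime_flip {F' : Family Y T'}
    (Pr' : Presentation U (MvPowerSeries (Fin r) O) F'.Mod) {t : ∀ n, (F.S n).alg} {c : ℕ}
    (D : ∀ n, Step (Y.P n) (F.S n) (F.g n) (F'.S n) (F'.g n) (t n) c) {TΛ : Λ}
    (ht : ∀ n, F.hom n TΛ = t n)
    (hker : ∀ n (z : (F'.S n).M), (D n).g₁ z = 0 → (D n).g₂ z = 0 →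
      F'.hom n (TΛ ^ 2 - (c : Λ) ^ 2) • z = 0)
    {P : Ideal Λ} [P.IsPrime] (hP : Module.annihilator Λ Pr.Lim ≤ P) {μ : Λ} (hμ : μ * μ = 1)
    (hy : TΛ + μ * (c : Λ) ∈ P) (hy' : TΛ - μ * (c : Λ) ∉ P) :
    ∃ q : Ideal Λ, q.IsPrime ∧ q ≤ P ∧ TΛ + μ * (c : Λ) ∈ q ∧
      Module.annihilator Λ Pr'.Lim ≤ q ∧ ((r + 1 : ℕ) : WithBot ℕ∞) ≤ ringKrullDim (Λ ⧸ q) := by
  have := finite_lim Pr
  have := finite_lim Pr'
  -- the augmentation is the multiples by the maximal ideal
  have haug : ∀ {T₀ : Finset ℕ} (G : Family Y T₀) n (x : G.Mod n),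
      x ∈ maximalIdeal (MvPowerSeries (Fin r) O) • (⊤ : Submodule _ (G.Mod n)) ↔
        G.toM x ∈ augSub (heckeModule (G.S n).hyp).dia := fun G n x =>
    mem_maximalIdeal_smul_top_iff (G.S n).hyp St.p_small (G.toM x)
  have hnat : ∀ n (x : F.Mod n), (c : Λ) • x = (c • F.toM x : (F.S n).M) := fun n x =>
    Nat.cast_smul_eq_nsmul Λ c x
  -- the steps give flip data between the two presentations
  have hd : Presentation.IsFlipData Pr (fun n => F.liftMap (F' := F') n (D n).f₁ (D n).f₁_dia)
      (fun n => F.liftMap (F' := F') n (D n).f₂ (D n).f₂_dia)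
      (fun n => F'.liftMap (F' := F) n (D n).g₁ (D n).g₁_dia)
      (fun n => F'.liftMap (F' := F) n (D n).g₂ (D n).g₂_dia)
      (fun _ => (c : Λ)) (fun _ => TΛ) := by
    refine
      { f₁_smul := fun n a x => (D n).f₁_smul (Y.φ n a) (F.toM x)
        f₂_smul := fun n a x => (D n).f₂_smul (Y.φ n a) (F.toM x)
        g₁_smul := fun n a x => (D n).g₁_smul (Y.φ n a) (F'.toM x)
        g₂_smul := fun n a x => (D n).g₂_smul (Y.φ n a) (F'.toM x)
        g₁f₁ := Filter.Eventually.of_forall fun n x =>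
          ((D n).g₁f₁ (F.toM x)).trans (hnat n x).symm
        g₁f₂ := Filter.Eventually.of_forall fun n x =>
          ((D n).g₁f₂ (F.toM x)).trans (congrArg (· • F.toM x) (ht n).symm)
        g₂f₁ := Filter.Eventually.of_forall fun n x =>
          ((D n).g₂f₁ (F.toM x)).trans (congrArg (· • F.toM x) (ht n).symm)
        g₂f₂ := Filter.Eventually.of_forall fun n x =>
          ((D n).g₂f₂ (F.toM x)).trans (hnat n x).symm
        inj := Filter.Eventually.of_forall fun n x y h => ?_
        surj := Filter.Eventually.of_forall fun n x y => ?_ }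
    · obtain ⟨h1, h2⟩ := (D n).inj (F.toM x) (F.toM y) ((haug F' n _).1 h)
      exact ⟨(haug F n x).2 h1, (haug F n y).2 h2⟩
    · obtain ⟨z, h1, h2⟩ := (D n).surj (F.toM x) (F.toM y)
      exact ⟨F'.ofM z, (haug F n _).2 h1, (haug F n _).2 h2⟩
  have : IsDomain (MvPowerSeries (Fin r) O) := NoZeroDivisors.to_isDomain _
  -- flip in the limit
  obtain ⟨q, h1, h2, h3, h4, h5, -⟩ := Presentation.exists_prime_flip_lim (k := 1) (B := Pr') hd
    (conv_const _) (conv_const _) (Filter.Eventually.of_forall fun n z hz1 hz2 => by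
      rw [pow_one]
      exact hker n (F'.toM z) hz1 hz2) hP hμ hy hy'
  exact ⟨q, h1, h2, h3, h4, by rw [h5, Algebra.ringKrullDim_mvPowerSeries, Nat.card_fin]⟩

end Family

end Fermat.Agent.RT.Lifting
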