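import Fermat.Agent.RT.Glue.FlatDescent

/-!
# Flatness along local maps of coefficient rings

A level of a base change is a quotient of finitely many copies of a level, one for each element
of the finite quotient ring; Galois orders multiply and pass to quotients.
-/

set_option autoImplicit false

noncomputable section

namespace Fermat.Agent.RT.Lifting

open IsLocalRing Module
open FiniteFlat (GalOrder)
open Arith (GQ)
open scoped TensorProduct

variable {l : ℕ} {M : Type} [AddCommGroup M] [DistribMulAction GQ M]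

/-- A power of a Galois order. -/
theorem nonempty_galOrder_pi (h : Nonempty (GalOrder l M)) (m : ℕ) :
    Nonempty (GalOrder l (Fin m → M)) := by
  obtain ⟨O⟩ := h
  induction m with
  | zero =>
    exact ⟨O.restrict (0 : (Fin 0 → M) →+ M) (fun x y _ => Subsingleton.elim x y)
      fun σ x => (smul_zero σ).symm⟩
  | succ m ih =>
    obtain ⟨O'⟩ := ih
    exact ⟨(O.prod O').restrict
      (AddMonoidHom.mk' (fun x : Fin (m + 1) → M => (x 0, fun i => x i.succ)) fun x y => rfl)
      (fun x y hxy => funext fun i => Fin.cases (congrArg Prod.fst hxy)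
        (fun j => congrFun (congrArg Prod.snd hxy) j) i)
      fun σ x => rfl⟩

variable {A B : Type} [CommRing A] [IsLocalRing A] [CommRing B] [IsLocalRing B]

omit [IsLocalRing A] in
/-- The level of a finitely generated free module at an ideal of finite index is finite. -/
private theorem finite_quotient_smul_top {V : Type} [AddCommGroup V] [Module A V] {ι : Type}
    [Fintype ι] (b : Module.Basis ι A V) (I : Ideal A) [Finite (A ⧸ I)] :
    Finite (V ⧸ I • (⊤ : Submodule A V)) := by
  choose rep hrep using fun x : A ⧸ I => Ideal.Quotient.mk_surjective x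
  refine Finite.of_surjective (fun x : ι → A ⧸ I =>
    Submodule.Quotient.mk (p := I • (⊤ : Submodule A V)) (∑ i, rep (x i) • b i)) fun q => ?_
  obtain ⟨v, rfl⟩ := Submodule.Quotient.mk_surjective _ q
  refine ⟨fun i => Ideal.Quotient.mk _ (b.repr v i), ?_⟩
  rw [Submodule.Quotient.eq]
  nth_rw 2 [← b.sum_repr v]
  rw [← Finset.sum_sub_distrib]
  refine sum_mem fun i _ => ?_
  rw [← sub_smul]
  exact Submodule.smul_mem_smul (Ideal.Quotient.eq.mp (hrep _)) Submodule.mem_top

/-- **Flatness goes up along a local map.** -/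
theorem isFlatAt_baseChange (φ : A →+* B) (hφ : IsLocalHom φ) [Finite (ResidueField B)]
    {ρ : GaloisRepAdic A} {p : ℕ} (h : ρ.IsFlatAt p) :
    (ρ.baseChangeAlong φ hφ).IsFlatAt p := by
  classical
  let := φ.toAlgebra
  refine EC.Rep.isFlatAt_of_galOrder _ p inferInstance fun I hI => ?_
  have hfin : Finite (A ⧸ I.comap φ) :=
    Finite.of_injective _ (Ideal.quotientMap_injective (I := I) (f := φ))
  obtain ⟨H, _, _, hH, -, -, e, he, heσ⟩ := h.2 (I.comap φ) hfin
  have := hH
  let J := I.comap φ • (⊤ : Submodule A ρ.V)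
  let := EC.Rep.levelDistribMulAction ρ (I.comap φ)
  obtain ⟨O₁⟩ := Glue.nonempty_galOrder_of_hopf e he fun σ f g hfg => heσ σ f g hfg
  have : Fintype (B ⧸ I) := Fintype.ofFinite _
  -- `c` represents `B / I`; the map `π` sums the translates by the `c i` of the map `g` of levels
  let m := Fintype.card (B ⧸ I)
  let c : Fin m → B := fun i => ((Fintype.equivFin (B ⧸ I)).symm i).out
  have hc : ∀ x : B, ∃ i, x - c i ∈ I := fun x => ⟨Fintype.equivFin _ (Ideal.Quotient.mk I x), by
    rw [← Ideal.Quotient.eq]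
    simp only [c, Equiv.symm_apply_apply]
    exact (Quotient.out_eq _).symm⟩
  let N : Submodule B (B ⊗[A] ρ.V) := I • ⊤
  let f : ρ.V →+ (B ⊗[A] ρ.V) ⧸ N :=
    N.mkQ.toAddMonoidHom.comp ((TensorProduct.mk A B ρ.V 1).toAddMonoidHom)
  have hf : ∀ v ∈ J, f v = 0 := fun v hv => by
    refine Submodule.smul_induction_on (p := fun v => f v = 0) hv (fun a ha w _ => ?_)
      fun x y hx hy => by rw [map_add, hx, hy, add_zero]
    show Submodule.Quotient.mk ((1 : B) ⊗ₜ[A] (a • w)) = (0 : (B ⊗[A] ρ.V) ⧸ N)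
    rw [Submodule.Quotient.mk_eq_zero, TensorProduct.tmul_smul,
      show a • ((1 : B) ⊗ₜ[A] w) = φ a • ((1 : B) ⊗ₜ[A] w) from
        (algebraMap_smul B a ((1 : B) ⊗ₜ[A] w)).symm]
    exact Submodule.smul_mem_smul ha Submodule.mem_top
  let g : (ρ.V ⧸ J) →+ (B ⊗[A] ρ.V) ⧸ N := QuotientAddGroup.lift J.toAddSubgroup f hf
  have hg : ∀ v, g (Submodule.Quotient.mk v) = Submodule.Quotient.mk ((1 : B) ⊗ₜ[A] v) :=
    fun v => rfl
  let π : (Fin m → ρ.V ⧸ J) →+ (B ⊗[A] ρ.V) ⧸ N :=
    AddMonoidHom.mk' (fun x => ∑ i, c i • g (x i)) fun x y => by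
      simp only [Pi.add_apply, map_add, smul_add, Finset.sum_add_distrib]
  have hfinV : Finite (ρ.V ⧸ J) :=
    finite_quotient_smul_top (Module.finBasisOfFinrankEq A ρ.V ρ.finrank_eq) (I.comap φ)
  refine ⟨Fin m → ρ.V ⧸ J, inferInstance, inferInstance, inferInstance,
    (nonempty_galOrder_pi ⟨O₁⟩ m).some, π, fun q => ?_, fun σ x => ?_⟩
  · -- `π` is surjective
    obtain ⟨w, rfl⟩ := Submodule.Quotient.mk_surjective N q
    induction w using TensorProduct.induction_on with
    | zero => exact ⟨0, map_zero π⟩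
    | tmul b v =>
      obtain ⟨i, hi⟩ := hc b
      refine ⟨Pi.single i (Submodule.Quotient.mk v), ?_⟩
      show ∑ j, c j • g ((Pi.single i (Submodule.Quotient.mk v) : Fin m → ρ.V ⧸ J) j) = _
      rw [Finset.sum_eq_single i (fun j _ hj => by rw [Pi.single_eq_of_ne hj, map_zero, smul_zero])
        (by simp), Pi.single_eq_same, hg, ← Submodule.Quotient.mk_smul, TensorProduct.smul_tmul',
        smul_eq_mul, mul_one, Submodule.Quotient.eq, ← TensorProduct.sub_tmul,
        show (c i - b) ⊗ₜ[A] v = (c i - b) • ((1 : B) ⊗ₜ[A] v) by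
          rw [TensorProduct.smul_tmul', smul_eq_mul, mul_one]]
      exact Submodule.smul_mem_smul (by simpa using neg_mem hi) Submodule.mem_top
    | add x y hx hy =>
      obtain ⟨u, hu⟩ := hx
      obtain ⟨u', hu'⟩ := hy
      exact ⟨u + u', by rw [map_add, hu, hu']; exact (Submodule.Quotient.mk_add N).symm⟩
  · -- and equivariant
    show ∑ i, c i • g (ρ.levelAction (I.comap φ) σ (x i)) =
      (ρ.baseChangeAlong φ hφ).levelAction I σ (∑ i, c i • g (x i))
    refine Eq.trans ?_ (map_sum ((ρ.baseChangeAlong φ hφ).levelAction I σ)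
      (fun i => c i • g (x i)) Finset.univ).symm
    refine Finset.sum_congr rfl fun i _ => ?_
    obtain ⟨v, hv⟩ := Submodule.Quotient.mk_surjective J (x i)
    rw [← hv]
    show c i • g (Submodule.Quotient.mk (ρ.ρ σ v)) =
      Submodule.Quotient.mk (p := N) ((ρ.ρ σ).baseChange B (c i • ((1 : B) ⊗ₜ[A] v)))
    rw [hg, map_smul, LinearMap.baseChange_tmul, Submodule.Quotient.mk_smul]

end Fermat.Agent.RT.Lifting
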