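import Fermat.Agent.RT.LowerB.Case
import Fermat.Agent.RT.LowerB.AuxLevel
import Fermat.Agent.RT.Assembly.Tame
import Fermat.Agent.LevelRaising.Residual

/-!
# The auxiliary levels of the assembly

At Taylor–Wiles primes `qv` a character `ψ₀` of `(ℤ/∏Q)ˣ` onto the group of the level gives, for
every set `T` of bad primes, the level `∏T · ∏Q` with the character through `ψ₀`.

See `exists_lev`, `exists_levBound` and, for the auxiliary prime of Ihara's lemma,
`exists_auxPrime`.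
-/

set_option autoImplicit false

noncomputable section

namespace Fermat.Agent.RT.Lifting

open IsLocalRing Fermat.Agent.Arith Fermat.Agent.RT.Modules
open Fermat.Agent.RT.LowerB (auxSet Data)
open Fermat.Agent.LevelRaising (RaiseData)
open Fermat.Agent.Deform (Gal)

variable (p : ℕ) (W : WeierstrassCurve ℤ) in
/-- The primes to be excluded for the curve. -/
def badSet : Finset ℕ := insert p W.Δ.natAbs.primeFactors

/-- The exceptional primes of all levels. -/
abbrev excAux (S₀ : Finset ℕ) {r : ℕ} (qv : Fin r → ℕ) : Finset ℕ := S₀ ∪ auxSet qv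

/-- The product of the auxiliary primes. -/
abbrev auxProd {r : ℕ} (qv : Fin r → ℕ) : ℕ := ∏ q ∈ auxSet qv, q

/-! ## The character of the auxiliary primes -/

section Group

variable {p : ℕ} [Fact p.Prime] {r : ℕ}

theorem exists_inv_halfInvExp (hp2 : p ≠ 2) (n : ℕ) (i : Fin r) :
    ∃ c : ZMod (p ^ n), (halfInvExp (Assembly.LevelGroup Empty p r n) : ZMod (p ^ n)) * c = 1 := by
  have hp : p.Prime := Fact.out
  rcases Nat.eq_zero_or_pos n with rfl | hn
  · have : Subsingleton (ZMod (p ^ 0)) := by rw [pow_zero]; infer_instance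
    exact ⟨0, Subsingleton.elim _ _⟩
  set G := Assembly.LevelGroup Empty p r n
  have hcard : Nat.card G = p ^ (n * r) := by
    rw [Assembly.card_levelGroup, Fintype.card_of_isEmpty, zero_add]
  have hr : 0 < r := lt_of_le_of_lt (Nat.zero_le _) i.2
  have hcp : (halfInvExp G).Coprime p := by
    rw [Nat.coprime_comm, hp.coprime_iff_not_dvd]
    intro h
    obtain ⟨t, ht⟩ : Odd (Nat.card G) := by rw [hcard]; exact (hp.odd_of_ne_two hp2).pow
    have hd : p ∣ Nat.card G := by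
      rw [hcard]; exact dvd_pow_self p (Nat.mul_pos hn hr).ne'
    rw [halfInvExp, ht, Nat.add_sub_cancel, Nat.mul_div_cancel_left _ two_pos] at h
    exact hp.one_lt.ne' (Nat.dvd_one.1
      ((Nat.dvd_add_right (dvd_mul_of_dvd_right h 2)).1 (ht ▸ hd)))
  refine ⟨((ZMod.unitOfCoprime _ (hcp.pow_right n))⁻¹ : (ZMod (p ^ n))ˣ), ?_⟩
  rw [← ZMod.coe_unitOfCoprime _ (hcp.pow_right n)]
  exact Units.mul_inv _

/-- An inertia element at every auxiliary prime over the generator of its factor. -/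
def AuxGen {n : ℕ} (qv : Fin r → ℕ) (ψ₀ : (ZMod (auxProd qv))ˣ →* Assembly.LevelGroup Empty p r n)
    (aX : Fin r → Gal) : Prop :=
  ∀ (i : Fin r) (hd : qv i ∣ auxProd qv) [Fact (qv i).Prime], ∃ a : (ZMod (qv i))ˣ,
    aX i ∈ (padicPlace (qv i)).inertiaSubgroupIn ℚ ∧
    (∀ μ : AlgebraicClosure ℚ, μ ^ qv i = 1 → aX i μ = μ ^ (a : ZMod (qv i)).val) ∧
    (∃ (π : QBar) (m : ℤ), π ≠ 0 ∧
      Mazur.Eisenstein.ordAt (padicPlace (qv i)) (qv i) π = m / p ∧
      EC.Reduction.res (padicPlace (qv i)) (aX i π / π) ≠ 1 ∧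
      EC.Reduction.res (padicPlace (qv i)) (aX i π / π) ^ p = 1) ∧
    ∀ u : (ZMod (auxProd qv))ˣ,
      ((u : ZMod (auxProd qv)).cast : ZMod (auxProd qv / qv i)) = 1 → ZMod.unitsMap hd u = a →
        ψ₀ u ^ halfInvExp (Assembly.LevelGroup Empty p r n) = Assembly.levelGen p n (Sum.inr i)

/-- **The character of the auxiliary primes.** -/
theorem exists_auxPsi (hp2 : p ≠ 2) (n : ℕ) {qv : Fin r → ℕ} (hprime : ∀ i, (qv i).Prime)
    (hinj : Function.Injective qv) (hQ : ∀ i, p ^ (n + 1) ∣ qv i - 1) :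
    ∃ (ψ₀ : (ZMod (auxProd qv))ˣ →* Assembly.LevelGroup Empty p r n) (aX : Fin r → Gal),
      Function.Surjective ψ₀ ∧ AuxGen qv ψ₀ aX := by
  have hdvd : ∀ i, qv i ∣ auxProd qv := fun i =>
    Finset.dvd_prod_of_mem (fun q => q) (Finset.mem_image_of_mem qv (Finset.mem_univ i))
  have hF : ∀ i, Fact (qv i).Prime := fun i => ⟨hprime i⟩
  choose aX aU pX mX h1 h2 h3 h4 h5 h6 h7 using fun i => Assembly.exists_inertia_uniformiser
    (p := p) Fact.out (CFT.Local.padicPlace_liesOverPrime (qv i)) (hprime i)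
    ((dvd_pow_self p n.succ_ne_zero).trans (hQ i))
  set h := halfInvExp (Assembly.LevelGroup Empty p r n)
  choose cQ hcQ using exists_inv_halfInvExp (r := r) hp2 n
  -- logarithms sending the chosen units to the inverse of `h`
  choose f hf using fun i => Assembly.exists_logHom (q := qv i)
    ((_root_.pow_dvd_pow p n.le_succ).trans (hQ i)) (h3 i) (cQ i)
  let ψ₀ : (ZMod (auxProd qv))ˣ →* Assembly.LevelGroup Empty p r n :=
    { toFun := fun u => Multiplicative.ofAdd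
        ((0 : Empty → ZMod p), fun i => (f i (ZMod.unitsMap (hdvd i) u)).toAdd)
      map_one' := (congrArg Multiplicative.ofAdd (Prod.ext (Subsingleton.elim _ _)
        (funext fun i => show (f i (ZMod.unitsMap (hdvd i) 1)).toAdd = 0 by
          rw [map_one, map_one, toAdd_one]))).trans ofAdd_zero
      map_mul' := fun u u' => by
        rw [← ofAdd_add]
        refine congrArg Multiplicative.ofAdd (Prod.ext (Subsingleton.elim _ _) (funext fun i => ?_))
        show (f i _).toAdd = (f i _).toAdd + (f i _).toAdd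
        rw [map_mul, map_mul, toAdd_mul] }
  -- a unit one away from `qv j` is one at the other primes, so `h` powers give the generators
  have hone : ∀ i j, i ≠ j → ∀ u : (ZMod (auxProd qv))ˣ,
      ((u : ZMod (auxProd qv)).cast : ZMod (auxProd qv / qv j)) = 1 →
        ZMod.unitsMap (hdvd i) u = 1 := by
    intro i j hij u hu
    have hd : qv i ∣ auxProd qv / qv j := Nat.dvd_div_of_mul_dvd
      (((Nat.coprime_primes (hprime j) (hprime i)).2
        fun e => hij (hinj e).symm).mul_dvd_of_dvd_of_dvd (hdvd j) (hdvd i))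
    have h1 : ZMod.unitsMap (Nat.div_dvd_of_dvd (hdvd j)) u = 1 := Units.ext (by
      rw [ZMod.unitsMap_val]; exact hu)
    rw [← ZMod.unitsMap_comp hd (Nat.div_dvd_of_dvd (hdvd j)), MonoidHom.comp_apply, h1, map_one]
  have hgen : ∀ i (u : (ZMod (auxProd qv))ˣ),
      ((u : ZMod (auxProd qv)).cast : ZMod (auxProd qv / qv i)) = 1 →
      ZMod.unitsMap (hdvd i) u = aU i → ψ₀ u ^ h = Assembly.levelGen p n (Sum.inr i) := by
    intro i u hu hua
    apply Multiplicative.toAdd.injective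
    rw [toAdd_pow]
    refine Prod.ext (Subsingleton.elim _ _) (funext fun j => ?_)
    show h • (f j (ZMod.unitsMap _ u)).toAdd = (Pi.single i 1 : Fin r → ZMod (p ^ n)) j
    rcases eq_or_ne j i with rfl | hji
    · rw [hua, hf, toAdd_ofAdd, Pi.single_eq_same, nsmul_eq_mul, hcQ]
    · rw [hone j i hji u hu, map_one, toAdd_one, smul_zero, Pi.single_eq_of_ne hji]
  refine ⟨ψ₀, aX, ?_, fun i hd _ => ⟨aU i, h1 i, h2 i, ⟨pX i, mX i, h4 i, h5 i, h6 i, h7 i⟩,
    hgen i⟩⟩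
  -- surjectivity: the generators are in the image
  have hsq : Squarefree (auxProd qv) :=
    Finset.squarefree_prod_of_pairwise_isCoprime (fun a ha b hb hab => by
      obtain ⟨i, -, rfl⟩ := Finset.mem_image.1 ha
      obtain ⟨j, -, rfl⟩ := Finset.mem_image.1 hb
      exact Nat.coprime_iff_isRelPrime.1 ((Nat.coprime_primes (hprime i) (hprime j)).2 hab))
          fun a ha => by
      obtain ⟨i, -, rfl⟩ := Finset.mem_image.1 ha
      exact (hprime i).squarefree
  have : NeZero (auxProd qv) := ⟨hsq.ne_zero⟩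
  have hmem : ∀ i, Assembly.levelGen p n (Sum.inr i) ∈ MonoidHom.range ψ₀ := fun i => by
    obtain ⟨u, hu, hua⟩ := Assembly.exists_unit_crt (hdvd i)
      ((hprime i).coprime_iff_not_dvd.2 (GammaH.coprime_div_of_squarefree hsq (hprime i) (hdvd i)))
      (aU i)
    exact ⟨u ^ h, by rw [map_pow, hgen i u hu hua]⟩
  intro δ
  have hδ : δ = ∏ i, Assembly.levelGen p n (Sum.inr i) ^ (δ.toAdd.2 i).val := by
    apply Multiplicative.toAdd.injective
    rw [toAdd_prod]
    simp only [toAdd_pow, Assembly.levelGen, toAdd_ofAdd]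
    refine Prod.ext (Subsingleton.elim _ _) (funext fun i => ?_)
    simp only [Prod.snd_sum, Prod.smul_snd, Finset.sum_apply, Pi.smul_apply, Pi.single_apply,
      smul_ite, smul_zero, nsmul_one, Finset.sum_ite_eq, Finset.mem_univ, if_true,
      ZMod.natCast_zmod_val]
  rw [hδ]
  exact Subgroup.prod_mem _ fun i _ => Subgroup.pow_mem _ (hmem _) _

end Group

variable {O : Type} [CommRing O] [IsDomain O] [IsDiscreteValuationRing O]
  [IsAdicComplete (maximalIdeal O) O] [Finite (ResidueField O)] [CharZero O]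
  {p : ℕ} [Fact p.Prime] [CharP (ResidueField O) p] [Algebra (ZMod p) (ResidueField O)]
  {W : WeierstrassCurve ℤ} {hΔ : W.Δ ≠ 0} {S₀ : Finset ℕ}
  {b : Module.Basis (Fin 2) (ResidueField O) (Core.rhoBar W p hΔ (ResidueField O)).V}

/-! ## The levels of the sets of bad primes -/

variable (O p W hΔ S₀) in
/-- Taylor–Wiles primes of depth `n` outside `S₀`. -/
structure IsAux (b : Module.Basis (Fin 2) (ResidueField O) (Core.rhoBar W p hΔ (ResidueField O)).V)
    {r : ℕ} (n : ℕ) (qv : Fin r → ℕ) : Prop where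
  inj : Function.Injective qv
  prime : ∀ i, (qv i).Prime
  notMem : ∀ i, qv i ∉ S₀
  dvd : ∀ i, p ^ (n + 1) ∣ qv i - 1
  trace : ∀ i, ∀ A : ValuationSubring (AlgebraicClosure ℚ), A.LiesOverPrime (qv i) → ∀ φ : Gal,
    A.IsFrobeniusAt φ (qv i) →
      (Deform.matRes (Core.rhoBar W p hΔ (ResidueField O)) b φ).trace ^ 2 ≠ 4

omit [Fact p.Prime] in
theorem mem_badSet {x : ℕ} (hΔ : W.Δ ≠ 0) (hx : x.Prime) (hd : (x : ℤ) ∣ W.Δ) :
    x ∈ badSet p W :=
  Finset.mem_insert_of_mem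
    (Nat.mem_primeFactors.2 ⟨hx, Int.natCast_dvd.1 hd, Int.natAbs_ne_zero.2 hΔ⟩)

omit [IsAdicComplete (maximalIdeal O) O] [Finite (ResidueField O)] [CharZero O]
  [CharP (ResidueField O) p] in
/-- The standing hypotheses at the bad set. -/
theorem data_badSet (hW : W.IsSemistableModel) (hp2 : p ≠ 2) (hirr : W.ModRepIsIrreducible p)
    (hp : (p : O) ∈ maximalIdeal O)
    (hk : ∀ f : Polynomial (ZMod p), f.natDegree = 2 →
      ∃ x : ResidueField O, (f.map (algebraMap (ZMod p) (ResidueField O))).IsRoot x) :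
    Data O p W hΔ (badSet p W) b where
  semistable := hW
  ne_two := hp2
  irr := hirr
  twHyp := Core.twHyp_rhoBar hW hp2 hirr hk b
  p_mem := Finset.mem_insert_self _ _
  bad_mem _ hℓ hd := mem_badSet hΔ hℓ hd
  p_small := hp

omit [IsAdicComplete (maximalIdeal O) O] [Finite (ResidueField O)] [CharZero O]
  [CharP (ResidueField O) p] in
/-- A member of a set of Taylor–Wiles primes is a prime outside `S₀`. -/
theorem IsAux.prime_of_mem {r n : ℕ} {qv : Fin r → ℕ} (ha : IsAux O p W hΔ S₀ b n qv) {q : ℕ}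
    (hq : q ∈ auxSet qv) : q.Prime ∧ q ∉ S₀ := by
  obtain ⟨i, -, rfl⟩ := Finset.mem_image.1 hq
  exact ⟨ha.prime i, ha.notMem i⟩

variable {r : ℕ} {qv : Fin r → ℕ} {Δ : Type} [CommGroup Δ]

/-- The level of a set `T` with the auxiliary primes, and its character. -/
structure Lev (S₀ : Finset ℕ) (ψ₀ : (ZMod (auxProd qv))ˣ →* Δ) (T : Finset ℕ) (L : ℕ)
    (ψ : (ZMod L)ˣ →* Δ) : Prop where
  mem : ∀ x ∈ T, x.Prime ∧ x ∈ S₀ ∧ x ∉ auxSet qv
  aux : ∀ q ∈ auxSet qv, q.Prime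
  squarefree : Squarefree L
  dvd_iff : ∀ x : ℕ, x.Prime → (x ∣ L ↔ x ∈ T ∨ x ∈ auxSet qv)
  dvd : auxProd qv ∣ L
  psi : ∀ h : auxProd qv ∣ L, ψ = ψ₀.comp (ZMod.unitsMap h)

namespace Lev

variable {ψ₀ : (ZMod (auxProd qv))ˣ →* Δ} {T : Finset ℕ} {L : ℕ} {ψ : (ZMod L)ˣ →* Δ}

section

variable (hl : Lev S₀ ψ₀ T L ψ)

include hl

theorem mem_exc {x : ℕ} (hx : x.Prime) (h : x ∣ L) : x ∈ excAux S₀ qv :=
  ((hl.dvd_iff x hx).1 h).elim (fun h => Finset.mem_union_left _ (hl.mem x h).2.1)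
    fun h => Finset.mem_union_right _ h

theorem not_dvd {x : ℕ} (hx : x.Prime) (hT : x ∉ T) (hQ : x ∉ auxSet qv) : ¬ x ∣ L := fun h =>
  ((hl.dvd_iff x hx).1 h).elim hT hQ

theorem surjective (hψ₀ : Function.Surjective ψ₀) [NeZero L] : Function.Surjective ψ := by
  rw [hl.psi hl.dvd]
  exact hψ₀.comp (ZMod.unitsMap_surjective hl.dvd)

/-- The level is the product of the set and of the auxiliary primes. -/
theorem eq_mul : L = (∏ x ∈ T, x) * auxProd qv := by
  have h : L.primeFactors = T ∪ auxSet qv := Finset.ext fun x => by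
    rw [Nat.mem_primeFactors, Finset.mem_union]
    refine ⟨fun h => (hl.dvd_iff x h.1).1 h.2.1, fun h => ?_⟩
    have hx : x.Prime := h.elim (fun h => (hl.mem x h).1) (hl.aux x)
    exact ⟨hx, (hl.dvd_iff x hx).2 h, hl.squarefree.ne_zero⟩
  conv_lhs => rw [← Nat.prod_primeFactors_of_squarefree hl.squarefree, h,
    Finset.prod_union (Finset.disjoint_left.2 fun x hx => (hl.mem x hx).2.2)]

/-- A unit congruent to one away from a prime of `T` has trivial character. -/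
theorem psi_eq_one {v : ℕ} (hv : v ∈ T) {u : (ZMod L)ˣ}
    (hu : ((u : ZMod L).cast : ZMod (L / v)) = 1) : ψ u = 1 := by
  have hvL : v ∣ L := (hl.dvd_iff v (hl.mem v hv).1).2 (Or.inl hv)
  have hnv : ¬ v ∣ auxProd qv := fun h => by
    obtain ⟨q, hq, hvq⟩ := ((hl.mem v hv).1.prime.dvd_finsetProd_iff _).1 h
    exact (hl.mem v hv).2.2
      ((Nat.prime_dvd_prime_iff_eq (hl.mem v hv).1 (hl.aux q hq)).1 hvq ▸ hq)
  have hd : auxProd qv ∣ L / v := Nat.dvd_div_of_mul_dvd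
    ((((hl.mem v hv).1.coprime_iff_not_dvd).2 hnv).mul_dvd_of_dvd_of_dvd hvL hl.dvd)
  have h1 : ZMod.unitsMap (Nat.div_dvd_of_dvd hvL) u = 1 :=
    Units.ext (by rw [ZMod.unitsMap_val]; exact hu)
  rw [hl.psi hl.dvd, MonoidHom.comp_apply,
    ← ZMod.unitsMap_comp hd (Nat.div_dvd_of_dvd hvL), MonoidHom.comp_apply, h1, map_one, map_one]

/-- The level of a set is unique. -/
theorem level_unique {L' : ℕ} {ψ' : (ZMod L')ˣ →* Δ} (hl' : Lev S₀ ψ₀ T L' ψ') : L = L' :=
  hl.eq_mul.trans hl'.eq_mul.symm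

/-- The character of a level is unique. -/
theorem psi_unique {ψ' : (ZMod L)ˣ →* Δ} (hl' : Lev S₀ ψ₀ T L ψ') : ψ = ψ' :=
  (hl.psi hl.dvd).trans (hl'.psi hl.dvd).symm

/-- A new prime may be added to the level. -/
theorem raiseData {w : ℕ} (hw : w.Prime) (hwT : w ∉ T) (hwQ : w ∉ auxSet qv) : RaiseData w L :=
  ⟨hw, hl.not_dvd hw hwT hwQ⟩

/-- **One more prime.** -/
theorem step {w : ℕ} (hw : w.Prime) (hwS : w ∈ S₀) (hwT : w ∉ T) (hwQ : w ∉ auxSet qv) :
    Lev S₀ ψ₀ (insert w T) (L * w) (upPsi ψ w) where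
  mem x hx := (Finset.mem_insert.1 hx).elim (fun h => h ▸ ⟨hw, hwS, hwQ⟩) (hl.mem x)
  aux := hl.aux
  squarefree := (Nat.squarefree_mul
    ((hw.coprime_iff_not_dvd).2 (hl.not_dvd hw hwT hwQ)).symm).2 ⟨hl.squarefree, hw.squarefree⟩
  dvd_iff x hx := by
    rw [hx.dvd_mul, hl.dvd_iff x hx, Nat.prime_dvd_prime_iff_eq hx hw, Finset.mem_insert]
    tauto
  dvd := hl.dvd.mul_right w
  psi h := by
    show ψ.comp _ = _
    rw [hl.psi hl.dvd, MonoidHom.comp_assoc, ZMod.unitsMap_comp]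

end

/-- **The level of any set exists.** -/
theorem exists_lev (ψ₀ : (ZMod (auxProd qv))ˣ →* Δ) (hQ : ∀ q ∈ auxSet qv, q.Prime ∧ q ∉ S₀)
    {T : Finset ℕ} (hT : ∀ x ∈ T, x.Prime ∧ x ∈ S₀) :
    ∃ (L : ℕ) (_ : NeZero L) (ψ : (ZMod L)ˣ →* Δ), Lev S₀ ψ₀ T L ψ := by
  have hT' : ∀ x ∈ T, x ∉ auxSet qv := fun x hx h => (hQ x h).2 (hT x hx).2
  induction T using Finset.induction_on with
  | empty =>
    refine ⟨auxProd qv, ⟨Finset.prod_ne_zero_iff.2 fun q hq => (hQ q hq).1.ne_zero⟩, ψ₀, ?_⟩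
    exact
      { mem := fun x hx => absurd hx (Finset.notMem_empty x)
        aux := fun q hq => (hQ q hq).1
        squarefree := Finset.squarefree_prod_of_pairwise_isCoprime (fun a ha c hc hac =>
            Nat.coprime_iff_isRelPrime.1 ((Nat.coprime_primes (hQ a ha).1 (hQ c hc).1).2 hac))
          fun a ha => (hQ a ha).1.squarefree
        dvd_iff := fun x hx => by
          rw [hx.prime.dvd_finsetProd_iff]
          refine ⟨fun ⟨q, hq, hd⟩ => Or.inr ((Nat.prime_dvd_prime_iff_eq hx (hQ q hq).1).1 hd ▸ hq),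
            fun h => h.elim (fun h => absurd h (Finset.notMem_empty x)) fun h => ⟨x, h, dvd_rfl⟩⟩
        dvd := dvd_rfl
        psi := fun h => by rw [ZMod.unitsMap_self, MonoidHom.comp_id] }
  | @insert w T hwT ih =>
    obtain ⟨L, hL, ψ, hl⟩ := ih (fun x hx => hT x (Finset.mem_insert_of_mem hx))
      fun x hx => hT' x (Finset.mem_insert_of_mem hx)
    have hw := hT w (Finset.mem_insert_self w T)
    exact ⟨L * w, ⟨mul_ne_zero hL.out hw.1.ne_zero⟩, upPsi ψ w,
      hl.step hw.1 hw.2 hwT (hT' w (Finset.mem_insert_self w T))⟩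

variable [Finite Δ] [NeZero L] (hl : Lev S₀ ψ₀ T L ψ)

include hl

omit [IsAdicComplete (maximalIdeal O) O] [Finite (ResidueField O)] [CharZero O] in
omit [Finite Δ] in
/-- **The hypotheses of the Hecke module.** -/
theorem hyp (d : Data O p W hΔ S₀ b) (hΔp : IsPGroup p Δ) (hψ₀ : Function.Surjective ψ₀) :
    Hyp p ψ (excAux S₀ qv) (Core.abar W (ResidueField O)) :=
  (d.mono Finset.subset_union_left).hyp hΔp (hl.surjective hψ₀) hl.squarefree
    fun _ hx h => hl.mem_exc hx h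

/-- **The localised module is nonzero.** -/
theorem pos (d : Data O p W hΔ S₀ b) (h : Hyp p ψ (excAux S₀ qv) (Core.abar W (ResidueField O)))
    (hmod : W.IsResiduallyModularOfLevel p (∏ x ∈ T, x)) : 0 < (heckeModule h).d := by
  refine heckeModule_d_pos h ((d.mono Finset.subset_union_left).congruentLevel
    (fun x hx hd => hl.mem_exc hx hd) ?_)
  suffices key : ∀ Q : Finset ℕ, (∀ q ∈ Q, q.Prime ∧ q ∉ T) →
      W.IsResiduallyModularOfLevel p ((∏ x ∈ T, x) * ∏ q ∈ Q, q) by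
    rw [hl.eq_mul]
    exact key _ fun q hq => ⟨hl.aux q hq, fun h => (hl.mem q h).2.2 hq⟩
  intro Q
  induction Q using Finset.induction_on with
  | empty => intro _; rwa [Finset.prod_empty, mul_one]
  | @insert q Q hqQ ih =>
    intro hQ
    obtain ⟨hq, hqT⟩ := hQ q (Finset.mem_insert_self q Q)
    have hQ' : ∀ x ∈ Q, x.Prime := fun x hx => (hQ x (Finset.mem_insert_of_mem hx)).1
    have hne : (∏ x ∈ T, x) * ∏ x ∈ Q, x ≠ 0 :=
      mul_ne_zero (Finset.prod_ne_zero_iff.2 fun x hx => (hl.mem x hx).1.ne_zero)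
        (Finset.prod_ne_zero_iff.2 fun x hx => (hQ' x hx).ne_zero)
    have hnd : ¬ q ∣ (∏ x ∈ T, x) * ∏ x ∈ Q, x := fun hd => by
      rcases hq.dvd_mul.1 hd with h | h <;> obtain ⟨x, hx, hqx⟩ :=
        (hq.prime.dvd_finsetProd_iff _).1 h
      · exact hqT ((Nat.prime_dvd_prime_iff_eq hq (hl.mem x hx).1).1 hqx ▸ hx)
      · exact hqQ ((Nat.prime_dvd_prime_iff_eq hq (hQ' x hx)).1 hqx ▸ hx)
    rw [Finset.prod_insert hqQ, mul_left_comm, mul_comm q]
    exact LowerB.residuallyModular_raise hΔ (ResidueField O) hne hq hnd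
      (ih fun x hx => hQ x (Finset.mem_insert_of_mem hx))

end Lev

/-! ## The rank bound and the auxiliary prime -/

section Rank

omit [IsAdicComplete (maximalIdeal O) O] [Finite (ResidueField O)] [CharZero O] in
/-- The conditions of the rank bound at the auxiliary primes. -/
theorem IsAux.rankCond {n : ℕ} (ha : IsAux O p W hΔ S₀ b n qv) (d : Data O p W hΔ S₀ b)
    {ψ₀ : (ZMod (auxProd qv))ˣ →* Δ} {T T₁ : Finset ℕ} {L : ℕ} {ψ : (ZMod L)ˣ →* Δ}
    (hl : Lev S₀ ψ₀ T L ψ) {q : ℕ} (hq : q ∈ auxSet qv) (hT : T₁ ⊆ T) :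
    q.Prime ∧ q ∈ excAux S₀ qv ∧ ¬ q ∣ (∏ x ∈ T₁, x) ∧ q ≠ p ∧ (q : ResidueField O) = 1 ∧
      ∃ (A : ValuationSubring (AlgebraicClosure ℚ)) (s : Gal),
        A.LiesOverPrime q ∧ A.IsFrobeniusAt s q ∧
          (Deform.matRes (Core.rhoBar W p hΔ (ResidueField O)) b s).trace ^ 2 ≠ 4 := by
  obtain ⟨i, -, rfl⟩ := Finset.mem_image.1 hq
  refine ⟨ha.prime i, Finset.mem_union_right _ hq, fun hd => ?_, fun he =>
    ha.notMem i (he ▸ d.p_mem), ?_, ?_⟩
  · obtain ⟨x, hx, hqx⟩ := ((ha.prime i).prime.dvd_finsetProd_iff _).1 hd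
    exact (hl.mem x (hT hx)).2.2
      ((Nat.prime_dvd_prime_iff_eq (ha.prime i) (hl.mem x (hT hx)).1).1 hqx ▸ hq)
  · rw [← sub_eq_zero, ← Nat.cast_one (R := ResidueField O), ← Nat.cast_sub (ha.prime i).one_le,
      CharP.cast_eq_zero_iff (ResidueField O) p]
    exact (dvd_pow_self p n.succ_ne_zero).trans (ha.dvd i)
  · obtain ⟨A, hA⟩ := exists_liesOverPrime (ha.prime i)
    obtain ⟨s, hs⟩ := exists_isFrobeniusAt hA (ha.prime i)
    exact ⟨A, s, hA, hs, ha.trace i A hA s hs⟩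

/-- **The uniform rank bound.** -/
theorem exists_levBound (d : Data O p W hΔ S₀ b) (Bd : Finset ℕ) :
    ∃ B₀ : ℕ, ∀ {r n : ℕ} {qv : Fin r → ℕ} {Δ : Type} [CommGroup Δ] [Finite Δ]
      {ψ₀ : (ZMod (auxProd qv))ˣ →* Δ} {T : Finset ℕ} {L : ℕ} [NeZero L] {ψ : (ZMod L)ˣ →* Δ},
      IsAux O p W hΔ S₀ b n qv → Lev S₀ ψ₀ T L ψ → T ⊆ Bd →
        ∀ h : Hyp p ψ (excAux S₀ qv) (Core.abar W (ResidueField O)),
          (heckeModule h).d ≤ 2 ^ r * B₀ := by
  have hB : ∀ T : Finset ℕ, ∃ B : ℕ, ∀ [NeZero (∏ x ∈ T, x)] (S : Finset ℕ)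
      (abar : ℕ → ResidueField O),
      Module.finrank O (locHom S abar (⊤ : Subgroup (ZMod (∏ x ∈ T, x))ˣ)) ≤ B := fun T => by
    by_cases h : NeZero (∏ x ∈ T, x)
    · obtain ⟨B, hB⟩ := LowerB.exists_rank_bound (O := O) (∏ x ∈ T, x)
      exact ⟨B, fun S abar => hB S abar⟩
    · exact ⟨0, fun {h'} => absurd h' h⟩
  choose B hB using hB
  refine ⟨∑ T ∈ Bd.powerset, B T, fun {r n qv Δ} _ _ {ψ₀ T L} _ {ψ} ha hl hT h => ?_⟩
  have hM : NeZero (∏ x ∈ T, x) :=
    ⟨Finset.prod_ne_zero_iff.2 fun x hx => (hl.mem x hx).1.ne_zero⟩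
  have hL := hl.eq_mul
  subst hL
  have := (d.mono (Finset.subset_union_left (s₂ := auxSet qv))).finrank_locHom_prod_le
    (M := ∏ x ∈ T, x) (hl.squarefree.squarefree_of_dvd (dvd_mul_right _ _))
    (fun x hx hd => hl.mem_exc hx (hd.mul_right _)) (auxSet qv) fun q hq =>
      ha.rankCond d hl hq subset_rfl
  refine this.trans (Nat.mul_le_mul ?_ ?_)
  · exact Nat.pow_le_pow_right two_pos (Finset.card_image_le.trans_eq (Finset.card_fin r))
  · exact (hB T _ _).trans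
      (Finset.single_le_sum (f := B) (fun _ _ => Nat.zero_le _) (Finset.mem_powerset.2 hT))

end Rank

omit [IsAdicComplete (maximalIdeal O) O] [Finite (ResidueField O)] [CharZero O]
  [CharP (ResidueField O) p] in
/-- **The auxiliary prime of Ihara's lemma.** -/
theorem exists_auxPrime (hp2 : p ≠ 2) (hirr : W.ModRepIsIrreducible p) (hΔ : W.Δ ≠ 0)
    (S : Finset ℕ) {q N : ℕ} (hq : q.Prime) (hN : N ≠ 0) :
    ∃ ℓ : ℕ, LevelRaising.AuxPrime q N ℓ ∧ ℓ ∉ S ∧
      Core.abar W (ResidueField O) ℓ ≠ 1 + (ℓ : ResidueField O) := by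
  set m := LevelRaising.levelM q N * (N * q)
  set M' := m * p
  have hm : m ≠ 0 :=
    mul_ne_zero (LevelRaising.levelM_ne_zero hN) (mul_ne_zero hN hq.ne_zero)
  have : NeZero M' := ⟨mul_ne_zero hm (Fact.out : p.Prime).ne_zero⟩
  have hpM' : p ∣ M' := dvd_mul_left p m
  set ρ := EC.Rep.residualRep W p hΔ
  -- `g` fixes the roots of unity and has residual trace different from `2`
  obtain ⟨g, hg1, hg⟩ := LevelRaising.exists_trace_ne_two (ρ := ρ) (EC.Rep.two_ne_zero_zmod hp2)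
    complexConjugation_mul_self
    (EC.Rep.det_residualRep_involution hΔ hp2 complexConjugation_mul_self
      EC.Rep.complexConjugation_ne_one)
    ((EC.Rep.isIrreducible_residualRep_iff hΔ).mpr hirr) (Arith.cyclotomicHom M') fun σ hσ => by
      rw [EC.Rep.det_residualRep hΔ (IsAlgClosed.card_rootsOfUnity_eq (AlgebraicClosure ℚ) p) σ]
      exact congrArg Units.val (Arith.cyclotomicHom_eq_one_of_dvd hpM' hσ)
  obtain ⟨F, hF, hF'⟩ := ρ.factorsThroughFiniteLevel
  obtain ⟨F₂, hF₂, hF₂'⟩ := Arith.cyclotomicHom_factors M'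
  have : FiniteDimensional ℚ (F ⊔ F₂ : IntermediateField ℚ (AlgebraicClosure ℚ)) :=
    IntermediateField.finiteDimensional_sup _ _
  -- a Frobenius acting like `g`
  obtain ⟨ℓ, hℓ, hℓS, A, hA, σ, hσ, heq⟩ := Arith.Chebotarev.exists_frobenius_eq
    (ρ.ρ.prod (Arith.cyclotomicHom M')) (F ⊔ F₂) (fun τ hτ => Prod.ext
      (hF' τ fun x hx => hτ x ((le_sup_left : F ≤ F ⊔ F₂) hx))
      (hF₂' τ fun x hx => hτ x ((le_sup_right : F₂ ≤ F ⊔ F₂) hx))) g
    (S ∪ (M'.primeFactors ∪ W.Δ.natAbs.primeFactors))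
  simp only [Finset.mem_union, not_or] at hℓS
  have hgood : W.IsGoodPrimeFor ℓ := fun hdvd => hℓS.2.2
    (Nat.mem_primeFactors.mpr ⟨hℓ, Int.natCast_dvd.mp hdvd, Int.natAbs_ne_zero.mpr hΔ⟩)
  have hℓM' : ¬ ℓ ∣ M' := fun h => hℓS.2.1 (Nat.mem_primeFactors.mpr ⟨hℓ, h, NeZero.ne M'⟩)
  have hℓp : ℓ ≠ p := fun h => hℓM' (h ▸ hpM')
  -- so `ℓ ≡ 1` modulo `M'`
  have hmod : (ℓ : ZMod M') = 1 := by
    rw [← Arith.cyclotomicHom_frobenius hA hℓ hσ hℓM']
    exact congrArg Units.val ((congrArg Prod.snd heq).trans hg1)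
  have hdiv : (M' : ℤ) ∣ (ℓ : ℤ) - 1 := by
    rw [← ZMod.intCast_zmod_eq_zero_iff_dvd]; push_cast; rw [hmod, sub_self]
  refine ⟨ℓ, ⟨hℓ, fun hd => hℓM' (Dvd.dvd.mul_right (hd.mul_left _) p),
    (Int.natCast_dvd_natCast.mpr (Dvd.dvd.mul_right (dvd_mul_right _ _) p)).trans hdiv,
    (Int.natCast_dvd_natCast.mpr (Dvd.dvd.mul_right (dvd_mul_left _ _) p)).trans hdiv⟩, hℓS.1,
    fun h => hg ?_⟩
  have hℓ1 : ((ℓ : ℕ) : ZMod p) = 1 := by
    have := (ZMod.intCast_zmod_eq_zero_iff_dvd _ p).mpr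
      ((Int.natCast_dvd_natCast.mpr hpM').trans hdiv)
    push_cast at this
    exact sub_eq_zero.1 this
  -- and `a_ℓ ≡ 1 + ℓ` would make the trace `2`
  have ha : (W.apOfModel ℓ : ZMod p) = 2 :=
    (algebraMap (ZMod p) (ResidueField O)).injective (by
      rw [map_intCast, map_ofNat, ← one_add_one_eq_two]
      refine Eq.trans (show (W.apOfModel ℓ : ResidueField O) = 1 + (ℓ : ResidueField O) from h) ?_
      rw [← map_natCast (algebraMap (ZMod p) (ResidueField O)), hℓ1, map_one])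
  rw [← show ρ.ρ σ = ρ.ρ g from congrArg Prod.fst heq, ← ha]
  exact EC.FrobTrace.galoisTrace_frobenius W hℓ hgood hℓp hA hσ

end Fermat.Agent.RT.Lifting
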