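import Fermat.Agent.RT.Lifting.Levels
import Fermat.Agent.RT.LowerB.Points
import Fermat.Agent.RT.Glue.Flat
import Fermat.Agent.RT.InertiaTW.Main

/-!
# The glued representation of a level
-/

set_option autoImplicit false

noncomputable section

namespace Fermat.Agent.RT.Lifting

open IsLocalRing Fermat.Agent.Deform Fermat.Agent.RT.Glue Fermat.Agent.RT.Modules
open Fermat.Agent.RT.LowerB (auxSet Data models)
open GaloisReps (HeckeGaloisModel)

variable {O : Type} [CommRing O] [IsDomain O] [IsDiscreteValuationRing O]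
  [IsAdicComplete (maximalIdeal O) O] [Finite (ResidueField O)] [CharZero O]
  {p : ℕ} [Fact p.Prime] [CharP (ResidueField O) p] [Algebra (ZMod p) (ResidueField O)]
  {W : WeierstrassCurve ℤ} {hΔ : W.Δ ≠ 0} {S₀ : Finset ℕ}
  {b : Module.Basis (Fin 2) (ResidueField O) (Core.rhoBar W p hΔ (ResidueField O)).V}
  {r : ℕ} {qv : Fin r → ℕ}

namespace Lev

variable {Δ : Type} [CommGroup Δ] [Finite Δ] {ψ₀ : (ZMod (auxProd qv))ˣ →* Δ} {T : Finset ℕ}
  {L : ℕ} [NeZero L] {ψ : (ZMod L)ˣ →* Δ} (hl : Lev S₀ ψ₀ T L ψ)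

/-- **The glued representation exists**, with the residual representation of the curve. -/
theorem exists_glued (d : Data O p W hΔ S₀ b) (hΔp : IsPGroup p Δ)
    (h : Hyp p ψ (excAux S₀ qv) (Core.abar W (ResidueField O)))
    [IsLocalRing (heckeModule h).algebra] [IsLocalHom (algebraMap O (heckeModule h).algebra)] :
    ∃ (pt : ∀ θ : (heckeModule h).algebra →ₐ[O] KBar O,
        Point (p := p) (heckeModule h) h.mem_of_dvd θ.toRingHom) (G : Glued (models p) pt),
      G.rep.residual.IsEquiv ((Core.rhoBar W p hΔ (ResidueField O)).baseChangeAlong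
        (ResidueField.map (algebraMap O (heckeModule h).algebra))) := by
  have dn := d.mono (Finset.subset_union_left (s₂ := auxSet qv))
  obtain ⟨pt, G, hG, -, -, -⟩ := exists_rep d.p_small (H := heckeModule h) hΔp d.ne_two dn.p_mem
    h.mem_of_dvd dn.absIrr dn.hasCharpolys (models p)
  exact ⟨pt, G, hG⟩

variable {S : Finset ℕ} {abar : ℕ → ResidueField O} {H : HeckeModule L ψ S abar}
  [IsLocalRing H.algebra] {hS : ∀ q : ℕ, q.Prime → q ∣ L → q ∈ S}
  {pt : ∀ θ : H.algebra →ₐ[O] KBar O, Point (p := p) H hS θ.toRingHom} (G : Glued (models p) pt)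

include hl

omit [CharP (ResidueField O) p] [Algebra (ZMod p) (ResidueField O)]
    [IsAdicComplete (maximalIdeal O) O] [Finite (ResidueField O)] [CharZero O] [NeZero L] in
/-- The glued representation is unramified outside the level and `p`. -/
theorem apply_eq_one {x : ℕ} (hx : x.Prime) (hxT : x ∉ T) (hxQ : x ∉ auxSet qv) (hxp : x ≠ p)
    {A : ValuationSubring (AlgebraicClosure ℚ)} (hA : A.LiesOverPrime x) {σ : Gal}
    (hσ : σ ∈ A.inertiaSubgroupIn ℚ) : G.R σ = 1 :=
  LowerB.apply_eq_one G hx (hl.not_dvd hx hxT hxQ) hxp hA hσ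

omit [CharP (ResidueField O) p] [Algebra (ZMod p) (ResidueField O)] in
/-- Flat at `p` when `p` is not in the set. -/
theorem isFlatAt [IsLocalHom (algebraMap O H.algebra)] (hp : (p : O) ∈ maximalIdeal O)
    (hΔp : IsPGroup p Δ) (hpT : p ∉ T) (hpQ : p ∉ auxSet qv) : G.rep.IsFlatAt p :=
  G.isFlatAt hp hΔp fun _ _ m hN => stdModel_galOrder p (fun h =>
    hl.not_dvd Fact.out hpT hpQ ((Fact.out : p.Prime).dvd_of_dvd_pow (h.trans hN))) m

omit [IsAdicComplete (maximalIdeal O) O] [Finite (ResidueField O)] [CharZero O] [NeZero L] in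
omit [CharP (ResidueField O) p] [Algebra (ZMod p) (ResidueField O)] in
/-- Unipotent inertia at the primes of the set. -/
theorem trace_inertia {v : ℕ} (hv : v ∈ T) (hvp : v ≠ p)
    {A : ValuationSubring (AlgebraicClosure ℚ)} (hA : A.LiesOverPrime v) {σ : Gal}
    (hσ : σ ∈ A.inertiaSubgroupIn ℚ) : (G.R σ).trace = 2 :=
  LowerB.trace_inertia_eq_two G (hl.mem v hv).1 ((hl.dvd_iff v (hl.mem v hv).1).2 (Or.inl hv)) hvp
    (fun _ hu => hl.psi_eq_one hv hu)
    (fun _ _ h1 h2 => (stdModel_local p (hl.mem v hv).1 hvp h1 h2).1) hA hσ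

end Lev

section Tame

variable {n : ℕ} {ψ₀ : (ZMod (auxProd qv))ˣ →* Assembly.LevelGroup Empty p r n} {T : Finset ℕ}
  {L : ℕ} [NeZero L] {ψ : (ZMod L)ˣ →* Assembly.LevelGroup Empty p r n}
  {abar : ℕ → ResidueField O} {H : HeckeModule L ψ (excAux S₀ qv) abar} [IsLocalRing H.algebra]
  {hS : ∀ q : ℕ, q.Prime → q ∣ L → q ∈ excAux S₀ qv}
  {pt : ∀ θ : H.algebra →ₐ[O] KBar O, Point (p := p) H hS θ.toRingHom}

omit [CharP (ResidueField O) p] in
/-- **The trace at the auxiliary inertia elements.** -/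
theorem Lev.trace_aX (hl : Lev S₀ ψ₀ T L ψ) (d : Data O p W hΔ S₀ b)
    (ha : IsAux O p W hΔ S₀ b n qv) {aX : Fin r → Gal} (hX : AuxGen qv ψ₀ aX)
    [IsLocalHom (algebraMap O H.algebra)] (G : Glued (models p) pt)
    (hG : G.rep.residual.IsEquiv ((Core.rhoBar W p hΔ (ResidueField O)).baseChangeAlong
      (ResidueField.map (algebraMap O H.algebra)))) (i : Fin r) :
    (G.R (aX i)).trace = diaA H (Assembly.levelGen p n (Sum.inr i)) +
      diaA H (Assembly.levelGen p n (Sum.inr i))⁻¹ := by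
  have : Fact (qv i).Prime := ⟨ha.prime i⟩
  have hqp : qv i ≠ p := fun h => ha.notMem i (h ▸ d.p_mem)
  have hdP : qv i ∣ auxProd qv :=
    Finset.dvd_prod_of_mem (fun q => q) (Finset.mem_image_of_mem qv (Finset.mem_univ i))
  have hdL : qv i ∣ L := hdP.trans hl.dvd
  obtain ⟨a, hmem, hμ, -, hgen⟩ := hX i hdP
  obtain ⟨u, hu, hua⟩ := Assembly.exists_unit_crt hdL ((ha.prime i).coprime_iff_not_dvd.2
    (GammaH.coprime_div_of_squarefree hl.squarefree (ha.prime i) hdL)) a
  have hPL : auxProd qv / qv i ∣ L / qv i := Nat.div_dvd_div hdP hl.dvd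
  have hu' : ((ZMod.unitsMap hl.dvd u : ZMod (auxProd qv)).cast :
      ZMod (auxProd qv / qv i)) = 1 := by
    have h1 : ZMod.unitsMap (Nat.div_dvd_of_dvd hdL) u = 1 :=
      Units.ext (by rw [ZMod.unitsMap_val]; exact hu)
    rw [← ZMod.unitsMap_val (Nat.div_dvd_of_dvd hdP), ← MonoidHom.comp_apply,
      ZMod.unitsMap_comp, ← ZMod.unitsMap_comp hPL (Nat.div_dvd_of_dvd hdL), MonoidHom.comp_apply,
      h1, map_one, Units.val_one]
  have hua' : ZMod.unitsMap hdP (ZMod.unitsMap hl.dvd u) = a := by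
    rw [← MonoidHom.comp_apply, ZMod.unitsMap_comp]; exact hua
  have hE : TwistedInertia (models p) pt (qv i) :=
    G.twistedInertia d.p_small (Assembly.isPGroup_levelGroup p n) d.ne_two
      (Finset.mem_union_left _ d.p_mem) hl.squarefree hdL hqp
      (fun R N _ _ gf => InertiaTW.traceInertia p _ R N gf)
      (fun N _ _ h1 h2 => (stdModel_local p (ha.prime i) hqp h1 h2).1) hG
      fun A hA σ hσ => Core.trace_rhoBar_inertia d.semistable (ha.prime i) hqp hA hσ
  rw [LowerB.trace_inertia_twisted G hE (CFT.Local.padicPlace_liesOverPrime _) hmem hμ u hu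
    (by rw [← ZMod.unitsMap_val hdL u, hua, ZMod.natCast_zmod_val]),
    show ψ u = ψ₀ (ZMod.unitsMap hl.dvd u) from DFunLike.congr_fun (hl.psi hl.dvd) u,
    hgen _ hu' hua']

end Tame

end Fermat.Agent.RT.Lifting
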