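import Fermat.Agent.RT.Lifting.LevelsGlue

/-!
# The maps of Hecke algebras down the levels

`degStar` is surjective, so the Hecke algebra of the upper level maps onto that of the lower one,
compatibly with the diamonds, the Hecke operators and the traces.
-/

set_option autoImplicit false

noncomputable section

namespace Fermat.Agent.RT.Lifting

open IsLocalRing Fermat.Agent.RT.Glue Fermat.Agent.RT.Modules
open Fermat.Agent.RT.GammaH Fermat.Agent.RT.Ihara
open Fermat.Agent.LevelRaising (RaiseData AuxPrime)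
open Fermat.Agent.Deform (Gal)
open GaloisReps (HeckeGaloisModel)

attribute [-instance] NormedAlgebra.toAlgebra LieRinehartAlgebra.toIsScalarTower

variable {O : Type} [CommRing O] [IsDomain O] [IsDiscreteValuationRing O]
  [IsAdicComplete (maximalIdeal O) O] [Finite (ResidueField O)] [CharZero O]
  {p : ℕ} [Fact p.Prime] [CharP (ResidueField O) p]
  {M q : ℕ} [NeZero M] {Δ : Type} [CommGroup Δ] [Finite Δ] {ψ : (ZMod M)ˣ →* Δ}
  {S : Finset ℕ} {abar : ℕ → ResidueField O}

/-- The Hecke algebra is the image of the operators. -/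
theorem exists_locAct_eq (h : Hyp p ψ S abar) (a : (heckeModule h).algebra) :
    ∃ c : OpRing O M S, locAct S abar ψ.ker c =
      (a : Module.End O (heckeModule h).M) :=
  (h.adjoin_eq_range ▸ a.2 : a.1 ∈ (locAct S abar ψ.ker).range)

section Nakayama

variable {L : ℕ} {ψ' : (ZMod L)ˣ →* Δ} (H : HeckeModule L ψ' S abar)

omit [IsAdicComplete (maximalIdeal O) O] [Finite (ResidueField O)] [CharZero O] [NeZero M]
  [CharP (ResidueField O) p] in
/-- The maximal ideal of `O[Δ]` lies in that of the Hecke algebra. -/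
theorem augSub_le [IsLocalRing H.algebra] (hp : (p : O) ∈ maximalIdeal O) (hΔp : IsPGroup p Δ) :
    augSub H.dia ≤ (maximalIdeal H.algebra • (⊤ : Submodule H.algebra H.M)).restrictScalars O := by
  have : IsLocalHom (algebraMap O H.algebra) := isLocalHom_algebraMap H
  refine sup_le (Submodule.smul_le.2 fun c hc z _ => ?_) (iSup_le fun δ => ?_)
  · rw [Submodule.restrictScalars_mem, ← algebraMap_smul H.algebra c z]
    exact Submodule.smul_mem_smul (map_nonunit (algebraMap O H.algebra) c hc) trivial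
  · rintro _ ⟨z, rfl⟩
    rw [Submodule.restrictScalars_mem, show (H.dia δ - 1) z = (diaA H δ - 1) • z by
      rw [sub_smul, one_smul, LinearMap.sub_apply, Module.End.one_apply]; rfl]
    have h1 : diaA H δ ∈ {x : H.algebra | residue H.algebra x = residue H.algebra 1} :=
      (residue_diaA H hp hΔp δ).trans (map_one (residue H.algebra)).symm
    exact Submodule.smul_mem_smul (Ideal.Quotient.eq.1 h1) trivial

omit [IsAdicComplete (maximalIdeal O) O] [Finite (ResidueField O)] [CharZero O] [NeZero M]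
  [CharP (ResidueField O) p] in
/-- A stable range which is everything modulo the maximal ideal of `O[Δ]` is everything. -/
theorem surjective_of_sub_mem [IsLocalRing H.algebra] (hp : (p : O) ∈ maximalIdeal O)
    (hΔp : IsPGroup p Δ) {U : Type} [AddCommGroup U] [Module O U] (ds : U →ₗ[O] H.M × H.M)
    (hst : ∀ (c : H.algebra) (u : U), c • ds u ∈ LinearMap.range ds)
    (hsur : ∀ w : H.M × H.M, ∃ u, (ds u).1 - w.1 ∈ augSub H.dia ∧ (ds u).2 - w.2 ∈ augSub H.dia) :
    Function.Surjective ds := by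
  let N : Submodule H.algebra (H.M × H.M) :=
    { carrier := LinearMap.range ds
      add_mem' := fun hy hz => add_mem hy hz
      zero_mem' := zero_mem _
      smul_mem' := fun c y hy => by
        obtain ⟨u, rfl⟩ := hy
        exact hst c u }
  have : Module.Finite H.algebra H.M := Module.Finite.of_restrictScalars_finite O H.algebra H.M
  set m := maximalIdeal H.algebra
  have hmap : ∀ (f : H.M →ₗ[H.algebra] H.M × H.M) (z : H.M), z ∈ augSub H.dia →
      f z ∈ m • (⊤ : Submodule H.algebra (H.M × H.M)) := fun f z hz => by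
    have h1 := Submodule.mem_map_of_mem (f := f) (augSub_le H hp hΔp hz)
    rw [Submodule.map_smul''] at h1
    exact Submodule.smul_mono le_rfl le_top h1
  have htop : (⊤ : Submodule H.algebra (H.M × H.M)) ≤ N := by
    refine Submodule.le_of_le_smul_of_le_jacobson_bot Module.Finite.fg_top
      (I := m) (IsLocalRing.maximalIdeal_le_jacobson ⊥) fun w _ => ?_
    obtain ⟨u, h1, h2⟩ := hsur w
    have hsub : ds u - w ∈ m • (⊤ : Submodule H.algebra (H.M × H.M)) := by
      have := add_mem (hmap (LinearMap.inl _ _ _) _ h1) (hmap (LinearMap.inr _ _ _) _ h2)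
      refine (congrArg (fun v => v ∈ m • (⊤ : Submodule H.algebra (H.M × H.M))) ?_).mp this
      exact Prod.ext (add_zero _) (zero_add _)
    exact Submodule.mem_sup.2 ⟨_, ⟨u, rfl⟩, _, neg_mem hsub,
      show ds u + -(ds u - w) = w by abel⟩
  exact fun w => htop (Submodule.mem_top (x := w))

end Nakayama

section Step

variable [NeZero (M * q)] {hq : RaiseData q M} {hqS : q ∈ S} (h : Hyp p ψ S abar)
  {ℓ : ℕ} (a : AuxPrime q M ℓ) (hℓS : ℓ ∉ S) (hℓ : abar ℓ ≠ 1 + (ℓ : ResidueField O))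

include h a hℓS hℓ

/-- **`degStar` is surjective.** -/
theorem degStar_surjective (hp : (p : O) ∈ maximalIdeal O) :
    Function.Surjective (degStar ψ S abar hq hqS) := by
  by_cases hd : 0 < (heckeModule h).d
  swap
  · have : IsEmpty (Fin (heckeModule h).d) := by
      rw [Nat.eq_zero_of_not_pos hd]; infer_instance
    have : Subsingleton (locHom S abar ψ.ker) :=
      (Equiv.ofBijective _ (heckeModule h).basis_bijective).symm.subsingleton
    exact fun w => ⟨0, Subsingleton.elim _ _⟩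
  have : IsLocalRing (heckeModule h).algebra :=
    isLocalRing_algebra (heckeModule h) hp h.isPGroup hd
  refine surjective_of_sub_mem (heckeModule h) hp h.isPGroup
    (degStar ψ S abar hq hqS) (fun c y => ?_)
    fun w => exists_degStar_sub_mem (hq := hq) (hqS := hqS) a hℓS hℓ h w
  obtain ⟨e, he⟩ := exists_locAct_eq h c
  obtain ⟨e', rfl⟩ := lowerOp_surjective (O := O) (S := S) (M := M) (q := q) e
  refine ⟨locAct S abar (upPsi ψ q).ker e' y,
    (degStar_locAct (hq := hq) (hqS := hqS) e' y).trans ?_⟩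
  exact Prod.ext (LinearMap.congr_fun he _) (LinearMap.congr_fun he _)

/-- **The map of Hecke algebras of one step.** -/
theorem exists_stepHom (hp : (p : O) ∈ maximalIdeal O) :
    ∃ f : (heckeModule (h.raise hq hqS)).algebra →ₐ[O] (heckeModule h).algebra,
      (∀ δ, f (diaA _ δ) = diaA _ δ) ∧
      (∀ (x : ℕ) (hx : x.Prime) (hxS : x ∉ S), f (TA _ hx hxS) = TA _ hx hxS) ∧
      Function.Surjective f ∧
      ∀ c : (heckeModule (h.raise hq hqS)).algebra,
        ∃ e : OpRing O (M * q) S,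
          locAct S abar (upPsi ψ q).ker e = c.1 ∧
          locAct S abar ψ.ker (lowerOp O M q S e) = (f c).1 := by
  have hsurj := degStar_surjective (hq := hq) (hqS := hqS) h a hℓS hℓ hp
  let F : OpRing O (M * q) S →ₐ[O] (heckeModule (h.raise hq hqS)).algebra :=
    (locAct S abar (upPsi ψ q).ker).codRestrict _ (h.raise hq hqS).locAct_mem
  let G : OpRing O (M * q) S →ₐ[O] (heckeModule h).algebra :=
    ((locAct S abar ψ.ker).codRestrict _ h.locAct_mem).comp (lowerOp O M q S)
  -- both algebras are images of abstract operators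
  have hF : Function.Surjective F := fun z => by
    obtain ⟨e, he⟩ := exists_locAct_eq (h.raise hq hqS) z
    exact ⟨e, Subtype.ext he⟩
  -- what vanishes upstairs vanishes below, the degeneracy map being onto
  have hker : RingHom.ker F.toRingHom ≤ RingHom.ker G.toRingHom := fun e he => by
    have he' : locAct S abar (upPsi ψ q).ker e = 0 := congrArg Subtype.val (RingHom.mem_ker.1 he)
    refine RingHom.mem_ker.2 (Subtype.ext (LinearMap.ext fun y => ?_))
    obtain ⟨x, hx⟩ := hsurj (y, 0)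
    have h1 := degStar_locAct (hq := hq) (hqS := hqS) e x
    rw [he', LinearMap.zero_apply, map_zero, hx] at h1
    exact (congrArg Prod.fst h1).symm
  let f₀ : (heckeModule (h.raise hq hqS)).algebra →+* (heckeModule h).algebra :=
    F.toRingHom.liftOfRightInverse _ (Function.rightInverse_surjInv hF) ⟨G.toRingHom, hker⟩
  have hf₀ : ∀ e, f₀ (F e) = G e := fun e => RingHom.liftOfRightInverse_comp_apply _ _ _ _ e
  let f : (heckeModule (h.raise hq hqS)).algebra →ₐ[O] (heckeModule h).algebra :=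
    { f₀ with
      commutes' := fun c => by
        show f₀ (algebraMap O _ c) = _
        rw [← F.commutes c, hf₀, G.commutes] }
  have hf : ∀ e, f (F e) = G e := hf₀
  refine ⟨f, fun δ => ?_, fun x hx hxS => ?_, fun z => ?_, fun c => ?_⟩
  · obtain ⟨e, he, he₀⟩ := dia_raise (hq := hq) (hqS := hqS) h δ
    rw [show diaA (heckeModule (h.raise hq hqS)) δ = F e from Subtype.ext he, hf]
    exact Subtype.ext he₀.symm
  · rw [show TA (heckeModule (h.raise hq hqS)) hx hxS = F (tOp O (M * q) S x) from Subtype.ext rfl,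
      hf]
    exact Subtype.ext (congrArg (locAct S abar ψ.ker) (lowerOp_tOp hx hxS))
  -- surjective, as lowering of operators is
  · obtain ⟨e, he⟩ := exists_locAct_eq h z
    obtain ⟨e', rfl⟩ := lowerOp_surjective (O := O) (S := S) (M := M) (q := q) e
    exact ⟨F e', (hf e').trans (Subtype.ext he)⟩
  · obtain ⟨e, rfl⟩ := hF c
    exact ⟨e, rfl, (congrArg Subtype.val (hf e)).symm⟩

end Step

section Trace

omit [CharP (ResidueField O) p]

variable {L : ℕ} [NeZero L] {ψ' : (ZMod L)ˣ →* Δ} {H : HeckeModule M ψ S abar}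
  {H' : HeckeModule L ψ' S abar} [IsLocalRing H.algebra] [IsLocalRing H'.algebra]
  {hS : ∀ v : ℕ, v.Prime → v ∣ M → v ∈ S} {hS' : ∀ v : ℕ, v.Prime → v ∣ L → v ∈ S}
  {D : ∀ (N : ℕ) [NeZero N], HeckeGaloisModel N p}
  {pt : ∀ θ : H.algebra →ₐ[O] KBar O, Point (p := p) H hS θ.toRingHom}
  {pt' : ∀ θ : H'.algebra →ₐ[O] KBar O, Point (p := p) H' hS' θ.toRingHom}

/-- **A map of Hecke algebras respects the traces.** -/
theorem map_trace (hp : (p : O) ∈ maximalIdeal O) (hpS : p ∈ S) (hML : M ∣ L)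
    (hψ : ψ' = ψ.comp (ZMod.unitsMap hML)) (f : H'.algebra →ₐ[O] H.algebra)
    (hd : ∀ δ, f (diaA H' δ) = diaA H δ)
    (hT : ∀ (x : ℕ) (hx : x.Prime) (hxS : x ∉ S), f (TA H' hx hxS) = TA H hx hxS)
    (G : Glued D pt) (G' : Glued D pt') (σ : Gal) : f (G'.R σ).trace = (G.R σ).trace := by
  refine sub_eq_zero.1 (eq_zero_of_forall_point fun θ => ?_)
  set P := pt θ
  let r : Realisation O p P.isNewform P.emb :=
    ⟨P.R, P.j, P.j_injective, P.j_algebraMap, P.p_mem, P.ι, P.θ', P.emb_θ'⟩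
  have hdvd : P.M ∣ L ^ 2 := P.dvd.trans (pow_dvd_pow_of_dvd hML 2)
  have hsA : ∀ (x : ℕ) (hx : x.Prime) (hxS : x ∉ S), f (sA H' hS' hx hxS) = sA H hS hx hxS := by
    intro x hx hxS
    rw [sA, map_mul, map_pow, hd, hT, sA, hψ, MonoidHom.comp_apply]
    congr 4
    exact Units.ext (by rw [ZMod.unitsMap_val, ZMod.coe_unitOfCoprime, ZMod.coe_unitOfCoprime,
      ZMod.cast_natCast hML])
  have hval : ∀ (x : ℕ) (hx : x.Prime) (hxS : x ∉ S),
      ModularFormClass.qCoeff P.g x = P.emb (θ (sA H hS hx hxS)) := fun x hx hxS => by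
    have hxM : ¬ x ∣ P.M := fun hd => hxS (hS x hx (hx.dvd_of_dvd_pow (hd.trans P.dvd)))
    have h1 := P.emb_θ' (HeckeDuality.heckeOp P.M 2 x hx)
    rw [P.value hx hxS] at h1
    refine Eq.trans ?_ h1.symm
    rw [HeckeDuality.heckeOp, dif_neg hxM, ConductorLevel.eigenChar_T P.isNewform.1 hx hxM]
  rw [map_sub, sub_eq_zero, G.trace_realisation hp hpS r P.dvd θ hval σ]
  exact G'.trace_realisation hp hpS r hdvd (θ.comp f) (fun x hx hxS => by
    rw [hval x hx hxS, AlgHom.comp_apply, hsA x hx hxS]) σ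

end Trace

section Tower

open Fermat.Agent.RT.LowerB (Data models)

variable [Algebra (ZMod p) (ResidueField O)]
  {W : WeierstrassCurve ℤ} {hΔ : W.Δ ≠ 0} {S₀ : Finset ℕ}
  {b : Module.Basis (Fin 2) (ResidueField O) (Core.rhoBar W p hΔ (ResidueField O)).V}
  {r : ℕ} {qv : Fin r → ℕ} {ψ₀ : (ZMod (auxProd qv))ˣ →* Δ}

omit [NeZero M] [IsAdicComplete (maximalIdeal O) O] [Finite (ResidueField O)] [CharZero O]
  [CharP (ResidueField O) p] [Algebra (ZMod p) (ResidueField O)] [Fact p.Prime] [Finite Δ] in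
/-- The levels increase with the set. -/
theorem Lev.dvd_of_subset {T T' : Finset ℕ} {L L' : ℕ} {ψ : (ZMod L)ˣ →* Δ}
    {ψ' : (ZMod L')ˣ →* Δ} (hl : Lev S₀ ψ₀ T L ψ) (hl' : Lev S₀ ψ₀ T' L' ψ') (hsub : T ⊆ T') :
    L ∣ L' := by
  rw [hl.eq_mul, hl'.eq_mul]
  exact Nat.mul_dvd_mul_right (Finset.prod_dvd_prod_of_subset _ _ _ hsub) _

/-- **The map down the levels.** -/
theorem Lev.exists_lowerHom (d : Data O p W hΔ S₀ b) {T T' : Finset ℕ} (hsub : T ⊆ T') {L : ℕ}
    [NeZero L]
    {ψ : (ZMod L)ˣ →* Δ} (hl : Lev S₀ ψ₀ T L ψ) {L' : ℕ} [NeZero L'] {ψ' : (ZMod L')ˣ →* Δ}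
    (hl' : Lev S₀ ψ₀ T' L' ψ')
    (h : Hyp p ψ (excAux S₀ qv) (Core.abar W (ResidueField O)))
    (h' : Hyp p ψ' (excAux S₀ qv) (Core.abar W (ResidueField O))) :
    ∃ f : (heckeModule h').algebra →ₐ[O] (heckeModule h).algebra,
      (∀ δ, f (diaA _ δ) = diaA _ δ) ∧
      (∀ (x : ℕ) (hx : x.Prime) (hxS : x ∉ excAux S₀ qv), f (TA _ hx hxS) = TA _ hx hxS) ∧
      Function.Surjective f := by
  classical
  suffices key : ∀ (m : ℕ) (T : Finset ℕ) (L : ℕ) [NeZero L] (ψ : (ZMod L)ˣ →* Δ),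
      (T' \ T).card = m → T ⊆ T' → Lev S₀ ψ₀ T L ψ →
      ∀ h : Hyp p ψ (excAux S₀ qv) (Core.abar W (ResidueField O)),
      ∃ f : (heckeModule h').algebra →ₐ[O] (heckeModule h).algebra,
        (∀ δ, f (diaA _ δ) = diaA _ δ) ∧
        (∀ (x : ℕ) (hx : x.Prime) (hxS : x ∉ excAux S₀ qv), f (TA _ hx hxS) = TA _ hx hxS) ∧
        Function.Surjective f from key _ T L ψ rfl hsub hl h
  intro m
  induction m with
  | zero =>
    intro T L _ ψ hm hsub hl h
    obtain rfl : T = T' := hsub.antisymm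
      (Finset.sdiff_eq_empty_iff_subset.1 (Finset.card_eq_zero.1 hm))
    obtain rfl := hl.level_unique hl'
    obtain rfl := hl.psi_unique hl'
    exact ⟨AlgHom.id O _, fun _ => rfl, fun _ _ _ => rfl, fun x => ⟨x, rfl⟩⟩
  | succ m ih =>
    intro T L _ ψ hm hsub hl h
    obtain ⟨w, hw⟩ := Finset.card_pos.1 (by omega : 0 < (T' \ T).card)
    obtain ⟨hwT', hwT⟩ := Finset.mem_sdiff.1 hw
    obtain ⟨hwp, hwS, hwQ⟩ := hl'.mem w hwT'
    have : NeZero (L * w) := ⟨mul_ne_zero (NeZero.ne L) hwp.ne_zero⟩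
    have hq := hl.raiseData hwp hwT hwQ
    have hwexc : w ∈ excAux S₀ qv := Finset.mem_union_left _ hwS
    obtain ⟨ℓ, hℓa, hℓS, hℓ⟩ := exists_auxPrime (O := O) d.ne_two d.irr hΔ (excAux S₀ qv)
      hwp (NeZero.ne L)
    obtain ⟨f₁, hd₁, hT₁, hs₁, -⟩ :=
      exists_stepHom (hq := hq) (hqS := hwexc) h hℓa hℓS hℓ d.p_small
    obtain ⟨f₂, hd₂, hT₂, hs₂⟩ := ih (insert w T) (L * w) (upPsi ψ w)
      (by rw [Finset.sdiff_insert, Finset.card_erase_of_mem hw, hm, Nat.add_sub_cancel])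
      (Finset.insert_subset hwT' hsub) (hl.step hwp hwS hwT hwQ) (h.raise hq hwexc)
    exact ⟨f₁.comp f₂, fun δ => by rw [AlgHom.comp_apply, hd₂, hd₁],
      fun x hx hxS => by rw [AlgHom.comp_apply, hT₂, hT₁], hs₁.comp hs₂⟩

omit [NeZero M] [CharP (ResidueField O) p] in
/-- The maps down the levels respect the traces. -/
theorem Lev.map_trace (d : Data O p W hΔ S₀ b) {T T' : Finset ℕ} (hsub : T ⊆ T') {L : ℕ}
    [NeZero L] {ψ : (ZMod L)ˣ →* Δ} (hl : Lev S₀ ψ₀ T L ψ) {L' : ℕ} [NeZero L']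
    {ψ' : (ZMod L')ˣ →* Δ} (hl' : Lev S₀ ψ₀ T' L' ψ')
    {H : HeckeModule L ψ (excAux S₀ qv) abar} {H' : HeckeModule L' ψ' (excAux S₀ qv) abar}
    [IsLocalRing H.algebra] [IsLocalRing H'.algebra]
    {hS : ∀ v : ℕ, v.Prime → v ∣ L → v ∈ excAux S₀ qv}
    {hS' : ∀ v : ℕ, v.Prime → v ∣ L' → v ∈ excAux S₀ qv}
    {pt : ∀ θ : H.algebra →ₐ[O] KBar O, Point (p := p) H hS θ.toRingHom}
    {pt' : ∀ θ : H'.algebra →ₐ[O] KBar O, Point (p := p) H' hS' θ.toRingHom}
    (f : H'.algebra →ₐ[O] H.algebra) (hd : ∀ δ, f (diaA H' δ) = diaA H δ)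
    (hT : ∀ (x : ℕ) (hx : x.Prime) (hxS : x ∉ excAux S₀ qv), f (TA H' hx hxS) = TA H hx hxS)
    (G : Glued (models p) pt) (G' : Glued (models p) pt') (σ : Gal) :
    f (G'.R σ).trace = (G.R σ).trace := by
  have hdvd := hl.dvd_of_subset hl' hsub
  refine Lifting.map_trace d.p_small (Finset.mem_union_left _ d.p_mem) hdvd ?_ f hd hT G G' σ
  rw [hl'.psi hl'.dvd, hl.psi hl.dvd, MonoidHom.comp_assoc, ZMod.unitsMap_comp]

end Tower

end Fermat.Agent.RT.Lifting
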