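import Fermat.Agent.RT.Lifting.LevelsHom

/-!
# One step up the levels

`deg` and `degStar` are equivariant for the Hecke algebra of the upper level, and Ihara's lemma
holds with an auxiliary prime chosen from the residual representation.
-/

set_option autoImplicit false

noncomputable section

namespace Fermat.Agent.RT.Lifting

open IsLocalRing Fermat.Agent.RT.Glue Fermat.Agent.RT.Modules
open Fermat.Agent.RT.LowerB (models)
open Fermat.Agent.RT.GammaH (OpRing)
open Fermat.Agent.LevelRaising (RaiseData)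
open Fermat.Agent.Deform (Gal)

variable {O : Type} [CommRing O] [IsDomain O] [IsDiscreteValuationRing O]
  [IsAdicComplete (maximalIdeal O) O] [Finite (ResidueField O)] [CharZero O]
  {p : ℕ} [Fact p.Prime] [CharP (ResidueField O) p]
  {M q : ℕ} [NeZero M] [NeZero (M * q)] {Δ : Type} [CommGroup Δ] [Finite Δ]
  {ψ : (ZMod M)ˣ →* Δ} {S : Finset ℕ} {abar : ℕ → ResidueField O}
  {hq : RaiseData q M} {hqS : q ∈ S} (h : Hyp p ψ S abar)

section Equivariance

variable {f : (heckeModule (h.raise hq hqS)).algebra →ₐ[O] (heckeModule h).algebra}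
  (hd : ∀ δ, f (diaA _ δ) = diaA _ δ)
  (hT : ∀ (x : ℕ) (hx : x.Prime) (hxS : x ∉ S), f (TA _ hx hxS) = TA _ hx hxS)

include hd hT

/-- The map is that of the operators. -/
theorem coe_map_eq (a : (heckeModule (h.raise hq hqS)).algebra) (e : OpRing O (M * q) S)
    (he : locAct S abar (upPsi ψ q).ker e = a.1) :
    locAct S abar ψ.ker (Ihara.lowerOp O M q S e) = (f a).1 := by
  let F : OpRing O (M * q) S →ₐ[O] (heckeModule (h.raise hq hqS)).algebra :=
    (locAct S abar (upPsi ψ q).ker).codRestrict _ (h.raise hq hqS).locAct_mem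
  let G : OpRing O (M * q) S →ₐ[O] (heckeModule h).algebra :=
    ((locAct S abar ψ.ker).codRestrict _ h.locAct_mem).comp (Ihara.lowerOp O M q S)
  have hFG : f.comp F = G := MvPolynomial.algHom_ext fun i => by
    rcases i with u | ⟨ℓ, hℓ, hℓS⟩
    · have e1 : F (MvPolynomial.X (Sum.inl u)) = diaA _ (upPsi ψ q u) :=
        Subtype.ext ((h.raise hq hqS).dia_psi u).symm
      rw [AlgHom.comp_apply, e1, hd]
      refine Subtype.ext ((h.dia_psi (ZMod.unitsMap (dvd_mul_right M q) u)).trans ?_)
      show locAct S abar ψ.ker _ = locAct S abar ψ.ker (Ihara.lowerOp O M q S _)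
      rw [Ihara.lowerOp, MvPolynomial.rename_X, Sum.map_inl]
    · have e1 : F (MvPolynomial.X (Sum.inr ⟨ℓ, hℓ, hℓS⟩)) =
          TA (heckeModule (h.raise hq hqS)) hℓ hℓS :=
        Subtype.ext (congrArg (locAct S abar (upPsi ψ q).ker) (tOp_eq hℓ hℓS)).symm
      rw [AlgHom.comp_apply, e1, hT]
      refine Subtype.ext ?_
      show locAct S abar ψ.ker (tOp O M S ℓ) = locAct S abar ψ.ker (Ihara.lowerOp O M q S _)
      rw [← lowerOp_tOp (q := q) hℓ hℓS, tOp_eq hℓ hℓS]
  have hFa : F e = a := Subtype.ext he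
  rw [← hFa]
  exact (congrArg Subtype.val (DFunLike.congr_fun hFG e)).symm

/-- **`deg` is equivariant.** -/
theorem deg_smul (a : (heckeModule (h.raise hq hqS)).algebra)
    (u : (heckeModule h).M × (heckeModule h).M) :
    deg ψ S abar hq hqS ((f a).1 u.1, (f a).1 u.2) =
      (a.1 : Module.End O (heckeModule (h.raise hq hqS)).M) (deg ψ S abar hq hqS u) := by
  obtain ⟨e, he⟩ := exists_locAct_eq (h.raise hq hqS) a
  rw [← coe_map_eq (hq := hq) (hqS := hqS) h hd hT a e he, ← he]
  exact deg_locAct (hq := hq) (hqS := hqS) e u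

/-- **`degStar` is equivariant.** -/
theorem degStar_smul (a : (heckeModule (h.raise hq hqS)).algebra)
    (x : (heckeModule (h.raise hq hqS)).M) :
    degStar ψ S abar hq hqS ((a.1 : Module.End O (heckeModule (h.raise hq hqS)).M) x) =
      ((f a).1 (degStar ψ S abar hq hqS x).1, (f a).1 (degStar ψ S abar hq hqS x).2) := by
  obtain ⟨e, he⟩ := exists_locAct_eq (h.raise hq hqS) a
  rw [← coe_map_eq (hq := hq) (hqS := hqS) h hd hT a e he, ← he]
  exact degStar_locAct (hq := hq) (hqS := hqS) e x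

end Equivariance

section Curve

variable [Algebra (ZMod p) (ResidueField O)] {W : WeierstrassCurve ℤ}

/-- **Ihara's lemma for the curve**: `deg` is injective modulo the maximal ideal of `O[Δ]`. -/
theorem mem_augSub_of_deg_curve {hq : RaiseData q M} {hqS : q ∈ S}
    (h : Hyp p ψ S (Core.abar W (ResidueField O))) (hΔ : W.Δ ≠ 0) (hirr : W.ModRepIsIrreducible p)
    {u : locHom S (Core.abar W (ResidueField O)) ψ.ker ×
      locHom S (Core.abar W (ResidueField O)) ψ.ker}
    (hu : deg ψ S _ hq hqS u ∈ augSub (h.raise hq hqS).dia) :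
    u.1 ∈ augSub h.dia ∧ u.2 ∈ augSub h.dia := by
  obtain ⟨ℓ, a, hℓS, hℓ⟩ :=
    exists_auxPrime (O := O) h.ne_two hirr hΔ S hq.prime (NeZero.ne M)
  exact mem_augSub_of_deg a hℓS hℓ h hu

/-- **Ihara's lemma for the curve**: `degStar` is surjective modulo the maximal ideal. -/
theorem exists_degStar_sub_mem_curve {hq : RaiseData q M} {hqS : q ∈ S}
    (h : Hyp p ψ S (Core.abar W (ResidueField O))) (hΔ : W.Δ ≠ 0) (hirr : W.ModRepIsIrreducible p)
    (w : locHom S (Core.abar W (ResidueField O)) ψ.ker ×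
      locHom S (Core.abar W (ResidueField O)) ψ.ker) :
    ∃ x, (degStar ψ S _ hq hqS x).1 - w.1 ∈ augSub h.dia ∧
      (degStar ψ S _ hq hqS x).2 - w.2 ∈ augSub h.dia := by
  obtain ⟨ℓ, a, hℓS, hℓ⟩ :=
    exists_auxPrime (O := O) h.ne_two hirr hΔ S hq.prime (NeZero.ne M)
  exact exists_degStar_sub_mem (hq := hq) (hqS := hqS) a hℓS hℓ h w

end Curve

section Special

variable {h} [IsLocalRing (heckeModule (h.raise hq hqS)).algebra]
  {pt : ∀ θ : (heckeModule (h.raise hq hqS)).algebra →ₐ[O] KBar O,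
    Point (p := p) (heckeModule (h.raise hq hqS)) (h.raise hq hqS).mem_of_dvd θ.toRingHom}

/-- **The kernel of `degStar` at a prime other than `p`.** -/
theorem trace_sq_sub_apply_std (G : Glued (models p) pt) (hp : (p : O) ∈ maximalIdeal O)
    (hpS : p ∈ S) (hqp : q ≠ p) {A : ValuationSubring (AlgebraicClosure ℚ)}
    (hA : A.LiesOverPrime q) {s : Gal} (hs : A.IsFrobeniusAt s q)
    {x : (heckeModule (h.raise hq hqS)).M} (hx : degStar ψ S abar hq hqS x = 0) :
    (((G.R s).trace ^ 2 - ((q : (heckeModule (h.raise hq hqS)).algebra) + 1) ^ 2 :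
      (heckeModule (h.raise hq hqS)).algebra) :
        Module.End O (heckeModule (h.raise hq hqS)).M) x = 0 :=
  h.trace_sq_sub_apply G hp hpS hqp (fun _ _ h1 h2 => stdModel_local p hq.prime hqp h1 h2) hA hs hx

end Special

end Fermat.Agent.RT.Lifting
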