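import Fermat.Agent.RT.Lifting.WPoint
import Fermat.Agent.RT.LowerB.Normal
import Fermat.Agent.Arith.Chebotarev.Crossing

/-!
# A pair of lifts as one lift

Two lifts of the same residual matrices give a lift over the fibre product. Continuity, the
determinant and flatness are read on the two factors.

See `pairRep`, `isFlatAt_of_pair` and `isNormal_pairRep`.
-/

set_option autoImplicit false

noncomputable section

namespace Fermat.Agent.RT.Lifting

open IsLocalRing Fermat.Agent.Deform Fermat.Agent.RT.Assembly Module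
open Arith (GQ)
open scoped TensorProduct

/-! ## Flatness -/

section Flat

variable {R R₁ R₂ : Type} [CommRing R] [IsLocalRing R] [IsNoetherianRing R]
  [CommRing R₁] [IsLocalRing R₁] [CommRing R₂] [IsLocalRing R₂] {p : ℕ}

omit [IsLocalRing R₁] [IsLocalRing R₂] in
/-- By Artin–Rees a high power of the maximal ideal, extended to both factors of a jointly
injective pair of finite maps and pulled back, lies in a given power. -/
private theorem exists_comap_map_pow_le (φ₁ : R →+* R₁) (φ₂ : R →+* R₂)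
    (hinj : ∀ x, φ₁ x = 0 → φ₂ x = 0 → x = 0) (hf₁ : φ₁.Finite) (hf₂ : φ₂.Finite) (k : ℕ) :
    ∃ n, ((maximalIdeal R ^ n).map φ₁).comap φ₁ ⊓ ((maximalIdeal R ^ n).map φ₂).comap φ₂ ≤
      maximalIdeal R ^ k := by
  let : Algebra R R₁ := φ₁.toAlgebra
  let : Algebra R R₂ := φ₂.toAlgebra
  have : Module.Finite R R₁ := hf₁
  have : Module.Finite R R₂ := hf₂
  let ι : R →ₗ[R] R₁ × R₂ := (Algebra.linearMap R R₁).prod (Algebra.linearMap R R₂)
  obtain ⟨c, hc⟩ := Ideal.exists_pow_inf_eq_pow_smul (maximalIdeal R) (LinearMap.range ι)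
  refine ⟨k + c, fun a ha => ?_⟩
  set n := k + c
  have e₁ : (φ₁ a, (0 : R₂)) ∈ maximalIdeal R ^ n • (⊤ : Submodule R (R₁ × R₂)) := by
    have h1 : φ₁ a ∈ maximalIdeal R ^ n • (⊤ : Submodule R R₁) := by
      rw [Ideal.smul_top_eq_map]; exact ha.1
    have := Submodule.mem_map_of_mem (f := LinearMap.inl R R₁ R₂) h1
    rw [Submodule.map_smul''] at this
    exact Submodule.smul_mono le_rfl le_top this
  have e₂ : ((0 : R₁), φ₂ a) ∈ maximalIdeal R ^ n • (⊤ : Submodule R (R₁ × R₂)) := by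
    have h1 : φ₂ a ∈ maximalIdeal R ^ n • (⊤ : Submodule R R₂) := by
      rw [Ideal.smul_top_eq_map]; exact ha.2
    have := Submodule.mem_map_of_mem (f := LinearMap.inr R R₁ R₂) h1
    rw [Submodule.map_smul''] at this
    exact Submodule.smul_mono le_rfl le_top this
  have h1 : ι a ∈ maximalIdeal R ^ n • (⊤ : Submodule R (R₁ × R₂)) ⊓ LinearMap.range ι := by
    refine ⟨?_, ⟨a, rfl⟩⟩
    have := add_mem e₁ e₂
    rw [Prod.mk_add_mk, add_zero, zero_add] at this
    exact this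
  rw [hc n (Nat.le_add_left c k), show n - c = k from Nat.add_sub_cancel k c] at h1
  have h2 := Submodule.smul_mono le_rfl inf_le_right h1
  rw [LinearMap.range_eq_map, ← Submodule.map_smul''] at h2
  obtain ⟨b, hb, hba⟩ := h2
  rw [smul_eq_mul, Ideal.mul_top] at hb
  have hab : b = a := sub_eq_zero.1 (hinj _
    (by rw [map_sub, sub_eq_zero]; exact congrArg Prod.fst hba)
    (by rw [map_sub, sub_eq_zero]; exact congrArg Prod.snd hba))
  exact hab ▸ hb

/-- **Flatness descends along a jointly injective pair of finite maps.** -/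
theorem isFlatAt_of_pair (φ₁ : R →+* R₁) (φ₂ : R →+* R₂) (h₁ : IsLocalHom φ₁) (h₂ : IsLocalHom φ₂)
    (hinj : ∀ x, φ₁ x = 0 → φ₂ x = 0 → x = 0) (hf₁ : φ₁.Finite) (hf₂ : φ₂.Finite)
    [Finite (ResidueField R)] (ρ : GaloisRepAdic R) (H₁ : (ρ.baseChangeAlong φ₁ h₁).IsFlatAt p)
    (H₂ : (ρ.baseChangeAlong φ₂ h₂).IsFlatAt p) : ρ.IsFlatAt p := by
  classical
  let : Algebra R R₁ := φ₁.toAlgebra
  let : Algebra R R₂ := φ₂.toAlgebra
  have : Module.Finite R R₁ := hf₁
  have : Module.Finite R R₂ := hf₂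
  refine EC.Rep.isFlatAt_of_galOrder ρ p ‹_› fun I hI => ?_
  obtain ⟨k, hk⟩ := IsLocalRing.exists_maximalIdeal_pow_le_of_isArtinianRing_quotient I
  obtain ⟨n, hn⟩ := exists_comap_map_pow_le φ₁ φ₂ hinj hf₁ hf₂ k
  set J₁ : Ideal R₁ := (maximalIdeal R ^ n).map φ₁
  set J₂ : Ideal R₂ := (maximalIdeal R ^ n).map φ₂
  set K : Ideal R := J₁.comap φ₁ ⊓ J₂.comap φ₂ with hK
  have hKI : K ≤ I := hn.trans hk
  -- the two levels modulo `J₁` and `J₂` are flat, and that modulo `K` embeds into their product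
  have hf₁' : Finite (R₁ ⧸ J₁) := Glue.finite_quotient_map_pow n
  have hf₂' : Finite (R₂ ⧸ J₂) := Glue.finite_quotient_map_pow n
  obtain ⟨H, _, _, _, _, _, e, he, heσ⟩ := H₁.2 J₁ hf₁'
  obtain ⟨H', _, _, _, _, _, e', he', heσ'⟩ := H₂.2 J₂ hf₂'
  let ρ₁ := ρ.baseChangeAlong φ₁ h₁
  let ρ₂ := ρ.baseChangeAlong φ₂ h₂
  let : DistribMulAction GQ (ρ₁.V ⧸ (J₁ • (⊤ : Submodule R₁ ρ₁.V))) :=
    EC.Rep.levelDistribMulAction ρ₁ J₁
  let : DistribMulAction GQ (ρ₂.V ⧸ (J₂ • (⊤ : Submodule R₂ ρ₂.V))) :=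
    EC.Rep.levelDistribMulAction ρ₂ J₂
  obtain ⟨O₁⟩ := Glue.nonempty_galOrder_of_hopf e he heσ
  obtain ⟨O₂⟩ := Glue.nonempty_galOrder_of_hopf e' he' heσ'
  let : DistribMulAction GQ (ρ.V ⧸ (K • (⊤ : Submodule R ρ.V))) :=
    EC.Rep.levelDistribMulAction ρ K
  obtain ⟨g₁, hg₁, hg₁σ⟩ := Glue.exists_level_map φ₁ h₁ ρ J₁ K inf_le_left
  obtain ⟨g₂, hg₂, hg₂σ⟩ := Glue.exists_level_map φ₂ h₂ ρ J₂ K inf_le_right
  let b := Module.finBasisOfFinrankEq R ρ.V ρ.finrank_eq
  have hginj : Function.Injective (g₁.prod g₂) := by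
    refine (injective_iff_map_eq_zero _).mpr fun y hy => ?_
    obtain ⟨v, rfl⟩ := Submodule.Quotient.mk_surjective _ y
    have e₁ := (hg₁ v).1 (congrArg Prod.fst hy)
    have e₂ := (hg₂ v).1 (congrArg Prod.snd hy)
    rw [CFT.Tangent.mem_ideal_smul_top_iff_repr b] at e₁ e₂
    exact (Submodule.Quotient.mk_eq_zero _).mpr
      ((CFT.Tangent.mem_ideal_smul_top_iff_repr b K v).2 fun i => ⟨e₁ i, e₂ i⟩)
  have hgσ : ∀ (σ : GQ) y, (g₁.prod g₂) (σ • y) = σ • (g₁.prod g₂) y := fun σ y => by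
    obtain ⟨v, rfl⟩ := Submodule.Quotient.mk_surjective _ y
    exact Prod.ext (hg₁σ σ v) (hg₂σ σ v)
  have : Finite (ρ₁.V ⧸ (J₁ • (⊤ : Submodule R₁ ρ₁.V))) := Module.finite_of_finite (R₁ ⧸ J₁)
  have : Finite (ρ₂.V ⧸ (J₂ • (⊤ : Submodule R₂ ρ₂.V))) := Module.finite_of_finite (R₂ ⧸ J₂)
  -- the level modulo `I` is a quotient of that modulo `K`
  have hle : K • (⊤ : Submodule R ρ.V) ≤ I • (⊤ : Submodule R ρ.V) :=
    Submodule.smul_mono_left hKI
  let π := Submodule.factor hle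
  refine ⟨ρ.V ⧸ (K • (⊤ : Submodule R ρ.V)), inferInstance, inferInstance,
    Finite.of_injective _ hginj,
    (O₁.prod O₂).restrict (g₁.prod g₂) hginj hgσ, π.toAddMonoidHom,
    Submodule.factor_surjective hle, fun σ y => ?_⟩
  obtain ⟨v, rfl⟩ := Submodule.Quotient.mk_surjective _ y
  -- not `rfl`: the kernel is slow to unfold `levelAction` on both sides
  show π (ρ.levelAction K σ (Submodule.Quotient.mk v)) =
    ρ.levelAction I σ (π (Submodule.Quotient.mk v))
  simp only [π, GaloisRepAdic.levelAction, Submodule.mapQ_apply, LinearMap.id_apply]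

end Flat

/-! ## Continuity and determinant -/

section Pow

variable {O : Type} [CommRing O] [IsDomain O] [IsDiscreteValuationRing O]
  {R A B : Type} [CommRing R] [IsLocalRing R] [Algebra O R] [Module.Finite O R]
  [CommRing A] [IsLocalRing A] [Algebra O A] [Module.Finite O A]
  [CommRing B] [IsLocalRing B] [Algebra O B] [Module.Finite O B]

omit [Module.Finite O R] in
/-- High powers of the maximal ideals on both factors give a power on `R`. -/
theorem exists_pow_of_pair (hR : IsResAlg O R) (f : R →ₐ[O] A) (g : R →ₐ[O] B)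
    (hinj : ∀ x, f x = 0 → g x = 0 → x = 0) (n : ℕ) :
    ∃ N, ∀ x, f x ∈ maximalIdeal A ^ N → g x ∈ maximalIdeal B ^ N → x ∈ maximalIdeal R ^ n := by
  have := hR.isLocalHom
  obtain ⟨j₁, hj₁⟩ := exists_pow_le_map (O := O) (A := A)
  obtain ⟨j₂, hj₂⟩ := exists_pow_le_map (O := O) (A := B)
  let ι : R →ₗ[O] A × B := f.toLinearMap.prod g.toLinearMap
  obtain ⟨k, hk⟩ := (maximalIdeal O).exists_pow_inf_eq_pow_smul (LinearMap.range ι)
  refine ⟨max j₁ j₂ * (n + k), fun x hx hy => ?_⟩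
  have h1 : ∀ {C : Type} [CommRing C] [IsLocalRing C] [Algebra O C] (j : ℕ),
      maximalIdeal C ^ j ≤ (maximalIdeal O).map (algebraMap O C) → j ≤ max j₁ j₂ →
      ∀ z ∈ maximalIdeal C ^ (max j₁ j₂ * (n + k)),
        z ∈ maximalIdeal O ^ (n + k) • (⊤ : Submodule O C) := by
    intro C _ _ _ j hj hle z hz
    rw [Ideal.smul_top_eq_map, Submodule.restrictScalars_mem, Ideal.map_pow]
    rw [pow_mul] at hz
    exact Ideal.pow_right_mono ((Ideal.pow_le_pow_right hle).trans hj) (n + k) hz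
  have e₁ := Submodule.mem_map_of_mem (f := LinearMap.inl O A B)
    (h1 j₁ hj₁ (le_max_left _ _) _ hx)
  have e₂ := Submodule.mem_map_of_mem (f := LinearMap.inr O A B)
    (h1 j₂ hj₂ (le_max_right _ _) _ hy)
  rw [Submodule.map_smul''] at e₁ e₂
  have e := add_mem (Submodule.smul_mono le_rfl le_top e₁ :
      LinearMap.inl O A B (f x) ∈ maximalIdeal O ^ (n + k) • (⊤ : Submodule O (A × B)))
    (Submodule.smul_mono le_rfl le_top e₂)
  have hmem : ι x ∈ maximalIdeal O ^ (n + k) • (⊤ : Submodule O (A × B)) ⊓ LinearMap.range ι :=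
    ⟨by simpa [ι] using e, ⟨x, rfl⟩⟩
  rw [hk (n + k) (Nat.le_add_left _ _), Nat.add_sub_cancel] at hmem
  have h2 := Submodule.smul_mono le_rfl inf_le_right hmem
  rw [LinearMap.range_eq_map, ← Submodule.map_smul''] at h2
  obtain ⟨y, hy', hyx⟩ := h2
  have hyx' : y = x := sub_eq_zero.1 (hinj _
    (by rw [map_sub, sub_eq_zero]; exact congrArg Prod.fst hyx)
    (by rw [map_sub, sub_eq_zero]; exact congrArg Prod.snd hyx))
  rw [Ideal.smul_top_eq_map, SetLike.mem_coe, Submodule.restrictScalars_mem, Ideal.map_pow] at hy'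
  exact hyx' ▸ Ideal.pow_right_mono
    (Ideal.map_le_iff_le_comap.mpr fun o ho =>
      Ideal.mem_comap.2 (map_nonunit (algebraMap O R) o ho)) n hy'

variable {r : Gal →* M2 R} (hR : IsResAlg O R) (f : R →ₐ[O] A) (g : R →ₐ[O] B)
  (hinj : ∀ x, f x = 0 → g x = 0 → x = 0)

omit [Module.Finite O R] in
include hR hinj in
theorem isCont_of_pair (hf : IsCont (mapM (f : R →+* A) r)) (hg : IsCont (mapM (g : R →+* B) r)) :
    IsCont r := by
  intro n
  obtain ⟨N, hN⟩ := exists_pow_of_pair hR f g hinj n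
  obtain ⟨L₁, hL₁, h₁⟩ := hf N
  obtain ⟨L₂, hL₂, h₂⟩ := hg N
  refine ⟨L₁ ⊔ L₂, inferInstance, fun σ hσ i j => hN _ ?_ ?_⟩
  · have := h₁ σ (fun x hx => hσ x ((le_sup_left : L₁ ≤ L₁ ⊔ L₂) hx)) i j
    rw [map_sub]
    convert this using 2
    · rfl
    · rw [Matrix.one_apply, Matrix.one_apply]; split_ifs <;> simp
  · have := h₂ σ (fun x hx => hσ x ((le_sup_right : L₂ ≤ L₁ ⊔ L₂) hx)) i j
    rw [map_sub]
    convert this using 2
    · rfl
    · rw [Matrix.one_apply, Matrix.one_apply]; split_ifs <;> simp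

include hR hinj in
theorem detIsCyclotomic_of_pair {p : ℕ} [Fact p.Prime] (hp : (p : O) ∈ maximalIdeal O)
    (hr : IsCont r) (hf' : IsCont (mapM (f : R →+* A) r)) (hg' : IsCont (mapM (g : R →+* B) r))
    (hf : (toRep _ hf').DetIsCyclotomic p) (hg : (toRep _ hg').DetIsCyclotomic p) :
    (toRep r hr).DetIsCyclotomic p := by
  have := hR.isLocalHom
  have : IsNoetherianRing R := IsNoetherianRing.of_finite O R
  refine ⟨by rw [← map_natCast (algebraMap O R)]; exact map_nonunit (algebraMap O R) _ hp,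
    fun n σ a ha => ?_⟩
  rw [LowerB.det_toRep, Nat.cast_pow]
  set I : Ideal R := Ideal.span {(p : R) ^ n}
  rw [← Ideal.Quotient.eq_zero_iff_mem]
  refine (inferInstance : IsHausdorff (maximalIdeal R) (R ⧸ I)).haus _ fun j => ?_
  rw [SModEq.zero, Ideal.smul_top_eq_map, Submodule.restrictScalars_mem,
    Ideal.Quotient.algebraMap_eq]
  obtain ⟨N, hN⟩ := exists_pow_of_pair hR f g hinj j
  obtain ⟨s, hs⟩ := Glue.exists_exponent (p := p) σ (max n N)
  have key : ∀ {C : Type} [CommRing C] [IsLocalRing C] (φ : R →+* C) (h : IsCont (mapM φ r))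
      (_ : (toRep _ h).DetIsCyclotomic p), φ ((r σ).det - (s : R)) ∈ maximalIdeal C ^ N := by
    intro C _ _ φ h hd
    rw [map_sub, map_natCast, RingHom.map_det]
    have h1 := hd.2 (max n N) σ s hs
    rw [LowerB.det_toRep, Nat.cast_pow] at h1
    exact (Ideal.span_singleton_le_iff_mem _).2
      (Ideal.pow_le_pow_right (le_max_right n N) (Ideal.pow_mem_pow hd.1 _)) h1
  have hj := hN ((r σ).det - (s : R)) (key (f : R →+* A) hf' hf) (key (g : R →+* B) hg' hg)
  have hsa : (s : R) - (a : R) ∈ I := by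
    have h1 := Glue.natCast_congr_of_roots (A := R) (p := p) (n := n) (σ := σ) (fun μ hμ =>
      hs μ ?_) ha
    · exact h1
    · rw [← Nat.add_sub_cancel' (le_max_left n N), pow_add, pow_mul, hμ, one_pow]
  have := Ideal.mem_map_of_mem (Ideal.Quotient.mk I) hj
  rwa [show Ideal.Quotient.mk I ((r σ).det - (s : R)) = Ideal.Quotient.mk I ((r σ).det
    - (a : R)) from
    Ideal.Quotient.eq.2 (by rw [sub_sub_sub_cancel_left, ← neg_sub]; exact neg_mem hsa)] at this

end Pow

/-! ## The fibre product and the pair -/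

section Fib

variable {O : Type} [CommRing O] [IsDomain O] [IsDiscreteValuationRing O]
  {A : Type} [CommRing A] [IsLocalRing A] [Algebra O A] [Module.Finite O A]

/-- Pairs with the same residue. -/
def fibSub (hA : IsResAlg O A) : Subalgebra O (A × O) :=
  AlgHom.equalizer ((augment hA).comp (AlgHom.fst O A O))
    ((augment (isResAlg_self (O := O))).comp (AlgHom.snd O A O))

variable {hA : IsResAlg O A}

/-- The first projection. -/
def fibFst (hA : IsResAlg O A) : fibSub hA →ₐ[O] A := (AlgHom.fst O A O).comp (fibSub hA).val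

/-- The second projection. -/
def fibSnd (hA : IsResAlg O A) : fibSub hA →ₐ[O] O := (AlgHom.snd O A O).comp (fibSub hA).val

omit [Module.Finite O A] in
theorem fib_eq_zero {x : fibSub hA} (h₁ : fibFst hA x = 0) (h₂ : fibSnd hA x = 0) : x = 0 :=
  Subtype.ext (Prod.ext h₁ h₂)

omit [Module.Finite O A] in
theorem isUnit_fib_iff {x : fibSub hA} : IsUnit x ↔ IsUnit (fibSnd hA x) := by
  refine ⟨fun h => h.map _, fun h => ?_⟩
  obtain ⟨u, hu⟩ := h
  have hne : augment hA (fibFst hA x) ≠ 0 := by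
    rw [show augment hA (fibFst hA x) = augment isResAlg_self (fibSnd hA x) from x.2, ← hu]
    exact (u.isUnit.map _).ne_zero
  obtain ⟨w, hw⟩ := isUnit_of_augment_ne_zero hA hne
  refine isUnit_iff_exists_inv.2 ⟨⟨((↑w⁻¹ : A), (↑u⁻¹ : O)), ?_⟩, ?_⟩
  · show augment hA (↑w⁻¹ : A) = augment isResAlg_self (↑u⁻¹ : O)
    refine left_inv_eq_right_inv (a := augment hA (w : A)) ?_ ?_
    · rw [← map_mul, Units.inv_mul, map_one]
    · rw [show augment hA (w : A) = augment isResAlg_self (u : O) by rw [hw, hu]; exact x.2,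
        ← map_mul, Units.mul_inv, map_one]
  · refine Subtype.ext (Prod.ext ?_ ?_)
    · show x.1.1 * (↑w⁻¹ : A) = 1
      rw [show x.1.1 = (w : A) from hw.symm, Units.mul_inv]
    · show x.1.2 * (↑u⁻¹ : O) = 1
      rw [show x.1.2 = (u : O) from hu.symm, Units.mul_inv]

instance : IsLocalRing (fibSub hA) :=
  haveI : Nontrivial (fibSub hA) :=
    ⟨⟨0, 1, fun h => zero_ne_one (α := O) (congrArg (fibSnd hA) h |>.trans (map_one _) |>
      (map_zero (fibSnd hA)).symm.trans)⟩⟩
  IsLocalRing.of_isUnit_or_isUnit_one_sub_self fun x => by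
    rw [isUnit_fib_iff, isUnit_fib_iff, map_sub, map_one]
    exact isUnit_or_isUnit_one_sub_self _

instance : Module.Finite O (fibSub hA) := finite_subalgebra _

omit [Module.Finite O A] in
theorem isResAlg_fib : IsResAlg O (fibSub hA) := by
  refine ⟨⟨fun o ho => by simpa using isUnit_fib_iff.1 ho⟩, fun z => ?_⟩
  obtain ⟨x, rfl⟩ := residue_surjective z
  refine ⟨fibSnd hA x, ?_⟩
  show residue _ (algebraMap O (fibSub hA) (fibSnd hA x)) = residue _ x
  rw [eq_comm, ← sub_eq_zero, ← map_sub, residue_eq_zero_iff, mem_maximalIdeal, mem_nonunits_iff,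
    isUnit_fib_iff, map_sub, AlgHom.commutes, Algebra.algebraMap_self, RingHom.id_apply, sub_self]
  exact not_isUnit_zero

omit [Module.Finite O A] in
theorem isLocalHom_fibFst : IsLocalHom (fibFst hA : fibSub hA →+* A) :=
  ⟨fun x hx => isUnit_fib_iff.2 (isUnit_of_augment_ne_zero isResAlg_self (by
    rw [← show augment hA (fibFst hA x) = augment isResAlg_self (fibSnd hA x) from x.2]
    exact (hx.map (augment hA)).ne_zero))⟩

omit [Module.Finite O A] in
theorem isLocalHom_fibSnd : IsLocalHom (fibSnd hA : fibSub hA →+* O) :=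
  ⟨fun _ hx => isUnit_fib_iff.2 hx⟩

variable {Wd : Rigid O} {ru : Gal →* M2 A} {xw : Gal →* M2 O}

/-- The pair of two lifts. -/
def pairRep (hl : Lifts Wd hA ru) (hx : Lifts Wd isResAlg_self xw) : Gal →* M2 (fibSub hA) where
  toFun σ := Matrix.of fun i j => ⟨(ru σ i j, xw σ i j), (hl σ i j).trans (hx σ i j).symm⟩
  map_one' := Matrix.ext fun i j => Subtype.ext (by
    rw [Matrix.of_apply]
    rcases eq_or_ne i j with rfl | hij
    · simp
    · simp [hij])
  map_mul' σ τ := Matrix.ext fun i j => Subtype.ext (Prod.ext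
    (by simp [Matrix.mul_apply, Fin.sum_univ_two]) (by simp [Matrix.mul_apply, Fin.sum_univ_two]))

variable {hl : Lifts Wd hA ru} {hx : Lifts Wd isResAlg_self xw}

omit [Module.Finite O A] in
theorem mapM_fst_pairRep : mapM (fibFst hA : fibSub hA →+* A) (pairRep hl hx) = ru := by
  ext σ i j; rfl

omit [Module.Finite O A] in
theorem mapM_snd_pairRep : mapM (fibSnd hA : fibSub hA →+* O) (pairRep hl hx) = xw := by
  ext σ i j; rfl

omit [Module.Finite O A] in
theorem lifts_pairRep : Lifts Wd (isResAlg_fib (hA := hA)) (pairRep hl hx) :=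
  Lifts.of_map (fibSnd hA) isLocalHom_fibSnd (hB := isResAlg_self) (by rwa [mapM_snd_pairRep])

omit [Module.Finite O A] in
theorem isNormal_pairRep (h₁ : IsNormal Wd ru) (h₂ : IsNormal Wd xw) :
    IsNormal Wd (pairRep hl hx) := by
  obtain ⟨a1, a2, a3⟩ := h₁
  obtain ⟨b1, b2, b3⟩ := h₂
  have e₁ : ∀ c i j, fibFst hA (evalC c (pairRep hl hx) i j) = evalC c ru i j := fun c i j => by
    rw [← evalC_map, mapM_fst_pairRep]
  have e₂ : ∀ c i j, fibSnd hA (evalC c (pairRep hl hx) i j) = evalC c xw i j := fun c i j => by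
    rw [← evalC_map, mapM_snd_pairRep]
  refine ⟨fib_eq_zero ?_ ?_, fib_eq_zero ?_ ?_, sub_eq_zero.1 (fib_eq_zero ?_ ?_)⟩
  · rw [e₁, a1]
  · rw [e₂, b1]
  · rw [e₁, a2]
  · rw [e₂, b2]
  · rw [map_sub, e₁, a3, map_one, sub_self]
  · rw [map_sub, e₂, b3, map_one, sub_self]

end Fib

end Fermat.Agent.RT.Lifting
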