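import Fermat.Agent.RT.Lifting.Pair

/-!
# The ring generated by a pair of lifts

The entries of the pair of a lift and of one over `O` generate a ring with a lift, mapping to both.
-/

set_option autoImplicit false

noncomputable section

namespace Fermat.Agent.RT.Lifting

open IsLocalRing Fermat.Agent.Deform

variable {O : Type} [CommRing O] [IsDomain O] [IsDiscreteValuationRing O]
  {A : Type} [CommRing A] [IsLocalRing A] [Algebra O A] [Module.Finite O A] {hA : IsResAlg O A}
  {Wd : Rigid O} {ru : Gal →* M2 A} {xw : Gal →* M2 O}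
  (hl : Lifts Wd hA ru) (hx : Lifts Wd isResAlg_self xw)

/-- The algebra of the entries of a pair. -/
def pairAlg : Subalgebra O (fibSub hA) := Algebra.adjoin O (entries (pairRep hl hx))

/-- The ring of a pair. -/
def PairRing : Type := pairAlg hl hx

instance : CommRing (PairRing hl hx) := inferInstanceAs (CommRing (pairAlg hl hx))

instance : Algebra O (PairRing hl hx) := inferInstanceAs (Algebra O (pairAlg hl hx))

instance : IsLocalRing (PairRing hl hx) :=
  haveI := Assembly.isLocalRing_subalgebra (pairAlg hl hx)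
  inferInstanceAs (IsLocalRing (pairAlg hl hx))

instance : Module.Finite O (PairRing hl hx) :=
  haveI := Assembly.finite_subalgebra (pairAlg hl hx)
  inferInstanceAs (Module.Finite O (pairAlg hl hx))

namespace PairRing

/-- The inclusion into the pairs. -/
def incl : PairRing hl hx →ₐ[O] fibSub hA := (pairAlg hl hx).val

omit [Module.Finite O A] in
theorem incl_injective : Function.Injective (incl hl hx) := Subtype.val_injective

omit [Module.Finite O A] in
theorem entries_mem (σ : Gal) (i j : Fin 2) : pairRep hl hx σ i j ∈ pairAlg hl hx :=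
  Algebra.subset_adjoin ⟨(σ, i, j), rfl⟩

/-- The lift over the ring. -/
def rep : Gal →* M2 (PairRing hl hx) :=
  corestrict (pairAlg hl hx) (pairRep hl hx) (entries_mem hl hx)

/-- The first projection. -/
def fst : PairRing hl hx →ₐ[O] A := (fibFst hA).comp (incl hl hx)

/-- The second projection. -/
def snd : PairRing hl hx →ₐ[O] O := (fibSnd hA).comp (incl hl hx)

omit [Module.Finite O A] in
theorem mapM_fst : mapM (fst hl hx : PairRing hl hx →+* A) (rep hl hx) = ru := by
  ext σ i j; rfl

omit [Module.Finite O A] in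
theorem mapM_snd : mapM (snd hl hx : PairRing hl hx →+* O) (rep hl hx) = xw := by
  ext σ i j; rfl

theorem isLocalHom_incl : IsLocalHom (incl hl hx : PairRing hl hx →+* fibSub hA) := by
  have h := Assembly.isLocalHom_subalgebra_val (pairAlg hl hx)
  exact ⟨fun a ha => h.map_nonunit a ha⟩

theorem isLocalHom_fst : IsLocalHom (fst hl hx : PairRing hl hx →+* A) :=
  ⟨fun a ha => (isLocalHom_incl hl hx).map_nonunit a (isLocalHom_fibFst.map_nonunit _ ha)⟩

theorem isLocalHom_snd : IsLocalHom (snd hl hx : PairRing hl hx →+* O) :=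
  ⟨fun a ha => (isLocalHom_incl hl hx).map_nonunit a (isLocalHom_fibSnd.map_nonunit _ ha)⟩

omit [Module.Finite O A] in
theorem eq_zero {a : PairRing hl hx} (h₁ : fst hl hx a = 0) (h₂ : snd hl hx a = 0) : a = 0 :=
  incl_injective hl hx ((fib_eq_zero h₁ h₂).trans (map_zero (incl hl hx)).symm)

theorem resAlg : IsResAlg O (PairRing hl hx) :=
  haveI := Assembly.isLocalRing_subalgebra (pairAlg hl hx)
  Assembly.isResAlg_subalgebra (isResAlg_fib (hA := hA)) (pairAlg hl hx)

theorem lifts : Lifts Wd (resAlg hl hx) (rep hl hx) :=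
  haveI := Assembly.isLocalRing_subalgebra (pairAlg hl hx)
  Assembly.lifts_corestrict (pairAlg hl hx) (lifts_pairRep (hl := hl) (hx := hx))
    (entries_mem hl hx)

omit [Module.Finite O A] in
theorem normal (h₁ : IsNormal Wd ru) (h₂ : IsNormal Wd xw) : IsNormal Wd (rep hl hx) :=
  IsNormal.of_injective (incl hl hx) (incl_injective hl hx)
    (by rw [show mapM (incl hl hx : PairRing hl hx →+* fibSub hA) (rep hl hx) = pairRep hl hx from
          mapM_corestrict (pairAlg hl hx) (pairRep hl hx) (entries_mem hl hx)]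
        exact isNormal_pairRep h₁ h₂)

omit [Module.Finite O A] in
theorem gen : Algebra.adjoin O (entries (rep hl hx)) = ⊤ := by
  refine Subalgebra.map_injective (f := incl hl hx) (incl_injective hl hx) ?_
  rw [Algebra.map_top, AlgHom.map_adjoin]
  refine le_antisymm ?_ ?_
  · rw [Algebra.adjoin_le_iff]
    rintro _ ⟨x, -, rfl⟩
    exact ⟨x, rfl⟩
  · rintro _ ⟨⟨x, hx'⟩, rfl⟩
    refine Algebra.adjoin_mono ?_ hx'
    rintro _ ⟨q, rfl⟩
    exact ⟨_, ⟨q, rfl⟩, rfl⟩

variable {p : ℕ} [Fact p.Prime] [CharP (ResidueField O) p]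

theorem cont (hf : IsCont ru) (hs : IsCont xw) : IsCont (rep hl hx) :=
  haveI := Assembly.isLocalRing_subalgebra (pairAlg hl hx)
  Assembly.isCont_corestrict (isResAlg_fib (hA := hA)) (pairAlg hl hx)
    (isCont_of_pair (isResAlg_fib (hA := hA)) (fibFst hA) (fibSnd hA) (fun _ =>
      fib_eq_zero (hA := hA))
      (by rw [mapM_fst_pairRep]; exact hf) (by rw [mapM_snd_pairRep]; exact hs))
    (entries_mem hl hx)

omit [CharP (ResidueField O) p] in
theorem det [CharZero O] [IsAdicComplete (maximalIdeal O) O] (hp : (p : O) ∈ maximalIdeal O)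
    (hf : IsCont ru) (hs : IsCont xw) (h₁ : (toRep ru hf).DetIsCyclotomic p)
    (h₂ : (toRep xw hs).DetIsCyclotomic p) (hr : IsCont (rep hl hx)) :
    (toRep (rep hl hx) hr).DetIsCyclotomic p := by
  have hfc : IsCont (mapM (fibFst hA : fibSub hA →+* A) (pairRep hl hx)) := by
    rw [mapM_fst_pairRep]; exact hf
  have hsc : IsCont (mapM (fibSnd hA : fibSub hA →+* O) (pairRep hl hx)) := by
    rw [mapM_snd_pairRep]; exact hs
  have hpc : IsCont (pairRep hl hx) :=
    isCont_of_pair (isResAlg_fib (hA := hA)) (fibFst hA) (fibSnd hA)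
    (fun _ => fib_eq_zero (hA := hA)) hfc hsc
  have := Assembly.isLocalRing_subalgebra (pairAlg hl hx)
  exact LowerB.detIsCyclotomic_of_subalgebra (S := pairAlg hl hx) hp
    (isResAlg_fib (hA := hA)) hr hpc
    (mapM_corestrict (pairAlg hl hx) (pairRep hl hx) (entries_mem hl hx))
    (detIsCyclotomic_of_pair (isResAlg_fib (hA := hA)) (fibFst hA) (fibSnd hA) (fun _ =>
      fib_eq_zero (hA := hA))
        hp hpc hfc hsc
      (by simpa only [mapM_fst_pairRep] using h₁) (by simpa only [mapM_snd_pairRep] using h₂))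

end PairRing

end Fermat.Agent.RT.Lifting
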