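import Fermat.Agent.RT.Lifting.Sys

/-!
# The sets of places along the chain

The stages run from the first set by adding one place at a time, `p` last.
-/

set_option autoImplicit false

noncomputable section

namespace Fermat.Agent.RT.Lifting

open IsLocalRing

variable {O : Type} [CommRing O] [IsDomain O] [IsDiscreteValuationRing O]
  {p : ℕ} [Fact p.Prime] [Algebra (ZMod p) (ResidueField O)]
  {W : WeierstrassCurve ℤ}

namespace Setup

variable (St : Setup O p W)

/-- The set of a stage. -/
def stageSet (D : Finset St.Idx) : Finset ℕ := St.base ∪ D.image Subtype.val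

theorem ram_subset_base : St.pd.ram ⊆ St.base := fun v hv => by
  unfold base
  split_ifs
  exacts [Finset.mem_insert_of_mem hv, hv]

theorem mem_base {v : ℕ} :
    v ∈ St.base ↔ v ∈ St.pd.ram ∨ (v = p ∧ ¬ W.IsGoodPrimeFor p ∧ ¬ St.CaseO) := by
  unfold base
  split_ifs with h
  · rw [Finset.mem_insert]
    exact ⟨fun e => e.elim (fun e => Or.inr ⟨e, h⟩) Or.inl,
      fun e => e.elim Or.inr fun e => Or.inl e.1⟩
  · exact ⟨Or.inl, fun e => e.elim id fun e => absurd e.2 h⟩

theorem base_union_plus : St.base ∪ St.plus = St.top := by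
  ext v
  rw [Finset.mem_union, St.mem_base, St.mem_plus, St.mem_top]
  by_cases hv : v = p
  · subst hv
    have hr : v ∉ St.pd.ram := fun h => St.p_notMem_B (St.pd.ram_sub h)
    have hO : St.CaseO → ¬ W.IsGoodPrimeFor v := fun h => h.1
    simp only [St.p_notMem_B, hr, false_and, false_or, true_and]
    tauto
  · have := @St.pd.ram_sub v
    simp only [hv, false_and, or_false]
    tauto

theorem stageSet_univ : St.stageSet Finset.univ = St.top := by
  rw [stageSet, ← St.base_union_plus]
  congr 1
  ext v
  simp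

theorem stageSet_subset (D : Finset St.Idx) : St.stageSet D ⊆ St.top := by
  rw [← St.stageSet_univ, stageSet, stageSet]
  exact Finset.union_subset_union subset_rfl (Finset.image_subset_image (Finset.subset_univ D))

theorem stageSet_insert (b : St.Idx) (D : Finset St.Idx) :
    St.stageSet (insert b D) = insert b.1 (St.stageSet D) := by
  rw [stageSet, stageSet, Finset.image_insert, Finset.union_insert]

theorem notMem_stageSet {b : St.Idx} {D : Finset St.Idx} (hb : b ∉ D) :
    b.1 ∉ St.stageSet D := by
  rw [stageSet, Finset.mem_union, St.mem_base, not_or]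
  refine ⟨?_, fun h => ?_⟩
  · rintro (h | ⟨hp, -, hO⟩)
    · rcases St.mem_plus.1 b.2 with h' | h'
      · exact h'.2 h
      · exact St.p_notMem_B ((congrArg (· ∈ St.pd.B) h'.1).mp (St.pd.ram_sub h))
    · rcases St.mem_plus.1 b.2 with h' | h'
      · exact St.p_notMem_B ((congrArg (· ∈ St.pd.B) hp).mp h'.1)
      · exact hO h'.2
  · obtain ⟨b', hb', he⟩ := Finset.mem_image.1 h
    exact hb (Subtype.ext he ▸ hb')

theorem mem_stageSet {b : St.Idx} {D : Finset St.Idx} (hb : b ∈ D) : b.1 ∈ St.stageSet D :=
  Finset.mem_union_right _ (Finset.mem_image_of_mem _ hb)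

theorem stageSet_subset_B (hO : St.CaseO) {D : Finset St.Idx} (hD : ∀ x ∈ D, x.1 ≠ p) :
    St.stageSet D ⊆ St.pd.B := by
  intro v hv
  rcases Finset.mem_union.1 hv with h | h
  · exact (St.mem_base.1 h).elim (fun h => St.pd.ram_sub h) fun h => absurd hO h.2.2
  · obtain ⟨b, hb, rfl⟩ := Finset.mem_image.1 h
    exact (St.mem_of_ne (hD b hb)).1

/-- The places other than `p`. -/
def awayP : Finset St.Idx := Finset.univ.filter fun b => b.1 ≠ p

theorem awayP_eq_univ (hO : ¬ St.CaseO) : St.awayP = Finset.univ := by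
  refine Finset.filter_true_of_mem fun b _ hb => ?_
  exact (St.mem_plus.1 b.2).elim
    (fun h => St.p_notMem_B ((congrArg (· ∈ St.pd.B) hb).mp h.1)) fun h => hO h.2

theorem prime_of_mem_top [CharP (ResidueField O) p] {v : ℕ} (hv : v ∈ St.top) :
    v.Prime := (St.mem_bad_of_mem_top hv).1

/-- Residual modularity passes to larger sets. -/
theorem modular_mono [CharP (ResidueField O) p] {T T' : Finset ℕ} (hT' : T' ⊆ St.top) (h : T ⊆ T')
    (hmod : W.IsResiduallyModularOfLevel p (∏ x ∈ T, x)) :
    W.IsResiduallyModularOfLevel p (∏ x ∈ T', x) := by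
  suffices key : ∀ E : Finset ℕ, E ⊆ St.top →
      W.IsResiduallyModularOfLevel p (∏ x ∈ T ∪ E, x) by
    have := key T' hT'
    rwa [Finset.union_eq_right.2 h] at this
  intro E
  induction E using Finset.induction_on with
  | empty => exact fun _ => by rwa [Finset.union_empty]
  | insert w E hwE ih =>
    intro hE
    have hw := St.prime_of_mem_top (hE (Finset.mem_insert_self w E))
    have h1 := ih fun x hx => hE (Finset.mem_insert_of_mem hx)
    rw [Finset.union_insert]
    by_cases hwT : w ∈ T ∪ E
    · rwa [Finset.insert_eq_of_mem hwT]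
    rw [Finset.prod_insert hwT, mul_comm]
    have hpr : ∀ x ∈ T ∪ E, x.Prime := fun x hx => St.prime_of_mem_top <|
      (Finset.mem_union.1 hx).elim (fun hx => hT' (h hx))
        fun hx => hE (Finset.mem_insert_of_mem hx)
    refine LowerB.residuallyModular_raise St.hΔ (ResidueField O)
      (Finset.prod_ne_zero_iff.2 fun x hx => (hpr x hx).ne_zero) hw (fun hd => ?_) h1
    obtain ⟨x, hx, hwx⟩ := (hw.prime.dvd_finsetProd_iff _).1 hd
    exact hwT ((Nat.prime_dvd_prime_iff_eq hw (hpr x hx)).1 hwx ▸ hx)

end Setup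

end Fermat.Agent.RT.Lifting
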