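import Fermat.Agent.RT.Lifting.Place
import Fermat.Agent.RT.Pattern.Scalar

/-!
# Coordinates modulo the ideal of a shape

Given the bound on derivations of the pattern and the condition at `p`, modulo a proper ideal of a
shape the lift is presented by the coordinates at the scalar places and a number of free ones,
and the relations of the mixed pattern hold.
-/

set_option autoImplicit false

noncomputable section

namespace Fermat.Agent.RT.Lifting

open IsLocalRing MvPowerSeries Fermat.Agent.Deform Fermat.Agent.RT.Pattern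
open Fermat.Agent.RT.Germ
open Fermat.Agent.RT.Assembly (tlCoord placeCoord)

section Coord

variable {R : Type} [CommRing R] {c : R}

theorem tlCoord_one (j : Fin 3) : tlCoord c (1 : M2 R) j = 0 := by
  fin_cases j <;> simp [tlCoord]

/-- The conic of a Frobenius element with trace `a (v + 1)`, determinant `v` and `a * a = 1`. -/
theorem conic_of_trace (hc : 2 * c = 1) {F : M2 R} {a v : R} (ha : a * a = 1)
    (htr : F.trace = a * (v + 1)) (hdet : F.det = v) :
    tlCoord c F 0 ^ 2 + tlCoord c F 1 * tlCoord c F 2 = (c * (a * (v - 1))) ^ 2 := by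
  have h := Assembly.tlCoord_sq (X := F) hc
  rw [htr, hdet] at h
  linear_combination c ^ 2 * h - (tlCoord c F 0 ^ 2 + tlCoord c F 1 * tlCoord c F 2) * (2 * c + 1) *
    hc + c ^ 2 * 4 * v * ha

/-- The equations of the eigenline. -/
theorem lineEq_of_line (hc : 2 * c = 1) {F X : M2 R} {a v : R} (htr : F.trace = a * (v + 1))
    (hX : X.trace = 2) (hline : (F - (a * v) • 1) * (X - 1) = 0) (k : Fin 4) :
    lineEq (c * (a * (v - 1))) (tlCoord c F) (tlCoord c X) k = 0 := by
  have h00 := congrFun (congrFun hline 0) 0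
  have h01 := congrFun (congrFun hline 0) 1
  have h10 := congrFun (congrFun hline 1) 0
  have h11 := congrFun (congrFun hline 1) 1
  simp only [Matrix.mul_apply, Matrix.sub_apply, Matrix.smul_apply, smul_eq_mul, Fin.sum_univ_two,
    Matrix.one_apply_eq, mul_one, ne_eq, zero_ne_one, not_false_eq_true, Matrix.one_apply_ne,
    mul_zero, sub_zero, one_ne_zero, Matrix.zero_apply] at h00 h01 h10 h11
  rw [Matrix.trace_fin_two] at htr hX
  have hF : F 1 1 = a * (v + 1) - F 0 0 := by linear_combination htr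
  have hX' : X 1 1 = 2 - X 0 0 := by linear_combination hX
  rw [hF, hX'] at h11
  rw [hF] at h10
  rw [hX'] at h01
  have e0 : c * (F 0 0 - F 1 1) = F 0 0 - c * (a * (v + 1)) := by
    rw [hF]; linear_combination F 0 0 * hc
  have e1 : c * (X 0 0 - X 1 1) = X 0 0 - 1 := by
    rw [hX']; linear_combination (X 0 0 - 1) * hc
  fin_cases k <;> simp only [lineEq, tlCoord, Matrix.cons_val_zero, Matrix.cons_val_one,
    Matrix.cons_val, Fin.zero_eta, Fin.mk_one, Fin.reduceFinMk] <;> rw [e0, e1]
  · linear_combination h00 - (a * v) * (X 0 0 - 1) * hc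
  · linear_combination h01 - (a * v) * X 0 1 * hc
  · linear_combination h10 + (a * X 1 0) * hc
  · linear_combination h11 + (-(a * (X 0 0 - 1))) * hc

end Coord

variable {O : Type} [CommRing O] [IsDomain O] [IsDiscreteValuationRing O]
  {p : ℕ} {Wd : Rigid O} (pd : PlaceData p Wd)

namespace PlaceData

/-- The constants of the conics. -/
def eta (c : O) (v : pd.Pl) : O := c * ((sgn (pd.s v.1) : O) * ((v.1 : O) - 1))

theorem natCast_eq_one_of_scalar (v : pd.Pl) : (v.1 : ResidueField O) = 1 := by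
  obtain ⟨hB, hr, e, he⟩ := pd.mem_scalars.1 v.2
  obtain ⟨htr, hdet⟩ := pd.rb_trace v.1 hB hr
  rw [he, Matrix.trace_smul, Matrix.trace_one, Fintype.card_fin, smul_eq_mul] at htr
  rw [he, Matrix.det_smul, Matrix.det_one, mul_one, Fintype.card_fin] at hdet
  have hs : (sgn (pd.s v.1) : ResidueField O) * (sgn (pd.s v.1) : ResidueField O) = 1 := by
    rw [← Int.cast_mul, sgn_mul_self, Int.cast_one]
  have h : ((v.1 : ResidueField O) - 1) ^ 2 = 0 := by
    push_cast at htr
    linear_combination
      -(((v.1 : ResidueField O) + 1) ^ 2) * hs -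
        ((sgn (pd.s v.1) : ResidueField O) * ((v.1 : ResidueField O) + 1) + 2 * e) * htr +
        4 * hdet
  exact sub_eq_zero.1 (pow_eq_zero_iff two_ne_zero |>.1 h)

/-- The constants of the conics are non-units. -/
theorem eta_mem (c : O) (v : pd.Pl) : pd.eta c v ∈ maximalIdeal O := by
  refine Ideal.mul_mem_left _ _ (Ideal.mul_mem_left _ _ ?_)
  rw [← residue_eq_zero_iff, map_sub, map_natCast, map_one, pd.natCast_eq_one_of_scalar, sub_self]

theorem eta_ne_zero [CharZero O] {c : O} (hc : 2 * c = 1) (v : pd.Pl) : pd.eta c v ≠ 0 := by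
  refine mul_ne_zero (fun h => by simp [h] at hc) (mul_ne_zero ?_ ?_)
  · exact fun h => by simpa [h] using congrArg ((↑) : ℤ → O) (sgn_mul_self (pd.s v.1))
  · exact sub_ne_zero.2 (Nat.cast_ne_one.2 (pd.prime v.1 (pd.mem_scalars.1 v.2).1).1.ne_one)

variable {A : Type} [CommRing A]

/-- The coordinates at the scalar places. -/
def coord (c : A) (ru : Gal →* M2 A) : pd.Pl × Fin 2 × Fin 3 → A :=
  placeCoord c (fun v => ru (pd.φT v.1)) fun v => ru (pd.σT v.1)

theorem coord_zero (c : A) (ru : Gal →* M2 A) (v : pd.Pl) (j : Fin 3) :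
    pd.coord c ru (v, 0, j) = tlCoord c (ru (pd.φT v.1)) j := rfl

theorem coord_one (c : A) (ru : Gal →* M2 A) (v : pd.Pl) (j : Fin 3) :
    pd.coord c ru (v, 1, j) = tlCoord c (ru (pd.σT v.1)) j := rfl

theorem coord_map {B : Type} [CommRing B] (f : A →+* B) (c : A) (ru : Gal →* M2 A)
    (x : pd.Pl × Fin 2 × Fin 3) : f (pd.coord c ru x) = pd.coord (f c) (mapM f ru) x :=
  Assembly.placeCoord_map f c _ _ x

end PlaceData

variable {pd} {A : Type} [CommRing A] [IsLocalRing A] [Algebra O A] {Q : Set ℕ} {ru : Gal →* M2 A}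

theorem LiftData.coord_mem (L : LiftData pd Q ru) (c : A) (x : pd.Pl × Fin 2 × Fin 3) :
    pd.coord c ru x ∈ maximalIdeal A := by
  obtain ⟨v, i, j⟩ := x
  obtain ⟨hB, hr, e, he⟩ := pd.mem_scalars.1 v.2
  have : Fact v.1.Prime := ⟨(pd.prime v.1 hB).1⟩
  fin_cases i
  · refine Assembly.tlCoord_mem L.res c (e := e) (fun a b => ?_) j
    show augment L.res (ru (pd.φT v.1) a b) = _
    rw [L.lifts, he]
    simp [Matrix.one_apply]
  · refine Assembly.tlCoord_mem L.res c (e := 1) (fun a b => ?_) j
    show augment L.res (ru (pd.σT v.1) a b) = _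
    rw [L.lifts, pd.rb_unram v.1 hr (pd.prime v.1 hB).2 _ (pd.gen v.1 hB).1]
    simp [Matrix.one_apply]

variable [Module.Finite O A]

/-- The scalar places of the pattern of a shape kill the derivations through their coordinates. -/
private theorem killsScalar_coord [Fact p.Prime] [Finite (ResidueField O)]
    [CharP (ResidueField O) p] {R : Type} [CommRing R] [IsLocalRing R] [Algebra O R]
    [IsNoetherianRing R] {hR : IsResAlg O R} (hfin : GaloisFactorsThroughFiniteLevel Wd.rb)
    (h2 : (2 : ResidueField O) ≠ 0) (κ : Shape) {ru' : Gal →* M2 R} (hl : Lifts Wd hR ru')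
    (hcont : IsCont ru') (hH : (κ.pat pd).Holds p Q ru' hcont) {c' : R} (hc2 : 2 * c' = 1) :
    (κ.pat pd).KillsScalar Wd hR ru' (pd.coord c' ru') := by
  have hcover : ∀ q ∈ (κ.pat pd).S, (κ.pat pd).cond q = .scalar → ∃ v : pd.Pl, v.1 = q := by
    intro q hq hs
    refine ⟨⟨q, pd.mem_scalars.2 ⟨hq, fun hr => ?_, ?_⟩⟩, rfl⟩
    · have h1 : (if q ∈ pd.ram then Cond.unipotent else _) = Cond.scalar := hs
      rw [if_pos hr] at h1
      cases h1
    · by_contra hns
      have h1 : κ.cond pd q = Cond.scalar := hs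
      rw [Shape.cond] at h1
      split_ifs at h1
      cases hk : κ.kind q <;> rw [hk] at h1 <;> cases h1
  have hk := killsScalar_placeCoord (h := hR) p h2 hfin (κ.compat_pat pd) hl hcont hH
    (Subtype.val : pd.Pl → ℕ) hcover (fun v => pd.σT v.1) (fun v => pd.φT v.1)
    (fun v _ => pd.gen v.1 (pd.mem_scalars.1 v.2).1)
    (fun v _ => pd.frob v.1 (pd.mem_scalars.1 v.2).1) hc2
  intro δ hδ
  refine hk δ fun ⟨v, i, j⟩ => ?_
  fin_cases i
  exacts [hδ (v, 1, j), hδ (v, 0, j)]

/-- Modulo an ideal containing that of the shape the coordinates satisfy the relations of the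
mixed pattern. -/
private theorem mixedRel_le_ker [Fact p.Prime] (L : LiftData pd Q ru) (κ : Shape) {J : Ideal A}
    {I : Ideal A} (hI : shapeIdeal pd κ ru J ≤ I) {c : O} (hc : 2 * c = 1) {r : ℕ}
    (γ : MvPowerSeries (Coord pd.Pl (Fin r)) O →ₐ[O] A ⧸ I)
    (hγ : ∀ x, γ (X (Sum.inl x)) =
      Ideal.Quotient.mk _ (pd.coord (algebraMap O A c) ru x)) :
    mixedRel (pd.eta c) (fun v => κ.kind v.1) ≤ RingHom.ker γ := by
  classical
  have : IsNoetherianRing A := IsNoetherianRing.of_finite O A
  set f := Ideal.Quotient.mk I with hf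
  set ru' := mapM f ru with hru'
  set c' : A ⧸ I := algebraMap O _ c with hc'def
  have hc2 : 2 * c' = 1 := by rw [← map_ofNat (algebraMap O (A ⧸ I)) 2, ← map_mul, hc, map_one]
  have hfc : f (algebraMap O A c) = c' := rfl
  -- Check the relations at each scalar place `v`, in the coordinates of `ru` modulo `I`.
  refine Ideal.span_le.2 fun y hy => ?_
  obtain ⟨v, hy⟩ := Set.mem_iUnion.1 hy
  obtain ⟨hB, hr, -⟩ := pd.mem_scalars.1 v.2
  have : Fact v.1.Prime := ⟨(pd.prime v.1 hB).1⟩
  have hX : ∀ i j, γ (X (Sum.inl (v, i, j))) = pd.coord c' ru' (v, i, j) := fun i j => by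
    rw [hγ, pd.coord_map, hfc]
  have hC : ∀ o, γ (C o) = algebraMap O _ o := fun o => γ.commutes o
  have hmemI : ∀ x ∈ kindSet ru v.1 (pd.s v.1) (κ.kind v.1), f x = 0 := fun x hx =>
    Ideal.Quotient.eq_zero_iff_mem.2
      (hI (mem_shapeIdeal (v := v.1) (by rwa [placeSet_eq hB hr])))
  have hσ := (pd.gen v.1 hB).1
  have hF := pd.frob v.1 hB
  have htrσ : (ru' (pd.σT v.1)).trace = 2 := by
    rw [show (ru' (pd.σT v.1)).trace = f (ru (pd.σT v.1)).trace from
      (AddMonoidHom.map_trace f.toAddMonoidHom _).symm, L.unip v.1 hB _ hσ, map_ofNat]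
  have hdetF : (ru' (pd.φT v.1)).det = (v.1 : A ⧸ I) := by
    rw [show (ru' (pd.φT v.1)).det = f (ru (pd.φT v.1)).det from (RingHom.map_det f _).symm,
      det_eq_of_frobenius L.det Fact.out (pd.prime v.1 hB).2
        (CFT.Local.padicPlace_liesOverPrime v.1) hF, map_natCast]
  set a : A ⧸ I := ((sgn (pd.s v.1) : ℤ) : A ⧸ I) with hadef
  have ha : a * a = 1 := by rw [hadef, ← Int.cast_mul, sgn_mul_self, Int.cast_one]
  have hη : algebraMap O (A ⧸ I) (pd.eta c v) = c' * (a * ((v.1 : A ⧸ I) - 1)) := by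
    rw [PlaceData.eta, map_mul, map_mul, map_sub, map_intCast, map_natCast, map_one]
  -- If `σ` acts trivially, its coordinates vanish; if the trace of Frobenius is prescribed, the
  -- conic relation holds.
  have hnone : altSet ru v.1 none ⊆ kindSet ru v.1 (pd.s v.1) (κ.kind v.1) →
      ∀ j : Fin 3, γ (X (Sum.inl (v, 1, j))) = 0 := fun h j => by
    rw [hX, PlaceData.coord_one]
    have : ru' (pd.σT v.1) = 1 := by
      have h1 : f.mapMatrix (ru (pd.σT v.1) - 1) = 0 :=
        Matrix.ext fun i j => hmemI _ (h ⟨_, hσ, i, j, rfl⟩)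
      rwa [map_sub, map_one, sub_eq_zero] at h1
    rw [this, tlCoord_one]
  have htrace : altSet ru v.1 (some (pd.s v.1)) ⊆ kindSet ru v.1 (pd.s v.1) (κ.kind v.1) →
      (ru' (pd.φT v.1)).trace = a * ((v.1 : A ⧸ I) + 1) := fun h => by
    have h1 := hmemI _ (h ⟨_, hF, Or.inl rfl⟩)
    rw [map_sub, sub_eq_zero, map_mul, map_intCast, map_add, map_natCast, map_one] at h1
    exact (AddMonoidHom.map_trace f.toAddMonoidHom _).symm.trans h1
  have hconic : altSet ru v.1 (some (pd.s v.1)) ⊆ kindSet ru v.1 (pd.s v.1) (κ.kind v.1) →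
      γ (conicRel (pd.eta c) v) = 0 := fun h => by
    rw [conicRel, map_sub, map_add, map_pow, map_mul, map_pow, hX, hX, hX, hC, hη, sub_eq_zero]
    exact conic_of_trace hc2 ha (htrace h) hdetF
  -- The relations of the three kinds follow from these.
  rw [SetLike.mem_coe, RingHom.mem_ker]
  simp only [placeRel] at hy
  cases hk : κ.kind v.1 <;> rw [hk] at hy hnone htrace hconic <;>
    simp only [kindSet] at hnone htrace hconic
  · rcases hy with rfl | ⟨k, rfl⟩
    · exact hconic subset_rfl
    · refine (map_lineEq γ.toRingHom _ _ _ k).trans ?_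
      simp only [AlgHom.toRingHom_eq_coe, RingHom.coe_coe, hX, hC, hη, PlaceData.coord_zero,
        PlaceData.coord_one]
      refine lineEq_of_line hc2 (htrace subset_rfl) htrσ ?_ k
      have h1 : f.mapMatrix ((ru (pd.φT v.1) - ((sgn (pd.s v.1) : A) * (v.1 : A)) • 1) *
          (ru (pd.σT v.1) - 1)) = 0 := Matrix.ext fun i j =>
        hmemI _ (by rw [hk]; exact ⟨_, hF, Or.inr ⟨_, hσ, i, j, rfl⟩⟩)
      rw [map_mul, map_sub, map_sub, map_one] at h1
      have e : f.mapMatrix (((sgn (pd.s v.1) : A) * (v.1 : A)) • (1 : M2 A)) =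
          (a * (v.1 : A ⧸ I)) • (1 : M2 (A ⧸ I)) := by
        refine Matrix.ext fun i j => ?_
        rcases eq_or_ne i j with rfl | hij <;> simp [*]
      rw [e] at h1
      exact h1
  · obtain ⟨j, rfl⟩ := hy
    exact hnone subset_rfl j
  · rcases hy with rfl | ⟨j, rfl⟩
    · exact hconic Set.subset_union_right
    · exact hnone Set.subset_union_left j

/-- **The presentation modulo the ideal of a shape.** -/
theorem LiftData.exists_coords [Fact p.Prime] [Finite (ResidueField O)] [CharP (ResidueField O) p]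
    [IsAdicComplete (maximalIdeal O) O] (L : LiftData pd Q ru)
    (hfin : GaloisFactorsThroughFiniteLevel Wd.rb) {c : O} (hc : 2 * c = 1) {r : ℕ} (κ : Shape)
    {J : Ideal A}
    (hbound : ∀ (R : Type) [CommRing R] [IsLocalRing R] [IsNoetherianRing R] [Algebra O R]
        (h : IsResAlg O R) (r' : Gal →* M2 R) (hr' : IsCont r'), Lifts Wd h r' → IsNormal Wd r' →
        Algebra.adjoin O (entries r') = ⊤ → (κ.pat pd).Holds p Q r' hr' →
        ∀ (C : Type) (x : C → R), (κ.pat pd).KillsScalar Wd h r' x →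
          Module.finrank (ResidueField O) (Assembly.killedDer h x) + (κ.pat pd).weight ≤ r)
    (hI : shapeIdeal pd κ ru J ≠ ⊤)
    (hatP : ∀ [IsLocalRing (A ⧸ shapeIdeal pd κ ru J)]
      (hc' : IsCont (mapM (Ideal.Quotient.mk (shapeIdeal pd κ ru J)) ru)),
      κ.atP.Holds (toRep (mapM (Ideal.Quotient.mk (shapeIdeal pd κ ru J)) ru) hc') p) :
    (κ.pat pd).weight ≤ r ∧
    ∃ γ : MvPowerSeries (Coord pd.Pl (Fin (κ.free pd r))) O →ₐ[O] A ⧸ shapeIdeal pd κ ru J,
      Function.Surjective γ ∧
      (∀ x, γ (X (Sum.inl x)) =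
        Ideal.Quotient.mk _ (pd.coord (algebraMap O A c) ru x)) ∧
      mixedRel (pd.eta c) (fun v => κ.kind v.1) ≤ RingHom.ker γ := by
  classical
  set I := shapeIdeal pd κ ru J with hIdef
  have := isLocalRing_quot hI
  have : IsNoetherianRing A := IsNoetherianRing.of_finite O A
  have hR : IsResAlg O (A ⧸ I) := isResAlg_quot L.res I
  have hloc := IsLocalHom.of_surjective (Ideal.Quotient.mk I) Ideal.Quotient.mk_surjective
  have : IsAdicComplete (maximalIdeal (A ⧸ I)) (A ⧸ I) :=
    haveI := hR.isLocalHom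
    isAdicComplete_of_module_finite (𝒪 := O)
  set f := Ideal.Quotient.mk I with hf
  set ru' := mapM f ru with hru'
  -- the reduction is a normal lift satisfying the pattern
  have hcont : IsCont ru' := L.cont.map f hloc
  have hl : Lifts Wd hR ru' := L.lifts.map hR (Ideal.Quotient.mkₐ O I) hloc
  have hn : IsNormal Wd ru' := L.normal.map (Ideal.Quotient.mkₐ O I)
  have hH := L.holds_pat κ (I := I) le_rfl hcont (hatP hcont)
  set c' : A ⧸ I := algebraMap O _ c with hc'def
  have hc2 : 2 * c' = 1 := by rw [← map_ofNat (algebraMap O (A ⧸ I)) 2, ← map_mul, hc, map_one]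
  have hfc : f (algebraMap O A c) = c' := rfl
  have h2 : (2 : ResidueField O) ≠ 0 := fun h => by
    have := congrArg (residue O) hc
    rw [map_mul, map_ofNat, h, zero_mul, map_one] at this
    exact zero_ne_one this
  have hkills := killsScalar_coord (pd := pd) hfin h2 κ hl hcont hH hc2
  -- by the bound few derivations kill the coordinates
  have hg : Module.finrank (ResidueField O)
      (Assembly.killedDer hR (pd.coord c' ru')) ≤ κ.free pd r := by
    have h1 := hbound (A ⧸ I) hR ru' hcont hl hn (adjoin_entries_map L.gen I) hH _ _ hkills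
    rw [κ.weight_pat pd] at h1
    unfold Shape.free
    omega
  have hw : (κ.pat pd).weight ≤ r :=
    (Nat.le_add_left _ _).trans (hbound (A ⧸ I) hR ru' hcont hl hn (adjoin_entries_map L.gen I)
      hH _ _ hkills)
  have hx : ∀ x, pd.coord c' ru' x ∈ maximalIdeal (A ⧸ I) := fun x => by
    rw [← hfc, hru', ← pd.coord_map]
    exact map_nonunit f _ (L.coord_mem _ x)
  -- so few further generators suffice
  obtain ⟨γ, hγs, hγ⟩ := Assembly.exists_coord_surjective hR _ hx hg
  have hγ' : ∀ x, γ (X (Sum.inl x)) = f (pd.coord (algebraMap O A c) ru x) := fun x => by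
    rw [hγ, pd.coord_map, hfc]
  exact ⟨hw, γ, hγs, hγ', mixedRel_le_ker L κ le_rfl hc γ hγ'⟩

end Fermat.Agent.RT.Lifting
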