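import Fermat.Agent.RT.Lifting.Pair
import Fermat.Agent.RT.Lifting.Place
import Fermat.Agent.RT.LowerB.Ordinary

/-!
# The fixed data of the assembly

The places are the primes other than `p` at which the point of the curve is ramified; each carries
the sign of the point.
-/

set_option autoImplicit false

noncomputable section

namespace Fermat.Agent.RT.Lifting

open IsLocalRing Fermat.Agent.Deform
open scoped Classical

variable {O : Type} [CommRing O] [IsDomain O] [IsDiscreteValuationRing O]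
  [IsAdicComplete (maximalIdeal O) O] [Finite (ResidueField O)] [CharZero O]
  {p : ℕ} [Fact p.Prime] [CharP (ResidueField O) p] [Algebra (ZMod p) (ResidueField O)]
  {W : WeierstrassCurve ℤ}

/-- The point is ramified at `v`. -/
def Ramified {Wd : Rigid O} (x : WPoint W p Wd) (v : ℕ) : Prop :=
  ∃ h : v.Prime, haveI : Fact v.Prime := ⟨h⟩
    ∃ τ ∈ (padicPlace v).inertiaSubgroupIn ℚ, x.xw τ ≠ 1

variable (O p W) in
/-- The data fixed for lifting along a semistable curve with irreducible mod `p` representation: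
coefficients, normalised residual matrices, the point of the curve, the places `≠ p` where it
ramifies with their signs, `τ₀` and `Fp` at `p` and the sign character `ε` there. -/
structure Setup where
  hΔ : W.Δ ≠ 0
  semistable : W.IsSemistableModel
  ne_two : p ≠ 2
  irr : W.ModRepIsIrreducible p
  p_small : (p : O) ∈ maximalIdeal O
  roots : ∀ f : Polynomial (ZMod p), f.natDegree = 2 →
    ∃ x : ResidueField O, (f.map (algebraMap (ZMod p) (ResidueField O))).IsRoot x
  c : O
  two_mul_c : 2 * c = 1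
  b : Module.Basis (Fin 2) (ResidueField O) (Core.rhoBar W p hΔ (ResidueField O)).V
  Wd : Rigid O
  rb_eq : Wd.rb = matRes (Core.rhoBar W p hΔ (ResidueField O)) b
  x : WPoint W p Wd
  pd : PlaceData p Wd
  mem_B : ∀ v, v ∈ pd.B ↔ v ≠ p ∧ Ramified x v
  sign : ∀ (v : ℕ) [Fact v.Prime], v ∈ pd.B → v ∉ pd.ram →
    ∀ y ∈ altSet x.xw v (some (pd.s v)), y = 0
  τ₀ : Gal
  τ₀_mem : τ₀ ∈ (padicPlace p).inertiaSubgroupIn ℚ
  τ₀_det : (Wd.rb τ₀).det ≠ 1
  Fp : Gal
  Fp_frob : (padicPlace p).IsFrobeniusAt Fp p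
  ε : Gal → ℤ
  ε_spec : ¬ W.IsGoodPrimeFor p →
    LocalSign ε Fp p ∧ StrictEq x.xw τ₀ (fun σ => (ε σ : O)) p

omit [IsAdicComplete (maximalIdeal O) O] [Finite (ResidueField O)] [CharZero O]
  [CharP (ResidueField O) p] [Algebra (ZMod p) (ResidueField O)] in
theorem ramified_dvd {Wd : Rigid O} (x : WPoint W p Wd) {v : ℕ} (hvp : v ≠ p) (h : Ramified x v) :
    v.Prime ∧ (v : ℤ) ∣ W.Δ := by
  obtain ⟨hv, hram⟩ := h
  have : Fact v.Prime := ⟨hv⟩
  obtain ⟨τ, hτ, hne⟩ := hram
  exact ⟨hv, by_contra fun hd => hne (x.unram v hvp hd τ hτ)⟩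

omit [IsAdicComplete (maximalIdeal O) O] [Finite (ResidueField O)] [CharZero O] in
/-- A matrix reducing entrywise to `M'` has trace and determinant reducing to those of `M'`. -/
private theorem trace_det_residue {M : M2 O} {M' : M2 (ResidueField O)}
    (h : ∀ i j, residue O (M i j) = M' i j) :
    M'.trace = residue O M.trace ∧ M'.det = residue O M.det := by
  simp only [Matrix.trace_fin_two, Matrix.det_fin_two, map_add, map_sub, map_mul, h, and_self]

omit [IsAdicComplete (maximalIdeal O) O] [Finite (ResidueField O)] [CharZero O]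
  [Algebra (ZMod p) (ResidueField O)] in
/-- An element of inertia at `p` inverting the `p`-th roots of unity has residual determinant
`-1 ≠ 1`. -/
private theorem rb_det_ne_one (hp2 : p ≠ 2) (hp : (p : O) ∈ maximalIdeal O) {Wd : Rigid O}
    (x : WPoint W p Wd) {τ₀ : Gal} (hτμ : ∀ μ : AlgebraicClosure ℚ, μ ^ p ^ 1 = 1 → τ₀ μ = μ⁻¹) :
    (Wd.rb τ₀).det ≠ 1 ∧ IsUnit ((x.xw τ₀).det - 1) := by
  have hpr : p.Prime := Fact.out
  have hdet₀ : (Wd.rb τ₀).det = -1 := by
    have h1 := x.det.2 1 τ₀ (p - 1) fun μ hμ => by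
      rw [hτμ μ hμ]
      rw [pow_one] at hμ
      exact inv_eq_of_mul_eq_one_right (by rw [← pow_succ', Nat.sub_add_cancel hpr.one_le, hμ])
    rw [LowerB.det_toRep, pow_one] at h1
    have h3 := (residue_eq_zero_iff _).2 ((Ideal.span_singleton_le_iff_mem _).2 hp h1)
    rw [map_sub, map_natCast, sub_eq_zero] at h3
    rw [(trace_det_residue (x.residue_xw τ₀)).2, h3, Nat.cast_sub hpr.one_le, CharP.cast_eq_zero]
    simp
  have hu₀ : (Wd.rb τ₀).det ≠ 1 := fun h => by
    rw [hdet₀] at h
    have h2' : (2 : ResidueField O) ≠ 0 := by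
      rw [← map_ofNat (residue O)]; exact ((GammaH.isUnit_two (p := p) hp2).map _).ne_zero
    exact h2' (by linear_combination -h)
  refine ⟨hu₀, (mem_maximalIdeal _).not.1 (fun h => hu₀ ?_) |> not_not.1⟩
  rw [(trace_det_residue (x.residue_xw τ₀)).2]
  rw [← residue_eq_zero_iff, map_sub, map_one, sub_eq_zero] at h
  exact h

omit [IsAdicComplete (maximalIdeal O) O] [Finite (ResidueField O)] [CharP (ResidueField O) p]
  [Algebra (ZMod p) (ResidueField O)] in
/-- Every place of `B` carries a sign at which the point is special. -/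
private theorem exists_signs (hp : (p : O) ∈ maximalIdeal O) {Wd : Rigid O} (x : WPoint W p Wd)
    {B : Finset ℕ} (hB : ∀ v, v ∈ B ↔ v ≠ p ∧ Ramified x v) :
    ∃ sg : ℕ → Bool, ∀ (v : ℕ) [Fact v.Prime], v ∈ B →
      ∀ y ∈ altSet x.xw v (some (sg v)), y = 0 := by
  have hsg : ∀ v, ∃ s : Bool, ∀ [Fact v.Prime], v ∈ B → ∀ y ∈ altSet x.xw v (some s), y = 0 := by
    intro v
    by_cases hv : v ∈ B
    · obtain ⟨hvp, hprime, hram⟩ := (hB v).1 hv
      have : Fact v.Prime := ⟨hprime⟩
      obtain ⟨s, hs⟩ := x.exists_sign hvp hp (fun F hF => det_eq_of_frobenius x.det hprime hvp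
        (CFT.Local.padicPlace_liesOverPrime v) hF) hram
      exact ⟨s, fun {_} _ => hs⟩
    · exact ⟨true, fun {_} h => absurd h hv⟩
  choose sg hsg' using hsg
  exact ⟨sg, fun v _ => hsg' v⟩

/-- **The data exist.** -/
theorem exists_setup (hΔ : W.Δ ≠ 0) (hW : W.IsSemistableModel) (hp2 : p ≠ 2)
    (hirr : W.ModRepIsIrreducible p) (hp : (p : O) ∈ maximalIdeal O)
    (hk : ∀ f : Polynomial (ZMod p), f.natDegree = 2 →
      ∃ x : ResidueField O, (f.map (algebraMap (ZMod p) (ResidueField O))).IsRoot x) :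
    Nonempty (Setup O p W) := by
  have hpr : p.Prime := Fact.out
  have h2 : IsUnit (2 : O) := GammaH.isUnit_two (p := p) hp2
  obtain ⟨c, hc⟩ := isUnit_iff_exists_inv.1 h2
  -- the residual matrices and the point of the curve in normal form
  obtain ⟨b, hb⟩ := exists_wpoint (W := W) hΔ hW hp2 hp
  obtain ⟨Wd, hWd⟩ := Deform.exists_rigid _ (Core.isAbsolutelyIrreducible_rhoBar hp2 hirr) b
  obtain ⟨x⟩ := hb Wd hWd
  -- the places `B`, among them those ramified residually (`RamR`); tame generators and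
  -- Frobenius elements at them (`σT`, `φT`)
  let B : Finset ℕ := (W.Δ.natAbs.primeFactors.erase p).filter (Ramified x)
  have hB : ∀ v, v ∈ B ↔ v ≠ p ∧ Ramified x v := fun v => by
    refine ⟨fun h => ⟨(Finset.mem_erase.1 (Finset.mem_filter.1 h).1).1, (Finset.mem_filter.1 h).2⟩,
      fun h => ?_⟩
    obtain ⟨hv, hd⟩ := ramified_dvd x h.1 h.2
    exact Finset.mem_filter.2 ⟨Finset.mem_erase.2 ⟨h.1, Nat.mem_primeFactors.2
      ⟨hv, Int.natCast_dvd.1 hd, Int.natAbs_ne_zero.2 hΔ⟩⟩, h.2⟩
  let RamR : ℕ → Prop := fun v => ∃ h : v.Prime, haveI : Fact v.Prime := ⟨h⟩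
    ∃ τ ∈ (padicPlace v).inertiaSubgroupIn ℚ, Wd.rb τ ≠ 1
  let σT : ℕ → Gal := fun v => if h : v.Prime ∧ v ≠ p then
    haveI : Fact v.Prime := ⟨h.1⟩
    (exists_tame_generator (p := p) hpr h.2).choose else 1
  let φT : ℕ → Gal := fun v => if h : v.Prime then
    haveI : Fact v.Prime := ⟨h⟩
    (Arith.exists_isFrobeniusAt (CFT.Local.padicPlace_liesOverPrime v) h).choose else 1
  have hφ : ∀ (v : ℕ) [Fact v.Prime], (padicPlace v).IsFrobeniusAt (φT v) v := fun v hv => by
    simp only [φT, dif_pos hv.out]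
    exact (Arith.exists_isFrobeniusAt (CFT.Local.padicPlace_liesOverPrime v) hv.out).choose_spec
  have hdet : ∀ (v : ℕ) [Fact v.Prime], v ≠ p → ∀ F, (padicPlace v).IsFrobeniusAt F v →
      (x.xw F).det = v := fun v hv hvp F hF =>
    det_eq_of_frobenius x.det hv.out hvp (CFT.Local.padicPlace_liesOverPrime v) hF
  -- at every place the point is special of some sign `sg v`
  obtain ⟨sg, hsg'⟩ := exists_signs hp x hB
  -- `τ₀` in inertia at `p` inverts the `p`-th roots of unity, so residually `det τ₀ = -1 ≠ 1`;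
  -- with a Frobenius element `F` it carries the equations of strictness at a bad `p`
  obtain ⟨τ₀, hτ₀, hτμ⟩ :=
    Mazur.Eisenstein.exists_inertia_inv (CFT.Local.padicPlace_liesOverPrime p) hpr 1
  obtain ⟨hu₀, hu⟩ := rb_det_ne_one hp2 hp x hτμ
  obtain ⟨F, hF⟩ :=
    Arith.exists_isFrobeniusAt (CFT.Local.padicPlace_liesOverPrime p) hpr
  obtain ⟨ε, hε⟩ : ∃ ε : Gal → ℤ, ¬ W.IsGoodPrimeFor p →
      LocalSign ε F p ∧ StrictEq x.xw τ₀ (fun σ => (ε σ : O)) p := by
    by_cases hg : W.IsGoodPrimeFor p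
    · exact ⟨fun _ => 1, fun h => absurd hg h⟩
    · obtain ⟨ε, h⟩ := x.exists_localSign h2 hg hτ₀ hu hF
      exact ⟨ε, fun _ => h⟩
  -- the data of the places: residually unramified outside them, of trace `± (v + 1)` at them
  let pd : PlaceData p Wd :=
    { B := B
      ram := B.filter RamR
      ram_sub := Finset.filter_subset _ _
      s := sg
      σT := σT
      φT := φT
      prime := fun v hv => ⟨(ramified_dvd x ((hB v).1 hv).1 ((hB v).1 hv).2).1, ((hB v).1 hv).1⟩
      frob := fun v _ _ => hφ v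
      gen := fun v _ hv => by
        have hvp := ((hB v).1 hv).1
        simp only [σT, dif_pos (And.intro (Fact.out : v.Prime) hvp)]
        obtain ⟨h1, π, m, h⟩ := (exists_tame_generator (p := p) hpr hvp).choose_spec
        exact ⟨h1, π, m, h⟩
      rb_ram := fun v _ hv => (Finset.mem_filter.1 hv).2.2
      rb_unram := fun q hq hqr hqp τ hτ => by
        by_contra hne
        by_cases hqB : q ∈ B
        · exact hqr (Finset.mem_filter.2 ⟨hqB, hq.out, τ, hτ, hne⟩)
        · refine hne (x.rb_eq_one (fun τ' hτ' => ?_) hτ)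
          by_contra hne'
          exact hqB ((hB q).2 ⟨hqp, hq.out, τ', hτ', hne'⟩)
      rb_trace := fun v hv hvr => by
        obtain ⟨hvp, hprime, -⟩ := (hB v).1 hv
        have : Fact v.Prime := ⟨hprime⟩
        have h1 := hsg' v hv _ ⟨φT v, hφ v, Or.inl rfl⟩
        rw [sub_eq_zero] at h1
        refine ⟨?_, ?_⟩
        · rw [(trace_det_residue (x.residue_xw (φT v))).1, h1, map_mul, map_intCast, map_add,
            map_natCast, map_one]
        · rw [(trace_det_residue (x.residue_xw (φT v))).2, hdet v hvp _ (hφ v), map_natCast] }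
  exact ⟨{ hΔ, semistable := hW, ne_two := hp2, irr := hirr, p_small := hp, roots := hk, c,
           two_mul_c := hc, b, Wd, rb_eq := hWd, x, pd, mem_B := hB
           sign := fun v _ hv _ => hsg' v hv
           τ₀, τ₀_mem := hτ₀, τ₀_det := hu₀, Fp := F, Fp_frob := hF, ε, ε_spec := hε }⟩

end Fermat.Agent.RT.Lifting
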