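import Fermat.Agent.RT.Lifting.Setup
import Fermat.Agent.RT.Lifting.PairRing
import Fermat.Agent.RT.Lifting.Carayol
import Fermat.Agent.RT.Lifting.LevelsHom

/-!
# The stages of one patching level

The ring of a level is generated by the entries of the pair of the representation at the largest
level and of the point of the curve. It maps to the Hecke algebra of every set of places.
-/

set_option autoImplicit false

noncomputable section

namespace Fermat.Agent.RT.Lifting

open IsLocalRing Fermat.Agent.Deform Fermat.Agent.RT.Glue Fermat.Agent.RT.Modules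
open Fermat.Agent.RT.LowerB (auxSet Data models)
open GaloisReps (HeckeGaloisModel)
open scoped Classical

variable {O : Type} [CommRing O] [IsDomain O] [IsDiscreteValuationRing O]
  [IsAdicComplete (maximalIdeal O) O] [Finite (ResidueField O)] [CharZero O]
  {p : ℕ} [Fact p.Prime] [CharP (ResidueField O) p] [Algebra (ZMod p) (ResidueField O)]
  {W : WeierstrassCurve ℤ}

set_option genSizeOf false
set_option genInjectivity false

namespace Setup

variable (St : Setup O p W)

omit [IsAdicComplete (maximalIdeal O) O] [Finite (ResidueField O)] [CharZero O]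
  [CharP (ResidueField O) p] in
/-- The curve of the setup satisfies the standing conditions at the bad set, in the basis `St.b`. -/
theorem data : Data O p W St.hΔ (badSet p W) St.b :=
  data_badSet St.semistable St.ne_two St.irr St.p_small St.roots

/-- The largest set of places. -/
def top : Finset ℕ := if W.IsGoodPrimeFor p then St.pd.B else insert p St.pd.B

omit [IsAdicComplete (maximalIdeal O) O] [Finite (ResidueField O)] [CharZero O]
  [CharP (ResidueField O) p] in
/-- The largest set of places is `B`, together with `p` if `p` is bad. -/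
theorem mem_top {v : ℕ} : v ∈ St.top ↔ v ∈ St.pd.B ∨ v = p ∧ ¬ W.IsGoodPrimeFor p := by
  unfold top
  split_ifs with h
  · simp [h]
  · simp only [Finset.mem_insert, h, not_false_eq_true, and_true]
    exact or_comm

omit [IsAdicComplete (maximalIdeal O) O] [Finite (ResidueField O)] [CharZero O]
  [CharP (ResidueField O) p] in
/-- The places `B` lie in the largest set. -/
theorem B_subset_top : St.pd.B ⊆ St.top := fun _ h => St.mem_top.2 (Or.inl h)

omit [IsAdicComplete (maximalIdeal O) O] [Finite (ResidueField O)] [CharZero O] in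
/-- A place of the largest set is a prime of the bad set dividing the discriminant. -/
theorem mem_bad_of_mem_top {v : ℕ} (h : v ∈ St.top) :
    v.Prime ∧ v ∈ badSet p W ∧ (v : ℤ) ∣ W.Δ := by
  rcases St.mem_top.1 h with h | ⟨rfl, h⟩
  · obtain ⟨hv, hd⟩ := ramified_dvd St.x ((St.mem_B v).1 h).1 ((St.mem_B v).1 h).2
    exact ⟨hv, mem_badSet St.hΔ hv hd, hd⟩
  · exact ⟨Fact.out, Finset.mem_insert_self _ _, not_not.1 h⟩

omit [IsAdicComplete (maximalIdeal O) O] [Finite (ResidueField O)] [CharZero O]
  [CharP (ResidueField O) p] in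
theorem notMem_B {q : ℕ} (h : q ∉ St.pd.B) (hqp : q ≠ p) (hq : q.Prime) :
    haveI : Fact q.Prime := ⟨hq⟩
    ∀ τ ∈ (padicPlace q).inertiaSubgroupIn ℚ, St.x.xw τ = 1 := by
  have : Fact q.Prime := ⟨hq⟩
  intro τ hτ
  by_contra hne
  exact h ((St.mem_B q).2 ⟨hqp, hq, τ, hτ, hne⟩)

omit [IsAdicComplete (maximalIdeal O) O] [Finite (ResidueField O)] [CharZero O]
  [CharP (ResidueField O) p] in
theorem span_rb : Submodule.span (ResidueField O) (Set.range St.Wd.rb) = ⊤ := by
  rw [St.rb_eq]
  exact span_matrix_eq_top _ St.data.absIrr St.b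

end Setup

variable (St : Setup O p W)

/-- The auxiliary primes of one level, outside `ls`, with their character and the bound. -/
structure AuxData (ls : Finset ℕ) (r n : ℕ) where
  qv : Fin r → ℕ
  isAux : IsAux O p W St.hΔ (badSet p W) St.b n qv
  avoid : ∀ i, qv i ∉ ls
  ψ₀ : (ZMod (auxProd qv))ˣ →* Assembly.LevelGroup Empty p r n
  surj : Function.Surjective ψ₀
  aX : Fin r → Gal
  gen : AuxGen qv ψ₀ aX
  bound : ∀ (P : Pattern.Pat), P.S ⊆ St.pd.B → P.Compat p St.Wd.rb →
    ∀ (R : Type) [CommRing R] [IsLocalRing R] [IsNoetherianRing R] [Algebra O R]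
      (h : IsResAlg O R) (ru : Gal →* M2 R) (hc : IsCont ru), Lifts St.Wd h ru → IsNormal St.Wd ru →
      Algebra.adjoin O (entries ru) = ⊤ → P.Holds p (Set.range qv) ru hc →
      ∀ (C : Type) (x : C → R), P.KillsScalar St.Wd h ru x →
        Module.finrank (ResidueField O) (Assembly.killedDer h x) + P.weight ≤ r

omit [IsAdicComplete (maximalIdeal O) O] [CharZero O] in
theorem Setup.hasPatternBound : Pattern.HasPatternBound St.Wd p := by
  refine Pattern.hasPatternBound St.ne_two (St.rb_eq ▸ St.data.twHyp)
    (St.rb_eq ▸ CFT.TWPrimes.finiteLevel_matRes _ St.b) fun σ a ha => ?_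
  rw [St.rb_eq]
  exact (LinearMap.det_toMatrix St.b _).trans (Core.det_rhoBar ha)

omit [IsAdicComplete (maximalIdeal O) O] [CharZero O] in
/-- **The levels exist.** -/
theorem exists_auxData (ls : Finset ℕ) (hls : ∀ ℓ ∈ ls, ℓ.Prime) :
    ∃ r₀ : ℕ, ∀ r, r₀ ≤ r → ∀ n, Nonempty (AuxData St ls r n) := by
  set S := badSet p W ∪ ls
  obtain ⟨r₀, hr₀⟩ := St.hasPatternBound S
    (fun q hq => by
      rcases Finset.mem_union.1 hq with h | h
      · rcases Finset.mem_insert.1 h with rfl | h
        exacts [Fact.out, Nat.prime_of_mem_primeFactors h]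
      · exact hls q h)
    (Finset.mem_union_left _ (Finset.mem_insert_self _ _))
    fun q hq hqS τ hτ => by
      have hqp : q ≠ p := fun h => hqS (h ▸ Finset.mem_union_left _ (Finset.mem_insert_self _ _))
      refine St.pd.rb_unram q (fun h => hqS (Finset.mem_union_left _ ?_)) hqp τ hτ
      exact (St.mem_bad_of_mem_top (St.B_subset_top (St.pd.ram_sub h))).2.1
  refine ⟨r₀, fun r hr n => ?_⟩
  obtain ⟨qv, hinj, hq, htw, hb⟩ := hr₀ r hr n
  have hA : IsAux O p W St.hΔ (badSet p W) St.b n qv :=
    ⟨hinj, fun i => (hq i).1, fun i h => (hq i).2.1 (Finset.mem_union_left _ h),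
      fun i => (hq i).2.2, fun i A hA φ hφ => by
        have h := (htw i A hA φ hφ).2.1
        rwa [St.rb_eq] at h⟩
  obtain ⟨ψ₀, aX, hs, hg⟩ := exists_auxPsi St.ne_two n (fun i => (hq i).1) hinj fun i => (hq i).2.2
  exact ⟨⟨qv, hA, fun i h => (hq i).2.1 (Finset.mem_union_right _ h), ψ₀, hs, aX, hg,
    fun P hP => hb P (hP.trans fun v hv => Finset.mem_union_left _
      (St.mem_bad_of_mem_top (St.B_subset_top hv)).2.1)⟩⟩

variable {St} {ls : Finset ℕ} {r n : ℕ}

/-- A set of places with its level, Hecke module and normalised representation. -/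
structure Stage (A : AuxData St ls r n) (T : Finset ℕ) where
  L : ℕ
  [ne : NeZero L]
  ψ : (ZMod L)ˣ →* Assembly.LevelGroup Empty p r n
  lev : Lev (badSet p W) A.ψ₀ T L ψ
  hyp : Hyp p ψ (excAux (badSet p W) A.qv) (Core.abar W (ResidueField O))
  d_pos : 0 < (heckeModule hyp).d
  [loc : IsLocalRing (heckeModule hyp).algebra]
  [locHom : IsLocalHom (algebraMap O (heckeModule hyp).algebra)]
  pt : ∀ θ : (heckeModule hyp).algebra →ₐ[O] KBar O,
    Point (p := p) (heckeModule hyp) hyp.mem_of_dvd θ.toRingHom
  G : Glued (models p) pt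
  residual : G.rep.residual.IsEquiv ((Core.rhoBar W p St.hΔ (ResidueField O)).baseChangeAlong
    (ResidueField.map (algebraMap O (heckeModule hyp).algebra)))
  ru : Gal →* M2 (heckeModule hyp).algebra
  cont : IsCont ru
  resAlg : IsResAlg O (heckeModule hyp).algebra
  lifts : Lifts St.Wd resAlg ru
  normal : IsNormal St.Wd ru
  spec : ∀ σ, (ru σ).trace = (G.R σ).trace ∧ (ru σ).det = (G.R σ).det ∧ (G.R σ = 1 → ru σ = 1)
  span : Submodule.span (heckeModule hyp).algebra (Set.range ru) = ⊤
  equiv : G.rep.IsEquiv (toRep ru cont)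

attribute [instance] Stage.ne Stage.loc Stage.locHom

/-- The Hecke algebra of a stage. -/
abbrev Stage.alg {A : AuxData St ls r n} {T : Finset ℕ} (S : Stage A T) : Type :=
  (heckeModule S.hyp).algebra

/-- The module of a stage. -/
abbrev Stage.M {A : AuxData St ls r n} {T : Finset ℕ} (S : Stage A T) : Type :=
  (heckeModule S.hyp).M

variable (A : AuxData St ls r n)

/-- Finiteness over `O` of a commutative algebra, for the structures found by instance search. -/
abbrev FinOver (O R : Type) [CommRing O] [CommRing R] [Algebra O R] : Prop := Module.Finite O R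

/-- A stage has a finite Hecke algebra. -/
theorem Stage.finite_alg {A : AuxData St ls r n} {T : Finset ℕ} (S : Stage A T) :
    FinOver O S.alg :=
  inferInstanceAs (Module.Finite O (heckeModule S.hyp).algebra)

attribute [local instance] Stage.finite_alg

/-- A stage at any level of a set of places at which the curve is residually modular. -/
theorem exists_stage_of_lev {T : Finset ℕ} {L : ℕ} [NeZero L]
    {ψ : (ZMod L)ˣ →* Assembly.LevelGroup Empty p r n} (hl : Lev (badSet p W) A.ψ₀ T L ψ)
    (hmod : W.IsResiduallyModularOfLevel p (∏ x ∈ T, x)) :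
    ∃ S : Stage A T, S.L = L ∧ HEq S.ψ ψ := by
  have hΔp := Assembly.isPGroup_levelGroup (V := Empty) (r := r) p n
  have h := hl.hyp St.data hΔp A.surj
  have hd := hl.pos St.data h hmod
  have := isLocalRing_algebra (heckeModule h) St.p_small hΔp hd
  have := isLocalHom_algebraMap (heckeModule h)
  obtain ⟨pt, G, hG⟩ := Lev.exists_glued St.data hΔp h
  obtain ⟨ru, hc, hlifts, hn, hspec, hspan, he⟩ :=
    LowerB.exists_normalRep St.p_small hΔp G hG St.rb_eq
  exact ⟨⟨L, ψ, hl, h, hd, pt, G, hG, ru, hc, _, hlifts, hn, hspec, hspan, he⟩, rfl, HEq.rfl⟩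

/-- A stage of a set of places at which the curve is residually modular. -/
theorem exists_stage {T : Finset ℕ} (hT : T ⊆ St.top)
    (hmod : W.IsResiduallyModularOfLevel p (∏ x ∈ T, x)) : Nonempty (Stage A T) := by
  obtain ⟨L, hL, ψ, hl⟩ := Lev.exists_lev (S₀ := badSet p W) A.ψ₀
    (fun q hq => A.isAux.prime_of_mem hq) fun x hx =>
      ⟨(St.mem_bad_of_mem_top (hT hx)).1, (St.mem_bad_of_mem_top (hT hx)).2.1⟩
  exact (exists_stage_of_lev A hl hmod).nonempty

namespace Stage

variable {A} {T T' : Finset ℕ}

/-- Larger stages map onto smaller ones, carrying the normalised representations. -/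
theorem map_trace_lifts (S : Stage A T) (S' : Stage A T') (hsub : T ⊆ T') :
    ∃ f : S'.alg →ₐ[O] S.alg, Function.Surjective f ∧
      (∀ δ, f (diaA _ δ) = diaA _ δ) ∧
      (∀ (x : ℕ) (hx : x.Prime) (hxS : x ∉ excAux (badSet p W) A.qv),
        f (TA _ hx hxS) = TA _ hx hxS) ∧
      mapM (f : S'.alg →+* S.alg) S'.ru = S.ru := by
  obtain ⟨f, hd, hT, hs⟩ := S.lev.exists_lowerHom St.data hsub S'.lev S.hyp S'.hyp
  have hloc : IsLocalHom (f : S'.alg →+* S.alg) := IsLocalHom.of_surjective _ hs
  refine ⟨f, hs, hd, hT, eq_of_trace_eq (S'.lifts.map S.resAlg f hloc) S.lifts (S'.normal.map f)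
    S.normal (Glue.isUnit_two St.p_small St.ne_two)
      (span_eq_top_of_lifts (S'.lifts.map S.resAlg f hloc)
        St.span_rb)
    S.span fun σ => ?_⟩
  rw [(S.spec σ).1, ← S.lev.map_trace St.data hsub S'.lev f hd hT S.G S'.G σ, ← (S'.spec σ).1]
  exact (AddMonoidHom.map_trace (f : S'.alg →+* S.alg).toAddMonoidHom _).symm

end Stage

variable {A}

/-- The ring of a level. -/
abbrev Stage.Ring (P : Stage A St.top) : Type := PairRing P.lifts St.x.lifts

/-- Shortcut: keeps the unfolding of the ring of a level out of the terms. -/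
scoped instance (priority := 10000) stageRingCommRing (P : Stage A St.top) : CommRing P.Ring :=
  inferInstance

/-- Shortcut, for the same reason as `stageRingCommRing`. -/
scoped instance (priority := 10000) stageRingAlgebra (P : Stage A St.top) : Algebra O P.Ring :=
  inferInstance

/-- Shortcut, for the same reason as `stageRingCommRing`. -/
scoped instance (priority := 10000) stageRingLocal (P : Stage A St.top) : IsLocalRing P.Ring :=
  inferInstance

namespace Stage

variable (P : Stage A St.top)

/-- The lift over the ring of a level. -/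
def rho : Gal →* M2 P.Ring := PairRing.rep P.lifts St.x.lifts

/-- The projection to the largest stage. -/
def toTop : P.Ring →ₐ[O] P.alg := PairRing.fst P.lifts St.x.lifts

/-- The projection to the point. -/
def toPoint : P.Ring →ₐ[O] O := PairRing.snd P.lifts St.x.lifts

theorem mapM_toTop : mapM (P.toTop : P.Ring →+* P.alg) P.rho = P.ru := PairRing.mapM_fst _ _

/-- The representation of a stage specialises to that of the point of the curve. -/
theorem mapM_toPoint : mapM (P.toPoint : P.Ring →+* O) P.rho = St.x.xw := PairRing.mapM_snd _ _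

theorem isLocalHom_toTop : IsLocalHom (P.toTop : P.Ring →+* P.alg) := PairRing.isLocalHom_fst _ _

theorem isLocalHom_toPoint : IsLocalHom (P.toPoint : P.Ring →+* O) := PairRing.isLocalHom_snd _ _

theorem ring_eq_zero {a : P.Ring} (h₁ : P.toTop a = 0) (h₂ : P.toPoint a = 0) : a = 0 :=
  PairRing.eq_zero _ _ h₁ h₂

theorem resAlg_ring : IsResAlg O P.Ring := PairRing.resAlg _ _

theorem det_top : (toRep P.ru P.cont).DetIsCyclotomic p := by
  refine ⟨natCast_mem St.p_small, fun m σ a ha => ?_⟩
  rw [LowerB.det_toRep, (P.spec σ).2.1, Nat.cast_pow]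
  exact P.G.det_congr m σ a ha

/-- **The lift of a level.** -/
theorem liftData : LiftData St.pd (Set.range A.qv) P.rho := by
  refine
    { res := P.resAlg_ring
      cont := PairRing.cont _ _ P.cont St.x.cont
      lifts := PairRing.lifts _ _
      normal := PairRing.normal _ _ P.normal St.x.normal
      gen := PairRing.gen _ _
      det := PairRing.det _ _ St.p_small P.cont St.x.cont P.det_top St.x.det _
      unip := fun v hv hvB τ hτ => ?_
      unram := fun q hq hqB hqp hqQ τ hτ => ?_ }
  · have hvp := (St.pd.prime v hvB).2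
    have htr : ∀ {C : Type} [CommRing C] (φ : P.Ring →+* C),
        φ (P.rho τ).trace = (mapM φ P.rho τ).trace := fun φ =>
      AddMonoidHom.map_trace φ.toAddMonoidHom _
    refine sub_eq_zero.1 (P.ring_eq_zero ?_ ?_)
    · rw [map_sub, map_ofNat, ← RingHom.coe_coe, htr, P.mapM_toTop, (P.spec τ).1,
        P.lev.trace_inertia P.G (St.B_subset_top hvB) hvp
          (CFT.Local.padicPlace_liesOverPrime v) hτ, sub_self]
    · rw [map_sub, map_ofNat, ← RingHom.coe_coe, htr, P.mapM_toPoint, (St.x.unip v hvp τ hτ).1,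
        sub_self]
  · have hqT : q ∉ St.top := fun h => (St.mem_top.1 h).elim hqB fun h => hqp h.1
    have hqQ' : q ∉ auxSet A.qv := fun h => hqQ <| by
      obtain ⟨i, -, hi⟩ := Finset.mem_image.1 h
      exact ⟨i, hi⟩
    refine sub_eq_zero.1 (Matrix.ext fun i j => P.ring_eq_zero ?_ ?_)
    · show (P.toTop : P.Ring →+* P.alg).mapMatrix (P.rho τ - 1) i j = 0
      rw [map_sub, map_one, show (P.toTop : P.Ring →+* P.alg).mapMatrix (P.rho τ) = P.ru τ from
        DFunLike.congr_fun P.mapM_toTop τ, (P.spec τ).2.2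
          (P.lev.apply_eq_one P.G hq.out hqT hqQ' hqp (CFT.Local.padicPlace_liesOverPrime q) hτ),
        sub_self, Matrix.zero_apply]
    · show (P.toPoint : P.Ring →+* O).mapMatrix (P.rho τ - 1) i j = 0
      rw [map_sub, map_one, show (P.toPoint : P.Ring →+* O).mapMatrix (P.rho τ) = St.x.xw τ from
        DFunLike.congr_fun P.mapM_toPoint τ, St.notMem_B hqB hqp hq.out τ hτ, sub_self,
        Matrix.zero_apply]

/-- **The map to a stage.** -/
theorem exists_toStage {T : Finset ℕ} (S : Stage A T) (hT : T ⊆ St.top) :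
    ∃ g : P.Ring →ₐ[O] S.alg,
      IsLocalHom (g : P.Ring →+* S.alg) ∧ mapM (g : P.Ring →+* S.alg) P.rho = S.ru := by
  obtain ⟨f, hs, -, -, hf⟩ := S.map_trace_lifts P hT
  have := IsLocalHom.of_surjective (f : P.alg →+* S.alg) hs
  have := P.isLocalHom_toTop
  refine ⟨f.comp P.toTop, ⟨fun a ha => isUnit_of_map_unit (P.toTop : P.Ring →+* P.alg) a
    (isUnit_of_map_unit (f : P.alg →+* S.alg) _ ha)⟩, ?_⟩
  refine Eq.trans ?_ ((congrArg (mapM (f : P.alg →+* S.alg)) P.mapM_toTop).trans hf)
  rw [mapM_mapM]
  rfl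

/-- Maps out of the ring are determined by the lift. -/
theorem ring_hom_ext {B : Type} [CommRing B] [Algebra O B] {f g : P.Ring →ₐ[O] B}
    (h : mapM (f : P.Ring →+* B) P.rho = mapM (g : P.Ring →+* B) P.rho) : f = g := by
  refine AlgHom.ext_of_adjoin_eq_top P.liftData.gen ?_
  rintro _ ⟨⟨σ, i, j⟩, rfl⟩
  exact congrFun (congrFun (DFunLike.congr_fun h σ) i) j

end Stage

end Fermat.Agent.RT.Lifting
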