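import Fermat.Agent.RT.Assembly.Tame
import Fermat.Agent.Deform.Matrix
import Fermat.Agent.CFT.Local.Global
import Mathlib

/-!
# Unipotent inertia away from `p`

Let inertia at `v ≠ p` have trace `2` and determinant `1`, with `p` in the maximal ideal. Then the
tame relation holds, and if `σ` in inertia multiplies some number of valuation `m / p` by a
residually nontrivial `p`-th root of unity, inertia is trivial modulo every ideal modulo which `σ`
is.
-/

set_option autoImplicit false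

noncomputable section

namespace Fermat.Agent.RT.Lifting

open IsLocalRing Fermat.Agent.Deform Fermat.Agent.RT.Assembly Fermat.Agent.Arith
open Fermat.Agent.EC.Reduction (res)

variable {v p : ℕ}

/-- An inertia element moving a `p`-th root of `v`. -/
theorem exists_tame_generator [Fact v.Prime] (hp : p.Prime) (hvp : v ≠ p) :
    ∃ σ ∈ (padicPlace v).inertiaSubgroupIn ℚ, ∃ (π : QBar) (m : ℤ), π ≠ 0 ∧
      Mazur.Eisenstein.ordAt (padicPlace v) v π = m / p ∧
      res (padicPlace v) (σ π / π) ≠ 1 ∧ res (padicPlace v) (σ π / π) ^ p = 1 := by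
  have hv : v.Prime := Fact.out
  have hA := CFT.Local.padicPlace_liesOverPrime v
  obtain ⟨π, hπ⟩ := IsAlgClosed.exists_pow_nat_eq (v : QBar) hp.pos
  have hπ0 : π ≠ 0 := fun h => hv.ne_zero (by
    rw [h, zero_pow hp.ne_zero] at hπ; exact_mod_cast hπ.symm)
  have hord : (p : ℚ) * Mazur.Eisenstein.ordAt (padicPlace v) v π = 1 := by
    rw [← Mazur.Eisenstein.ordAt_pow hA hv hπ0, hπ, Mazur.Eisenstein.ordAt_prime hA hv]
  obtain ⟨σ, hσ, hne⟩ : ∃ σ ∈ (padicPlace v).inertiaSubgroupIn ℚ, σ π ≠ π := by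
    by_contra hall
    push Not at hall
    obtain ⟨k, hk⟩ := Mazur.Eisenstein.exists_int_ordAt hA hv hπ0 hall
    rw [hk] at hord
    have h1 : (p : ℤ) ∣ 1 := ⟨k, by exact_mod_cast hord.symm⟩
    exact hp.not_dvd_one (Int.natCast_dvd_natCast.mp h1)
  have hpow : (σ π / π) ^ p = 1 := by
    rw [div_pow, ← map_pow, hπ, map_natCast, div_self (Nat.cast_ne_zero.mpr hv.ne_zero)]
  obtain ⟨hmem, -⟩ := EC.Rep.apply_div_self_mem hσ hπ0
  refine ⟨σ, hσ, π, 1, hπ0, ?_, fun h1 => hne ?_, ?_⟩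
  · rw [Int.cast_one, eq_div_iff (Nat.cast_ne_zero.mpr hp.ne_zero), mul_comm]
    exact hord
  · refine (div_eq_one_iff_eq hπ0).mp (root_congr hA hv hpow (one_pow p)
      (fun h => hvp ((Nat.prime_dvd_prime_iff_eq hv hp).mp h)) ?_)
    refine (EC.Reduction.res_eq_zero_iff (sub_mem hmem (padicPlace v).one_mem)).mp ?_
    rw [EC.Reduction.res_sub hmem (padicPlace v).one_mem, h1, EC.Reduction.res_one, sub_self]
  · rw [← EC.Reduction.res_pow hmem, hpow, EC.Reduction.res_one]

theorem exists_addHom_aux [Fact p.Prime] {Q : Type} [AddCommGroup Q] [Module (ZMod p) Q] {x : Q}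
    (hx : x ≠ 0) : ∃ f : Q →+ ZMod p, f x ≠ 0 := by
  have : Module.Free (ZMod p) Q := Module.Free.of_divisionRing (K := ZMod p) (V := Q)
  let b := Module.Free.chooseBasis (ZMod p) Q
  by_contra hall
  push Not at hall
  exact hx (b.ext_elem fun i => by simpa using hall (b.coord i).toAddMonoidHom)

/-- A group killed by `p` has enough characters with values in `ZMod p`. -/
theorem exists_addHom_ne_zero [Fact p.Prime] {Q : Type} [AddCommGroup Q]
    (hQ : ∀ x : Q, p • x = 0) {x : Q} (hx : x ≠ 0) : ∃ f : Q →+ ZMod p, f x ≠ 0 :=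
  @exists_addHom_aux p _ Q _ (AddCommGroup.zmodModule hQ) x hx

/-- A nontrivial commutative group killed by a power of `p` has a nonzero character to `ZMod p`. -/
private theorem exists_hom_zmod_ne_zero [Fact p.Prime] {G : Type} [CommGroup G] {K : ℕ}
    (htor : ∀ g : G, g ^ p ^ K = 1) {g₀ : G} (hg₀ : g₀ ≠ 1) :
    ∃ (f : Additive G →+ ZMod p) (g : Additive G), f g ≠ 0 := by
  let N : AddSubgroup (Additive G) := (powMonoidHom p : G →* G).range.toAddSubgroup
  -- not every element is a `p`-th power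
  obtain ⟨g, hg⟩ : ∃ g : Additive G, g ∉ N := by
    by_contra hall
    push Not at hall
    have hdiv : ∀ (i : ℕ) (g : G), ∃ h : G, g = h ^ p ^ i := by
      intro i
      induction i with
      | zero => intro g; exact ⟨g, by simp⟩
      | succ i ih =>
        intro g
        obtain ⟨h, rfl⟩ := ih g
        obtain ⟨h', hh'⟩ : Additive.ofMul h ∈ N := hall _
        exact ⟨h', by rw [show h = h' ^ p from hh'.symm, ← pow_mul, pow_succ']⟩
    obtain ⟨h, hh⟩ := hdiv K g₀
    exact hg₀ (hh.trans (htor h))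
  have hQp : ∀ x : Additive G ⧸ N, p • x = 0 := fun x => by
    obtain ⟨g, rfl⟩ := QuotientAddGroup.mk'_surjective N x
    rw [← map_nsmul, QuotientAddGroup.mk'_apply, QuotientAddGroup.eq_zero_iff]
    exact ⟨Additive.toMul g, rfl⟩
  obtain ⟨f, hf⟩ := exists_addHom_ne_zero hQp (x := QuotientAddGroup.mk' N g)
    fun h => hg ((QuotientAddGroup.eq_zero_iff _).mp h)
  exact ⟨f.comp (QuotientAddGroup.mk' N), g, hf⟩

section FiniteLevel

variable {A : ValuationSubring QBar} {M : Type} [Monoid M] (ρ : GQ →* M)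
  (hρ : ∃ L : IntermediateField ℚ QBar, FiniteDimensional ℚ L ∧
    ∀ σ : GQ, (∀ x ∈ L, σ x = x) → ρ σ = 1)
  (hp : p.Prime) (hA : A.LiesOverPrime v) (hv : v.Prime) (hvp : v ≠ p) {K : ℕ}
  (hexp : ∀ τ ∈ A.inertiaSubgroupIn ℚ, ρ τ ^ p ^ K = 1)

include hρ hp hA hv hvp hexp in
theorem eq_one_of_tameTrivial_of_pow {ν : GQ} (hν : ν ∈ A.inertiaSubgroupIn ℚ)
    (htriv : TameTrivial A ν) : ρ ν = 1 :=
  eq_one_of_tameTrivial ρ hρ hA hv hν htriv
    (fun h => hvp ((Nat.prime_dvd_prime_iff_eq hv hp).mp (hv.dvd_of_dvd_pow h))) (hexp ν hν)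

include hρ hp hA hv hvp hexp in
/-- The image of inertia is commutative. -/
theorem inertia_map_comm {σ τ : GQ} (hσ : σ ∈ A.inertiaSubgroupIn ℚ)
    (hτ : τ ∈ A.inertiaSubgroupIn ℚ) : ρ σ * ρ τ = ρ τ * ρ σ := by
  have h := eq_one_of_tameTrivial_of_pow ρ hρ hp hA hv hvp hexp
    (mul_mem (mul_mem (mul_mem hσ hτ) (inv_mem hσ)) (inv_mem hτ))
    (fun z hz => EC.Rep.res_commutator_apply_div_self hσ hτ hz)
  calc ρ σ * ρ τ = ρ (σ * τ * σ⁻¹ * τ⁻¹ * (τ * σ)) := by rw [← map_mul]; congr 1; group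
    _ = ρ τ * ρ σ := by rw [map_mul, h, one_mul, map_mul]

include hρ hp hA hv hvp hexp in
/-- Frobenius raises inertia to the power `v`. -/
theorem frobenius_map_conj {φ σ : GQ} (hφ : A.IsFrobeniusAt φ v)
    (hσ : σ ∈ A.inertiaSubgroupIn ℚ) : ρ φ * ρ σ = ρ σ ^ v * ρ φ := by
  obtain ⟨h1, h2⟩ := tameTrivial_frobenius_conj hφ hσ
  have h := eq_one_of_tameTrivial_of_pow ρ hρ hp hA hv hvp hexp h1 h2
  calc ρ φ * ρ σ = ρ (φ * σ * φ⁻¹ * (σ ^ v)⁻¹ * (σ ^ v * φ)) := by
        rw [← map_mul]; congr 1; group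
    _ = ρ σ ^ v * ρ φ := by rw [map_mul, h, one_mul, map_mul, map_pow]

include hρ hp hA hv hvp hexp in
/-- The image of inertia is trivial if that of a generator is. -/
theorem inertia_map_eq_one {σ : GQ} (hσ : σ ∈ A.inertiaSubgroupIn ℚ) {π : QBar} (hπ : π ≠ 0)
    {m : ℤ} (hord : Mazur.Eisenstein.ordAt A v π = m / p) (hπσ : res A (σ π / π) ≠ 1)
    (hπσp : res A (σ π / π) ^ p = 1) (h1 : ρ σ = 1) :
    ∀ τ ∈ A.inertiaSubgroupIn ℚ, ρ τ = 1 := by
  classical
  have := Fact.mk hp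
  -- the image of inertia is commutative of exponent `p ^ K`; if nontrivial it has a character to
  -- `ZMod p`, whose pull-back is nonzero on inertia and kills `σ`
  let G := ((A.inertiaSubgroupIn ℚ).map ρ.toHomUnits)
  have hcomm : ∀ a b : G, a * b = b * a := by
    rintro ⟨_, a, ha, rfl⟩ ⟨_, b, hb, rfl⟩
    refine Subtype.ext (Units.ext ?_)
    exact inertia_map_comm ρ hρ hp hA hv hvp hexp ha hb
  let : CommGroup G := { (inferInstance : Group G) with mul_comm := hcomm }
  have htor : ∀ g : G, g ^ p ^ K = 1 := by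
    rintro ⟨_, a, ha, rfl⟩
    exact Subtype.ext (Units.ext (by simpa using hexp a ha))
  intro τ hτ
  by_contra hne
  obtain ⟨f, x, hf⟩ := exists_hom_zmod_ne_zero htor
    (g₀ := (⟨ρ.toHomUnits τ, τ, hτ, rfl⟩ : G))
    fun h => hne (congrArg (fun g : G => ((g : Mˣ) : M)) h)
  let c : GQ → ZMod p := fun g =>
    if hg : g ∈ A.inertiaSubgroupIn ℚ then
      f (Additive.ofMul ⟨ρ.toHomUnits g, g, hg, rfl⟩) else 0
  have hc : ∀ g ∈ A.inertiaSubgroupIn ℚ, ∀ h ∈ A.inertiaSubgroupIn ℚ,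
      c (g * h) = c g + c h := fun g hg h hh => by
    simp only [c, dif_pos hg, dif_pos hh, dif_pos (mul_mem hg hh)]
    rw [← map_add f]
    congr 1
    rw [← ofMul_mul]
    congr 1
    exact Subtype.ext (map_mul ρ.toHomUnits g h)
  have hfix : ∀ g, ρ g = 1 → c g = 0 := fun g hg => by
    simp only [c]
    split_ifs with hmem
    · rw [show (⟨ρ.toHomUnits g, g, hmem, rfl⟩ : G) = 1 from Subtype.ext (Units.ext hg)]
      simp
    · rfl
  obtain ⟨L, hL, hL'⟩ := hρ
  have h0 := eq_zero_of_apply_eq_zero hp hA hv hvp c hc ⟨L, hL, fun g hg => hfix g (hL' g hg)⟩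
    hσ hπ hord hπσ hπσp (hfix σ h1)
  obtain ⟨⟨u, a, ha, rfl⟩, rfl⟩ : ∃ g' : G, Additive.ofMul g' = x := ⟨Additive.toMul x, rfl⟩
  have h1 := h0 a ha
  exact hf ((dif_pos ha).symm.trans h1)

end FiniteLevel

section Adic

variable [Fact v.Prime] {R : Type} [CommRing R] [IsLocalRing R] [IsNoetherianRing R]
  {ru : Gal →* M2 R} (hc : IsCont ru) [hp : Fact p.Prime] (hvp : v ≠ p)
  (hpm : (p : R) ∈ maximalIdeal R)
  (hu : ∀ τ ∈ (padicPlace v).inertiaSubgroupIn ℚ, (ru τ).trace = 2 ∧ (ru τ).det = 1)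

omit [IsLocalRing R] [IsNoetherianRing R] in
theorem sub_one_sq_eq_zero {X : M2 R} (ht : X.trace = 2) (hd : X.det = 1) :
    (X - 1) * (X - 1) = 0 := by
  rw [Matrix.trace_fin_two] at ht
  rw [Matrix.det_fin_two] at hd
  ext i j
  fin_cases i <;> fin_cases j <;> simp [Matrix.mul_apply, Fin.sum_univ_two] <;> grind

omit [IsLocalRing R] [IsNoetherianRing R] in
theorem pow_eq_of_sq_zero {X : M2 R} (h : (X - 1) * (X - 1) = 0) (n : ℕ) :
    X ^ n = 1 + (n : R) • (X - 1) := by
  induction n with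
  | zero => simp
  | succ n ih =>
    rw [pow_succ, ih]
    conv_lhs => arg 2; rw [← add_sub_cancel 1 X]
    rw [mul_add, mul_one, add_mul, one_mul, smul_mul_assoc, h, smul_zero, add_zero, add_assoc,
      Nat.cast_succ, add_smul, one_smul]

/-- The images of a congruence level. -/
def levelHom (ru : Gal →* M2 R) (j : ℕ) : Gal →* M2 (R ⧸ maximalIdeal R ^ j) :=
  (Ideal.Quotient.mk (maximalIdeal R ^ j)).mapMatrix.toMonoidHom.comp ru

include hc in
omit [IsNoetherianRing R] in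
theorem levelHom_finite (j : ℕ) : ∃ L : IntermediateField ℚ QBar, FiniteDimensional ℚ L ∧
    ∀ σ : GQ, (∀ x ∈ L, σ x = x) → levelHom ru j σ = 1 := by
  obtain ⟨L, hL, h⟩ := hc j
  refine ⟨L, hL, fun σ hσ => Matrix.ext fun i k => ?_⟩
  have := Ideal.Quotient.eq.mpr (h σ hσ i k)
  simp only [levelHom, MonoidHom.comp_apply, RingHom.toMonoidHom_eq_coe, MonoidHom.coe_coe,
    RingHom.mapMatrix_apply, Matrix.map_apply, this]
  rcases eq_or_ne i k with rfl | hik <;> simp [*]

include hpm hu in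
omit [IsNoetherianRing R] hp in
theorem levelHom_exp (j : ℕ) : ∀ τ ∈ (padicPlace v).inertiaSubgroupIn ℚ,
    levelHom ru j τ ^ p ^ j = 1 := by
  intro τ hτ
  refine Matrix.ext fun i k => ?_
  rw [levelHom, MonoidHom.comp_apply, RingHom.toMonoidHom_eq_coe, MonoidHom.coe_coe, ← map_pow,
    pow_eq_of_sq_zero (sub_one_sq_eq_zero (hu τ hτ).1 (hu τ hτ).2), RingHom.mapMatrix_apply,
    Matrix.map_apply]
  have h0 : Ideal.Quotient.mk (maximalIdeal R ^ j) ((p ^ j : ℕ) : R) = 0 := by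
    rw [Ideal.Quotient.eq_zero_iff_mem, Nat.cast_pow]
    exact Ideal.pow_mem_pow hpm j
  rw [Matrix.add_apply, Matrix.smul_apply, smul_eq_mul, map_add, map_mul, h0, zero_mul, add_zero]
  rcases eq_or_ne i k with rfl | hik <;> simp [*]

include hc hvp hpm hu in
/-- The tame relation. -/
theorem frobenius_mul_sub_one {φ τ : Gal} (hφ : (padicPlace v).IsFrobeniusAt φ v)
    (hτ : τ ∈ (padicPlace v).inertiaSubgroupIn ℚ) :
    ru φ * (ru τ - 1) = (v : R) • ((ru τ - 1) * ru φ) := by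
  have hsq := sub_one_sq_eq_zero (hu τ hτ).1 (hu τ hτ).2
  refine Matrix.ext fun i k => sub_eq_zero.mp ((inferInstance :
    IsHausdorff (maximalIdeal R) R).haus _ fun j => ?_)
  rw [SModEq.zero, smul_eq_mul, Ideal.mul_top, ← Ideal.Quotient.eq_zero_iff_mem, map_sub,
    sub_eq_zero]
  have h := frobenius_map_conj (levelHom ru j) (levelHom_finite hc j) hp.out
    (CFT.Local.padicPlace_liesOverPrime v) Fact.out hvp (levelHom_exp hpm hu j) hφ hτ
  simp only [levelHom, MonoidHom.comp_apply, RingHom.toMonoidHom_eq_coe, MonoidHom.coe_coe,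
    ← map_pow, ← map_mul] at h
  rw [map_mul, map_mul ru, map_pow, pow_eq_of_sq_zero hsq] at h
  have h' := congrFun (congrFun h i) k
  simp only [RingHom.mapMatrix_apply, Matrix.map_apply] at h'
  rw [mul_sub, mul_one, Matrix.sub_apply, map_sub, h', add_mul, one_mul, smul_mul_assoc,
    Matrix.add_apply, map_add, add_sub_cancel_left]

include hc hvp hpm hu in
/-- Inertia is trivial modulo an ideal in which a generator is. -/
theorem sub_one_mem_of_generator {I : Ideal R} {σ : Gal}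
    (hσ : σ ∈ (padicPlace v).inertiaSubgroupIn ℚ) {π : QBar} (hπ : π ≠ 0) {m : ℤ}
    (hord : Mazur.Eisenstein.ordAt (padicPlace v) v π = m / p)
    (hπσ : res (padicPlace v) (σ π / π) ≠ 1) (hπσp : res (padicPlace v) (σ π / π) ^ p = 1)
    (h1 : ∀ i k, (ru σ - 1) i k ∈ I) :
    ∀ τ ∈ (padicPlace v).inertiaSubgroupIn ℚ, ∀ i k, (ru τ - 1) i k ∈ I := by
  intro τ hτ i k
  rcases eq_or_ne I ⊤ with rfl | hI
  · exact Submodule.mem_top
  have : Nontrivial (R ⧸ I) := Ideal.Quotient.nontrivial_iff.mpr hI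
  have : IsLocalRing (R ⧸ I) := IsLocalRing.of_surjective' _ Ideal.Quotient.mk_surjective
  have : IsLocalHom (Ideal.Quotient.mk I) :=
    IsLocalHom.of_surjective _ Ideal.Quotient.mk_surjective
  have hmap : ∀ x ∈ maximalIdeal R, Ideal.Quotient.mk I x ∈ maximalIdeal (R ⧸ I) := fun x hx =>
    map_nonunit _ x hx
  -- work modulo `I`: the reduced representation kills `σ` and has unipotent inertia
  let f : M2 R →+* M2 (R ⧸ I) := (Ideal.Quotient.mk I).mapMatrix
  let ρ : Gal →* M2 (R ⧸ I) := f.toMonoidHom.comp ru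
  have hcρ : IsCont ρ := fun j => by
    obtain ⟨L, hL, h⟩ := hc j
    refine ⟨L, hL, fun g hg a b => ?_⟩
    have hle : (maximalIdeal R ^ j).map (Ideal.Quotient.mk I) ≤ maximalIdeal (R ⧸ I) ^ j := by
      rw [Ideal.map_pow]
      exact Ideal.pow_right_mono (Ideal.map_le_iff_le_comap.mpr hmap) j
    have h4 := hle (Ideal.mem_map_of_mem _ (h g hg a b))
    rcases eq_or_ne a b with rfl | hab <;> simpa [ρ, f, *] using h4
  suffices hρ : ρ τ = 1 by
    rw [← Ideal.Quotient.eq_zero_iff_mem, Matrix.sub_apply, map_sub, sub_eq_zero]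
    have := congrFun (congrFun hρ i) k
    rcases eq_or_ne i k with rfl | hik <;> simpa [ρ, f, *] using this
  have huρ : ∀ g ∈ (padicPlace v).inertiaSubgroupIn ℚ, (ρ g).trace = 2 ∧ (ρ g).det = 1 :=
    fun g hg => ⟨by
      show ((ru g).map (⇑(Ideal.Quotient.mk I))).trace = 2
      rw [Matrix.trace_fin_two, Matrix.map_apply, Matrix.map_apply, ← map_add,
        ← Matrix.trace_fin_two, (hu g hg).1, map_ofNat], by
      show ((ru g).map (⇑(Ideal.Quotient.mk I))).det = 1
      rw [← RingHom.mapMatrix_apply, ← RingHom.map_det, (hu g hg).2, map_one]⟩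
  have hσ1 : ρ σ = 1 := by
    refine sub_eq_zero.mp (Matrix.ext fun a b => ?_)
    have := Ideal.Quotient.eq_zero_iff_mem.mpr (h1 a b)
    rcases eq_or_ne a b with rfl | hab <;> simpa [ρ, f, *] using this
  -- at each level of the quotient the image of inertia is then trivial
  refine Matrix.ext fun a b => sub_eq_zero.mp ((inferInstance :
    IsHausdorff (maximalIdeal (R ⧸ I)) (R ⧸ I)).haus _ fun j => ?_)
  rw [SModEq.zero, smul_eq_mul, Ideal.mul_top, ← Ideal.Quotient.eq_zero_iff_mem, map_sub,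
    sub_eq_zero]
  have h5 := inertia_map_eq_one (levelHom ρ j) (levelHom_finite hcρ j) hp.out
    (CFT.Local.padicPlace_liesOverPrime v) Fact.out hvp
    (levelHom_exp (by simpa using hmap _ hpm) huρ j) hσ hπ hord hπσ hπσp
    (by
      show (Ideal.Quotient.mk (maximalIdeal (R ⧸ I) ^ j)).mapMatrix (ρ σ) = 1
      rw [hσ1, map_one]) τ hτ
  have h6 := congrFun (congrFun h5 a) b
  rcases eq_or_ne a b with rfl | hab <;> simpa [levelHom, *] using h6

end Adic

end Fermat.Agent.RT.Lifting
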