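import Fermat.Agent.RT.Lifting.AtP
import Fermat.Agent.RT.Lifting.Congr
import Fermat.Agent.RT.Lifting.FlatBaseChange
import Fermat.Agent.RT.Lifting.Conds
import Fermat.Agent.RT.Core.Residual
import Fermat.Agent.EC.Rep.Local.StrictOrdinary
import Fermat.Agent.EC.Rep.Local.Unipotent
import Fermat.Agent.GaloisReps.PadicHom
import Fermat.Agent.RT.LowerB.Normal

/-!
# The point of the curve

The Tate module over the coefficient ring, in normal form.
-/

set_option autoImplicit false

noncomputable section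

namespace Fermat.Agent.RT.Lifting

open IsLocalRing WeierstrassCurve Fermat.Agent.Deform Fermat.Agent.Arith Module

variable {W : WeierstrassCurve ℤ} {p : ℕ} [Fact p.Prime] (hΔ : W.Δ ≠ 0)

/-- The matrices of the Tate module reduce to those of the torsion. -/
theorem exists_residual_tateMat :
    ∃ b₀ : Basis (Fin 2) (ZMod p) (EC.Rep.residualRep W p hΔ).V, ∀ σ i j,
      PadicInt.toZMod (matOf (EC.Rep.tateRep W p hΔ) (Basis.finTwoProd ℤ_[p]) σ i j) =
        matRes (EC.Rep.residualRep W p hΔ) b₀ σ i j := by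
  obtain ⟨b₀, hP, hQ⟩ := (EC.Rep.exists_curve_tateBasis W p hΔ).choose_spec
  refine ⟨b₀, fun σ i j => ?_⟩
  set B := EC.Rep.tateBasis W p hΔ
  set e : Basis (Fin 2) ℤ_[p] (ℤ_[p] × ℤ_[p]) := Basis.finTwoProd ℤ_[p]
  let incl : (EC.Rep.residualRep W p hΔ).V →+ EC.Rep.PtQ W :=
    AddMonoidHom.mk' (fun v => Subtype.val v) fun _ _ => rfl
  have he : ∀ j, B.red 1 (e j) = incl (b₀ j) := by
    refine Fin.forall_fin_two.mpr ⟨?_, ?_⟩
    · have h := B.red_intCast 1 1 0
      simp only [one_zsmul, zero_zsmul, add_zero, Int.cast_one, Int.cast_zero] at h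
      rw [show e 0 = ((1 : ℤ_[p]), (0 : ℤ_[p])) by simp [e]]
      exact h.trans hP
    · have h := B.red_intCast 1 0 1
      simp only [one_zsmul, zero_zsmul, zero_add, Int.cast_one, Int.cast_zero] at h
      rw [show e 1 = ((0 : ℤ_[p]), (1 : ℤ_[p])) by simp [e]]
      exact h.trans hQ
  set v : ℤ_[p] × ℤ_[p] := B.act GQ σ (e j) with hv
  obtain ⟨a, b, ha, hb, hab⟩ := B.exists_red_eq 1 v
  have h1 : B.red 1 v = σ • incl (b₀ j) := by rw [hv, B.red_act, he]
  have hinj : Function.Injective incl := fun x y h => Subtype.val_injective h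
  have hval : (EC.Rep.residualRep W p hΔ).ρ σ (b₀ j) = (a : ZMod p) • b₀ 0
      + (b : ZMod p) • b₀ 1 := by
    refine hinj (Eq.trans (show incl ((EC.Rep.residualRep W p hΔ).ρ σ (b₀ j)) =
      σ • incl (b₀ j) from rfl) ?_)
    rw [← h1, hab, Int.cast_smul_eq_zsmul, Int.cast_smul_eq_zsmul, map_add, map_zsmul, map_zsmul]
    exact congrArg₂ (· + ·) (congrArg (a • ·) hP) (congrArg (b • ·) hQ)
  have hz : ∀ (x : ℤ_[p]) (c : ℤ), x - c ∈ Ideal.span {(p : ℤ_[p]) ^ 1} →
      PadicInt.toZMod x = (c : ZMod p) := fun x c hx => by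
    rw [pow_one, ← PadicInt.maximalIdeal_eq_span_p, ← PadicInt.ker_toZMod, RingHom.mem_ker,
      map_sub, sub_eq_zero, map_intCast] at hx
    exact hx
  rw [matRes_apply, hval, map_add, map_smul, map_smul, b₀.repr_self, b₀.repr_self]
  have hm : matOf (EC.Rep.tateRep W p hΔ) (Basis.finTwoProd ℤ_[p]) σ i j = e.repr v i := by
    rw [matOf_apply]; rfl
  rw [hm]
  fin_cases i
  · simp [e, hz v.1 a ha]
  · simp [e, hz v.2 b hb]

theorem isEquiv_baseChange_matOf {A B : Type} [CommRing A] [IsLocalRing A] [CommRing B]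
    [IsLocalRing B] (φ : A →+* B) (hφ : IsLocalHom φ) (T : GaloisRepAdic A)
    (e : Basis (Fin 2) A T.V) (h : IsCont (mapM φ (matOf T e))) :
    (T.baseChangeAlong φ hφ).IsEquiv (toRep (mapM φ (matOf T e)) h) := by
  have h1 := matOf_baseChangeAlong φ hφ T e
  let := φ.toAlgebra
  let e' : Basis (Fin 2) B (T.baseChangeAlong φ hφ).V := e.baseChange B
  have h2 : matOf (T.baseChangeAlong φ hφ) e' = mapM φ (matOf T e) := h1
  exact isEquiv_trans (isEquiv_toRep_matOf _ e') (isEquiv_toRep_congr h2 _ h)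

theorem trace_det_matOf {A : Type} [CommRing A] [IsLocalRing A] (T : GaloisRepAdic A)
    (e : Basis (Fin 2) A T.V) (σ : Gal) :
    (matOf T e σ).trace = T.trace σ ∧ (matOf T e σ).det = LinearMap.det (T.ρ σ) :=
  have h : matOf T e σ = LinearMap.toMatrix e e (T.ρ σ) := rfl
  ⟨by rw [h, GaloisRepAdic.trace, LinearMap.trace_eq_matrix_trace A e],
    by rw [h, LinearMap.det_toMatrix]⟩

variable {O : Type} [CommRing O] [IsDomain O] [IsDiscreteValuationRing O]
  [IsAdicComplete (maximalIdeal O) O] [Finite (ResidueField O)] [CharZero O]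
  [CharP (ResidueField O) p] [Algebra (ZMod p) (ResidueField O)]

omit [IsAdicComplete (maximalIdeal O) O] [Finite (ResidueField O)] [CharZero O] in
/-- `O` is a residually trivial algebra over itself. -/
theorem isResAlg_self : IsResAlg O O :=
  ⟨⟨fun a ha => by simpa using ha⟩, residue_surjective⟩

/-- The point of the curve over `O`, normalised, with its local properties. -/
structure WPoint (W : WeierstrassCurve ℤ) (p : ℕ) [Fact p.Prime] (Wd : Rigid O) where
  xw : Gal →* M2 O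
  cont : IsCont xw
  lifts : Lifts Wd isResAlg_self xw
  normal : IsNormal Wd xw
  det : (toRep xw cont).DetIsCyclotomic p
  frob : ∀ ℓ : ℕ, ℓ.Prime → W.IsGoodPrimeFor ℓ → ℓ ≠ p →
    ∀ A : ValuationSubring (AlgebraicClosure ℚ), A.LiesOverPrime ℓ → ∀ σ : Gal,
      A.IsFrobeniusAt σ ℓ → (xw σ).trace = (W.apOfModel ℓ : O) ∧ (xw σ).det = (ℓ : O)
  unip : ∀ (v : ℕ) [Fact v.Prime], v ≠ p → ∀ τ ∈ (padicPlace v).inertiaSubgroupIn ℚ,
    (xw τ).trace = 2 ∧ (xw τ).det = 1
  unram : ∀ (v : ℕ) [Fact v.Prime], v ≠ p → W.IsGoodPrimeFor v →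
    ∀ τ ∈ (padicPlace v).inertiaSubgroupIn ℚ, xw τ = 1
  flat : W.IsGoodPrimeFor p → (toRep xw cont).IsFlatAt p
  strict : ¬ W.IsGoodPrimeFor p → (toRep xw cont).IsStrictOrdinaryAt p

omit [CharZero O] [CharP (ResidueField O) p] in
/-- **The point exists**, for residual matrices in some basis. -/
theorem exists_wpoint (hW : W.IsSemistableModel) (hp2 : p ≠ 2) (hp : (p : O) ∈ maximalIdeal O) :
    ∃ b : Basis (Fin 2) (ResidueField O) (Core.rhoBar W p hΔ (ResidueField O)).V,
      ∀ Wd : Rigid O, Wd.rb = matRes (Core.rhoBar W p hΔ (ResidueField O)) b →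
        Nonempty (WPoint W p Wd) := by
  obtain ⟨ι⟩ := GaloisReps.exists_padicHom O hp
  have hι : IsLocalHom ι := ⟨fun x hx => by
    by_contra hn
    obtain ⟨c, rfl⟩ := Ideal.mem_span_singleton'.mp
      ((PadicInt.maximalIdeal_eq_span_p (p := p)).le ((mem_maximalIdeal x).mpr hn))
    rw [map_mul, map_natCast] at hx
    exact (mem_maximalIdeal _).mp (Ideal.mul_mem_left _ _ hp) hx⟩
  obtain ⟨b₀, hb₀⟩ := exists_residual_tateMat (p := p) hΔ
  refine ⟨b₀.baseChange (ResidueField O), fun Wd hWd => ?_⟩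
  let e := Basis.finTwoProd ℤ_[p]
  set T := EC.Rep.tateRep W p hΔ
  set r := mapM ι (matOf T e) with hr
  have hrc : IsCont r := (isCont_matOf T e).map ι hι
  have hres : ∀ x : ℤ_[p], residue O (ι x) =
      algebraMap (ZMod p) (ResidueField O) (PadicInt.toZMod x) := fun x => by
    obtain ⟨c, hc⟩ : ∃ c : ℤ, PadicInt.toZMod x = (c : ZMod p) :=
      ⟨((PadicInt.toZMod x).val : ℕ), ((Int.cast_natCast _).trans (ZMod.natCast_zmod_val _)).symm⟩
    have hx : x - (c : ℤ_[p]) ∈ maximalIdeal ℤ_[p] := by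
      rw [← PadicInt.ker_toZMod, RingHom.mem_ker, map_sub, hc, map_intCast, sub_self]
    have := (residue_eq_zero_iff (ι (x - c))).mpr (map_nonunit ι _ hx)
    rw [map_sub, map_sub, map_intCast, map_intCast, sub_eq_zero] at this
    rw [this, hc, map_intCast]
  have hl : Lifts Wd isResAlg_self r := fun σ i j => by
    rw [hWd, show matRes (Core.rhoBar W p hΔ (ResidueField O))
      (b₀.baseChange (ResidueField O)) σ i j =
      algebraMap (ZMod p) (ResidueField O) (matRes (EC.Rep.residualRep W p hΔ) b₀ σ i j) by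
      rw [matRes_apply, matRes_apply]
      show (b₀.baseChange (ResidueField O)).repr
        (((EC.Rep.residualRep W p hΔ).ρ σ).baseChange (ResidueField O)
          ((b₀.baseChange (ResidueField O)) j)) i = _
      rw [Basis.baseChange_apply, LinearMap.baseChange_tmul, Basis.baseChange_repr_tmul,
        Algebra.smul_def, mul_one], ← hb₀, ← hres]
    exact AlgHom.commutes (augment (isResAlg_self (O := O))) (r σ i j)
  obtain ⟨P, hP, hn⟩ := exists_normal hl
  have hxc := hrc.conj P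
  -- the equivalence with the base change
  have heq : (T.baseChangeAlong ι hι).IsEquiv (toRep (conjM P r) hxc) :=
    isEquiv_trans (isEquiv_baseChange_matOf ι hι T e hrc) (isEquiv_conj hrc P)
  have htr : ∀ σ, (conjM P r σ).trace = ι (T.trace σ) ∧
      (conjM P r σ).det = ι (LinearMap.det (T.ρ σ)) := fun σ => by
    obtain ⟨h1, h2⟩ := trace_det_matOf T e σ
    refine ⟨?_, ?_⟩
    · rw [conjM_apply, Matrix.trace_mul_cycle, Units.mul_inv, one_mul, ← h1, hr]
      simp [Matrix.trace_fin_two]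
    · rw [conjM_apply, Matrix.det_mul, Matrix.det_mul, mul_right_comm, ← Matrix.det_mul,
        Units.inv_mul, Matrix.det_one, one_mul, ← h2]
      exact (RingHom.map_det ι _).symm
  refine ⟨⟨conjM P r, hxc, hP, hn, ?_, fun ℓ hℓ hgood hne A hA σ hσ => ?_, fun v _ hvp τ hτ => ?_,
    fun v _ hvp hgood τ hτ => ?_, fun hgood => ?_, fun hbad => ?_⟩⟩
  · exact detIsCyclotomic_congr heq (CFT.Tangent.DetIsCyclotomic.baseChange ι hι
      (EC.Rep.detIsCyclotomic_tateRep hΔ))
  · obtain ⟨h1, h2⟩ := EC.Rep.tateRep_trace_det_frobenius hΔ hℓ hgood hne hA hσ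
    rw [(htr σ).1, (htr σ).2, h1, h2, map_intCast, map_natCast]
    exact ⟨rfl, rfl⟩
  · have hv : v.Prime := Fact.out
    have h := CFT.Tangent.IsUnipotentOnInertiaAt.baseChange ι hι
      (EC.Rep.isUnipotentOnInertiaAt_tateRep (p := p) hΔ hv hvp fun h => hW v hv h.2 h.1)
      (padicPlace v) (CFT.Local.padicPlace_liesOverPrime v) τ hτ
    rw [← charpoly_eq_of_isEquiv heq τ,
      show LinearMap.charpoly ((toRep (conjM P r) hxc).ρ τ) = (conjM P r τ).charpoly from
        Matrix.charpoly_toLin' _, Matrix.charpoly_fin_two] at h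
    have h' : Polynomial.X ^ 2 - Polynomial.C (conjM P r τ).trace * Polynomial.X +
        Polynomial.C (conjM P r τ).det = (Polynomial.X - 1) ^ 2 := h
    have h0 := congrArg (Polynomial.eval 0) h'
    have h1 := congrArg (Polynomial.eval 1) h'
    simp at h0 h1
    exact ⟨by linear_combination -h1 + h0, h0⟩
  · have h := isUnramifiedAt_congr heq (CFT.Tangent.IsUnramifiedAt.baseChange ι hι
      (EC.Rep.isUnramifiedAt_tateRep hΔ Fact.out hgood hvp))
      (padicPlace v) (CFT.Local.padicPlace_liesOverPrime v) τ hτ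
    exact Matrix.toLinAlgEquiv'.injective (h.trans (map_one _).symm)
  · exact LowerB.isFlatAt_congr heq (isFlatAt_baseChange ι hι (EC.Rep.isFlatAt_tateRep hΔ hgood))
  · have hdvd : (p : ℤ) ∣ W.Δ := not_not.mp hbad
    exact isStrictOrdinaryAt_congr heq (CFT.Tangent.IsStrictOrdinaryAt.baseChange ι hι
      (EC.Rep.isStrictOrdinaryAt_tateRep hΔ hp2 hdvd fun h => hW p Fact.out hdvd h))

namespace WPoint

variable {Wd : Rigid O} (x : WPoint W p Wd)

omit [Finite (ResidueField O)] [CharZero O] [CharP (ResidueField O) p]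
  [Algebra (ZMod p) (ResidueField O)] in
omit [IsAdicComplete (maximalIdeal O) O] in
theorem residue_xw (σ : Gal) (i j : Fin 2) : residue O (x.xw σ i j) = Wd.rb σ i j := by
  rw [← x.lifts σ i j]
  exact (AlgHom.commutes (augment (isResAlg_self (O := O))) _).symm

omit [Finite (ResidueField O)] [CharZero O] [CharP (ResidueField O) p]
  [Algebra (ZMod p) (ResidueField O)] in
omit [IsAdicComplete (maximalIdeal O) O] in
theorem rb_eq_one {v : ℕ} [Fact v.Prime]
    (h : ∀ τ ∈ (padicPlace v).inertiaSubgroupIn ℚ, x.xw τ = 1)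
    {τ : Gal} (hτ : τ ∈ (padicPlace v).inertiaSubgroupIn ℚ) : Wd.rb τ = 1 := by
  ext i j
  rw [← x.residue_xw, h τ hτ]
  rcases eq_or_ne i j with rfl | hij <;> simp [*]

omit [IsAdicComplete (maximalIdeal O) O] [Finite (ResidueField O)] [CharP (ResidueField O) p]
  [Algebra (ZMod p) (ResidueField O)] in
/-- A ramified place of unipotent inertia is special of one sign. -/
theorem exists_sign {v : ℕ} [Fact v.Prime] (hvp : v ≠ p) (hp : (p : O) ∈ maximalIdeal O)
    (hdet : ∀ F, (padicPlace v).IsFrobeniusAt F v → (x.xw F).det = v)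
    (hram : ∃ τ ∈ (padicPlace v).inertiaSubgroupIn ℚ, x.xw τ ≠ 1) :
    ∃ b : Bool, ∀ y ∈ altSet x.xw v (some b), y = 0 := by
  obtain ⟨a, ha⟩ := exists_alt_map_eq_zero x.cont hvp hp (x.unip v hvp) hdet (RingHom.id O)
  cases a with
  | some b => exact ⟨b, ha⟩
  | none =>
    obtain ⟨τ, hτ, hne⟩ := hram
    exact absurd (sub_eq_zero.mp (Matrix.ext fun i j => ha _ ⟨τ, hτ, i, j, rfl⟩)) hne

omit [IsAdicComplete (maximalIdeal O) O] [Finite (ResidueField O)] [CharP (ResidueField O) p]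
  [Algebra (ZMod p) (ResidueField O)] in
/-- The sign at a bad `p`. -/
theorem exists_localSign (h2 : IsUnit (2 : O)) (hbad : ¬ W.IsGoodPrimeFor p) {τ₀ F : Gal}
    (hτ₀ : τ₀ ∈ (padicPlace p).inertiaSubgroupIn ℚ) (hu : IsUnit ((x.xw τ₀).det - 1))
    (hF : (padicPlace p).IsFrobeniusAt F p) :
    ∃ ε : Gal → ℤ, LocalSign ε F p ∧ StrictEq x.xw τ₀ (fun σ => (ε σ : O)) p := by
  classical
  obtain ⟨z, hz, hzI, heq⟩ := exists_strictEq_of_isStrictOrdinaryAt x.cont x.det (x.strict hbad) hτ₀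
  -- on the decomposition group `z` is a sign
  let ε : Gal → ℤ := fun σ => if z σ = 1 then 1 else -1
  have hεz : ∀ σ ∈ (padicPlace p).decompositionSubgroup ℚ, (ε σ : O) = z σ := fun σ hσ => by
    rcases mul_self_eq_one_iff.mp (hz σ hσ) with h | h
    · simp [ε, h]
    · have h1 : (-1 : O) ≠ 1 := fun h' => two_ne_zero (α := O) (by linear_combination -h')
      simp [ε, h, h1]
  have hεsq : ∀ σ, ε σ * ε σ = 1 := fun σ => by simp only [ε]; split_ifs <;> norm_num
  have hdecF : F ∈ (padicPlace p).decompositionSubgroup ℚ :=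
    mem_decomposition_iff.mpr (isFrobeniusAt_iff_forall_mem.mp hF).1
  have heq' : StrictEq x.xw τ₀ (fun σ => (ε σ : O)) p := fun σ hσ => by
    show (x.xw τ₀ - (x.xw τ₀).det • 1) * (x.xw σ - (ε σ : O) • 1) = 0
    rw [hεz σ hσ]; exact heq σ hσ
  refine ⟨ε, ⟨fun σ _ => hεsq σ, fun τ hτ => by simp [ε, hzI τ hτ], ?_⟩, heq'⟩
  -- continuity: compare `σ` with `F ^ i * τ`
  obtain ⟨L, hL, hL'⟩ := x.cont 1
  refine ⟨L, hL, fun σ hσ i τ hτ hagree => ?_⟩
  set Q := x.xw τ₀ - (x.xw τ₀).det • 1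
  set g := F ^ i * τ
  have hpow : ∀ k, Q * (x.xw (F ^ k) - ((ε F : O) ^ k) • 1) = 0 := by
    intro k
    induction k with
    | zero => simp
    | succ k ih => rw [pow_succ, pow_succ]; exact line_mul ih (heq' F hdecF)
  -- at `F ^ i * τ` the sign is the `i`-th power of that at `F`
  have hg : Q * (x.xw g - (((ε F ^ i : ℤ)) : O) • 1) = 0 := by
    have := line_mul (hpow i) (a' := 1) (by
      simpa [hzI τ hτ] using heq τ (mem_decomposition_of_mem_inertia hτ))
    rwa [mul_one, ← Int.cast_pow] at this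
  have hsame : ∀ a b, (x.xw σ - x.xw g) a b ∈ maximalIdeal O := fun a b => by
    have hfix : ∀ y ∈ L, (g⁻¹ * σ) y = y := fun y hy => by
      rw [AlgEquiv.mul_apply, hagree y hy, ← AlgEquiv.mul_apply, inv_mul_cancel, AlgEquiv.one_apply]
    have e : x.xw σ - x.xw g = x.xw g * (x.xw (g⁻¹ * σ) - 1) := by
      rw [mul_sub, ← map_mul, mul_inv_cancel_left, mul_one]
    rw [e, Matrix.mul_apply]
    exact Ideal.sum_mem _ fun k _ => Ideal.mul_mem_left _ _ (by simpa using hL' _ hfix k b)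
  -- signs congruent modulo `𝔪` are equal, `2` being a unit
  have key : (ε σ : O) = (((ε F ^ i : ℤ)) : O) := by
    refine sign_unique h2 hu (by rw [← Int.cast_mul, hεsq, Int.cast_one]) ?_ (heq' σ hσ) fun a b =>
      ?_
    · rw [← Int.cast_mul, ← mul_pow, hεsq, one_pow, Int.cast_one]
    · rw [show Q * (x.xw σ - (((ε F ^ i : ℤ)) : O) • 1) = Q * (x.xw σ - x.xw g) +
        Q * (x.xw g - (((ε F ^ i : ℤ)) : O) • 1) by rw [← mul_add,
          sub_add_sub_cancel], hg, add_zero,
        Matrix.mul_apply]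
      exact Ideal.sum_mem _ fun k _ => Ideal.mul_mem_left _ _ (hsame k b)
  exact_mod_cast key

end WPoint

end Fermat.Agent.RT.Lifting
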